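import Fermat.Agent.S35.H86TorIface2
import Fermat.Agent.S37.Inertia
import Fermat.Agent.S24.DiffPlace

/-!
# S35, block TOR: `TorFinalStatement` (TOR-FINAL), helper4

`h4t_torFinal : IfaceTor → IfaceTorApprox → TorGate` (the exact frozen `Prop`
`TorFinalStatement` of `S35/H86TorIface2.lean`), with exponent `t = 1`:
for `z = c · H ^ m · w` one has `Θ(z) = Θ(c) · Θ(H) ^ m · Θ(w)` (`Θ(x) = σ² x / x ^ (q²)`),
`Θ(c)` is a constant, hence an `m`-th power in `ℚ̄`, and `Θ(w)` is an `m`-th power by `IfaceTor`.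
-/

set_option autoImplicit false
set_option linter.style.haveILetI false
set_option linter.unusedSectionVars false

open AlgebraicCurve ModularCurve IsLocalRing

noncomputable section

namespace Fermat.Agent.S35

open Fermat.Agent.S37 Fermat.Agent.S37.GalI Fermat.Agent.Red Fermat.Agent.LGC

section Theta

variable (N q : ℕ) (σ : GQ)

/-- `Θ(x) = σ² x / x ^ (q²)`. -/
def h4t_theta (x : FF N) : FF N := (gal N σ • (gal N σ • x)) / x ^ (q ^ 2)

theorem h4t_gal_mul (a b : FF N) : gal N σ • (a * b) = (gal N σ • a) * (gal N σ • b) := by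
  rw [SemilinearAut.smul_def, SemilinearAut.smul_def, SemilinearAut.smul_def]
  exact map_mul (SemilinearAut.toRingAut (gal N σ)) a b

theorem h4t_gal_pow (a : FF N) (n : ℕ) : gal N σ • (a ^ n) = (gal N σ • a) ^ n := by
  rw [SemilinearAut.smul_def, SemilinearAut.smul_def]
  exact map_pow (SemilinearAut.toRingAut (gal N σ)) a n

theorem h4t_theta_mul (a b : FF N) :
    h4t_theta N q σ (a * b) = h4t_theta N q σ a * h4t_theta N q σ b := by
  unfold h4t_theta
  rw [h4t_gal_mul, h4t_gal_mul, mul_pow, mul_div_mul_comm]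

theorem h4t_theta_pow (a : FF N) (n : ℕ) :
    h4t_theta N q σ (a ^ n) = h4t_theta N q σ a ^ n := by
  unfold h4t_theta
  rw [h4t_gal_pow, h4t_gal_pow, div_pow, ← pow_mul, ← pow_mul, mul_comm n]

theorem h4t_theta_cst (c : Kbar) :
    h4t_theta N q σ (cst N c) = cst N (σ (σ c) / c ^ (q ^ 2)) := by
  unfold h4t_theta
  rw [gal_smul_cst, gal_smul_cst, cst, cst, cst, map_div₀, map_pow]

end Theta

/-- **TOR-FINAL.** -/
theorem h4t_torFinal : TorFinalStatement := by
  intro hTor hApp q hq M _ hqM haux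
  haveI : NeZero q := ⟨hq.ne_zero⟩
  intro A hA σ hσ
  refine ⟨1, one_pos, fun m hm z hz hdiv hTF => ?_⟩
  have hm0 : 0 < m := Nat.pos_of_ne_zero (fun h => hm (h ▸ dvd_zero q))
  obtain ⟨c, H, w, hc, hH, hzw, hU⟩ := hApp q hq M hqM haux A hA m hm0 z hz hTF
  have hcst : cst (M * q) c ≠ 0 := by
    simpa only [cst, ne_eq, map_eq_zero] using hc
  have hHm : H ^ m ≠ 0 := pow_ne_zero _ hH
  have hw0 : w ≠ 0 := by
    rintro rfl
    rw [mul_zero] at hzw
    exact hz hzw
  -- the divisor of `w` is divisible by `m`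
  have hdivw : ∀ v : Place Kbar (FF (M * q)), (m : ℤ) ∣ v.ord w := by
    intro v
    have h1 := hdiv v
    rw [hzw, v.ord_mul (mul_ne_zero hcst hHm) hw0, v.ord_mul hcst hHm,
      Fermat.Agent.S24.DiffPlace.ord_algebraMap, zero_add] at h1
    have h2 : v.ord (H ^ m) = m * v.ord H := by
      have := v.ord_zpow H (m : ℤ)
      rwa [zpow_natCast] at this
    rw [h2] at h1
    exact (Int.dvd_add_right (Dvd.intro _ rfl)).mp h1
  obtain ⟨f, hf⟩ := hTor q hq M hqM haux A hA σ hσ m hm w hdivw hU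
  -- the constant
  obtain ⟨d, hd⟩ := IsAlgClosed.exists_pow_nat_eq (σ (σ c) / c ^ (q ^ 2)) hm0
  refine ⟨cst (M * q) d * h4t_theta (M * q) q σ H * f, ?_⟩
  rw [pow_one, mul_pow, mul_pow, hf]
  have e1 : (gal (M * q) σ • gal (M * q) σ • z) / z ^ (q ^ 2) = h4t_theta (M * q) q σ z := rfl
  have e2 : (gal (M * q) σ • gal (M * q) σ • w) / w ^ (q ^ 2) = h4t_theta (M * q) q σ w := rfl
  rw [e1, e2, hzw, h4t_theta_mul, h4t_theta_mul, h4t_theta_pow, h4t_theta_cst, ← hd, cst, cst,
    map_pow]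

end Fermat.Agent.S35
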