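import Fermat.Agent.S35.H86TorU
import Fermat.Agent.LGC.SS85Comp
import Fermat.Agent.LGC.Skeleton

/-!
# S35, block TOR: frozen interfaces (sub-architect helper86)

Setting as in W3-LGC: `A` a valuation subring of `ℚ̄` over `ℓ`, `M` a good level (`ℓ ∤ M`,
`auxLevel ℓ ∣ M`), `F = FF (M * ℓ)`, `W∞ = h85cWinf`, `W₀ = h85cW0` the two Gauss valuation rings,
`ssV = W∞ ∩ W₀`, `σ` a Frobenius at `ℓ`.

## Target

`IfaceTor` : for `w ≡ 1` modulo `π · ssV` whose divisor is divisible by `m` (prime to `ℓ`), the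
function `Θ(w) = σ²(w) / w ^ (ℓ²)` is an `m`-th power.  (Function form of "`σ² = ℓ²` on the toric
part `ker r_∞ ∩ ker r_0` of `J₀(Mℓ)[m]`".)

## Route (NO moving lemma)

Apply the landed abstract gate (`LGC/Integrate63.lean`, `h63_gateAsmOfLocal`) to `Θ(w)`.  The local
datum of the gate for `Θ(w)`:

* at the closed points with a local parameter `t`, `t⁻¹ ∈ ssV` (`TorSmoothAt`): the good reduction
  argument, already inside `h63_local_all_ss` (`LGC/GateSSAbs.lean`);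
* at a node `𝔫` (`TorNodeAt`: `x y = a c`, `x` a unit of `W∞`, `y` a unit of `W₀`):
  `TorNodeStatement` (abstract).  With `G_i = x - φ_i(x)` (`h75p_lp_node`), `val_i w = exp(- r n_i)`,
  `G₀ = ∏ G_i ^ n_i`, `u = w / G₀ ^ r` one has `G_i ∈ x (1 + 𝔪 W∞)`, `G_i ∈ (-φ_i x)(1 + 𝔪 W₀)`,
  and `h86t_unit_other` gives `∑ n_i = 0`, `γ = ∏ (-φ_i x) ^ n_i ∈ A^×`; so
  `g = Θ(G₀) ∈ (1 + 𝔪 W∞) ∩ (1 + 𝔪 W₀)` and `Θ(w) / g ^ r = Θ(u)` is a unit at `𝔫`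
  (`h26_local_unit`), because `σ²` respects the places centered at `𝔫` (`IfaceTorPerm`);
* at the closed points of the chart at infinity outside the cusps: transfer from the finite chart;
* at the cusps: `IfaceTorCusp`.

Every declaration is a definition; nothing is assumed.
-/

set_option autoImplicit false
set_option linter.unusedSectionVars false

open AlgebraicCurve ModularCurve WithZero IsLocalRing

noncomputable section

namespace Fermat.Agent.S35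

open Fermat.Agent.S37 Fermat.Agent.Red Fermat.Agent.Red.GG Fermat.Agent.Red.GV
  Fermat.Agent.Red.ModelO Fermat.Agent.LGC

/-! ## The target -/

/-- **TOR** (function form): `σ² = ℓ²` on the classes which are trivial on both components of
the special fibre of `X₀(M ℓ)`. -/
def IfaceTor : Prop :=
  ∀ (ℓ : ℕ) (hℓ : ℓ.Prime) (M : ℕ) [NeZero M], ¬ ℓ ∣ M → auxLevel ℓ ∣ M →
    haveI : NeZero ℓ := ⟨hℓ.ne_zero⟩
    ∀ A : ValuationSubring Kbar, A.LiesOverPrime ℓ → ∀ σ : GQ, A.IsFrobeniusAt σ ℓ →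
    ∀ m : ℕ, ¬ ℓ ∣ m → ∀ w : FF (M * ℓ),
      (∀ v : Place Kbar (FF (M * ℓ)), (m : ℤ) ∣ v.ord w) →
      (∃ π ∈ maximalIdeal A, π ≠ 0 ∧ w ∈ h26U π (ssV A M ℓ)) →
      ∃ f : FF (M * ℓ), f ^ m = (gal (M * ℓ) σ • (gal (M * ℓ) σ • w)) / w ^ (ℓ ^ 2)

/-! ## The abstract node theorem -/

section Abstract

universe u v w

/-- **TOR-NODE (abstract).**  `B` a chart, `V ⊇ W∞ ∩ W₀`, `𝔫` a closed point of the special
fibre lying on both components, with a node datum `x y = a c`, `x` a unit of `W∞`, `y` a unit of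
`W₀`, and sections at all places centered at `𝔫`.  `θ` a ring automorphism of `F` (the square of
a Frobenius lift) which is the `q`-power map on the residue field of `A`, preserves `W∞` and `W₀`
and respects the places centered at `𝔫`.  Then for `w ∈ (1 + 𝔪 W∞) ∩ (1 + 𝔪 W₀)` with orders
divisible by `r`, the function `θ w / w ^ q` has the local datum of the gate at `𝔫`, for some
nonzero modulus `π₀ ∈ 𝔪_A`. -/
def TorNodeStatement : Prop :=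
  ∀ {A : Type u} [CommRing A] [IsDomain A] [ValuationRing A]
    {F : Type v} [Field F] [Algebra A F]
    {B : Subalgebra A F} {V : Subring F} {ι : Type w} {val : ι → Valuation F ℤᵐ⁰},
    H26Chart B V val →
    Function.Injective (algebraMap A F) →
    ∀ (Winf W0 : Subring F),
    (∀ x : F, x ∈ Winf → x ∈ W0 → x ∈ V) →
    (∀ b ∈ B, b ∈ Winf) → (∀ b ∈ B, b ∈ W0) →
    (∀ x : F, x ∈ Winf ∨ x⁻¹ ∈ Winf) → (∀ x : F, x ∈ W0 ∨ x⁻¹ ∈ W0) →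
    (∀ m ∈ maximalIdeal A, ∀ x ∈ Winf, algebraMap A F m * x ≠ 1) →
    (∀ m ∈ maximalIdeal A, ∀ x ∈ W0, algebraMap A F m * x ≠ 1) →
    ∀ (𝔫 : Ideal B), 𝔫.IsMaximal → (maximalIdeal A).map (algebraMap A B) ≤ 𝔫 →
    -- `𝔫` lies on both components
    (∀ b : B, ((b : F))⁻¹ ∉ Winf → b ∈ 𝔫) → (∀ b : B, ((b : F))⁻¹ ∉ W0 → b ∈ 𝔫) →
    -- the node datum with its branches
    ∀ x ∈ 𝔫, ∀ y ∈ 𝔫, ∀ c : B, c ∉ 𝔫 → ∀ a : A, a ≠ 0 →
      x * y = algebraMap A B a * c →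
      (∀ z ∈ 𝔫, ∃ s, s ∉ 𝔫 ∧
        s * z ∈ Ideal.span {x, y} ⊔ (maximalIdeal A).map (algebraMap A B)) →
      ((x : F))⁻¹ ∈ Winf → ((y : F))⁻¹ ∈ W0 →
    -- sections at the places centered at `𝔫`
    (∀ i, h26Centered B val 𝔫 i →
      ∃ φ : B →ₐ[A] A, (∀ b : B, φ b = 0 ↔ val i (b : F) < 1) ∧
        (RingHom.ker (φ : B →+* A)).FG) →
    -- the Frobenius
    ∀ (θ : F ≃+* F) (q : ℕ), 0 < q →
      (∀ a : A, ∃ a' : A, θ (algebraMap A F a) = algebraMap A F a' ∧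
        a' - a ^ q ∈ maximalIdeal A) →
      (∀ x ∈ Winf, θ x ∈ Winf) → (∀ x ∈ W0, θ x ∈ W0) →
      (∀ z : F, (∀ k, h26Centered B val 𝔫 k → val k z = 1) →
        ∀ k, h26Centered B val 𝔫 k → val k (θ z) = 1) →
    ∀ (w : F) (r : ℕ), 0 < r →
      w ∈ h86t_U1 A Winf → w ∈ h86t_U1 A W0 →
      (∀ i, ∃ n : ℤ, val i w = exp (-((r : ℤ) * n))) →
      ∃ π₀ ∈ maximalIdeal A, π₀ ≠ 0 ∧ ∃ g ∈ h26U π₀ V, ∃ s : B, s ∉ 𝔫 ∧
        (s : F) * (θ w / w ^ q * (g ^ r)⁻¹) ∈ B ∧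
        (s : F) * (g ^ r * (θ w / w ^ q)⁻¹) ∈ B

end Abstract

/-! ## The modular leaves -/

section Level

variable (A : ValuationSubring Kbar) (M ℓ : ℕ) [NeZero M] [NeZero ℓ]
  (hℓ : ℓ.Prime) (hM : ¬ ℓ ∣ M) (hA : A.LiesOverPrime ℓ)

/-- the refined smooth datum at a closed point `𝔫` of the special fibre of the chart `t`: a
local parameter modulo `𝔪_A` which is a unit of `ssV` (it vanishes on no component). -/
def TorSmoothAt (t : FF (M * ℓ)) (𝔫 : Ideal (chart (M * ℓ) A t)) : Prop :=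
  ∃ t' ∈ 𝔫, (t' : FF (M * ℓ)) ≠ 0 ∧ ((t' : FF (M * ℓ)))⁻¹ ∈ ssV A M ℓ ∧
    ∀ z ∈ 𝔫, ∃ s, s ∉ 𝔫 ∧ s * z ∈ Ideal.span {t'} ⊔ mExt A M ℓ t

/-- `𝔫` lies on both components of the special fibre: the elements of the chart outside `𝔫` are
units of `W∞` and of `W₀`. -/
def TorOnBoth (t : FF (M * ℓ)) (𝔫 : Ideal (chart (M * ℓ) A t)) : Prop :=
  (∀ b : chart (M * ℓ) A t, ((b : FF (M * ℓ)))⁻¹ ∉ h85cWinf A M ℓ hℓ hA → b ∈ 𝔫) ∧
  (∀ b : chart (M * ℓ) A t, ((b : FF (M * ℓ)))⁻¹ ∉ h85cW0 A M ℓ hℓ hM hA → b ∈ 𝔫)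

/-- the refined node datum at `𝔫`: `𝔫` lies on both components, `x y = a c`,
`𝔫 = (x, y) + 𝔪_A B` locally, `x` is a unit of `W∞` and `y` is a unit of `W₀`. -/
def TorNodeAt (t : FF (M * ℓ)) (𝔫 : Ideal (chart (M * ℓ) A t)) : Prop :=
  TorOnBoth A M ℓ hℓ hM hA t 𝔫 ∧
  ∃ x ∈ 𝔫, ∃ y ∈ 𝔫, ∃ c, c ∉ 𝔫 ∧ ∃ a : A, a ≠ 0 ∧
    x * y = algebraMap A (chart (M * ℓ) A t) a * c ∧
    (∀ z ∈ 𝔫, ∃ s, s ∉ 𝔫 ∧ s * z ∈ Ideal.span {x, y} ⊔ mExt A M ℓ t) ∧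
    ((x : FF (M * ℓ)))⁻¹ ∈ h85cWinf A M ℓ hℓ hA ∧
    ((y : FF (M * ℓ)))⁻¹ ∈ h85cW0 A M ℓ hℓ hM hA

/-- **TOR-LOCAL** (refinement of SS-LOCAL for the finite chart): every closed point of the special
fibre of the finite chart has a refined smooth datum or a refined node datum. -/
def IfaceTorLocal : Prop :=
  ∀ 𝔫 : Ideal (chart (M * ℓ) A (jSS M ℓ)), 𝔫.IsMaximal → mExt A M ℓ (jSS M ℓ) ≤ 𝔫 →
    TorSmoothAt A M ℓ (jSS M ℓ) 𝔫 ∨ TorNodeAt A M ℓ hℓ hM hA (jSS M ℓ) 𝔫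

/-- **TOR-CUSP**: the cusps of the special fibre (the closed points of the chart at infinity
containing `1 / j`) have a refined smooth datum. -/
def IfaceTorCusp : Prop :=
  ∀ 𝔫 : Ideal (chart (M * ℓ) A (jSS M ℓ)⁻¹), 𝔫.IsMaximal → mExt A M ℓ (jSS M ℓ)⁻¹ ≤ 𝔫 →
    (⟨(jSS M ℓ)⁻¹, h85_self_mem_modelAt (M * ℓ) A (jSS M ℓ)⁻¹⟩ :
      chart (M * ℓ) A (jSS M ℓ)⁻¹) ∈ 𝔫 →
    TorSmoothAt A M ℓ (jSS M ℓ)⁻¹ 𝔫

/-- **TOR-PERM** (the nodes are `𝔽_{ℓ²}`-rational): the square of a Frobenius at `ℓ` respects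
the places centered at a closed point of the finite chart lying on both components. -/
def IfaceTorPerm : Prop :=
  ∀ σ : GQ, A.IsFrobeniusAt σ ℓ →
    ∀ 𝔫 : Ideal (chart (M * ℓ) A (jSS M ℓ)), 𝔫.IsMaximal → mExt A M ℓ (jSS M ℓ) ≤ 𝔫 →
      TorOnBoth A M ℓ hℓ hM hA (jSS M ℓ) 𝔫 →
      ∀ z : FF (M * ℓ),
        (∀ k, h26Centered (chart (M * ℓ) A (jSS M ℓ)) (chartVal (M * ℓ) (jSS M ℓ)) 𝔫 k →
          chartVal (M * ℓ) (jSS M ℓ) k z = 1) →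
        ∀ k, h26Centered (chart (M * ℓ) A (jSS M ℓ)) (chartVal (M * ℓ) (jSS M ℓ)) 𝔫 k →
          chartVal (M * ℓ) (jSS M ℓ) k (gal (M * ℓ) σ • (gal (M * ℓ) σ • z)) = 1

end Level

/-- **the modular inputs of TOR at the good levels.** -/
def IfaceTorPieces : Prop :=
  ∀ (ℓ : ℕ) (hℓ : ℓ.Prime) (M : ℕ) [NeZero M] (hM : ¬ ℓ ∣ M), auxLevel ℓ ∣ M →
    haveI : NeZero ℓ := ⟨hℓ.ne_zero⟩
    ∀ (A : ValuationSubring Kbar) (hA : A.LiesOverPrime ℓ),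
      IfaceTorLocal A M ℓ hℓ hM hA ∧ IfaceTorCusp A M ℓ ∧ IfaceTorPerm A M ℓ hℓ hM hA

/-- **TOR-ASM**: the assembly of the block. -/
def TorAssemblyStatement : Prop :=
  TorNodeStatement.{0, 0, 0} → IfaceTorPieces → IfaceTor

end Fermat.Agent.S35
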