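import Fermat.Agent.S35.H13TorNode
import Fermat.Agent.S35.H86TorIface

/-!
# S35, block TOR (helper13): `TorNodeStatement` (row TOR-NODE-ABS)

Adapter from `h13x_node_frob` (`S35/H13TorNode.lean`) to the frozen Prop `TorNodeStatement` of
`S35/H86TorIface.lean`: the Gauss ring `V` is replaced by `W∞ ⊓ W₀`.
-/

set_option autoImplicit false
set_option linter.unusedSectionVars false

open WithZero IsLocalRing

namespace Fermat.Agent.S35

open Fermat.Agent.Red Fermat.Agent.LGC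

section

variable {A : Type*} [CommRing A] [IsDomain A] [ValuationRing A]
  {F : Type*} [Field F] [Algebra A F]

/-- in a valuation ring `W` in which the nonunits of `A` stay nonunits, `1 + 𝔪_A W ⊆ W^×`. -/
theorem h13x_inv_of_vr (W : Subring F)
    (hvr : ∀ x : F, x ∈ W ∨ x⁻¹ ∈ W)
    (hnt : ∀ m ∈ maximalIdeal A, ∀ x ∈ W, algebraMap A F m * x ≠ 1) :
    ∀ m ∈ maximalIdeal A, ∀ x ∈ W, (1 + algebraMap A F m * x)⁻¹ ∈ W := by
  intro m hm x hx
  obtain ⟨p, hp⟩ : ∃ p : F, p = algebraMap A F m * x := ⟨_, rfl⟩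
  rw [← hp]
  by_cases hz : 1 + p = 0
  · rw [hz, inv_zero]; exact W.zero_mem
  by_cases hp0 : p = 0
  · rw [hp0, add_zero, inv_one]; exact W.one_mem
  rcases hvr (p * (1 + p)⁻¹) with h | h
  · have e : (1 + p)⁻¹ = 1 - p * (1 + p)⁻¹ := by
      field_simp
      ring
    rw [e]
    exact W.sub_mem W.one_mem h
  · exfalso
    have e : p⁻¹ = (p * (1 + p)⁻¹)⁻¹ - 1 := by
      field_simp
      ring
    have hpinv : p⁻¹ ∈ W := by
      rw [e]; exact W.sub_mem h W.one_mem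
    apply hnt m hm (x * p⁻¹) (W.mul_mem hx hpinv)
    rw [← mul_assoc, ← hp]
    exact mul_inv_cancel₀ hp0

end

universe u v w

/-- **TOR-NODE (abstract)**: the frozen statement of `S35/H86TorIface.lean`. -/
theorem h13x_torNodeStatement : TorNodeStatement.{u, v, w} := by
  intro A _ _ _ F _ _ B V ι val hC hAF Winf W0 hWV hBinf hB0 hvrinf hvr0 hntinf hnt0 𝔫 h𝔫
    h𝔪𝔫 hcinf hc0 x hx y hy c hc a ha hxy hprin hxinf hy0 hsec θ q hq hθA hθinf hθ0 hperm
    w r hr hwinf hw0 hrw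
  have h𝔫p : 𝔫.IsPrime := h𝔫.isPrime
  have hAinf : ∀ a : A, algebraMap A F a ∈ Winf := fun a => hBinf _ (B.algebraMap_mem a)
  have hA0 : ∀ a : A, algebraMap A F a ∈ W0 := fun a => hB0 _ (B.algebraMap_mem a)
  have hinvinf := h13x_inv_of_vr Winf hvrinf hntinf
  have hinv0 := h13x_inv_of_vr W0 hvr0 hnt0
  -- the chart with `V' = W∞ ⊓ W₀`
  set V' : Subring F := Winf ⊓ W0 with hV'
  have hV'V : ∀ z ∈ V', z ∈ V := fun z hz => hWV z hz.1 hz.2
  have hC' : H26Chart B V' val :=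
    { hfin := hC.hfin
      hint := hC.hint
      hB := hC.hB
      hunif := hC.hunif
      hinj := hC.hinj
      hBV := fun z hz => ⟨hBinf z hz, hB0 z hz⟩
      hVunit := fun m hm z hz => ⟨hinvinf m hm z hz.1, hinv0 m hm z hz.2⟩
      hQEP := fun a ha z hz haz => hC.hQEP a ha z (hV'V z hz) haz }
  -- `a ∈ 𝔪_A`
  have ham : a ∈ maximalIdeal A := by
    rw [mem_maximalIdeal, mem_nonunits_iff]
    intro hau
    have h1 : algebraMap A B a * c ∈ 𝔫 := by
      rw [← hxy]; exact 𝔫.mul_mem_right _ hx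
    rcases h𝔫p.mem_or_mem h1 with h2 | h2
    · exact h𝔫p.ne_top (Ideal.eq_top_of_isUnit_mem _ h2 (hau.map (algebraMap A B)))
    · exact hc h2
  obtain ⟨π₀, hπ₀, hπ₀0, hwU⟩ :=
    h86t_U1_inter (V := V') hAF hAinf hA0 (fun z h1 h2 => ⟨h1, h2⟩) a ham ha hwinf hw0
  have hw0' : w ≠ 0 := h86t_U1_ne_zero hntinf hwinf
  have hθA' : ∀ a : A, ∃ d ∈ maximalIdeal A, θ (algebraMap A F a) = algebraMap A F (a ^ q + d) := by
    intro a
    obtain ⟨a', ha', hd⟩ := hθA a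
    refine ⟨a' - a ^ q, hd, ?_⟩
    rw [ha']
    congr 1
    ring
  obtain ⟨π, hπ, hπ0, -, g, hg, s, hs, h1, h2⟩ :=
    h13x_node_frob hC' hAF Winf W0 (fun z hz => hz.1) (fun z hz => hz.2)
      (fun z h1 h2 => ⟨h1, h2⟩) hinvinf hinv0 hntinf hnt0 𝔫 h𝔪𝔫
      (fun b hb => by by_contra hcon; exact hb (hcinf b hcon))
      (fun b hb => by by_contra hcon; exact hb (hc0 b hcon))
      x y c hx hy hc a ha hxy hxinf hy0 hprin hsec θ q hq hθinf hθ0 hθA' hperm
      w hw0' r hr hrw π₀ hπ₀ hπ₀0 hwU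
  obtain ⟨g', hg', hgg'⟩ := hg
  refine ⟨π, hπ, hπ0, g, ⟨g', hV'V g' hg', hgg'⟩, s, hs, ?_, ?_⟩
  · rw [div_eq_mul_inv]; exact h1
  · rw [div_eq_mul_inv]; exact h2

end Fermat.Agent.S35
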