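import Fermat.Agent.S35.H86TorIface
import Fermat.Agent.LGC.Cusp21Final

/-!
# S35, block TOR, row TOR-CUSP (helper21): the cusps have a refined smooth datum

Level `N = M ℓ`, `B = chart (M ℓ) A (1/j)`, `Λ = chart M A (1/j)`, `𝔫` a maximal ideal of `B`
over `𝔪_A` which contains `1/j` (a cusp of the special fibre).

* `h21u_smooth_local` : the abstract local smoothness transfer of `LGC/Cusp21Abs.lean`, exposing
  the local parameter `t₁` of the lower level: EVERY `t' = σ · φ (t₁) ∈ B`, `σ ∉ 𝔫`, is a local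
  parameter at `𝔫`;
* `h21u_evalF_inv_mem_gaussV` : `s(1/j)`, `s(0) = 1`, is a unit of the Gauss ring of level `M`;
* `h21u_cusp_unit` : at a cusp there is a local parameter which is a unit of `ssV`
  (`α (t₁)` at the cusps on `C_∞`, `S ^ E · β (t₁)` at the cusps on `C_0`);
* `h21u_ifaceTorCusp` : **`IfaceTorCusp A M ℓ`** (frozen Prop of `S35/H86TorIface.lean`).
-/

set_option autoImplicit false
set_option linter.style.haveILetI false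
set_option linter.unusedSectionVars false
set_option synthInstance.maxHeartbeats 400000

open AlgebraicCurve ModularCurve WithZero IsLocalRing Polynomial

noncomputable section

namespace Fermat.Agent.S35

open Fermat.Agent.S37 Fermat.Agent.Red Fermat.Agent.Red.GG Fermat.Agent.Red.GV
  Fermat.Agent.Red.GV.Soft Fermat.Agent.Red.Kron Fermat.Agent.Red.ModelO Fermat.Agent.LGC
  Fermat.Agent.S28

/-! ### The abstract transfer, exposing the parameter -/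

section SmoothLocal

variable {A : Type*} [CommRing A] [IsLocalRing A] {F : Type*} [Field F] [Algebra A F]
  (B : Subalgebra A F) (𝔫 : Ideal B)
  {Λ : Type*} [CommRing Λ] [Algebra A Λ] (φ : Λ →ₐ[A] F)

/-- **Local smoothness transfer, with the parameter exposed.**  There is a local parameter
`t₁` of `Λ` (with the property `P` provided by `hLP`) such that every `t' = σ · φ t₁` in `B`,
`σ ∉ 𝔫`, lies in `𝔫` and `𝔫 = (t') + 𝔪_A B` locally at `𝔫`. -/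
theorem h21u_smooth_local [h𝔫 : 𝔫.IsPrime]
    (hm : (maximalIdeal A).map (algebraMap A B) ≤ 𝔫)
    (hres : ∀ b : B, ∃ a : A, b - algebraMap A B a ∈ 𝔫)
    (hloc : ∀ x : Λ, ∃ s : B, s ∉ 𝔫 ∧ (s : F) * φ x ∈ B)
    (hsurj : ∀ z ∈ 𝔫, ∃ x : Λ, ∃ s : B, s ∉ 𝔫 ∧ ∃ b : B, (b : F) = (s : F) * φ x ∧
      s * z - b ∈ (maximalIdeal A).map (algebraMap A B))
    (P : Λ → Prop)
    (hLP : ∀ 𝔰 : Ideal Λ, 𝔰.IsMaximal → (maximalIdeal A).map (algebraMap A Λ) ≤ 𝔰 →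
      ∃ t₁ ∈ 𝔰, P t₁ ∧ ∀ y ∈ 𝔰, ∃ s, s ∉ 𝔰 ∧
        s * y ∈ Ideal.span {t₁} ⊔ (maximalIdeal A).map (algebraMap A Λ)) :
    ∃ t₁ : Λ, P t₁ ∧ ∀ σ t' : B, σ ∉ 𝔫 → (t' : F) = (σ : F) * φ t₁ →
      t' ∈ 𝔫 ∧ ∀ z ∈ 𝔫, ∃ s, s ∉ 𝔫 ∧
        s * z ∈ Ideal.span {t'} ⊔ (maximalIdeal A).map (algebraMap A B) := by
  obtain ⟨t₁, ht₁, hP, hgen⟩ := hLP (h21c_contr B 𝔫 φ hloc)
    (h21c_contr_isMaximal B 𝔫 φ hm hres hloc) (h21c_mExt_le_contr B 𝔫 φ hm hloc)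
  refine ⟨t₁, hP, fun s₁ t' hs₁ e₁ => ?_⟩
  obtain ⟨s₁', hs₁', b₁, hb₁, eb₁⟩ := ht₁
  have ht' : t' ∈ 𝔫 := by
    have h1 : s₁' * t' = s₁ * b₁ := by
      apply Subtype.ext
      rw [Subalgebra.coe_mul, Subalgebra.coe_mul, e₁, eb₁]
      ring
    have h2 : s₁' * t' ∈ 𝔫 := by
      rw [h1]
      exact 𝔫.mul_mem_left _ hb₁
    exact (h𝔫.mem_or_mem h2).resolve_left hs₁'
  refine ⟨ht', fun z hz => ?_⟩
  obtain ⟨x, s, hs, b, e, hsz⟩ := hsurj z hz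
  have hb : b ∈ 𝔫 := by
    have h1 : b = s * z - (s * z - b) := by ring
    rw [h1]
    exact 𝔫.sub_mem (𝔫.mul_mem_left _ hz) (hm hsz)
  have hx : x ∈ h21c_contr B 𝔫 φ hloc := ⟨s, hs, b, hb, e⟩
  obtain ⟨s₀, hs₀, hs₀x⟩ := hgen x hx
  obtain ⟨q, hq, m, hmm, hsum⟩ := Submodule.mem_sup.mp hs₀x
  obtain ⟨c, rfl⟩ := Ideal.mem_span_singleton'.mp hq
  obtain ⟨σ₀, hσ₀, hb₀⟩ := hloc s₀
  have hb₀n : (⟨_, hb₀⟩ : B) ∉ 𝔫 :=
    h21c_not_mem_of_not_mem_contr B 𝔫 φ hloc hs₀ hσ₀ rfl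
  obtain ⟨σc, hσc, hbc⟩ := hloc c
  obtain ⟨σm, hσm, bm, hbm, em⟩ := h21c_map_mem B 𝔫 φ hloc (maximalIdeal A) hmm
  set μ : B := σc * σm * s₁ * ⟨_, hb₀⟩ with hμ
  have hμn : μ ∉ 𝔫 := by
    intro h
    rcases h𝔫.mem_or_mem h with h | h
    · rcases h𝔫.mem_or_mem h with h | h
      · rcases h𝔫.mem_or_mem h with h | h
        · exact hσc h
        · exact hσm h
      · exact hs₁ h
    · exact hb₀n h
  have key : μ * b = (⟨_, hbc⟩ * σ₀ * σm * s) * t' + (σ₀ * σc * s₁ * s) * bm := by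
    apply Subtype.ext
    have h2 : φ s₀ * φ x = φ c * φ t₁ + φ m := by
      rw [← map_mul, ← map_mul, ← map_add, hsum]
    rw [hμ]
    push_cast
    rw [e, e₁, em]
    linear_combination ((σc : F) * (σm : F) * (s₁ : F) * (σ₀ : F) * (s : F)) * h2
  refine ⟨μ * s, fun h => (h𝔫.mem_or_mem h).elim hμn hs, ?_⟩
  have h3 : μ * s * z = (⟨_, hbc⟩ * σ₀ * σm * s) * t'
      + ((σ₀ * σc * s₁ * s) * bm + μ * (s * z - b)) := by
    have h4 : μ * s * z = μ * b + μ * (s * z - b) := by ring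
    rw [h4, key]
    ring
  rw [h3]
  exact Ideal.add_mem _ (Ideal.mem_sup_left (Ideal.mem_span_singleton'.mpr ⟨_, rfl⟩))
    (Ideal.mem_sup_right (Ideal.add_mem _ (Ideal.mul_mem_left _ _ hbm)
      (Ideal.mul_mem_left _ _ hsz)))

end SmoothLocal

section Level

variable (A : ValuationSubring Kbar) (M ℓ : ℕ) [NeZero M] [NeZero ℓ]

/-! ### Units of the semistable Gauss ring -/

theorem h21u_alpha_mem_ssV (hℓ : ℓ.Prime) (hM : ¬ ℓ ∣ M) (hA : A.LiesOverPrime ℓ)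
    (x : FF M) (hx : x ∈ softV A M) : heckeAlphaBar Kbar M ℓ x ∈ ssV A M ℓ := by
  rw [h63r_mem_ssV_iff hℓ hM hA, kFricke_alpha]
  exact ⟨(alpha_mem_softV_iff A ℓ x).mpr hx, beta_mem_softV A ℓ x hx⟩

theorem h21u_beta_mem_ssV (hℓ : ℓ.Prime) (hM : ¬ ℓ ∣ M) (hA : A.LiesOverPrime ℓ)
    (x : FF M) (hx : x ∈ softV A M) : heckeBetaBar Kbar M ℓ x ∈ ssV A M ℓ := by
  rw [h63r_mem_ssV_iff hℓ hM hA, kFricke_beta]
  exact ⟨beta_mem_softV A ℓ x hx, (alpha_mem_softV_iff A ℓ x).mpr hx⟩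

/-- `s(1/j)` with `s(0) = 1` is a unit of the Gauss ring of level `M`. -/
theorem h21u_evalF_inv_mem_gaussV (hℓ : ℓ.Prime) (hM : ¬ ℓ ∣ M) (hA : A.LiesOverPrime ℓ)
    (s : Polynomial A) (hs : s.coeff 0 = 1) :
    (evalF M A (jB M)⁻¹ s)⁻¹ ∈ gaussV A M := by
  have hV : modelAt M A (jB M)⁻¹ ≤ gaussV A M := modelInf_le_gaussV A M hℓ hM hA
  have hred : gaussR A M ⟨(jB M)⁻¹, hV (ModelO.h85_self_mem_modelAt M A (jB M)⁻¹)⟩ =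
      (jK (IsLocalRing.ResidueField A))⁻¹ := h67_gaussR_jB_inv M A _
  have h1 : gaussR A M (h67evalV M A (jB M)⁻¹ hV s) =
      evalC (gaussR A M ⟨(jB M)⁻¹, hV (ModelO.h85_self_mem_modelAt M A (jB M)⁻¹)⟩)
        (Polynomial.mapRingHom (IsLocalRing.residue A) s) := by
    have h0 := h67_gaussR_comp_evalV M A (jB M)⁻¹ hV
    have h2 := congrArg (fun f => f s) h0
    simpa only [RingHom.comp_apply] using h2
  rw [hred] at h1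
  have hne : Polynomial.mapRingHom (IsLocalRing.residue A) s ≠ 0 := by
    intro h0
    have h3 := congrArg (fun p => Polynomial.coeff p 0) h0
    simp only [Polynomial.coe_mapRingHom, Polynomial.coeff_map, hs, map_one,
      Polynomial.coeff_zero] at h3
    exact one_ne_zero h3
  have hne2 : evalC (jK (IsLocalRing.ResidueField A))⁻¹
      (Polynomial.mapRingHom (IsLocalRing.residue A) s) ≠ 0 := by
    intro h0
    exact hne (evalC_jK_inv_injective _ (h0.trans (map_zero _).symm))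
  rw [← h1] at hne2
  by_contra hcon
  exact hne2 ((gaussR_eq_zero_iff A M hℓ hM hA _).mpr (Or.inr hcon))

/-- `S = s(1/j)` at level `M ℓ` is `α (s(1/j))`. -/
theorem h21u_evalF_eq_alpha (s : Polynomial A) :
    evalF (M * ℓ) A (jB (M * ℓ))⁻¹ s =
      heckeAlphaBar Kbar M ℓ (evalF M A (jB M)⁻¹ s) := by
  have h1 := Fermat.Agent.Red.KR.comp_evalF (heckeAlphaBar Kbar M ℓ) A (jB M)⁻¹
  have h2 := congrArg (fun f => f s) h1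
  have h3 : heckeAlphaBar Kbar M ℓ (jB M)⁻¹ = (jB (M * ℓ))⁻¹ :=
    (h21c_t_eq_alpha M ℓ).symm
  rw [h3] at h2
  exact h2.symm

/-- the inverse of `S = s(1/j)`, `s(0) = 1`, lies in the semistable Gauss ring. -/
theorem h21u_evalF_inv_mem_ssV (hℓ : ℓ.Prime) (hM : ¬ ℓ ∣ M) (hA : A.LiesOverPrime ℓ)
    (s : Polynomial A) (hs : s.coeff 0 = 1) :
    (evalF (M * ℓ) A (jB (M * ℓ))⁻¹ s)⁻¹ ∈ ssV A M ℓ := by
  rw [h21u_evalF_eq_alpha, ← map_inv₀]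
  exact h21u_alpha_mem_ssV A M ℓ hℓ hM hA _
    (gaussV_le_softV A M (h21u_evalF_inv_mem_gaussV A M ℓ hℓ hM hA s hs))

/-! ### The cusp case -/

set_option maxHeartbeats 1600000 in
/-- **the cusps of the chart at infinity of level `M ℓ` have a local parameter which is a unit
of the semistable Gauss ring.** -/
theorem h21u_cusp_unit (hℓ : ℓ.Prime) (hM : ¬ ℓ ∣ M) (hA : A.LiesOverPrime ℓ)
    (hLU : IfaceLocalUnif M A (jB M)⁻¹)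
    (Ha : H21SurjInf A M ℓ hℓ hA) (Hb : H21SurjZero A M ℓ hℓ hM hA)
    (𝔫 : Ideal (chart (M * ℓ) A (jSS M ℓ)⁻¹)) (h𝔫 : 𝔫.IsMaximal)
    (hm : mExt A M ℓ (jSS M ℓ)⁻¹ ≤ 𝔫)
    (ht : (⟨(jSS M ℓ)⁻¹, h85_self_mem_modelAt (M * ℓ) A (jSS M ℓ)⁻¹⟩ :
      chart (M * ℓ) A (jSS M ℓ)⁻¹) ∈ 𝔫) :
    TorSmoothAt A M ℓ (jSS M ℓ)⁻¹ 𝔫 := by
  classical
  haveI h𝔫p : 𝔫.IsPrime := h𝔫.isPrime
  have hC : IfaceSSChart A M ℓ (jSS M ℓ)⁻¹ := h85s_ifaceSSChart_inf A M ℓ hℓ hM hA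
  obtain ⟨hy, hwy, htS, hwtS, hVinf, hV0⟩ := h21c_soft_facts A M ℓ hℓ hM hA
  -- elements of the chart are in both Gauss rings
  have hBsoft : ∀ b : chart (M * ℓ) A (jSS M ℓ)⁻¹, (b : FF (M * ℓ)) ∈ softV A (M * ℓ) ∧
      kFricke M ℓ hℓ hM (b : FF (M * ℓ)) ∈ softV A (M * ℓ) := fun b =>
    (h63r_mem_ssV_iff hℓ hM hA _).mp (hC.hBV _ b.2)
  have hres := h21c_hres A (M * ℓ) (jSS M ℓ)⁻¹ 𝔫 h𝔫 hm ht
  have hLP : ∀ 𝔰 : Ideal (chart M A (jB M)⁻¹), 𝔰.IsMaximal →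
      (maximalIdeal A).map (algebraMap A (chart M A (jB M)⁻¹)) ≤ 𝔰 →
      ∃ t₁ ∈ 𝔰, ((t₁ : FF M) ≠ 0 ∧ (t₁ : FF M)⁻¹ ∈ gaussV A M) ∧ ∀ y ∈ 𝔰, ∃ s, s ∉ 𝔰 ∧
        s * y ∈ Ideal.span {t₁} ⊔ (maximalIdeal A).map (algebraMap A (chart M A (jB M)⁻¹)) := by
    intro 𝔰 h𝔰 hle
    obtain ⟨t₁, ht₁, h0, hinv, hall⟩ := hLU 𝔰 h𝔰 hle
    exact ⟨t₁, ht₁, ⟨h0, hinv⟩, hall⟩
  -- the elements `t`, `y`
  set tB : chart (M * ℓ) A (jSS M ℓ)⁻¹ :=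
    ⟨(jSS M ℓ)⁻¹, h85_self_mem_modelAt (M * ℓ) A (jSS M ℓ)⁻¹⟩ with htB
  set yB : chart (M * ℓ) A (jSS M ℓ)⁻¹ := ⟨h21c_y M ℓ, h21c_y_mem_chart A M ℓ hℓ hM hA⟩
    with hyB
  have htBval : (tB : FF (M * ℓ)) = h21c_t M ℓ := h21c_jSS_inv_eq M ℓ
  by_cases hyn : yB ∈ 𝔫
  · -- a cusp on `C_0`: use `β`
    obtain ⟨s, hs0, hmult⟩ := h21c_exists_mult A M ℓ hℓ hM hA
    -- `S = s(t)`
    have hSmem : evalF (M * ℓ) A (jB (M * ℓ))⁻¹ s ∈ chart (M * ℓ) A (jSS M ℓ)⁻¹ :=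
      (h21c_mem_chart_iff A M ℓ _).mpr
        (Fermat.Agent.Red.Match.ringAdj_le_modelAt _ A _ (evalF_mem_ringAdj _ A _ s))
    have hS'mem : evalF (M * ℓ) A (jB (M * ℓ))⁻¹ s.divX ∈ chart (M * ℓ) A (jSS M ℓ)⁻¹ :=
      (h21c_mem_chart_iff A M ℓ _).mpr
        (Fermat.Agent.Red.Match.ringAdj_le_modelAt _ A _ (evalF_mem_ringAdj _ A _ s.divX))
    set S : chart (M * ℓ) A (jSS M ℓ)⁻¹ := ⟨_, hSmem⟩ with hS
    have hSn : S ∉ 𝔫 := by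
      intro h
      have e : S = ⟨_, hS'mem⟩ * tB + 1 := by
        apply Subtype.ext
        show evalF (M * ℓ) A (jB (M * ℓ))⁻¹ s =
          evalF (M * ℓ) A (jB (M * ℓ))⁻¹ s.divX * (jSS M ℓ)⁻¹ + 1
        rw [h21c_jSS_eq]
        exact h21c_evalF_sub_one A (M * ℓ) _ s hs0
      have h1 : (1 : chart (M * ℓ) A (jSS M ℓ)⁻¹) ∈ 𝔫 := by
        have h2 : (1 : chart (M * ℓ) A (jSS M ℓ)⁻¹) = S - ⟨_, hS'mem⟩ * tB := by
          rw [e]; ring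
        rw [h2]
        exact 𝔫.sub_mem h (𝔫.mul_mem_left _ ht)
      exact h𝔫.ne_top ((Ideal.eq_top_iff_one _).mpr h1)
    have hSEn : ∀ E : ℕ, S ^ E ∉ 𝔫 := fun E h => hSn (h𝔫p.mem_of_pow_mem E h)
    have hmult' : ∀ x : chart M A (jB M)⁻¹, ∃ E : ℕ,
        ((S ^ E : chart (M * ℓ) A (jSS M ℓ)⁻¹) : FF (M * ℓ)) *
          heckeBetaBar Kbar M ℓ (x : FF M) ∈ chart (M * ℓ) A (jSS M ℓ)⁻¹ := by
      intro x
      obtain ⟨E, hE⟩ := hmult x x.2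
      refine ⟨E, ?_⟩
      rw [Subalgebra.coe_pow]
      exact (h21c_mem_chart_iff A M ℓ _).mpr hE
    -- `e_∞ = 1 - y`
    have hen : (1 - yB) ∉ 𝔫 := by
      intro h
      have h1 : (1 : chart (M * ℓ) A (jSS M ℓ)⁻¹) ∈ 𝔫 := by
        have h2 : (1 : chart (M * ℓ) A (jSS M ℓ)⁻¹) = (1 - yB) + yB := by ring
        rw [h2]
        exact 𝔫.add_mem h hyn
      exact h𝔫.ne_top ((Ideal.eq_top_iff_one _).mpr h1)
    have key : ∃ t₁ : chart M A (jB M)⁻¹, ((t₁ : FF M) ≠ 0 ∧ (t₁ : FF M)⁻¹ ∈ gaussV A M) ∧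
        ∀ σ t' : chart (M * ℓ) A (jSS M ℓ)⁻¹, σ ∉ 𝔫 →
          (t' : FF (M * ℓ)) = (σ : FF (M * ℓ)) * h21c_phi A M ℓ (heckeBetaBar Kbar M ℓ) t₁ →
          t' ∈ 𝔫 ∧ ∀ z ∈ 𝔫, ∃ s, s ∉ 𝔫 ∧
            s * z ∈ Ideal.span {t'} ⊔ mExt A M ℓ (jSS M ℓ)⁻¹ := by
      refine h21u_smooth_local (chart (M * ℓ) A (jSS M ℓ)⁻¹) 𝔫
        (h21c_phi A M ℓ (heckeBetaBar Kbar M ℓ)) hm hres ?_ ?_
        (fun t₁ => (t₁ : FF M) ≠ 0 ∧ (t₁ : FF M)⁻¹ ∈ gaussV A M) hLP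
      · intro x
        obtain ⟨E, hE⟩ := hmult' x
        exact ⟨S ^ E, hSEn E, hE⟩
      · intro z hz
        obtain ⟨x, hx, hxz⟩ := Hb z z.2
        obtain ⟨E, hE⟩ := hmult' ⟨x, hx⟩
        refine ⟨⟨x, hx⟩, (1 - yB) * S ^ E, fun h => (h𝔫p.mem_or_mem h).elim hen (hSEn E),
          (1 - yB) * ⟨_, hE⟩, ?_, ?_⟩
        · rw [h21c_phi_apply]
          push_cast
          ring
        · -- `c = (1 - y) S^E (z - β x)`
          apply h21c_mem_mExt A M ℓ hℓ hM hA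
          · have e : (((1 - yB) * S ^ E * z - (1 - yB) * ⟨_, hE⟩ :
                chart (M * ℓ) A (jSS M ℓ)⁻¹) : FF (M * ℓ)) =
                (1 - h21c_y M ℓ) * ((S ^ E * z - ⟨_, hE⟩ :
                  chart (M * ℓ) A (jSS M ℓ)⁻¹) : FF (M * ℓ)) := by
              push_cast
              ring
            rw [e]
            exact GalI.mul_mem_nonunits_left _ hVinf (hBsoft _).1
          · have e1 : (((1 - yB) * S ^ E * z - (1 - yB) * ⟨_, hE⟩ :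
                chart (M * ℓ) A (jSS M ℓ)⁻¹) : FF (M * ℓ)) =
                (((1 - yB) * S ^ E : chart (M * ℓ) A (jSS M ℓ)⁻¹) : FF (M * ℓ)) *
                ((z : FF (M * ℓ)) - heckeBetaBar Kbar M ℓ x) := by
              push_cast
              ring
            rw [e1, map_mul, map_sub, kFricke_beta]
            exact GalI.mul_mem_nonunits_right _ (hBsoft _).2 hxz
    obtain ⟨t₁, ⟨ht₁0, ht₁inv⟩, H⟩ := key
    obtain ⟨E, hE⟩ := hmult' t₁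
    obtain ⟨ht', hgen⟩ := H (S ^ E) ⟨_, hE⟩ (hSEn E) rfl
    have hS0 : evalF (M * ℓ) A (jB (M * ℓ))⁻¹ s ≠ 0 := by
      intro h0
      apply hSn
      have : S = 0 := Subtype.ext h0
      rw [this]
      exact 𝔫.zero_mem
    have hβ0 : heckeBetaBar Kbar M ℓ (t₁ : FF M) ≠ 0 :=
      (map_ne_zero (heckeBetaBar Kbar M ℓ)).mpr ht₁0
    have hval : ((⟨_, hE⟩ : chart (M * ℓ) A (jSS M ℓ)⁻¹) : FF (M * ℓ)) =
        evalF (M * ℓ) A (jB (M * ℓ))⁻¹ s ^ E * heckeBetaBar Kbar M ℓ (t₁ : FF M) := by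
      show ((S ^ E : chart (M * ℓ) A (jSS M ℓ)⁻¹) : FF (M * ℓ)) * _ = _
      rw [Subalgebra.coe_pow]
    refine ⟨⟨_, hE⟩, ht', ?_, ?_, hgen⟩
    · rw [hval]
      exact mul_ne_zero (pow_ne_zero _ hS0) hβ0
    · have e2 : (heckeBetaBar Kbar M ℓ (t₁ : FF M))⁻¹ =
          heckeBetaBar Kbar M ℓ ((t₁ : FF M)⁻¹) := (map_inv₀ _ _).symm
      rw [hval, mul_inv, ← inv_pow, e2]
      exact mul_mem (pow_mem (h21u_evalF_inv_mem_ssV A M ℓ hℓ hM hA s hs0) E)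
        (h21u_beta_mem_ssV A M ℓ hℓ hM hA _ (gaussV_le_softV A M ht₁inv))
  · -- a cusp on `C_∞`: use `α`
    have hαmem : ∀ x : chart M A (jB M)⁻¹,
        heckeAlphaBar Kbar M ℓ (x : FF M) ∈ chart (M * ℓ) A (jSS M ℓ)⁻¹ := by
      intro x
      show _ ∈ modelAt (M * ℓ) A (jSS M ℓ)⁻¹
      rw [h85s_jSS_inv_eq_α]
      exact Fermat.Agent.Red.KR.map_mem_modelAt (heckeAlphaBar Kbar M ℓ) A x.2
    -- `e_0 = y^ℓ - t^(ℓ²-1)`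
    have he0 : (yB ^ ℓ - tB ^ (ℓ * ℓ - 1)) ∉ 𝔫 := by
      intro h
      have hk : 0 < ℓ * ℓ - 1 := by
        have := hℓ.two_le
        have h7 : 2 * 2 ≤ ℓ * ℓ := Nat.mul_le_mul this this
        omega
      have h1 : yB ^ ℓ ∈ 𝔫 := by
        have h2 : yB ^ ℓ = (yB ^ ℓ - tB ^ (ℓ * ℓ - 1)) + tB ^ (ℓ * ℓ - 1) := by ring
        rw [h2]
        exact 𝔫.add_mem h (𝔫.pow_mem_of_mem ht _ hk)
      exact hyn (h𝔫p.mem_of_pow_mem _ h1)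
    have he0val : ((yB ^ ℓ - tB ^ (ℓ * ℓ - 1) : chart (M * ℓ) A (jSS M ℓ)⁻¹) :
        FF (M * ℓ)) = h21c_y M ℓ ^ ℓ - h21c_t M ℓ ^ (ℓ * ℓ - 1) := by
      push_cast
      rw [htBval]
    have key : ∃ t₁ : chart M A (jB M)⁻¹, ((t₁ : FF M) ≠ 0 ∧ (t₁ : FF M)⁻¹ ∈ gaussV A M) ∧
        ∀ σ t' : chart (M * ℓ) A (jSS M ℓ)⁻¹, σ ∉ 𝔫 →
          (t' : FF (M * ℓ)) = (σ : FF (M * ℓ)) * h21c_phi A M ℓ (heckeAlphaBar Kbar M ℓ) t₁ →
          t' ∈ 𝔫 ∧ ∀ z ∈ 𝔫, ∃ s, s ∉ 𝔫 ∧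
            s * z ∈ Ideal.span {t'} ⊔ mExt A M ℓ (jSS M ℓ)⁻¹ := by
      refine h21u_smooth_local (chart (M * ℓ) A (jSS M ℓ)⁻¹) 𝔫
        (h21c_phi A M ℓ (heckeAlphaBar Kbar M ℓ)) hm hres ?_ ?_
        (fun t₁ => (t₁ : FF M) ≠ 0 ∧ (t₁ : FF M)⁻¹ ∈ gaussV A M) hLP
      · intro x
        refine ⟨1, (Ideal.ne_top_iff_one 𝔫).mp h𝔫.ne_top, ?_⟩
        rw [h21c_phi_apply]
        simpa using hαmem x
      · intro z hz
        obtain ⟨x, hx, hxz⟩ := Ha z z.2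
        refine ⟨⟨x, hx⟩, yB ^ ℓ - tB ^ (ℓ * ℓ - 1), he0,
          (yB ^ ℓ - tB ^ (ℓ * ℓ - 1)) * ⟨_, hαmem ⟨x, hx⟩⟩, ?_, ?_⟩
        · rw [h21c_phi_apply]
          push_cast
          ring
        · apply h21c_mem_mExt A M ℓ hℓ hM hA
          · have e : (((yB ^ ℓ - tB ^ (ℓ * ℓ - 1)) * z -
                (yB ^ ℓ - tB ^ (ℓ * ℓ - 1)) * ⟨_, hαmem ⟨x, hx⟩⟩ :
                chart (M * ℓ) A (jSS M ℓ)⁻¹) : FF (M * ℓ)) =
                ((yB ^ ℓ - tB ^ (ℓ * ℓ - 1) : chart (M * ℓ) A (jSS M ℓ)⁻¹) : FF (M * ℓ)) *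
                  ((z : FF (M * ℓ)) - heckeAlphaBar Kbar M ℓ x) := by
              push_cast
              ring
            rw [e]
            exact GalI.mul_mem_nonunits_right _ (hBsoft _).1 hxz
          · have e1 : (((yB ^ ℓ - tB ^ (ℓ * ℓ - 1)) * z -
                (yB ^ ℓ - tB ^ (ℓ * ℓ - 1)) * ⟨_, hαmem ⟨x, hx⟩⟩ :
                chart (M * ℓ) A (jSS M ℓ)⁻¹) : FF (M * ℓ)) =
                ((yB ^ ℓ - tB ^ (ℓ * ℓ - 1) : chart (M * ℓ) A (jSS M ℓ)⁻¹) : FF (M * ℓ)) *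
                  ((z - ⟨_, hαmem ⟨x, hx⟩⟩ : chart (M * ℓ) A (jSS M ℓ)⁻¹) : FF (M * ℓ)) := by
              push_cast
              ring
            rw [e1, map_mul, he0val]
            exact GalI.mul_mem_nonunits_left _ hV0 (hBsoft _).2
    obtain ⟨t₁, ⟨ht₁0, ht₁inv⟩, H⟩ := key
    obtain ⟨ht', hgen⟩ := H 1 ⟨_, hαmem t₁⟩
      ((Ideal.ne_top_iff_one 𝔫).mp h𝔫.ne_top)
      (by rw [h21c_phi_apply, Subalgebra.coe_one, one_mul])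
    have hα0 : heckeAlphaBar Kbar M ℓ (t₁ : FF M) ≠ 0 :=
      (map_ne_zero (heckeAlphaBar Kbar M ℓ)).mpr ht₁0
    have hαinv : (heckeAlphaBar Kbar M ℓ (t₁ : FF M))⁻¹ ∈ ssV A M ℓ := by
      have e2 : (heckeAlphaBar Kbar M ℓ (t₁ : FF M))⁻¹ =
          heckeAlphaBar Kbar M ℓ ((t₁ : FF M)⁻¹) := (map_inv₀ _ _).symm
      rw [e2]
      exact h21u_alpha_mem_ssV A M ℓ hℓ hM hA _ (gaussV_le_softV A M ht₁inv)
    exact ⟨⟨_, hαmem t₁⟩, ht', hα0, hαinv, hgen⟩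

/-- **TOR-CUSP** (frozen Prop `IfaceTorCusp` of `S35/H86TorIface.lean`), at the good levels. -/
theorem h21u_ifaceTorCusp (hℓ : ℓ.Prime) (hM : ¬ ℓ ∣ M) (haux : auxLevel ℓ ∣ M)
    (hA : A.LiesOverPrime ℓ) : IfaceTorCusp A M ℓ := by
  intro 𝔫 h𝔫 hm ht
  exact h21u_cusp_unit A M ℓ hℓ hM hA
    (h67_ifaceLocalUnif_inf M A Fermat.Agent.Red.SM.h13_ifaceSmooth hℓ hM haux hA)
    (h21c_surjInf A M ℓ hℓ hM haux hA) (h21c_surjZero A M ℓ hℓ hM haux hA) 𝔫 h𝔫 hm ht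

end Level

end Fermat.Agent.S35
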