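import Fermat.Agent.S35.Skeleton
import Fermat.Agent.S37.Gate
import Fermat.Agent.Red.KR.Basic
import Fermat.Agent.Red.Kron.FrickeGal

/-!
# S35, block GEOM: frozen function-level interfaces

Architect: helper37.  Every declaration is a definition or a frozen interface `Prop`.

Setting: `q` a prime, `M` a level with `q ∤ M`, `N = M * q`, `A` a valuation subring of `ℚ̄`
over `q`, `σ` a Frobenius at `q`, `α, β : FF M → FF (M * q)`, `w = kFricke M q` the Fricke
involution (`w α = β`), `W_∞` = the Gauss valuation ring of `q`-expansions of level `M * q`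
(`Red.GV.Soft.softV A (M * q)`), `W_0 = w (W_∞)`; they are the two components `Z_∞`, `Z_0` of
`X₀(M q)` modulo `q`, both identified with `Z = X₀(M)` modulo `q` (by `α`, resp. by `β`).

* `TorInf A N m u` : the reduction of `u` on `Z_∞` is trivial in
  `k(Z)ˣ / (kˣ · k(Z)ˣᵐ)`:  `c · u / hᵐ ≡ 1` modulo the maximal ideal of `W_∞`.
* `TorFun` : trivial on both components (`u` and `w u` are `TorInf`): the toric part.
* `NewGate` (G-NEW): if `m ∣ div u` and `Nm_α u`, `Nm_β u` are `m`-th powers, then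
  `σ² u / u` is `TorFun`.
* `TorGate` (G-TOR): if `m ∣ div z` and `z` is `TorFun`, then `(σ² z / z ^ (q²)) ^ t` is an
  `m`-th power.
* `FrobGate` (good levels), `FrobGateAll` (all levels): the function form of
  `FrobNewTorsion`.
-/

set_option autoImplicit false

open AlgebraicCurve ModularCurve

noncomputable section

namespace Fermat.Agent.S35

open Fermat.Agent.S37 (Kbar GQ FF cst gal CongOne auxLevel)
open Fermat.Agent.Red.KR (normAlong)
open Fermat.Agent.Red.Kron (kFricke)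

/-- the reduction of `u` on the component `Z_∞` is a constant times an `m`-th power. -/
def TorInf (A : ValuationSubring Kbar) (N m : ℕ) (u : FF N) : Prop :=
  ∃ (c : Kbar) (h : FF N), c ≠ 0 ∧ h ≠ 0 ∧ CongOne A (cst N c * u * (h ^ m)⁻¹)

/-- the reductions of `u` on both components `Z_∞`, `Z_0` are constants times `m`-th powers
("`u` is in the toric part"). -/
def TorFun (A : ValuationSubring Kbar) (M q : ℕ) [NeZero M] [NeZero q] (hq : q.Prime)
    (hqM : ¬ q ∣ M) (m : ℕ) (u : FF (M * q)) : Prop :=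
  TorInf A (M * q) m u ∧ TorInf A (M * q) m (kFricke M q hq hqM u)

/-- the quartic of `σ` on functions: `σ⁴ u · u ^ (q²) / (σ² u) ^ (q² + 1)`. -/
def fq (N q : ℕ) (σ : GQ) (u : FF N) : FF N :=
  (gal N σ • gal N σ • gal N σ • gal N σ • u) * u ^ (q ^ 2)
    / (gal N σ • gal N σ • u) ^ (q ^ 2 + 1)

/-- **G-NEW.**  At the good levels: for `u` with `m ∣ div u` whose norms along `α` and `β` are
`m`-th powers, `σ² u / u` is in the toric part. -/
def NewGate : Prop :=
  ∀ (q : ℕ) (hq : q.Prime) (M : ℕ) [NeZero M] (hqM : ¬ q ∣ M), auxLevel q ∣ M →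
    haveI : NeZero q := ⟨hq.ne_zero⟩
    ∀ A : ValuationSubring Kbar, A.LiesOverPrime q → ∀ σ : GQ, A.IsFrobeniusAt σ q →
    ∀ m : ℕ, ¬ q ∣ m → ∀ u : FF (M * q), u ≠ 0 →
      (∀ v : Place Kbar (FF (M * q)), (m : ℤ) ∣ v.ord u) →
      (∃ h : FF M, normAlong (heckeAlphaBar Kbar M q) u = h ^ m) →
      (∃ h : FF M, normAlong (heckeBetaBar Kbar M q) u = h ^ m) →
        TorFun A M q hq hqM m ((gal (M * q) σ • gal (M * q) σ • u) / u)

/-- **G-TOR.**  At the good levels: `σ² = q²` on the toric part, up to a bounded exponent `t`. -/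
def TorGate : Prop :=
  ∀ (q : ℕ) (hq : q.Prime) (M : ℕ) [NeZero M] (hqM : ¬ q ∣ M), auxLevel q ∣ M →
    haveI : NeZero q := ⟨hq.ne_zero⟩
    ∀ A : ValuationSubring Kbar, A.LiesOverPrime q → ∀ σ : GQ, A.IsFrobeniusAt σ q →
    ∃ t : ℕ, 0 < t ∧ ∀ m : ℕ, ¬ q ∣ m → ∀ z : FF (M * q), z ≠ 0 →
      (∀ v : Place Kbar (FF (M * q)), (m : ℤ) ∣ v.ord z) →
      TorFun A M q hq hqM m z →
        ∃ h : FF (M * q), h ^ m = ((gal (M * q) σ • gal (M * q) σ • z) / z ^ (q ^ 2)) ^ t

/-- **the Frobenius gate at the good levels** (from `NewGate` and `TorGate` with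
`z = σ² u / u`). -/
def FrobGate : Prop :=
  ∀ (q : ℕ) (hq : q.Prime) (M : ℕ) [NeZero M], ¬ q ∣ M → auxLevel q ∣ M →
    haveI : NeZero q := ⟨hq.ne_zero⟩
    ∀ A : ValuationSubring Kbar, A.LiesOverPrime q → ∀ σ : GQ, A.IsFrobeniusAt σ q →
    ∃ t : ℕ, 0 < t ∧ ∀ m : ℕ, ¬ q ∣ m → ∀ u : FF (M * q), u ≠ 0 →
      (∀ v : Place Kbar (FF (M * q)), (m : ℤ) ∣ v.ord u) →
      (∃ h : FF M, normAlong (heckeAlphaBar Kbar M q) u = h ^ m) →
      (∃ h : FF M, normAlong (heckeBetaBar Kbar M q) u = h ^ m) →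
        ∃ h : FF (M * q), h ^ m = fq (M * q) q σ u ^ t

/-- **the Frobenius gate at all levels** `M * q`, `q ∤ M`. -/
def FrobGateAll : Prop :=
  ∀ (q : ℕ) (hq : q.Prime) (M : ℕ) [NeZero M], ¬ q ∣ M →
    haveI : NeZero q := ⟨hq.ne_zero⟩
    ∀ A : ValuationSubring Kbar, A.LiesOverPrime q → ∀ σ : GQ, A.IsFrobeniusAt σ q →
    ∃ t : ℕ, 0 < t ∧ ∀ m : ℕ, ¬ q ∣ m → ∀ u : FF (M * q), u ≠ 0 →
      (∀ v : Place Kbar (FF (M * q)), (m : ℤ) ∣ v.ord u) →
      (∃ h : FF M, normAlong (heckeAlphaBar Kbar M q) u = h ^ m) →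
      (∃ h : FF M, normAlong (heckeBetaBar Kbar M q) u = h ^ m) →
        ∃ h : FF (M * q), h ^ m = fq (M * q) q σ u ^ t

/-- **G-ASM.** -/
def FrobGateAssembly : Prop := NewGate → TorGate → FrobGate

/-- **G-DESC.**  From the good levels to all levels (pull back to the level
`lcm M (auxLevel q) * q`, apply the gate, take the norm; the exponent is multiplied by the
degree). -/
def FrobGateDescent : Prop := FrobGate → FrobGateAll

/-- **G-TORS.**  From functions to divisor classes. -/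
def FrobTorsionOfGate : Prop :=
  FrobGateAll → ∀ (M q p : ℕ) [NeZero M] [NeZero q], FrobNewTorsion M q p

end Fermat.Agent.S35
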