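import Fermat.Agent.S35.H86TorIface
import Fermat.Agent.S35.GeomSkeleton

/-!
# S35, block TOR: frozen interfaces, part 2 (sub-architect helper86)

The bridge from `IfaceTor` (`H86TorIface.lean`: functions `w ≡ 1` modulo `π · ssV`) to the
frozen target `TorGate` of the block (`GeomSkeleton.lean`: functions in the toric part
`TorFun`).

* `IfaceTorApprox` (TOR-APPROX, two-valuation approximation): a function `z` in the toric part
  is `c · H ^ m · w` with `c` a nonzero constant, `H ≠ 0` and `w ≡ 1` modulo `π · ssV`.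
  Proof sketch: `z = c₁ h₁ ^ m u₁ = c₂ h₂ ^ m u₂` with `u₁ ∈ 1 + 𝔪 W∞`, `u₂ ∈ 1 + 𝔪 W₀`; scale
  `h₁` to a unit of `W∞` and `h₂` to a unit of `W₀` (`exists_cst_mul_unit_soft`); with the
  separating element `e` (`h44r_e`: `e ≡ 1` on `W∞`, `e ≡ 0` on `W₀`) and `N` large put
  `H₀ = e ^ N h₁ + (1 - e) ^ N h₂` and `E = e ^ N + (1 - e) ^ N d'`, `d' ^ m = c₂ / c₁`; then
  `H = H₀ E`, `c = c₁`.
* `TorFinalStatement` : `IfaceTor → IfaceTorApprox → TorGate` (exponent `t = 1`; the constant
  `σ² c / c ^ (q²)` is an `m`-th power because `ℚ̄` is algebraically closed).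

Every declaration is a definition; nothing is assumed.
-/

set_option autoImplicit false

open AlgebraicCurve ModularCurve IsLocalRing

noncomputable section

namespace Fermat.Agent.S35

open Fermat.Agent.S37 Fermat.Agent.Red Fermat.Agent.LGC

/-- **TOR-APPROX.**  A function in the toric part is a constant times an `m`-th power times a
function `≡ 1` modulo `π · ssV`. -/
def IfaceTorApprox : Prop :=
  ∀ (q : ℕ) (hq : q.Prime) (M : ℕ) [NeZero M] (hqM : ¬ q ∣ M), auxLevel q ∣ M →
    haveI : NeZero q := ⟨hq.ne_zero⟩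
    ∀ A : ValuationSubring Kbar, A.LiesOverPrime q →
    ∀ m : ℕ, 0 < m → ∀ z : FF (M * q), z ≠ 0 → TorFun A M q hq hqM m z →
      ∃ (c : Kbar) (H w : FF (M * q)), c ≠ 0 ∧ H ≠ 0 ∧ z = cst (M * q) c * H ^ m * w ∧
        ∃ π ∈ maximalIdeal A, π ≠ 0 ∧ w ∈ h26U π (ssV A M q)

/-- **TOR-FINAL.** -/
def TorFinalStatement : Prop :=
  IfaceTor → IfaceTorApprox → TorGate

/-- **the block TOR.** -/
def TorBlockStatement : Prop :=
  TorNodeStatement.{0, 0, 0} → IfaceTorPieces → IfaceTorApprox → TorGate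

end Fermat.Agent.S35
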