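import Fermat.Agent.S35.H4Approx
import Fermat.Agent.S35.H86TorIface2
import Fermat.Agent.LGC.SS85Comp

/-!
# S35, block TOR: `IfaceTorApprox` (TOR-APPROX), helper4

`h4a_ifaceTorApprox : IfaceTorApprox` (the exact frozen `Prop` of `S35/H86TorIface2.lean`),
from the two-valuation approximation `h4a_approx` (`S35/H4Approx.lean`) and the reducedness of the
special fibre in elementwise form (`h85c_scale`, `LGC/SS85Comp.lean`).
-/

set_option autoImplicit false
set_option linter.style.haveILetI false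
set_option linter.unusedSectionVars false
set_option synthInstance.maxHeartbeats 400000

open AlgebraicCurve ModularCurve IsLocalRing

noncomputable section

namespace Fermat.Agent.S35

open Fermat.Agent.S37 Fermat.Agent.Red Fermat.Agent.Red.GV Fermat.Agent.Red.GV.Soft
  Fermat.Agent.Red.Kron Fermat.Agent.LGC

/-- a function `≡ 1` for both Gauss valuations is `≡ 1` modulo `π · ssV`. -/
theorem h4a_mem_U_of_congOne (A : ValuationSubring Kbar) (M q : ℕ) [NeZero M] [NeZero q]
    (hq : q.Prime) (hqM : ¬ q ∣ M) (hA : A.LiesOverPrime q) (w : FF (M * q))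
    (h1 : CongOne A w) (h2 : CongOne A (kFricke M q hq hqM w)) :
    ∃ π ∈ maximalIdeal A, π ≠ 0 ∧ w ∈ h26U π (ssV A M q) := by
  obtain ⟨hm1, hr1⟩ := softR_sub_one_of_congOne A (M * q) w h1
  obtain ⟨hm2, hr2⟩ := softR_sub_one_of_congOne A (M * q) _ h2
  have hy : w - 1 ∈ (h85cWinf A M q hq hA).nonunits := by
    rw [h85c_mem_Winf_nonunits_iff]
    exact (softR_eq_zero_iff_mem_nonunits A (M * q) hq hA ⟨_, hm1⟩).mp hr1
  have hwy : w - 1 ∈ (h85cW0 A M q hq hqM hA).nonunits := by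
    rw [h85c_mem_W0_nonunits_iff]
    have e : kFricke M q hq hqM (w - 1) = kFricke M q hq hqM w - 1 := by
      rw [map_sub, map_one]
    rw [e]
    exact (softR_eq_zero_iff_mem_nonunits A (M * q) hq hA ⟨_, hm2⟩).mp hr2
  obtain ⟨π, hπ, hπ0, z, hz, hyz⟩ := h85c_scale A M q hq hqM hA (w - 1) hy hwy
  refine ⟨π, hπ, ?_, z, hz, ?_⟩
  · intro h
    apply hπ0
    rw [h, map_zero]
  · rw [← hyz]
    ring

/-- **TOR-APPROX**: the frozen interface `IfaceTorApprox`. -/
theorem h4a_ifaceTorApprox : IfaceTorApprox := by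
  intro q hq M _ hqM _
  haveI : NeZero q := ⟨hq.ne_zero⟩
  intro A hA m hm z _ hz
  obtain ⟨c, H, hc, hH, h1, h2⟩ := h4a_approx A M q hq hqM hA m hm.ne' z hz
  obtain ⟨π, hπ, hπ0, hU⟩ := h4a_mem_U_of_congOne A M q hq hqM hA _ h1 h2
  have hcst : cst (M * q) c ≠ 0 := by
    simpa only [cst, ne_eq, map_eq_zero] using hc
  have hHm : H ^ m ≠ 0 := pow_ne_zero _ hH
  refine ⟨c⁻¹, H, cst (M * q) c * z * (H ^ m)⁻¹, inv_ne_zero hc, hH, ?_, π, hπ, hπ0, hU⟩
  rw [cst, map_inv₀]
  field_simp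

end Fermat.Agent.S35
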