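import Fermat.Agent.S35.H62Node
import Fermat.Agent.S35.H86TorIface

/-!
# S35 / G-TOR: TOR-LOCAL for the finite chart (helper62)

`h62x_ifaceTorLocal : IfaceTorLocal A M ℓ hℓ hM hA` (frozen interface of `S35/H86TorIface.lean`)
at the good levels: every closed point of the special fibre of the finite chart of level `M ℓ`
has a refined smooth datum (a local parameter which is a unit of `ssV`) or a refined node datum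
(`x y = ℓ c`, `x` a unit of `W∞`, `y` a unit of `W₀`, the point lies on both components).
-/

set_option autoImplicit false
set_option linter.unusedSectionVars false
set_option linter.style.haveILetI false

open AlgebraicCurve ModularCurve WithZero IsLocalRing Polynomial

noncomputable section

namespace Fermat.Agent.S35

open Fermat.Agent.S37 Fermat.Agent.Red Fermat.Agent.Red.GG Fermat.Agent.Red.GV
  Fermat.Agent.Red.GV.Soft Fermat.Agent.Red.Kron Fermat.Agent.Red.KR Fermat.Agent.Red.ModelO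
  Fermat.Agent.LGC

variable (A : ValuationSubring Kbar) (M : ℕ) {ℓ : ℕ} [NeZero M] [NeZero ℓ]

/-- a local parameter at a closed point of the special fibre of the chart of level `M` does not
vanish identically on the special fibre. -/
theorem h62x_LP_not_mem (hℓ : ℓ.Prime) (hM : ¬ ℓ ∣ M) (haux : auxLevel ℓ ∣ M)
    (hA : A.LiesOverPrime ℓ) (𝔰 : Ideal (chart M A (jB M))) (h𝔰 : 𝔰.IsMaximal)
    (hm𝔰 : h62i_mΛ A M ≤ 𝔰) (u : chart M A (jB M)) (hu : h62l_LP (h62i_mΛ A M) 𝔰 u) :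
    u ∉ h62i_mΛ A M := by
  have hded := h13l_hded_fin M A hℓ hM haux hA
  have hnf := h13l_hnf_fin M A hℓ hM hA
  haveI h𝔪prime : (h62i_mΛ A M).IsPrime :=
    (Ideal.Quotient.isDomain_iff_prime (h62i_mΛ A M)).mp hded.toIsDomain
  haveI h𝔰p : 𝔰.IsPrime := h𝔰.isPrime
  have hne : ¬ 𝔰 ≤ h62i_mΛ A M := by
    intro hle'
    have h1 : h62i_mΛ A M = 𝔰 := le_antisymm hm𝔰 hle'
    apply hnf
    have h2 : (h62i_mΛ A M).IsMaximal := h1 ▸ h𝔰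
    exact (Ideal.Quotient.maximal_ideal_iff_isField_quotient (h62i_mΛ A M)).mp h2
  have husq := h62l_not_mem_sq_of_LP (h62i_mΛ A M) 𝔰 hm𝔰 hne hu
  exact fun h => husq (h62l_le_sq (h62i_mΛ A M) 𝔰 h)

theorem h62x_inv_mem_W0 (hℓ : ℓ.Prime) (hM : ¬ ℓ ∣ M) (hA : A.LiesOverPrime ℓ)
    (b : chart (M * ℓ) A (jSS M ℓ)) (hb : b ∉ h62i_P0 A M hℓ hM hA) :
    kFricke M ℓ hℓ hM ((b : FF (M * ℓ)))⁻¹ ∈ softV A (M * ℓ) := by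
  have h1 : h62i_w A M hℓ hM hA b ∉ h62i_Pinf A M hℓ hM hA := fun h =>
    hb ((h62i_mem_P0_iff_w A M hℓ hM hA _).mpr h)
  have h2 := h62i_inv_mem_soft A M hℓ hM hA _ h1
  rw [map_inv₀]
  exact h2

/-- an element of the chart outside both components is a unit of `ssV`. -/
theorem h62x_inv_mem_ssV (hℓ : ℓ.Prime) (hM : ¬ ℓ ∣ M) (hA : A.LiesOverPrime ℓ)
    (b : chart (M * ℓ) A (jSS M ℓ)) (hb : b ∉ h62i_Pinf A M hℓ hM hA)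
    (hb0 : b ∉ h62i_P0 A M hℓ hM hA) : ((b : FF (M * ℓ)))⁻¹ ∈ ssV A M ℓ :=
  h63r_mem_ssV_of_soft hℓ hM hA (h62i_inv_mem_soft A M hℓ hM hA b hb)
    (h62x_inv_mem_W0 A M hℓ hM hA b hb0)

theorem h62x_coe_ne_zero (hℓ : ℓ.Prime) (hM : ¬ ℓ ∣ M) (hA : A.LiesOverPrime ℓ)
    (b : chart (M * ℓ) A (jSS M ℓ)) (hb : b ∉ h62i_Pinf A M hℓ hM hA) :
    (b : FF (M * ℓ)) ≠ 0 := by
  intro h
  apply hb
  have e : b = 0 := Subtype.ext h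
  rw [e]
  exact Ideal.zero_mem _

/-- `α u` and `β u` are units of `ssV` for `u ∉ 𝔪_A Λ`. -/
theorem h62x_α_not_mem_Pinf (hℓ : ℓ.Prime) (hM : ¬ ℓ ∣ M) (hA : A.LiesOverPrime ℓ)
    (u : chart M A (jB M)) (hu : u ∉ h62i_mΛ A M) :
    h62i_α A M ℓ u ∉ h62i_Pinf A M hℓ hM hA := by
  have hKer := h62d_ker A M hℓ hM hA
  exact fun h => hu (hKer.1 u h)

theorem h62x_α_not_mem_P0 (hℓ : ℓ.Prime) (hM : ¬ ℓ ∣ M) (hA : A.LiesOverPrime ℓ)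
    (u : chart M A (jB M)) (hu : u ∉ h62i_mΛ A M) :
    h62i_α A M ℓ u ∉ h62i_P0 A M hℓ hM hA := by
  have hKer := h62d_ker A M hℓ hM hA
  intro h
  apply hu
  apply hKer.2 u
  have h1 := (h62i_mem_P0_iff_w A M hℓ hM hA _).mp h
  rw [h62i_w_α] at h1
  exact h1

theorem h62x_β_not_mem_Pinf (hℓ : ℓ.Prime) (hM : ¬ ℓ ∣ M) (hA : A.LiesOverPrime ℓ)
    (u : chart M A (jB M)) (hu : u ∉ h62i_mΛ A M) :
    h62i_β A M hℓ hM hA u ∉ h62i_Pinf A M hℓ hM hA := by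
  have hKer := h62d_ker A M hℓ hM hA
  exact fun h => hu (hKer.2 u h)

theorem h62x_β_not_mem_P0 (hℓ : ℓ.Prime) (hM : ¬ ℓ ∣ M) (hA : A.LiesOverPrime ℓ)
    (u : chart M A (jB M)) (hu : u ∉ h62i_mΛ A M) :
    h62i_β A M hℓ hM hA u ∉ h62i_P0 A M hℓ hM hA := by
  have hKer := h62d_ker A M hℓ hM hA
  intro h
  apply hu
  apply hKer.1 u
  have h1 := (h62i_mem_P0_iff_w A M hℓ hM hA _).mp h
  rw [h62i_w_β] at h1
  exact h1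

theorem h62x_surj0 (hℓ : ℓ.Prime) (hM : ¬ ℓ ∣ M) (haux : auxLevel ℓ ∣ M)
    (hA : A.LiesOverPrime ℓ) : ∀ b : chart (M * ℓ) A (jSS M ℓ), ∃ x : chart M A (jB M),
      b - h62i_β A M hℓ hM hA x ∈ h62i_P0 A M hℓ hM hA := by
  intro b
  obtain ⟨x, hx⟩ := h62d_surj A M hℓ hM haux hA (h62i_w A M hℓ hM hA b)
  refine ⟨x, ?_⟩
  rw [h62i_mem_P0_iff_w, map_sub, h62i_w_β]
  exact hx

theorem h62x_comap_le (φ : chart M A (jB M) →ₐ[A] chart (M * ℓ) A (jSS M ℓ))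
    (𝔫 : Ideal (chart (M * ℓ) A (jSS M ℓ))) (hm : mExt A M ℓ (jSS M ℓ) ≤ 𝔫) :
    h62i_mΛ A M ≤ 𝔫.comap (φ : chart M A (jB M) →+* chart (M * ℓ) A (jSS M ℓ)) :=
  fun _ hy => Ideal.mem_comap.mpr (hm (h62l_map_mem _ φ hy))

/-- refined smooth datum at the points of `C∞` only. -/
theorem h62x_torSmooth_inf (hℓ : ℓ.Prime) (hM : ¬ ℓ ∣ M) (haux : auxLevel ℓ ∣ M)
    (hA : A.LiesOverPrime ℓ)
    (𝔫 : Ideal (chart (M * ℓ) A (jSS M ℓ))) (h𝔫 : 𝔫.IsMaximal)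
    (hPinf : h62i_Pinf A M hℓ hM hA ≤ 𝔫) (hP0 : ¬ h62i_P0 A M hℓ hM hA ≤ 𝔫) :
    TorSmoothAt A M ℓ (jSS M ℓ) 𝔫 := by
  have hm : mExt A M ℓ (jSS M ℓ) ≤ 𝔫 := le_trans (h62i_m_le_Pinf A M hℓ hM hA) hPinf
  obtain ⟨u, -, hLP, -, h2⟩ := h62x_smooth_inf A M hℓ hM haux hA 𝔫 h𝔫 hPinf hP0
  have h𝔰max : (𝔫.comap ((h62i_α A M ℓ :
      chart M A (jB M) →ₐ[A] chart (M * ℓ) A (jSS M ℓ)) :
      chart M A (jB M) →+* chart (M * ℓ) A (jSS M ℓ))).IsMaximal :=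
    h62l_comap_isMaximal _ 𝔫 (h62i_Pinf A M hℓ hM hA) hPinf (h62d_surj A M hℓ hM haux hA)
  have hu := h62x_LP_not_mem A M hℓ hM haux hA _ h𝔰max (h62x_comap_le A M _ 𝔫 hm) u hLP
  have hb1 := h62x_α_not_mem_Pinf A M hℓ hM hA u hu
  have hb2 := h62x_α_not_mem_P0 A M hℓ hM hA u hu
  exact ⟨h62i_α A M ℓ u, Ideal.mem_comap.mp hLP.1, h62x_coe_ne_zero A M hℓ hM hA _ hb1,
    h62x_inv_mem_ssV A M hℓ hM hA _ hb1 hb2, h2⟩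

/-- refined smooth datum at the points of `C₀` only. -/
theorem h62x_torSmooth_zero (hℓ : ℓ.Prime) (hM : ¬ ℓ ∣ M) (haux : auxLevel ℓ ∣ M)
    (hA : A.LiesOverPrime ℓ)
    (𝔫 : Ideal (chart (M * ℓ) A (jSS M ℓ))) (h𝔫 : 𝔫.IsMaximal)
    (hP0 : h62i_P0 A M hℓ hM hA ≤ 𝔫) (hPinf : ¬ h62i_Pinf A M hℓ hM hA ≤ 𝔫) :
    TorSmoothAt A M ℓ (jSS M ℓ) 𝔫 := by
  have hm : mExt A M ℓ (jSS M ℓ) ≤ 𝔫 := le_trans (h62i_m_le_P0 A M hℓ hM hA) hP0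
  obtain ⟨u, -, hLP, -, h2⟩ := h62x_smooth_zero A M hℓ hM haux hA 𝔫 h𝔫 hP0 hPinf
  have h𝔰max : (𝔫.comap ((h62i_β A M hℓ hM hA :
      chart M A (jB M) →ₐ[A] chart (M * ℓ) A (jSS M ℓ)) :
      chart M A (jB M) →+* chart (M * ℓ) A (jSS M ℓ))).IsMaximal :=
    h62l_comap_isMaximal _ 𝔫 (h62i_P0 A M hℓ hM hA) hP0 (h62x_surj0 A M hℓ hM haux hA)
  have hu := h62x_LP_not_mem A M hℓ hM haux hA _ h𝔰max (h62x_comap_le A M _ 𝔫 hm) u hLP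
  have hb1 := h62x_β_not_mem_Pinf A M hℓ hM hA u hu
  have hb2 := h62x_β_not_mem_P0 A M hℓ hM hA u hu
  exact ⟨h62i_β A M hℓ hM hA u, Ideal.mem_comap.mp hLP.1, h62x_coe_ne_zero A M hℓ hM hA _ hb1,
    h62x_inv_mem_ssV A M hℓ hM hA _ hb1 hb2, h2⟩

/-- a closed point on both components: `TorOnBoth`. -/
theorem h62x_torOnBoth (hℓ : ℓ.Prime) (hM : ¬ ℓ ∣ M) (hA : A.LiesOverPrime ℓ)
    (𝔫 : Ideal (chart (M * ℓ) A (jSS M ℓ)))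
    (hPinf : h62i_Pinf A M hℓ hM hA ≤ 𝔫) (hP0 : h62i_P0 A M hℓ hM hA ≤ 𝔫) :
    TorOnBoth A M ℓ hℓ hM hA (jSS M ℓ) 𝔫 := by
  constructor
  · intro b hb
    by_contra hb𝔫
    exact hb ((h85c_mem_Winf_iff A M ℓ hℓ hA _).mpr
      (h62i_inv_mem_soft A M hℓ hM hA b (fun h => hb𝔫 (hPinf h))))
  · intro b hb
    by_contra hb𝔫
    exact hb ((h85c_mem_W0_iff A M ℓ hℓ hM hA _).mpr
      (h62x_inv_mem_W0 A M hℓ hM hA b (fun h => hb𝔫 (hP0 h))))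

/-- refined node datum at the crossing points. -/
theorem h62x_torNode (hℓ : ℓ.Prime) (hM : ¬ ℓ ∣ M) (haux : auxLevel ℓ ∣ M)
    (hA : A.LiesOverPrime ℓ)
    (𝔫 : Ideal (chart (M * ℓ) A (jSS M ℓ))) (h𝔫 : 𝔫.IsMaximal)
    (hPinf : h62i_Pinf A M hℓ hM hA ≤ 𝔫) (hP0 : h62i_P0 A M hℓ hM hA ≤ 𝔫) :
    TorNodeAt A M ℓ hℓ hM hA (jSS M ℓ) 𝔫 := by
  obtain ⟨u, x, y, c', -, -, -, -, -, -, -, -, hD⟩ :=
    h62x_node A M hℓ hM haux hA 𝔫 h𝔫 hPinf hP0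
  have ha0 : ((ℓ : ℕ) : A) ≠ 0 := by
    intro h0
    apply h62i_natCast_ne_zero A M (ℓ := ℓ)
    have h1 : ((ℓ : ℕ) : chart (M * ℓ) A (jSS M ℓ)) =
        algebraMap A (chart (M * ℓ) A (jSS M ℓ)) ((ℓ : ℕ) : A) :=
      (map_natCast (algebraMap A (chart (M * ℓ) A (jSS M ℓ))) ℓ).symm
    rw [h1, h0, map_zero]
  have hxy : x * y = algebraMap A (chart (M * ℓ) A (jSS M ℓ)) ((ℓ : ℕ) : A) * c' := by
    rw [map_natCast]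
    exact hD.hxy
  have hx : ((x : FF (M * ℓ)))⁻¹ ∈ h85cWinf A M ℓ hℓ hA :=
    (h85c_mem_Winf_iff A M ℓ hℓ hA _).mpr (h62i_inv_mem_soft A M hℓ hM hA x hD.hxPinf)
  have hy : ((y : FF (M * ℓ)))⁻¹ ∈ h85cW0 A M ℓ hℓ hM hA :=
    (h85c_mem_W0_iff A M ℓ hℓ hM hA _).mpr (h62x_inv_mem_W0 A M hℓ hM hA y hD.hyP0)
  exact ⟨h62x_torOnBoth A M hℓ hM hA 𝔫 hPinf hP0, x, hP0 hD.hxP0, y, hPinf hD.hyPinf, c',
    hD.hc, ((ℓ : ℕ) : A), ha0, hxy, hD.hgen, hx, hy⟩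

/-- **TOR-LOCAL**, finite chart, at the good levels. -/
theorem h62x_ifaceTorLocal (hℓ : ℓ.Prime) (hM : ¬ ℓ ∣ M) (haux : auxLevel ℓ ∣ M)
    (hA : A.LiesOverPrime ℓ) : IfaceTorLocal A M ℓ hℓ hM hA := by
  intro 𝔫 h𝔫 hm
  by_cases hP0 : h62i_P0 A M hℓ hM hA ≤ 𝔫
  · by_cases hPinf : h62i_Pinf A M hℓ hM hA ≤ 𝔫
    · exact Or.inr (h62x_torNode A M hℓ hM haux hA 𝔫 h𝔫 hPinf hP0)
    · exact Or.inl (h62x_torSmooth_zero A M hℓ hM haux hA 𝔫 h𝔫 hP0 hPinf)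
  · exact Or.inl (h62x_torSmooth_inf A M hℓ hM haux hA 𝔫 h𝔫
      ((h62x_dichotomy A M hℓ hM hA 𝔫 h𝔫 hm).resolve_right hP0) hP0)

end Fermat.Agent.S35
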