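import Fermat.Agent.S35.H63Fix
import Fermat.Agent.S35.H86TorIface
import Fermat.Agent.LGC.Perm63

/-!
# S35, block TOR, leaf TOR-PERM (helper63)

`h63f_ifaceTorPerm : IfaceTorPerm A M ℓ hℓ hM hA` at the good levels: the square of a Frobenius
at `ℓ` respects the places centered at a closed point of the finite chart lying on both
components of the special fibre.

Proof: for `b` in the chart, `σ² b - b ^ (ℓ²) = p + q` with `p ∈ B ∩ 𝔪 (W_∞)`,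
`q ∈ B ∩ 𝔪 (W_0)` (`h63f_sq_fin`, semilinear Kronecker congruences); so `σ² b ∈ 𝔫 → b ∈ 𝔫` at
every prime `𝔫` containing both components, and `σ⁻²` maps the places centered at `𝔫` to places
centered at `𝔫`.
-/

set_option autoImplicit false
set_option maxHeartbeats 400000
set_option linter.unusedSectionVars false
set_option linter.style.haveILetI false
set_option synthInstance.maxHeartbeats 400000

open AlgebraicCurve ModularCurve IsLocalRing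

noncomputable section

namespace Fermat.Agent.S35

open Fermat.Agent.S37 Fermat.Agent.Red Fermat.Agent.Red.GG Fermat.Agent.Red.GV
  Fermat.Agent.Red.GV.Soft Fermat.Agent.Red.Kron Fermat.Agent.Red.ModelO Fermat.Agent.LGC

variable (A : ValuationSubring Kbar) (M ℓ : ℕ) [NeZero M] [NeZero ℓ]

/-- at a closed point on both components, `σ² b ∈ 𝔫 → b ∈ 𝔫`. -/
theorem h63f_mem_of_sq_mem (hℓ : ℓ.Prime) (hM : ¬ ℓ ∣ M) (haux : auxLevel ℓ ∣ M)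
    (hA : A.LiesOverPrime ℓ) {σ : GQ} (hσ : A.IsFrobeniusAt σ ℓ)
    (𝔫 : Ideal (chart (M * ℓ) A (jSS M ℓ))) [𝔫.IsPrime]
    (hboth : TorOnBoth A M ℓ hℓ hM hA (jSS M ℓ) 𝔫)
    (b c : chart (M * ℓ) A (jSS M ℓ))
    (hc : (c : FF (M * ℓ)) = gal (M * ℓ) σ • gal (M * ℓ) σ • (b : FF (M * ℓ))) :
    c - b ^ (ℓ ^ 2) ∈ 𝔫 := by
  obtain ⟨p, q, hpB, hqB, hp, hq, hpq⟩ := h63f_sq_fin A M ℓ hℓ hM haux hA hσ (b : FF (M * ℓ)) b.2
  have hp𝔫 : (⟨p, hpB⟩ : chart (M * ℓ) A (jSS M ℓ)) ∈ 𝔫 := by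
    rcases eq_or_ne p 0 with h0 | h0
    · have e : (⟨p, hpB⟩ : chart (M * ℓ) A (jSS M ℓ)) = 0 := Subtype.ext h0
      rw [e]
      exact 𝔫.zero_mem
    · apply hboth.1
      exact (h85c_mem_nonunits_iff_inv (W := h85cWinf A M ℓ hℓ hA) h0).mp hp
  have hq𝔫 : (⟨q, hqB⟩ : chart (M * ℓ) A (jSS M ℓ)) ∈ 𝔫 := by
    rcases eq_or_ne q 0 with h0 | h0
    · have e : (⟨q, hqB⟩ : chart (M * ℓ) A (jSS M ℓ)) = 0 := Subtype.ext h0
      rw [e]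
      exact 𝔫.zero_mem
    · apply hboth.2
      exact (h85c_mem_nonunits_iff_inv (W := h85cW0 A M ℓ hℓ hM hA) h0).mp
        ((h85c_mem_W0_nonunits_iff A M ℓ hℓ hM hA q).mpr hq)
  have e : c - b ^ (ℓ ^ 2) = (⟨p, hpB⟩ : chart (M * ℓ) A (jSS M ℓ)) + ⟨q, hqB⟩ := by
    apply Subtype.ext
    show (c : FF (M * ℓ)) - (b : FF (M * ℓ)) ^ (ℓ ^ 2) = p + q
    rw [hc]
    exact hpq
  rw [e]
  exact 𝔫.add_mem hp𝔫 hq𝔫

/-- **TOR-PERM** at the good levels. -/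
theorem h63f_ifaceTorPerm (hℓ : ℓ.Prime) (hM : ¬ ℓ ∣ M) (haux : auxLevel ℓ ∣ M)
    (hA : A.LiesOverPrime ℓ) : IfaceTorPerm A M ℓ hℓ hM hA := by
  intro σ hσ 𝔫 h𝔫 _ hboth z hz k hk
  haveI h𝔫p : 𝔫.IsPrime := h𝔫.isPrime
  have hσA := h63f_frob_mem A ℓ hσ
  have hjeq : jSS M ℓ = jB (M * ℓ) := Fermat.Agent.Red.HKMod.heckeAlphaBar_jBar M ℓ
  have hjfix : gal (M * ℓ) σ • jSS M ℓ = jSS M ℓ := by
    rw [hjeq]
    exact GalI.gal_smul_jB σ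
  set g : SemilinearAut Kbar (FF (M * ℓ)) := gal (M * ℓ) σ * gal (M * ℓ) σ with hg
  have hgdef : ∀ y : FF (M * ℓ), g • y = gal (M * ℓ) σ • gal (M * ℓ) σ • y :=
    fun y => mul_smul _ _ y
  have hgj : g • jSS M ℓ = jSS M ℓ := by rw [hgdef, hjfix, hjfix]
  have htmem : jSS M ℓ ∈ (g⁻¹ • k.1).toValuationSubring := by
    rw [SemilinearAut.smul_toValuationSubring,
      ValuationSubring.mem_pointwise_smul_iff_inv_smul_mem, inv_inv, hgj]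
    exact k.2
  set k' : ChartPlace (M * ℓ) (jSS M ℓ) := ⟨g⁻¹ • k.1, htmem⟩ with hk'
  have hval : ∀ y : FF (M * ℓ), chartVal (M * ℓ) (jSS M ℓ) k' y =
      chartVal (M * ℓ) (jSS M ℓ) k (g • y) := fun y => h63p_adic_inv_smul g k.1 y
  have hcent : h26Centered (chart (M * ℓ) A (jSS M ℓ)) (chartVal (M * ℓ) (jSS M ℓ)) 𝔫 k' := by
    intro b hb
    have hσb : gal (M * ℓ) σ • (b : FF (M * ℓ)) ∈ modelAt (M * ℓ) A (jSS M ℓ) :=
      h63r_gal_mem_chart (A := A) (M * ℓ) (jSS M ℓ) hσA hjfix b.2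
    have hσσb : gal (M * ℓ) σ • gal (M * ℓ) σ • (b : FF (M * ℓ)) ∈
        modelAt (M * ℓ) A (jSS M ℓ) :=
      h63r_gal_mem_chart (A := A) (M * ℓ) (jSS M ℓ) hσA hjfix hσb
    set c : chart (M * ℓ) A (jSS M ℓ) := ⟨_, hσσb⟩ with hc
    rw [hval, hgdef] at hb
    have hc𝔫 : c ∈ 𝔫 := hk c hb
    have h1 := h63f_mem_of_sq_mem A M ℓ hℓ hM haux hA hσ 𝔫 hboth b c rfl
    have h2 : b ^ (ℓ ^ 2) ∈ 𝔫 := by
      have e : b ^ (ℓ ^ 2) = c - (c - b ^ (ℓ ^ 2)) := by ring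
      rw [e]
      exact 𝔫.sub_mem hc𝔫 h1
    exact h𝔫p.mem_of_pow_mem _ h2
  rw [← hgdef, ← hval]
  exact hz k' hcent

end Fermat.Agent.S35
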