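import Fermat.Agent.S35.H86TorAsm
import Fermat.Agent.S35.H62TorLocal
import Fermat.Agent.S35.H21TorCusp
import Fermat.Agent.S35.H63TorPerm
import Fermat.Agent.S35.H4ApproxIface
import Fermat.Agent.S35.H4TorFinal

/-!
# S35, block TOR (sub-architect helper86): the block is closed

`h86t_torGate : TorGate` (the frozen target G-TOR of `GeomSkeleton.lean`), unconditional:

* `h86t_ifaceTorPieces : IfaceTorPieces` from TOR-LOCAL (helper62, `h62x_ifaceTorLocal`),
  TOR-CUSP (helper21, `h21u_ifaceTorCusp`), TOR-PERM (helper63, `h63f_ifaceTorPerm`);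
* `h86t_ifaceTor : IfaceTor` by TOR-ASM (`h86t_ifaceTor_of`, with helper13's abstract node
  theorem `h13x_node_frob`);
* TOR-APPROX and TOR-FINAL (helper4, `h4a_ifaceTorApprox`, `h4t_torFinal`).
-/

set_option autoImplicit false

open AlgebraicCurve ModularCurve

namespace Fermat.Agent.S35

open Fermat.Agent.S37 Fermat.Agent.Red Fermat.Agent.LGC

/-- the modular inputs of TOR. -/
theorem h86t_ifaceTorPieces : IfaceTorPieces := by
  intro ℓ hℓ M _ hM haux
  haveI : NeZero ℓ := ⟨hℓ.ne_zero⟩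
  intro A hA
  exact ⟨h62x_ifaceTorLocal A M hℓ hM haux hA, h21u_ifaceTorCusp A M ℓ hℓ hM haux hA,
    h63f_ifaceTorPerm A M ℓ hℓ hM haux hA⟩

/-- **TOR, function form**: `σ² w / w ^ (ℓ²)` is an `m`-th power for `w ≡ 1` modulo `π · ssV`
with divisor divisible by `m`. -/
theorem h86t_ifaceTor : IfaceTor :=
  h86t_ifaceTor_of h86t_ifaceTorPieces

/-- **G-TOR**: `σ² = q²` on the toric part. -/
theorem h86t_torGate : TorGate :=
  h4t_torFinal h86t_ifaceTor h4a_ifaceTorApprox

end Fermat.Agent.S35
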