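import Fermat.Agent.S35.GeomSkeleton
import Fermat.Agent.Jac.KummerFF
import Fermat.Agent.Red.EST.Assembly

/-!
# S35 / G-TORS (helper33): from functions to torsion classes

Generic Kummer-pair calculus for the push-forward `pic0Push` and for the quartic
`σ⁴ - (q² + 1) σ² + q²`:

* `h33s_kummer_push` : if `f` is a Kummer representative of `x ∈ Pic⁰(F')`, then the norm of `f`
  along `ψ : F → F'` is a Kummer representative of `ψ_* x`.
* `h33s_norm_eq_pow_of_pushAlpha`, `h33s_norm_eq_pow_of_pushBeta` : for `x ∈ J₀(M q)[n]` with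
  Kummer representative `f` and `α_* x = 0` (resp. `β_* x = 0`) the norm of `f` along `α`
  (resp. `β`) is an `n`-th power in `F_M`.
* `h33s_kummer_fq` : the quartic `fq` of a Kummer representative represents
  `σ⁴ x + q² x - (q² + 1) σ² x`.
* `h33s_quartic_of_pow` : if `(fq u) ^ t` is an `n`-th power then `t • quartic(σ) x = 0`.
* `h33s_frobTorsionOfGate : FrobTorsionOfGate` (row G-TORS of `s35_tasks`).
-/

set_option autoImplicit false
set_option linter.style.haveILetI false

open AlgebraicCurve ModularCurve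

noncomputable section

namespace Fermat.Agent.S35

open Fermat.Agent.S37 (Kbar GQ FF gal)
open Fermat.Agent.Jac.K1
open Fermat.Agent.Red.HKMod

section Generic

variable {K F F' : Type*} [Field K] [Field F] [Field F'] [Algebra K F] [Algebra K F']

/-- **push-forward acts on Kummer representatives by the norm.** -/
theorem h33s_kummer_push (ψ : F →ₐ[K] F') (hψ : ψ.toRingHom.IsIntegral)
    (hfin : FiniteAlong K ψ) (hN : NormFormulaAlong K ψ hfin) {n : ℕ} {x : Pic0 K F'} {f : F'}
    (hx : IsKummerPair n x f) :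
    IsKummerPair n (pic0Push ψ hψ hfin hN x) (normAlong ψ f) := by
  obtain ⟨hf, D, rfl, hD⟩ := hx
  refine ⟨normAlong_ne_zero ψ hfin hf, degZeroPush ψ hψ D, (pic0Push_mk ψ hψ hfin hN D).symm,
    fun v => ?_⟩
  rw [coe_degZeroPush]
  have h1 : ∀ w : Place K F', ((n : ℤ) • (D : Divisor K F')) w = w.ord f := by
    intro w
    rw [Finsupp.smul_apply, smul_eq_mul]
    exact hD w
  have h2 : Divisor.pushforwardAlong ψ hψ ((n : ℤ) • (D : Divisor K F')) v
      = v.ord (normAlong ψ f) := by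
    letI := algebraAlong ψ
    haveI := isScalarTower_along ψ
    haveI := isIntegral_along ψ hψ
    haveI : Module.Finite F F' := hfin
    exact hN f hf _ h1 v
  rw [map_zsmul, Finsupp.smul_apply, smul_eq_mul] at h2
  exact h2

/-- natural multiples and powers. -/
theorem h33s_kummer_nsmul {n : ℕ} {x : Pic0 K F} {f : F} (hx : IsKummerPair n x f) (t : ℕ) :
    IsKummerPair n (t • x) (f ^ t) := by
  induction t with
  | zero => rw [zero_nsmul, pow_zero]; exact IsKummerPair.one
  | succ t ih => rw [succ_nsmul, pow_succ]; exact ih.mul hx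

end Generic

section Modular

variable (M q : ℕ) [NeZero M] [NeZero q]

theorem h33s_kummer_pushAlpha {n : ℕ} {x : JZero (M * q)} {f : FF (M * q)}
    (hx : IsKummerPair n x f) :
    IsKummerPair n (pushAlpha M q x) (normAlong (heckeAlphaBar Kbar M q) f) :=
  h33s_kummer_push _ _ _ _ hx

theorem h33s_kummer_pushBeta {n : ℕ} {x : JZero (M * q)} {f : FF (M * q)}
    (hx : IsKummerPair n x f) :
    IsKummerPair n (pushBeta M q x) (normAlong (heckeBetaBar Kbar M q) f) :=
  h33s_kummer_push _ _ _ _ hx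

/-- if `α_* x = 0` then the norm along `α` of a Kummer representative is an `n`-th power. -/
theorem h33s_norm_eq_pow_of_pushAlpha {n : ℕ} (hn : n ≠ 0) {x : JZero (M * q)}
    {f : FF (M * q)} (hx : IsKummerPair n x f) (h0 : pushAlpha M q x = 0) :
    ∃ h : FF M, h ≠ 0 ∧ normAlong (heckeAlphaBar Kbar M q) f = h ^ n :=
  (kummerPair_JZero_eq_zero_iff M hn (h33s_kummer_pushAlpha M q hx)).1 h0

/-- if `β_* x = 0` then the norm along `β` of a Kummer representative is an `n`-th power. -/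
theorem h33s_norm_eq_pow_of_pushBeta {n : ℕ} (hn : n ≠ 0) {x : JZero (M * q)}
    {f : FF (M * q)} (hx : IsKummerPair n x f) (h0 : pushBeta M q x = 0) :
    ∃ h : FF M, h ≠ 0 ∧ normAlong (heckeBetaBar Kbar M q) f = h ^ n :=
  (kummerPair_JZero_eq_zero_iff M hn (h33s_kummer_pushBeta M q hx)).1 h0

/-- conversely, an `n`-th power norm gives `α_* x = 0`. -/
theorem h33s_pushAlpha_eq_zero {n : ℕ} (hn : n ≠ 0) {x : JZero (M * q)}
    {f : FF (M * q)} (hx : IsKummerPair n x f) {h : FF M} (hh : h ≠ 0)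
    (h0 : normAlong (heckeAlphaBar Kbar M q) f = h ^ n) : pushAlpha M q x = 0 :=
  (kummerPair_JZero_eq_zero_iff M hn (h33s_kummer_pushAlpha M q hx)).2 ⟨h, hh, h0⟩

theorem h33s_pushBeta_eq_zero {n : ℕ} (hn : n ≠ 0) {x : JZero (M * q)}
    {f : FF (M * q)} (hx : IsKummerPair n x f) {h : FF M} (hh : h ≠ 0)
    (h0 : normAlong (heckeBetaBar Kbar M q) f = h ^ n) : pushBeta M q x = 0 :=
  (kummerPair_JZero_eq_zero_iff M hn (h33s_kummer_pushBeta M q hx)).2 ⟨h, hh, h0⟩

end Modular

section Quartic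

theorem h33s_gal_ne_zero (N : ℕ) (σ : GQ) {u : FF N} (hu : u ≠ 0) : gal N σ • u ≠ 0 := by
  rw [SemilinearAut.smul_def]
  exact (map_ne_zero_iff _ (SemilinearAut.toRingAut (gal N σ)).injective).mpr hu

theorem h33s_fq_ne_zero (N q : ℕ) (σ : GQ) {u : FF N} (hu : u ≠ 0) : fq N q σ u ≠ 0 := by
  unfold fq
  have h2 := h33s_gal_ne_zero N σ (h33s_gal_ne_zero N σ hu)
  have h4 := h33s_gal_ne_zero N σ (h33s_gal_ne_zero N σ h2)
  exact div_ne_zero (mul_ne_zero h4 (pow_ne_zero _ hu)) (pow_ne_zero _ h2)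

/-- the quartic of a Kummer representative represents the quartic of the class. -/
theorem h33s_kummer_fq (N q : ℕ) (σ : GQ) {n : ℕ} {x : JZero N} {f : FF N}
    (hx : IsKummerPair n x f) :
    IsKummerPair n
      (gal N σ • gal N σ • gal N σ • gal N σ • x + q ^ 2 • x
        - (q ^ 2 + 1) • gal N σ • gal N σ • x) (fq N q σ f) := by
  have h2 := (hx.smul (gal N σ)).smul (gal N σ)
  have h4 := (h2.smul (gal N σ)).smul (gal N σ)
  exact (h4.mul (h33s_kummer_nsmul hx _)).div (h33s_kummer_nsmul h2 _)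

/-- **the quartic of a torsion class vanishes as soon as a power of the quartic of a Kummer
representative is an `n`-th power.** -/
theorem h33s_quartic_of_pow (N q : ℕ) [NeZero N] (σ : GQ) {n : ℕ} (hn : n ≠ 0) {x : JZero N}
    {f : FF N} (hx : IsKummerPair n x f) (t : ℕ) (H : FF N)
    (hH : H ^ n = fq N q σ f ^ t) :
    t • (σ • σ • σ • σ • x + q ^ 2 • x) = t • ((q ^ 2 + 1) • σ • σ • x) := by
  have hw := h33s_kummer_nsmul (h33s_kummer_fq N q σ hx) t
  have h0 := Fermat.Agent.Red.EST.h76_kummer_eq_zero_of_pow hn hw hH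
  rw [nsmul_sub, sub_eq_zero] at h0
  exact h0

end Quartic

/-! ## The class form from the function form -/

theorem h33s_normAlong_eq {K F F' : Type*} [Field K] [Field F] [Field F'] [Algebra K F]
    [Algebra K F'] (φ : F →ₐ[K] F') (y : F') :
    Fermat.Agent.Red.KR.normAlong φ y = Fermat.Agent.Jac.K1.normAlong φ y := rfl

/-- **G-TORS.**  From functions to divisor classes. -/
theorem h33s_frobTorsionOfGate : FrobTorsionOfGate := by
  intro hG M q p _ _ hq hqM hp hpq A hA σ hσ
  obtain ⟨t, ht, hgate⟩ := hG q hq M hqM A hA σ hσ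
  refine ⟨t, ht, fun k x hx hα hβ => ?_⟩
  have hn : p ^ k ≠ 0 := pow_ne_zero _ hp.ne_zero
  have hqm : ¬ q ∣ p ^ k := fun h =>
    hpq ((Nat.prime_dvd_prime_iff_eq hq hp).1 (hq.dvd_of_dvd_pow h)).symm
  obtain ⟨f, hf⟩ := exists_kummerPair_JZero (M * q) hx
  obtain ⟨a, -, ha⟩ := h33s_norm_eq_pow_of_pushAlpha M q hn hf hα
  obtain ⟨b, -, hb⟩ := h33s_norm_eq_pow_of_pushBeta M q hn hf hβ
  obtain ⟨H, hH⟩ := hgate (p ^ k) hqm f hf.ne_zero (fun v => hf.dvd_ord v)
    ⟨a, by rw [h33s_normAlong_eq]; exact ha⟩ ⟨b, by rw [h33s_normAlong_eq]; exact hb⟩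
  exact h33s_quartic_of_pow (M * q) q σ hn hf t H hH

end Fermat.Agent.S35
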