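import Fermat.Agent.LGC.NodeSoft

/-!
# S35, block TOR (helper13): the Frobenius datum at a node, abstract form

Vocabulary of `Red/LocalFact.lean`: `A` a valuation ring, `F` a field over `A`, `B ⊆ F` a chart,
`V = W∞ ∩ W₀` the semistable Gauss ring, `v` the places finite on the chart; `𝔫` a closed point
of the special fibre lying on both components, with a node datum `x y = a c`
(`x` a unit of `W∞`, `y` a unit of `W₀`) and sections at the places centered at `𝔫`;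
`τ` an automorphism of `F` which preserves `W∞`, `W₀` and the set of places centered at `𝔫`
and is a `Q`-Frobenius on `A` modulo `𝔪_A`.

* `h13x_node_frob` : for `u ≡ 1` modulo `π V` with divisor divisible by `r`, the function
  `w = τ u / u ^ Q` is, locally at `𝔫`, of the form `g ^ r · (unit of B_𝔫)` with `g ≡ 1`
  modulo `π' V`: the hypothesis `hnode` of the gate `h63_gate_asm_ss` for `w`.

No moving lemma and no toric coordinates: with `G i = x - φ_i x` the functions of (LP) at the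
node and `u = e · ∏ G i ^ (r n i)`, the two reductions of `u` force `∑ n i = 0` and
`∏ (φ_i x) ^ (n i) ∈ A^×`, and then `g = τ g₁ / g₁ ^ Q`, `g₁ = ∏ G i ^ n i`.
-/

set_option autoImplicit false
set_option linter.unusedSectionVars false
set_option linter.style.haveILetI false

open WithZero IsLocalRing

namespace Fermat.Agent.S35

open Fermat.Agent.Red Fermat.Agent.LGC

section Const

variable {A : Type*} [CommRing A] [IsDomain A] [ValuationRing A]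
  {F : Type*} [Field F] [Algebra A F]

/-- a quotient of two constants. -/
def h13x_IsConst (A : Type*) [CommRing A] {F : Type*} [Field F] [Algebra A F] (θ : F) : Prop :=
  ∃ p q : A, q ≠ 0 ∧ θ * algebraMap A F q = algebraMap A F p

theorem h13x_isConst_algebraMap (a : A) : h13x_IsConst A (algebraMap A F a) :=
  ⟨a, 1, one_ne_zero, by simp⟩

theorem h13x_isConst_one : h13x_IsConst A (1 : F) :=
  ⟨1, 1, one_ne_zero, by simp⟩

theorem h13x_isConst_mul {θ θ' : F} (h : h13x_IsConst A θ) (h' : h13x_IsConst A θ') :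
    h13x_IsConst A (θ * θ') := by
  obtain ⟨p, q, hq, hpq⟩ := h
  obtain ⟨p', q', hq', hpq'⟩ := h'
  refine ⟨p * p', q * q', mul_ne_zero hq hq', ?_⟩
  rw [map_mul, map_mul, ← hpq, ← hpq']
  ring

theorem h13x_isConst_neg {θ : F} (h : h13x_IsConst A θ) : h13x_IsConst A (-θ) := by
  obtain ⟨p, q, hq, hpq⟩ := h
  exact ⟨-p, q, hq, by rw [map_neg, ← hpq]; ring⟩

theorem h13x_isConst_inv (hAF : Function.Injective (algebraMap A F)) {θ : F}
    (h : h13x_IsConst A θ) : h13x_IsConst A θ⁻¹ := by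
  by_cases h0 : θ = 0
  · rw [h0, inv_zero]
    exact ⟨0, 1, one_ne_zero, by simp⟩
  obtain ⟨p, q, hq, hpq⟩ := h
  have hqF : algebraMap A F q ≠ 0 := fun h => hq (hAF (by rw [h, map_zero]))
  have hp : p ≠ 0 := by
    rintro rfl
    rw [map_zero] at hpq
    exact (mul_ne_zero h0 hqF) hpq
  refine ⟨q, p, hp, ?_⟩
  rw [← hpq]
  field_simp

theorem h13x_isConst_pow {θ : F} (h : h13x_IsConst A θ) (n : ℕ) : h13x_IsConst A (θ ^ n) := by
  induction n with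
  | zero => simpa using h13x_isConst_one (A := A) (F := F)
  | succ n ih => rw [pow_succ]; exact h13x_isConst_mul ih h

theorem h13x_isConst_zpow (hAF : Function.Injective (algebraMap A F)) {θ : F}
    (h : h13x_IsConst A θ) (z : ℤ) : h13x_IsConst A (θ ^ z) := by
  obtain ⟨n, rfl | rfl⟩ := z.eq_nat_or_neg
  · rw [zpow_natCast]; exact h13x_isConst_pow h n
  · rw [zpow_neg, zpow_natCast]; exact h13x_isConst_inv hAF (h13x_isConst_pow h n)

theorem h13x_isConst_prod {α : Type*}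
    (T : Finset α) (f : α → F) (hf : ∀ i ∈ T, h13x_IsConst A (f i)) :
    h13x_IsConst A (∏ i ∈ T, f i) :=
  Finset.prod_induction f (fun x => h13x_IsConst A x) (fun _ _ ha hb => h13x_isConst_mul ha hb)
    h13x_isConst_one hf

/-- a nonzero quotient of constants or its inverse is a constant. -/
theorem h13x_const_dichotomy (hAF : Function.Injective (algebraMap A F)) {θ : F}
    (h : h13x_IsConst A θ) (h0 : θ ≠ 0) :
    ∃ t : A, t ≠ 0 ∧ (θ = algebraMap A F t ∨ θ⁻¹ = algebraMap A F t) := by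
  obtain ⟨p, q, hq, hpq⟩ := h
  have hqF : algebraMap A F q ≠ 0 := fun h => hq (hAF (by rw [h, map_zero]))
  have hp : p ≠ 0 := by
    rintro rfl
    rw [map_zero] at hpq
    exact (mul_ne_zero h0 hqF) hpq
  have hpF : algebraMap A F p ≠ 0 := fun h => hp (hAF (by rw [h, map_zero]))
  rcases ValuationRing.dvd_total p q with ⟨t, ht⟩ | ⟨t, ht⟩
  · -- q = p * t : θ⁻¹ = t
    have ht0 : t ≠ 0 := by
      rintro rfl
      rw [mul_zero] at ht
      exact hq ht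
    refine ⟨t, ht0, Or.inr ?_⟩
    rw [ht, map_mul] at hpq
    have h1 : θ * algebraMap A F t = 1 := by
      have h2 : (θ * algebraMap A F t) * algebraMap A F p = 1 * algebraMap A F p := by
        linear_combination hpq
      exact mul_right_cancel₀ hpF h2
    exact inv_eq_of_mul_eq_one_right h1
  · -- p = q * t : θ = t
    have ht0 : t ≠ 0 := by
      rintro rfl
      rw [mul_zero] at ht
      exact hp ht
    refine ⟨t, ht0, Or.inl ?_⟩
    rw [ht, map_mul] at hpq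
    have h2 : θ * algebraMap A F q = algebraMap A F t * algebraMap A F q := by
      linear_combination hpq
    exact mul_right_cancel₀ hqF h2

end Const

section Node

variable {A : Type*} [CommRing A] [IsDomain A] [ValuationRing A]
  {F : Type*} [Field F] [Algebra A F]
  {B : Subalgebra A F} {V : Subring F} {ι : Type*} {v : ι → Valuation F ℤᵐ⁰}

/-- an element of the chart which is divisible by a nonunit constant in a valuation ring
containing `B_𝔫` lies in `𝔫`. -/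
theorem h13x_mem_of_mod (W : Subring F)
    (hnt : ∀ π ∈ maximalIdeal A, ∀ x ∈ W, algebraMap A F π * x ≠ 1)
    (𝔫 : Ideal B) (hn : ∀ b : B, b ∉ 𝔫 → ((b : F))⁻¹ ∈ W)
    (π : A) (hπ : π ∈ maximalIdeal A) (b : B) (w : F) (hw : w ∈ W)
    (hb : (b : F) = algebraMap A F π * w) : b ∈ 𝔫 := by
  by_contra hbn
  have h1 := hn b hbn
  have hb0 : (b : F) ≠ 0 := by
    intro h0
    apply hbn
    have : b = 0 := Subtype.ext h0
    rw [this]
    exact 𝔫.zero_mem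
  apply hnt π hπ (w * ((b : F))⁻¹) (W.mul_mem hw h1)
  rw [← mul_assoc, ← hb, mul_inv_cancel₀ hb0]

/-- a function which is `≡ 1` on one branch and divisible by a nonunit constant on the other
branch is not regular at the crossing point. -/
theorem h13x_not_both (Winf W0 : Subring F)
    (hBinf : ∀ b : B, (b : F) ∈ Winf) (hB0 : ∀ b : B, (b : F) ∈ W0)
    (hntinf : ∀ π ∈ maximalIdeal A, ∀ x ∈ Winf, algebraMap A F π * x ≠ 1)
    (hnt0 : ∀ π ∈ maximalIdeal A, ∀ x ∈ W0, algebraMap A F π * x ≠ 1)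
    (𝔫 : Ideal B)
    (hninf : ∀ b : B, b ∉ 𝔫 → ((b : F))⁻¹ ∈ Winf)
    (hn0 : ∀ b : B, b ∉ 𝔫 → ((b : F))⁻¹ ∈ W0)
    (e : F) (s : B) (hs : s ∉ 𝔫) (hse : (s : F) * e ∈ B)
    (π : A) (hπ : π ∈ maximalIdeal A) (heU : e ∈ h26U π Winf)
    (t : A) (ht : t ∈ maximalIdeal A) (ρ : F) (hρ : ρ ∈ W0) (he : e = algebraMap A F t * ρ) :
    False := by
  obtain ⟨w, hw, hew⟩ := heU
  set b : B := ⟨(s : F) * e, hse⟩ with hb
  have h1 : b ∈ 𝔫 := by
    refine h13x_mem_of_mod W0 hnt0 𝔫 hn0 t ht b ((s : F) * ρ) (W0.mul_mem (hB0 s) hρ) ?_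
    show (s : F) * e = _
    rw [he]; ring
  have h2 : b - s ∈ 𝔫 := by
    refine h13x_mem_of_mod Winf hntinf 𝔫 hninf π hπ (b - s) ((s : F) * w)
      (Winf.mul_mem (hBinf s) hw) ?_
    show (s : F) * e - (s : F) = _
    rw [hew]; ring
  apply hs
  have h3 : s = b - (b - s) := by ring
  rw [h3]
  exact 𝔫.sub_mem h1 h2

/-- regularity at the centered places and Gauss integrality give regularity at `𝔫`. -/
theorem h13x_regular (hC : H26Chart B V v) (𝔫 : Ideal B) [h𝔫 : 𝔫.IsPrime]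
    (e : F) (heV : e ∈ V) (hval : ∀ k, h26Centered B v 𝔫 k → v k e ≤ 1) :
    ∃ s : B, s ∉ 𝔫 ∧ (s : F) * e ∈ B := by
  obtain ⟨a₁, ha₁, s₁, hs₁, h1⟩ := h26_stepC hC.hfin hC.hint hC.hB 𝔫 e hval
  exact ⟨s₁, hs₁, hC.hQEP a₁ ha₁ _ (V.mul_mem (hC.hBV _ s₁.2) heV) h1⟩

/-- the constant of the second branch is a unit. -/
theorem h13x_const_unit (hC : H26Chart B V v) (hAF : Function.Injective (algebraMap A F))
    (Winf W0 : Subring F)
    (hVWinf : ∀ x ∈ V, x ∈ Winf) (hVW0 : ∀ x ∈ V, x ∈ W0)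
    (hWV : ∀ x : F, x ∈ Winf → x ∈ W0 → x ∈ V)
    (hinvinf : ∀ π ∈ maximalIdeal A, ∀ x ∈ Winf, (1 + algebraMap A F π * x)⁻¹ ∈ Winf)
    (hinv0 : ∀ π ∈ maximalIdeal A, ∀ x ∈ W0, (1 + algebraMap A F π * x)⁻¹ ∈ W0)
    (hntinf : ∀ π ∈ maximalIdeal A, ∀ x ∈ Winf, algebraMap A F π * x ≠ 1)
    (hnt0 : ∀ π ∈ maximalIdeal A, ∀ x ∈ W0, algebraMap A F π * x ≠ 1)
    (𝔫 : Ideal B) [h𝔫 : 𝔫.IsPrime]
    (hninf : ∀ b : B, b ∉ 𝔫 → ((b : F))⁻¹ ∈ Winf)
    (hn0 : ∀ b : B, b ∉ 𝔫 → ((b : F))⁻¹ ∈ W0)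
    (e : F) (hval : ∀ k, h26Centered B v 𝔫 k → v k e = 1)
    (π : A) (hπ : π ∈ maximalIdeal A) (heU : e ∈ h26U π Winf)
    (θ ρ ε : F) (hθ : h13x_IsConst A θ) (hθ0 : θ ≠ 0) (hρ : ρ ∈ W0) (hρ' : ρ⁻¹ ∈ W0)
    (hε : ε ∈ h26U π W0) (he : e = θ * ρ * ε) :
    ∃ t : A, IsUnit t ∧ θ = algebraMap A F t := by
  have hAV : ∀ a : A, algebraMap A F a ∈ V := fun a => hC.hBV _ (B.algebraMap_mem a)
  have hBinf : ∀ b : B, (b : F) ∈ Winf := fun b => hVWinf _ (hC.hBV _ b.2)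
  have hB0 : ∀ b : B, (b : F) ∈ W0 := fun b => hVW0 _ (hC.hBV _ b.2)
  have hπinf : algebraMap A F π ∈ Winf := hVWinf _ (hAV π)
  have hπ0 : algebraMap A F π ∈ W0 := hVW0 _ (hAV π)
  have hεW : ε ∈ W0 := h26U_mem_V hπ0 hε
  have hε'U : ε⁻¹ ∈ h26U π W0 := h26U_inv (hinv0 π hπ) (hnt0 π hπ) hε
  have hε'W : ε⁻¹ ∈ W0 := h26U_mem_V hπ0 hε'U
  have heW : e ∈ Winf := h26U_mem_V hπinf heU
  have he'U : e⁻¹ ∈ h26U π Winf := h26U_inv (hinvinf π hπ) (hntinf π hπ) heU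
  have he'W : e⁻¹ ∈ Winf := h26U_mem_V hπinf he'U
  obtain ⟨t, ht0, ht | ht⟩ := h13x_const_dichotomy hAF hθ hθ0
  · refine ⟨t, ?_, ht⟩
    by_contra hnu
    have htm : t ∈ maximalIdeal A := hnu
    have he0 : e ∈ W0 := by
      rw [he, ht]
      exact W0.mul_mem (W0.mul_mem (hVW0 _ (hAV t)) hρ) hεW
    obtain ⟨s, hs, hse⟩ := h13x_regular hC 𝔫 e (hWV e heW he0) (fun k hk => (hval k hk).le)
    exact h13x_not_both Winf W0 hBinf hB0 hntinf hnt0 𝔫 hninf hn0 e s hs hse π hπ heU t htm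
      (ρ * ε) (W0.mul_mem hρ hεW) (by rw [he, ht]; ring)
  · have htu : IsUnit t := by
      by_contra hnu
      have htm : t ∈ maximalIdeal A := hnu
      have he'eq : e⁻¹ = algebraMap A F t * (ρ⁻¹ * ε⁻¹) := by
        rw [he, mul_inv, mul_inv, ht]; ring
      have he0 : e⁻¹ ∈ W0 := by
        rw [he'eq]
        exact W0.mul_mem (hVW0 _ (hAV t)) (W0.mul_mem hρ' hε'W)
      obtain ⟨s, hs, hse⟩ := h13x_regular hC 𝔫 e⁻¹ (hWV _ he'W he0)
        (fun k hk => by rw [map_inv₀, hval k hk, inv_one])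
      exact h13x_not_both Winf W0 hBinf hB0 hntinf hnt0 𝔫 hninf hn0 e⁻¹ s hs hse π hπ he'U t htm
        (ρ⁻¹ * ε⁻¹) (W0.mul_mem hρ' hε'W) he'eq
    obtain ⟨t', ht'⟩ := htu.exists_right_inv
    refine ⟨t', IsUnit.of_mul_eq_one t (by rw [mul_comm]; exact ht'), ?_⟩
    have h1 : algebraMap A F t * algebraMap A F t' = 1 := by
      rw [← map_mul, ht', map_one]
    have h2 : θ⁻¹ * algebraMap A F t' = 1 := by rw [ht]; exact h1
    have h3 : θ = (θ⁻¹)⁻¹ := (inv_inv θ).symm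
    rw [h3]
    exact inv_eq_of_mul_eq_one_right h2

/-- the slope along the second branch is not positive. -/
theorem h13x_slope_aux (W0 : Subring F) (hB0 : ∀ b : B, (b : F) ∈ W0)
    (hnt0 : ∀ π ∈ maximalIdeal A, ∀ x ∈ W0, algebraMap A F π * x ≠ 1)
    (𝔫 : Ideal B) [h𝔫 : 𝔫.IsPrime] (hn0 : ∀ b : B, b ∉ 𝔫 → ((b : F))⁻¹ ∈ W0)
    (y c : B) (hy : y ∈ 𝔫) (hc : c ∉ 𝔫)
    (e : F) (s : B) (hs : s ∉ 𝔫) (hse : (s : F) * e ∈ B)
    (π : A) (hπ : π ∈ maximalIdeal A) (t : A) (ht : IsUnit t) (n : ℕ) (ε : F)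
    (hε : ε ∈ h26U π W0)
    (he : e * (y : F) ^ (n + 1) = algebraMap A F t * (c : F) ^ (n + 1) * ε) : False := by
  obtain ⟨w, hw, hεw⟩ := hε
  set b₁ : B := ⟨(s : F) * e, hse⟩ with hb₁
  set b : B := b₁ * y ^ (n + 1) with hb
  set d : B := s * algebraMap A B t * c ^ (n + 1) with hd
  have h1 : b ∈ 𝔫 := 𝔫.mul_mem_left _ (𝔫.pow_mem_of_mem hy _ (Nat.succ_pos n))
  have h2 : b - d ∈ 𝔫 := by
    refine h13x_mem_of_mod W0 hnt0 𝔫 hn0 π hπ (b - d)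
      ((s : F) * algebraMap A F t * (c : F) ^ (n + 1) * w) ?_ ?_
    · exact W0.mul_mem (W0.mul_mem (W0.mul_mem (hB0 s) (hB0 (algebraMap A B t)))
        (W0.pow_mem (hB0 c) _)) hw
    · show (s : F) * e * (y : F) ^ (n + 1) - (s : F) * algebraMap A F t * (c : F) ^ (n + 1) = _
      have h3 : (s : F) * e * (y : F) ^ (n + 1) = (s : F) * (e * (y : F) ^ (n + 1)) := by ring
      rw [h3, he, hεw]
      ring
  have h3 : d ∈ 𝔫 := by
    have h4 : d = b - (b - d) := by ring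
    rw [h4]
    exact 𝔫.sub_mem h1 h2
  rcases h𝔫.mem_or_mem h3 with h5 | h5
  · rcases h𝔫.mem_or_mem h5 with h6 | h6
    · exact hs h6
    · exact h𝔫.ne_top (Ideal.eq_top_of_isUnit_mem _ h6 (ht.map (algebraMap A B)))
  · exact hc (h𝔫.mem_of_pow_mem _ h5)

/-- integral powers of a unit of a subring. -/
theorem h13x_zpow_mem (W : Subring F) {a : F} (ha : a ∈ W) (ha' : a⁻¹ ∈ W) (z : ℤ) :
    a ^ z ∈ W := by
  obtain ⟨n, rfl | rfl⟩ := z.eq_nat_or_neg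
  · rw [zpow_natCast]; exact W.pow_mem ha n
  · rw [zpow_neg, zpow_natCast, ← inv_pow]; exact W.pow_mem ha' n

/-- `1 + π' W ⊆ 1 + π W` if `π ∣ π'`, for a subring `W` containing the constants. -/
theorem h13x_U_of_dvd (W : Subring F) (hAW : ∀ a : A, algebraMap A F a ∈ W) {π π' : A}
    (h : π ∣ π') {x : F} (hx : x ∈ h26U π' W) : x ∈ h26U π W := by
  obtain ⟨a, rfl⟩ := h
  obtain ⟨y, hy, rfl⟩ := hx
  exact ⟨algebraMap A F a * y, W.mul_mem (hAW a) hy, by rw [map_mul]; ring⟩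

/-- `(1 + π W∞) ∩ (1 + π W₀) = 1 + π (W∞ ∩ W₀)`. -/
theorem h13x_U_inter (hAF : Function.Injective (algebraMap A F)) (Winf W0 : Subring F)
    (hWV : ∀ x : F, x ∈ Winf → x ∈ W0 → x ∈ V) (π : A) (hπ0 : π ≠ 0) {g : F}
    (h1 : g ∈ h26U π Winf) (h2 : g ∈ h26U π W0) : g ∈ h26U π V := by
  obtain ⟨w₁, hw₁, hg₁⟩ := h1
  obtain ⟨w₂, hw₂, hg₂⟩ := h2
  have hπF : algebraMap A F π ≠ 0 := fun h => hπ0 (hAF (by rw [h, map_zero]))
  have h3 : w₁ = w₂ := by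
    have h4 : algebraMap A F π * w₁ = algebraMap A F π * w₂ := by
      have := hg₁.symm.trans hg₂
      linear_combination this
    exact mul_left_cancel₀ hπF h4
  exact ⟨w₁, hWV w₁ hw₁ (h3 ▸ hw₂), hg₁⟩

/-- **Normal form at a node.**  A function `u ≡ 1` modulo `π₀ V` whose divisor is divisible by
`r` is, at a node `𝔫`, of the form `u = e · g₁ ^ r` with `e` a unit of `B_𝔫` (a Gauss unit
without zeros or poles centered at `𝔫`), `g₁ ≡ 1` on the first branch and `g₁ ≡ (unit constant)`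
on the second branch. -/
theorem h13x_node_normal
    (hC : H26Chart B V v) (hAF : Function.Injective (algebraMap A F))
    (Winf W0 : Subring F)
    (hVWinf : ∀ x ∈ V, x ∈ Winf) (hVW0 : ∀ x ∈ V, x ∈ W0)
    (hWV : ∀ x : F, x ∈ Winf → x ∈ W0 → x ∈ V)
    (hinvinf : ∀ π ∈ maximalIdeal A, ∀ x ∈ Winf, (1 + algebraMap A F π * x)⁻¹ ∈ Winf)
    (hinv0 : ∀ π ∈ maximalIdeal A, ∀ x ∈ W0, (1 + algebraMap A F π * x)⁻¹ ∈ W0)
    (hntinf : ∀ π ∈ maximalIdeal A, ∀ x ∈ Winf, algebraMap A F π * x ≠ 1)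
    (hnt0 : ∀ π ∈ maximalIdeal A, ∀ x ∈ W0, algebraMap A F π * x ≠ 1)
    (𝔫 : Ideal B) [h𝔫 : 𝔫.IsPrime] (h𝔪𝔫 : (maximalIdeal A).map (algebraMap A B) ≤ 𝔫)
    (hninf : ∀ b : B, b ∉ 𝔫 → ((b : F))⁻¹ ∈ Winf)
    (hn0 : ∀ b : B, b ∉ 𝔫 → ((b : F))⁻¹ ∈ W0)
    (x y c : B) (hx : x ∈ 𝔫) (hy : y ∈ 𝔫) (hc : c ∉ 𝔫) (a : A) (ha : a ≠ 0)
    (hxy : x * y = algebraMap A B a * c)
    (hxinf : ((x : F))⁻¹ ∈ Winf) (hy0 : ((y : F))⁻¹ ∈ W0)
    (hprin : ∀ z ∈ 𝔫, ∃ s, s ∉ 𝔫 ∧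
      s * z ∈ Ideal.span {x, y} ⊔ (maximalIdeal A).map (algebraMap A B))
    (hsec : ∀ i, h26Centered B v 𝔫 i → ∃ φ : B →ₐ[A] A,
      (∀ b : B, φ b = 0 ↔ v i (b : F) < 1) ∧ (RingHom.ker (φ : B →+* A)).FG)
    (u : F) (hu : u ≠ 0) (r : ℕ) (hr : 0 < r)
    (hru : ∀ i, ∃ n : ℤ, v i u = exp (-((r : ℤ) * n)))
    (π₀ : A) (hπ₀ : π₀ ∈ maximalIdeal A) (hπ₀0 : π₀ ≠ 0) (huU : u ∈ h26U π₀ V) :
    ∃ π ∈ maximalIdeal A, π ≠ 0 ∧ π ∣ π₀ ∧ ∃ (g₁ e ε0 : F) (tα : A),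
      u = e * g₁ ^ r ∧ (∀ k, h26Centered B v 𝔫 k → v k e = 1) ∧ e ∈ V ∧ e⁻¹ ∈ V ∧
      g₁ ∈ h26U π Winf ∧ IsUnit tα ∧ ε0 ∈ h26U π W0 ∧ g₁ = algebraMap A F tα * ε0 := by
  classical
  have hAV : ∀ a : A, algebraMap A F a ∈ V := fun a => hC.hBV _ (B.algebraMap_mem a)
  have hAinf : ∀ a : A, algebraMap A F a ∈ Winf := fun a => hVWinf _ (hAV a)
  have hA0 : ∀ a : A, algebraMap A F a ∈ W0 := fun a => hVW0 _ (hAV a)
  have hBinf : ∀ b : B, (b : F) ∈ Winf := fun b => hVWinf _ (hC.hBV _ b.2)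
  have hB0 : ∀ b : B, (b : F) ∈ W0 := fun b => hVW0 _ (hC.hBV _ b.2)
  have haF : algebraMap A F a ≠ 0 := fun h => ha (hAF (by rw [h, map_zero]))
  have hc0 : (c : F) ≠ 0 := by
    intro h0
    apply hc
    have : c = 0 := Subtype.ext h0
    rw [this]; exact 𝔫.zero_mem
  have hxyF : (x : F) * (y : F) = algebraMap A F a * (c : F) := by
    have := congrArg (Subtype.val) hxy
    simpa using this
  have hx0 : (x : F) ≠ 0 := by
    intro h0
    rw [h0, zero_mul] at hxyF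
    exact mul_ne_zero haF hc0 hxyF.symm
  have hy0' : (y : F) ≠ 0 := by
    intro h0
    rw [h0, mul_zero] at hxyF
    exact mul_ne_zero haF hc0 hxyF.symm
  -- the data at the centered places
  have hdata : ∀ i : ι, ∃ ai bi gi : A, h26Centered B v 𝔫 i →
      ai ∈ maximalIdeal A ∧ bi ∈ maximalIdeal A ∧ IsUnit gi ∧ ai * bi = a * gi ∧
      v i (x : F) = 1 ∧
      v i ((x : F) - algebraMap A F ai) = exp (-1 : ℤ) ∧
      (∀ k, h26Centered B v 𝔫 k → k ≠ i → v k ((x : F) - algebraMap A F ai) = 1) := by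
    intro i
    by_cases hi : h26Centered B v 𝔫 i
    · obtain ⟨φ, hφker, hφfg⟩ := hsec i hi
      have hkerle : RingHom.ker (φ : B →+* A) ≤ 𝔫 := fun b hb => hi b ((hφker b).mp hb)
      have hφ𝔫 := h26_section_local 𝔫 φ hkerle
      have hconst : ∀ k, h26Centered B v 𝔫 k → v k (algebraMap A F a) = 1 := by
        intro k hk
        obtain ⟨ψ, hψker, -⟩ := hsec k hk
        exact h75p_const_of_section hC.hB k ψ hψker a ha
      have hφxy : φ x * φ y = a * φ c := by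
        have := congrArg φ hxy
        rw [map_mul, map_mul, AlgHom.commutes] at this
        exact this
      have hφc : IsUnit (φ c) := by
        by_contra hnu
        have hm : φ c ∈ maximalIdeal A := hnu
        apply hc
        have h1 : c - algebraMap A B (φ c) ∈ 𝔫 := by
          apply hkerle
          rw [RingHom.mem_ker]
          show φ (c - algebraMap A B (φ c)) = 0
          rw [map_sub, AlgHom.commutes]
          exact sub_self _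
        have h2 : algebraMap A B (φ c) ∈ 𝔫 := h𝔪𝔫 (Ideal.mem_map_of_mem _ hm)
        have h3 : c = (c - algebraMap A B (φ c)) + algebraMap A B (φ c) := by ring
        rw [h3]
        exact 𝔫.add_mem h1 h2
      refine ⟨φ x, φ y, φ c, fun _ => ⟨hφ𝔫 x hx, hφ𝔫 y hy, hφc, hφxy, ?_,
        h75p_lp_node hC 𝔫 h𝔪𝔫 x y c hx hy hc a hxy hconst hprin i hi φ hφker hφfg⟩⟩
      refine le_antisymm (hC.hB _ x.2 i) (not_lt.mp fun hlt => ?_)
      have h1 : φ x = 0 := (hφker x).mpr hlt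
      rw [h1, zero_mul] at hφxy
      exact mul_ne_zero ha hφc.ne_zero hφxy.symm
    · exact ⟨0, 0, 0, fun h => (hi h).elim⟩
  choose ai bi gi hdat using hdata
  choose n hn using hru
  set Z : Finset ι := (h26_finite_support hC u hu).toFinset with hZ
  set T : Finset ι := Z.filter (fun i => h26Centered B v 𝔫 i) with hT
  have hTc : ∀ i ∈ T, h26Centered B v 𝔫 i := fun i hi => (Finset.mem_filter.mp hi).2
  have hu1 : ∀ k, h26Centered B v 𝔫 k → k ∉ T → v k u = 1 := by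
    intro k hk hkT
    by_contra hne
    apply hkT
    rw [hT, Finset.mem_filter, hZ, Set.Finite.mem_toFinset]
    exact ⟨hne, hk⟩
  -- the common modulus
  obtain ⟨d₁, hd₁, hd₁0, hd₁π, hd₁a⟩ := h26_common_divisor T ai
    (fun i hi => (hdat i (hTc i hi)).1) π₀ hπ₀ hπ₀0
  obtain ⟨π, hπ, hπ0, hπd, hπb⟩ := h26_common_divisor T bi
    (fun i hi => (hdat i (hTc i hi)).2.1) d₁ hd₁ hd₁0
  have hππ₀ : π ∣ π₀ := hπd.trans hd₁π
  have hπa : ∀ i ∈ T, π ∣ ai i := fun i hi => hπd.trans (hd₁a i hi)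
  have hπinf : algebraMap A F π ∈ Winf := hAinf π
  have hπW0 : algebraMap A F π ∈ W0 := hA0 π
  -- the functions of (LP)
  set G : ι → F := fun i => (x : F) - algebraMap A F (ai i) with hG
  have hG1 : ∀ i ∈ T, v i (G i) = exp (-1 : ℤ) := fun i hi => (hdat i (hTc i hi)).2.2.2.2.2.1
  have hG2 : ∀ i ∈ T, ∀ k, h26Centered B v 𝔫 k → k ≠ i → v k (G i) = 1 := fun i hi =>
    (hdat i (hTc i hi)).2.2.2.2.2.2
  set g₁ : F := ∏ i ∈ T, G i ^ n i with hg₁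
  set sT : ℤ := ∑ i ∈ T, n i with hsT
  have hai0 : ∀ i ∈ T, algebraMap A F (ai i) ≠ 0 := by
    intro i hi h0
    have h1 : ai i = 0 := hAF (by rw [h0, map_zero])
    have h2 := (hdat i (hTc i hi)).2.2.2.1
    rw [h1, zero_mul] at h2
    exact mul_ne_zero ha (hdat i (hTc i hi)).2.2.1.ne_zero h2.symm
  -- the first branch
  set ηinf : ι → F := fun i => 1 - algebraMap A F (ai i) * ((x : F))⁻¹ with hηinf
  have hηinfU : ∀ i ∈ T, ηinf i ∈ h26U π Winf := by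
    intro i hi
    obtain ⟨q, hq⟩ := hπa i hi
    refine ⟨-(algebraMap A F q * ((x : F))⁻¹),
      Winf.neg_mem (Winf.mul_mem (hAinf q) hxinf), ?_⟩
    rw [hηinf]
    simp only
    rw [hq, map_mul]
    ring
  have hGinf : ∀ i, G i = (x : F) * ηinf i := by
    intro i
    rw [hG, hηinf]
    simp only
    field_simp
  set εinf : F := ∏ i ∈ T, ηinf i ^ n i with hεinf
  have hεinfU : εinf ∈ h26U π Winf :=
    h26U_prod hπinf T _ fun i hi =>
      h26U_zpow hπinf (hinvinf π hπ) (hntinf π hπ) (hηinfU i hi) _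
  have hg₁inf : g₁ = (x : F) ^ sT * εinf := by
    rw [hg₁, hεinf, hsT, ← h26_prod_zpow_const T (x : F) hx0 n, ← Finset.prod_mul_distrib]
    refine Finset.prod_congr rfl fun i _ => ?_
    rw [hGinf i, mul_zpow]
  -- the second branch
  set η0 : ι → F := fun i => 1 - (x : F) * (algebraMap A F (ai i))⁻¹ with hη0
  have hη0U : ∀ i ∈ T, η0 i ∈ h26U π W0 := by
    intro i hi
    obtain ⟨q, hq⟩ := hπb i hi
    obtain ⟨gi', hgi'⟩ := (hdat i (hTc i hi)).2.2.1.exists_right_inv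
    have hab := (hdat i (hTc i hi)).2.2.2.1
    have habF : algebraMap A F (ai i) * algebraMap A F (bi i) =
        algebraMap A F a * algebraMap A F (gi i) := by
      rw [← map_mul, ← map_mul, hab]
    have hgF : algebraMap A F (gi i) * algebraMap A F gi' = 1 := by
      rw [← map_mul, hgi', map_one]
    refine ⟨-(algebraMap A F q * algebraMap A F gi' * (c : F) * ((y : F))⁻¹),
      W0.neg_mem (W0.mul_mem (W0.mul_mem (W0.mul_mem (hA0 q) (hA0 gi')) (hB0 c)) hy0), ?_⟩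
    rw [hη0]
    simp only
    have hai := hai0 i hi
    have hbq : algebraMap A F (bi i) = algebraMap A F π * algebraMap A F q := by
      rw [← map_mul, hq]
    have hxval : (x : F) = algebraMap A F a * (c : F) * ((y : F))⁻¹ := by
      field_simp
      exact hxyF
    have key : (x : F) * (algebraMap A F (ai i))⁻¹ =
        algebraMap A F π * (algebraMap A F q * algebraMap A F gi' * (c : F) * ((y : F))⁻¹) := by
      have h1 : algebraMap A F a = algebraMap A F (ai i) * algebraMap A F (bi i) *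
          algebraMap A F gi' := by
        rw [habF, mul_assoc, hgF, mul_one]
      rw [hxval, h1, hbq]
      field_simp
    rw [key]
    ring
  have hG0 : ∀ i ∈ T, G i = (-algebraMap A F (ai i)) * η0 i := by
    intro i hi
    have hai := hai0 i hi
    rw [hG, hη0]
    simp only
    field_simp
    ring
  set α : F := ∏ i ∈ T, (-algebraMap A F (ai i)) ^ n i with hα
  set ε0 : F := ∏ i ∈ T, η0 i ^ n i with hε0
  have hε0U : ε0 ∈ h26U π W0 :=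
    h26U_prod hπW0 T _ fun i hi =>
      h26U_zpow hπW0 (hinv0 π hπ) (hnt0 π hπ) (hη0U i hi) _
  have hg₁0 : g₁ = α * ε0 := by
    rw [hg₁, hα, hε0, ← Finset.prod_mul_distrib]
    refine Finset.prod_congr rfl fun i hi => ?_
    rw [hG0 i hi, mul_zpow]
  have hαc : h13x_IsConst A α :=
    h13x_isConst_prod T _ fun i _ =>
      h13x_isConst_zpow hAF (h13x_isConst_neg (h13x_isConst_algebraMap (ai i))) _
  have hα0 : α ≠ 0 := by
    rw [hα]
    exact Finset.prod_ne_zero_iff.mpr fun i hi =>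
      zpow_ne_zero _ (neg_ne_zero.mpr (hai0 i hi))
  have hGi0 : ∀ i ∈ T, G i ≠ 0 := by
    intro i hi h0
    have h1 := hG1 i hi
    rw [h0, map_zero] at h1
    exact exp_ne_zero h1.symm
  have hg₁0' : g₁ ≠ 0 := by
    rw [hg₁]
    exact Finset.prod_ne_zero_iff.mpr fun i hi => zpow_ne_zero _ (hGi0 i hi)
  -- the function `e`
  set e : F := u * (g₁ ^ r)⁻¹ with he
  have hval_e : ∀ k, h26Centered B v 𝔫 k → v k e = 1 := fun k hk =>
    h75s_val_one 𝔫 T G hG1 hG2 u r n (fun i _ => hn i) hu1 k hk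
  have hue : u = e * g₁ ^ r := by
    rw [he, mul_assoc, inv_mul_cancel₀ (pow_ne_zero _ hg₁0'), mul_one]
  have huinf : u ∈ h26U π Winf := by
    obtain ⟨w, hw, huw⟩ := h75s_U_of_dvd hAV hππ₀ huU
    exact ⟨w, hVWinf _ hw, huw⟩
  have hu0 : u ∈ h26U π W0 := by
    obtain ⟨w, hw, huw⟩ := h75s_U_of_dvd hAV hππ₀ huU
    exact ⟨w, hVW0 _ hw, huw⟩
  -- `e₁ = e x ^ (r sT)`
  set z : ℤ := (r : ℤ) * sT with hz
  set e₁ : F := e * (x : F) ^ z with he₁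
  have hεinfr : (εinf ^ r)⁻¹ ∈ h26U π Winf :=
    h26U_inv (hinvinf π hπ) (hntinf π hπ) (h26U_pow hπinf hεinfU r)
  have hε0r : (ε0 ^ r)⁻¹ ∈ h26U π W0 :=
    h26U_inv (hinv0 π hπ) (hnt0 π hπ) (h26U_pow hπW0 hε0U r)
  have hεinf0 : εinf ≠ 0 := h26U_ne_zero (hntinf π hπ) hεinfU
  have hε00 : ε0 ≠ 0 := h26U_ne_zero (hnt0 π hπ) hε0U
  have hxz : ((x : F) ^ sT) ^ r = (x : F) ^ z := by
    rw [hz, ← zpow_natCast, ← zpow_mul, mul_comm]
  have he₁inf : e₁ = u * (εinf ^ r)⁻¹ := by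
    rw [he₁, he, hg₁inf, mul_pow, hxz]
    have h1 : (x : F) ^ z ≠ 0 := zpow_ne_zero _ hx0
    field_simp
  have he₁U : e₁ ∈ h26U π Winf := by
    rw [he₁inf]
    exact h26U_mul hπinf huinf hεinfr
  set θ : F := (algebraMap A F a) ^ z * (α ^ r)⁻¹ with hθ
  set ρ : F := ((c : F) * ((y : F))⁻¹) ^ z with hρ
  set ε : F := u * (ε0 ^ r)⁻¹ with hε
  have hεU : ε ∈ h26U π W0 := h26U_mul hπW0 hu0 hε0r
  have hxcy : (x : F) = algebraMap A F a * ((c : F) * ((y : F))⁻¹) := by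
    field_simp
    exact hxyF
  have he₁0 : e₁ = θ * ρ * ε := by
    rw [he₁, he, hg₁0, mul_pow, hθ, hρ, hε]
    have h1 : (x : F) ^ z = (algebraMap A F a) ^ z * ((c : F) * ((y : F))⁻¹) ^ z := by
      rw [← mul_zpow, ← hxcy]
    rw [h1]
    have h2 : α ^ r ≠ 0 := pow_ne_zero _ hα0
    have h3 : ε0 ^ r ≠ 0 := pow_ne_zero _ hε00
    field_simp
  have hθc : h13x_IsConst A θ :=
    h13x_isConst_mul (h13x_isConst_zpow hAF (h13x_isConst_algebraMap a) _)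
      (h13x_isConst_inv hAF (h13x_isConst_pow hαc r))
  have hθ0 : θ ≠ 0 := mul_ne_zero (zpow_ne_zero _ haF) (inv_ne_zero (pow_ne_zero _ hα0))
  have hcy : (c : F) * ((y : F))⁻¹ ∈ W0 := W0.mul_mem (hB0 c) hy0
  have hcy' : ((c : F) * ((y : F))⁻¹)⁻¹ ∈ W0 := by
    rw [mul_inv, inv_inv]
    exact W0.mul_mem (hn0 c hc) (hB0 y)
  have hρW : ρ ∈ W0 := h13x_zpow_mem W0 hcy hcy' z
  have hρW' : ρ⁻¹ ∈ W0 := by
    rw [hρ, ← zpow_neg]
    exact h13x_zpow_mem W0 hcy hcy' (-z)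
  have hvalx : ∀ k, h26Centered B v 𝔫 k → v k (x : F) = 1 := fun k hk =>
    (hdat k hk).2.2.2.2.1
  have hval_e₁ : ∀ k, h26Centered B v 𝔫 k → v k e₁ = 1 := by
    intro k hk
    rw [he₁, map_mul, map_zpow₀, hval_e k hk, hvalx k hk, one_zpow, mul_one]
  obtain ⟨t, htu, hθt⟩ := h13x_const_unit hC hAF Winf W0 hVWinf hVW0 hWV hinvinf hinv0 hntinf
    hnt0 𝔫 hninf hn0 e₁ hval_e₁ π hπ he₁U θ ρ ε hθc hθ0 hρW hρW' hεU he₁0
  obtain ⟨t', htt'⟩ := htu.exists_right_inv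
  have ht'u : IsUnit t' := IsUnit.of_mul_eq_one t (by rw [mul_comm]; exact htt')
  have htF : algebraMap A F t * algebraMap A F t' = 1 := by rw [← map_mul, htt', map_one]
  have htF0 : algebraMap A F t ≠ 0 := left_ne_zero_of_mul_eq_one htF
  have hε' : ε⁻¹ ∈ h26U π W0 := h26U_inv (hinv0 π hπ) (hnt0 π hπ) hεU
  have he₁' : e₁⁻¹ ∈ h26U π Winf := h26U_inv (hinvinf π hπ) (hntinf π hπ) he₁U
  have he₁V : e₁ ∈ V := by
    refine hWV e₁ (h26U_mem_V hπinf he₁U) ?_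
    rw [he₁0, hθt]
    exact W0.mul_mem (W0.mul_mem (hA0 t) hρW) (h26U_mem_V hπW0 hεU)
  have hθinv : θ⁻¹ = algebraMap A F t' := by
    rw [hθt]
    exact inv_eq_of_mul_eq_one_right htF
  have he₁V' : e₁⁻¹ ∈ V := by
    refine hWV _ (h26U_mem_V hπinf he₁') ?_
    rw [he₁0, mul_inv, mul_inv, hθinv]
    exact W0.mul_mem (W0.mul_mem (hA0 t') hρW') (h26U_mem_V hπW0 hε')
  obtain ⟨s, hs, hse, hse'⟩ := h75s_unit_aux hC.hfin hC.hint hC.hB hC.hBV hC.hQEP 𝔫 e₁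
    he₁V he₁V' hval_e₁
  -- the slope vanishes
  have hz0 : z = 0 := by
    rcases lt_trichotomy z 0 with hlt | heq | hgt
    · exfalso
      obtain ⟨m, hm⟩ : ∃ m : ℕ, z = -((m : ℤ) + 1) := ⟨(-z - 1).toNat, by omega⟩
      refine h13x_slope_aux W0 hB0 hnt0 𝔫 hn0 y c hy hc e₁⁻¹ s hs hse' π hπ t' ht'u m ε⁻¹ hε' ?_
      rw [he₁0, mul_inv, mul_inv, hθinv, hρ, hm, zpow_neg, inv_inv]
      have h1 : ((c : F) * ((y : F))⁻¹) ^ ((m : ℤ) + 1) =
          (c : F) ^ (m + 1) * (((y : F)) ^ (m + 1))⁻¹ := by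
        rw [show ((m : ℤ) + 1) = ((m + 1 : ℕ) : ℤ) by push_cast; ring, zpow_natCast, mul_pow,
          inv_pow]
      rw [h1]
      have h2 : (y : F) ^ (m + 1) ≠ 0 := pow_ne_zero _ hy0'
      field_simp
    · exact heq
    · exfalso
      obtain ⟨m, hm⟩ : ∃ m : ℕ, z = (m : ℤ) + 1 := ⟨(z - 1).toNat, by omega⟩
      refine h13x_slope_aux W0 hB0 hnt0 𝔫 hn0 y c hy hc e₁ s hs hse π hπ t htu m ε hεU ?_
      rw [he₁0, hθt, hρ, hm]
      have h1 : ((c : F) * ((y : F))⁻¹) ^ ((m : ℤ) + 1) =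
          (c : F) ^ (m + 1) * (((y : F)) ^ (m + 1))⁻¹ := by
        rw [show ((m : ℤ) + 1) = ((m + 1 : ℕ) : ℤ) by push_cast; ring, zpow_natCast, mul_pow,
          inv_pow]
      rw [h1]
      have h2 : (y : F) ^ (m + 1) ≠ 0 := pow_ne_zero _ hy0'
      field_simp
  have hsT0 : sT = 0 := by
    have h1 : (r : ℤ) ≠ 0 := by exact_mod_cast hr.ne'
    rcases mul_eq_zero.mp hz0 with h | h
    · exact absurd h h1
    · exact h
  -- consequences
  have he₁e : e₁ = e := by rw [he₁, hz0, zpow_zero, mul_one]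
  have hg₁U : g₁ ∈ h26U π Winf := by
    rw [hg₁inf, hsT0, zpow_zero, one_mul]
    exact hεinfU
  -- `α` is a unit constant
  have hαr : α ^ r = algebraMap A F t' := by
    have h1 : θ = (α ^ r)⁻¹ := by rw [hθ, hz0, zpow_zero, one_mul]
    rw [← hθinv, h1, inv_inv]
  obtain ⟨tα, htα, hαt⟩ : ∃ tα : A, IsUnit tα ∧ α = algebraMap A F tα := by
    obtain ⟨p, hp0, hp | hp⟩ := h13x_const_dichotomy hAF hαc hα0
    · refine ⟨p, ?_, hp⟩
      have h1 : p ^ r = t' := by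
        apply hAF
        rw [map_pow, ← hp, hαr]
      exact (isUnit_pow_iff hr.ne').mp (h1 ▸ ht'u)
    · have h1 : p ^ r = t := by
        apply hAF
        rw [map_pow, ← hp, inv_pow, hαr]
        exact (inv_eq_of_mul_eq_one_left htF).symm ▸ rfl
      have hpu : IsUnit p := (isUnit_pow_iff hr.ne').mp (h1 ▸ htu)
      obtain ⟨p', hpp'⟩ := hpu.exists_right_inv
      refine ⟨p', IsUnit.of_mul_eq_one p (by rw [mul_comm]; exact hpp'), ?_⟩
      have h2 : algebraMap A F p * algebraMap A F p' = 1 := by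
        rw [← map_mul, hpp', map_one]
      rw [← hp] at h2
      have h3 : α = (α⁻¹)⁻¹ := (inv_inv α).symm
      rw [h3]
      exact inv_eq_of_mul_eq_one_right h2
  refine ⟨π, hπ, hπ0, hππ₀, g₁, e, ε0, tα, hue, hval_e, he₁e ▸ he₁V, he₁e ▸ he₁V', hg₁U, htα,
    hε0U, ?_⟩
  rw [hg₁0, hαt]

/-- **The Frobenius datum at a node**: the hypothesis `hnode` of the gate
`h63_gate_asm_ss` for `w = τ u / u ^ Q`, `u ≡ 1` modulo `π₀ V` with divisor divisible by `r`,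
`τ` a `Q`-Frobenius which fixes the node. -/
theorem h13x_node_frob
    (hC : H26Chart B V v) (hAF : Function.Injective (algebraMap A F))
    (Winf W0 : Subring F)
    (hVWinf : ∀ x ∈ V, x ∈ Winf) (hVW0 : ∀ x ∈ V, x ∈ W0)
    (hWV : ∀ x : F, x ∈ Winf → x ∈ W0 → x ∈ V)
    (hinvinf : ∀ π ∈ maximalIdeal A, ∀ x ∈ Winf, (1 + algebraMap A F π * x)⁻¹ ∈ Winf)
    (hinv0 : ∀ π ∈ maximalIdeal A, ∀ x ∈ W0, (1 + algebraMap A F π * x)⁻¹ ∈ W0)
    (hntinf : ∀ π ∈ maximalIdeal A, ∀ x ∈ Winf, algebraMap A F π * x ≠ 1)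
    (hnt0 : ∀ π ∈ maximalIdeal A, ∀ x ∈ W0, algebraMap A F π * x ≠ 1)
    (𝔫 : Ideal B) [h𝔫 : 𝔫.IsPrime] (h𝔪𝔫 : (maximalIdeal A).map (algebraMap A B) ≤ 𝔫)
    (hninf : ∀ b : B, b ∉ 𝔫 → ((b : F))⁻¹ ∈ Winf)
    (hn0 : ∀ b : B, b ∉ 𝔫 → ((b : F))⁻¹ ∈ W0)
    (x y c : B) (hx : x ∈ 𝔫) (hy : y ∈ 𝔫) (hc : c ∉ 𝔫) (a : A) (ha : a ≠ 0)
    (hxy : x * y = algebraMap A B a * c)
    (hxinf : ((x : F))⁻¹ ∈ Winf) (hy0 : ((y : F))⁻¹ ∈ W0)
    (hprin : ∀ z ∈ 𝔫, ∃ s, s ∉ 𝔫 ∧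
      s * z ∈ Ideal.span {x, y} ⊔ (maximalIdeal A).map (algebraMap A B))
    (hsec : ∀ i, h26Centered B v 𝔫 i → ∃ φ : B →ₐ[A] A,
      (∀ b : B, φ b = 0 ↔ v i (b : F) < 1) ∧ (RingHom.ker (φ : B →+* A)).FG)
    (τ : F ≃+* F) (Q : ℕ) (hQ : 0 < Q)
    (hτinf : ∀ x ∈ Winf, τ x ∈ Winf) (hτ0 : ∀ x ∈ W0, τ x ∈ W0)
    (hτA : ∀ a : A, ∃ d ∈ maximalIdeal A, τ (algebraMap A F a) = algebraMap A F (a ^ Q + d))
    (hperm : ∀ h : F, (∀ k, h26Centered B v 𝔫 k → v k h = 1) →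
      ∀ k, h26Centered B v 𝔫 k → v k (τ h) = 1)
    (u : F) (hu : u ≠ 0) (r : ℕ) (hr : 0 < r)
    (hru : ∀ i, ∃ n : ℤ, v i u = exp (-((r : ℤ) * n)))
    (π₀ : A) (hπ₀ : π₀ ∈ maximalIdeal A) (hπ₀0 : π₀ ≠ 0) (huU : u ∈ h26U π₀ V) :
    ∃ π ∈ maximalIdeal A, π ≠ 0 ∧ π ∣ π₀ ∧ ∃ g ∈ h26U π V, ∃ s : B, s ∉ 𝔫 ∧
      (s : F) * (τ u * (u ^ Q)⁻¹ * (g ^ r)⁻¹) ∈ B ∧
      (s : F) * (g ^ r * (τ u * (u ^ Q)⁻¹)⁻¹) ∈ B := by
  classical
  have hAV : ∀ a : A, algebraMap A F a ∈ V := fun a => hC.hBV _ (B.algebraMap_mem a)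
  have hAinf : ∀ a : A, algebraMap A F a ∈ Winf := fun a => hVWinf _ (hAV a)
  have hA0 : ∀ a : A, algebraMap A F a ∈ W0 := fun a => hVW0 _ (hAV a)
  have hτV : ∀ x ∈ V, τ x ∈ V := fun x hx => hWV _ (hτinf x (hVWinf x hx)) (hτ0 x (hVW0 x hx))
  obtain ⟨π, hπ, hπ0, hππ₀, g₁, e, ε0, tα, hue, hval_e, heV, heV', hg₁U, htα, hε0U, hg₁α⟩ :=
    h13x_node_normal hC hAF Winf W0 hVWinf hVW0 hWV hinvinf hinv0 hntinf hnt0 𝔫 h𝔪𝔫 hninf hn0
      x y c hx hy hc a ha hxy hxinf hy0 hprin hsec u hu r hr hru π₀ hπ₀ hπ₀0 huU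
  have hπF : algebraMap A F π ≠ 0 := fun h => hπ0 (hAF (by rw [h, map_zero]))
  -- the Frobenius on the constants `π` and `tα`
  obtain ⟨d₁, hd₁, hτπ⟩ := hτA π
  obtain ⟨δ, hδ, hτα⟩ := hτA tα
  set π' : A := π ^ Q + d₁ with hπ'
  have hπ'm : π' ∈ maximalIdeal A :=
    (maximalIdeal A).add_mem (Ideal.pow_mem_of_mem _ hπ Q hQ) hd₁
  have hπ'0 : π' ≠ 0 := by
    intro h0
    rw [h0, map_zero] at hτπ
    exact hπF ((map_eq_zero_iff τ τ.injective).mp hτπ)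
  -- the common modulus
  obtain ⟨ϖ₁, hϖ₁, hϖ₁0, hϖ₁π, hϖ₁c⟩ := h26_common_divisor ({0, 1} : Finset (Fin 2))
    (fun i => if i = 0 then π' else δ)
    (fun i _ => by by_cases h : i = 0 <;> simp [h, hπ'm, hδ]) π hπ hπ0
  have hϖπ' : ϖ₁ ∣ π' := by simpa using hϖ₁c 0 (by simp)
  have hϖδ : ϖ₁ ∣ δ := by simpa using hϖ₁c 1 (by simp)
  have hϖinf : algebraMap A F ϖ₁ ∈ Winf := hAinf ϖ₁
  have hϖW0 : algebraMap A F ϖ₁ ∈ W0 := hA0 ϖ₁
  -- `τ` maps `1 + π W` into `1 + π' W`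
  have hτU : ∀ (W : Subring F), (∀ x ∈ W, τ x ∈ W) → ∀ f ∈ h26U π W, τ f ∈ h26U π' W := by
    rintro W hW f ⟨w, hw, rfl⟩
    exact ⟨τ w, hW w hw, by rw [map_add, map_one, map_mul, hτπ]⟩
  set g : F := τ g₁ * (g₁ ^ Q)⁻¹ with hg
  -- first branch
  have hginf : g ∈ h26U ϖ₁ Winf := by
    refine h26U_mul hϖinf (h13x_U_of_dvd Winf hAinf hϖπ' (hτU Winf hτinf g₁ hg₁U)) ?_
    exact h26U_inv (hinvinf ϖ₁ hϖ₁) (hntinf ϖ₁ hϖ₁)
      (h26U_pow hϖinf (h13x_U_of_dvd Winf hAinf hϖ₁π hg₁U) Q)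
  -- second branch
  obtain ⟨tα', htα'⟩ := htα.exists_right_inv
  have htαF : algebraMap A F tα * algebraMap A F tα' = 1 := by
    rw [← map_mul, htα', map_one]
  have htαF0 : algebraMap A F tα ≠ 0 := left_ne_zero_of_mul_eq_one htαF
  have hε00 : ε0 ≠ 0 := h26U_ne_zero (hnt0 π hπ) hε0U
  have hconst : τ (algebraMap A F tα) * ((algebraMap A F tα) ^ Q)⁻¹ ∈ h26U ϖ₁ W0 := by
    obtain ⟨q, hq⟩ := hϖδ
    refine ⟨algebraMap A F q * (algebraMap A F tα') ^ Q,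
      W0.mul_mem (hA0 q) (W0.pow_mem (hA0 tα') Q), ?_⟩
    rw [hτα, map_add, map_pow, hq, map_mul]
    have h1 : ((algebraMap A F tα) ^ Q)⁻¹ = (algebraMap A F tα') ^ Q := by
      rw [← inv_pow]
      congr 1
      exact inv_eq_of_mul_eq_one_right htαF
    rw [h1]
    have h2 : (algebraMap A F tα) ^ Q * (algebraMap A F tα') ^ Q = 1 := by
      rw [← mul_pow, htαF, one_pow]
    linear_combination h2
  have hg0 : g ∈ h26U ϖ₁ W0 := by
    have h1 : g = (τ (algebraMap A F tα) * ((algebraMap A F tα) ^ Q)⁻¹) *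
        (τ ε0 * (ε0 ^ Q)⁻¹) := by
      rw [hg, hg₁α, map_mul, mul_pow]
      have h3 : (algebraMap A F tα) ^ Q ≠ 0 := pow_ne_zero _ htαF0
      have h4 : ε0 ^ Q ≠ 0 := pow_ne_zero _ hε00
      field_simp
    rw [h1]
    refine h26U_mul hϖW0 hconst (h26U_mul hϖW0
      (h13x_U_of_dvd W0 hA0 hϖπ' (hτU W0 hτ0 ε0 hε0U)) ?_)
    exact h26U_inv (hinv0 ϖ₁ hϖ₁) (hnt0 ϖ₁ hϖ₁)
      (h26U_pow hϖW0 (h13x_U_of_dvd W0 hA0 hϖ₁π hε0U) Q)
  have hgU : g ∈ h26U ϖ₁ V := h13x_U_inter hAF Winf W0 hWV ϖ₁ hϖ₁0 hginf hg0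
  -- the unit `D = τ e / e ^ Q`
  set D : F := τ e * (e ^ Q)⁻¹ with hD
  have he0 : e ≠ 0 := by
    intro h0
    rw [h0, zero_mul] at hue
    exact hu hue
  have hg₁0 : g₁ ≠ 0 := h26U_ne_zero (hntinf π hπ) hg₁U
  have hDV : D ∈ V := by
    rw [hD, ← inv_pow]
    exact V.mul_mem (hτV e heV) (V.pow_mem heV' Q)
  have hDV' : D⁻¹ ∈ V := by
    rw [hD, mul_inv, inv_inv, ← map_inv₀]
    exact V.mul_mem (hτV _ heV') (V.pow_mem heV Q)
  have hDval : ∀ k, h26Centered B v 𝔫 k → v k D = 1 := by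
    intro k hk
    rw [hD, map_mul, map_inv₀, map_pow, hperm e hval_e k hk, hval_e k hk]
    simp
  obtain ⟨s, hs, hs1, hs2⟩ := h75s_unit_aux hC.hfin hC.hint hC.hB hC.hBV hC.hQEP 𝔫 D hDV hDV'
    hDval
  have hτg₁0 : τ g₁ ≠ 0 := (map_ne_zero τ).mpr hg₁0
  have hτe0 : τ e ≠ 0 := (map_ne_zero τ).mpr he0
  have hkey : τ u * (u ^ Q)⁻¹ * (g ^ r)⁻¹ = D := by
    rw [hD, hg, hue, map_mul, map_pow, mul_pow, mul_pow, inv_pow]
    have h1 : e ^ Q ≠ 0 := pow_ne_zero _ he0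
    have h2 : (g₁ ^ r) ^ Q ≠ 0 := pow_ne_zero _ (pow_ne_zero _ hg₁0)
    have h3 : τ g₁ ^ r ≠ 0 := pow_ne_zero _ hτg₁0
    have h4 : (g₁ ^ Q) ^ r ≠ 0 := pow_ne_zero _ (pow_ne_zero _ hg₁0)
    have h5 : (g₁ ^ r) ^ Q = (g₁ ^ Q) ^ r := by rw [← pow_mul, ← pow_mul, mul_comm]
    rw [h5]
    field_simp
  have hkey' : g ^ r * (τ u * (u ^ Q)⁻¹)⁻¹ = D⁻¹ := by
    rw [← hkey, mul_inv (τ u * (u ^ Q)⁻¹) ((g ^ r)⁻¹), inv_inv, mul_comm]
  refine ⟨ϖ₁, hϖ₁, hϖ₁0, hϖ₁π.trans hππ₀, g, hgU, s, hs, ?_, ?_⟩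
  · rw [hkey]; exact hs1
  · rw [hkey']; exact hs2

end Node

end Fermat.Agent.S35
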