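import Fermat.Agent.S34.TraceTwo
import Fermat.Agent.Red.HKInputs
import Fermat.Prelude.Def_CuspForm_Newforms

/-!
# S35, block HECKE: frozen interfaces (co-architect helper30)

Setting: level `M * q` with `q` a prime, `F' = FF M`, `F = FF (M * q)`,
`α = heckeAlphaBar Kbar M q`, `β = heckeBetaBar Kbar M q : F' → F` (the two degeneracy maps).

Definitions (nothing is assumed):

* `hkPushAlong φ` : the pushforward (norm) of divisor classes along an embedding of function
  fields; `pushA M q`, `pushB M q : J₀(M q) → J₀(M)` the pushforwards along `α`, `β`.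
* `PushGalois` (HK-GAL), `PushHecke` (HK-EQUIV) : equivariance of `pushA`, `pushB` for Galois and
  for the Hecke operators `T_ℓ`, `ℓ ∤ M q` (with `q ∤ M`).
* `ConvKill N` (HK-CONV) : a Hecke polynomial which is zero on `S₂(Γ₀(N))` kills the torsion of
  `J₀(N)` (converse of the key lemma `HeckeKeyLattice`).
* `EigenOfChar N` (HK-EIG) : every ring homomorphism from the Hecke algebra of level `N` away
  from `S` to `ℂ` is the system of eigenvalues of a normalised eigenform of level `N`.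
* `SIndep` (HK-F1) : two normalised eigenforms of levels `N' ∣ N` whose eigenvalues agree
  outside a finite set of primes have the same eigenvalues at all primes not dividing `N`.
* `NewProjector` (HK-NEW, the output of the block) : for a newform `g` of level `M * q` there
  is a Hecke polynomial `e` in the `T_ℓ`, `ℓ ∉ S`, with `χ_g(e) ≠ 0` which kills the torsion
  of `J₀(M)`.
* `PushNewZero` : consequently `pushA (e • x) = 0 = pushB (e • x)` for every torsion point `x`
  of `J₀(M q)`: the points `e • x` are new at `q`.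
-/

set_option autoImplicit false

open AlgebraicCurve ModularCurve

noncomputable section

namespace Fermat.Agent.S35

open Fermat.Agent.S24 (Kbar FF)
open Fermat.Agent.S29 (GQ)
open Fermat.Agent.S30 (heckeTAll)
open Fermat.Agent.S31 (TI_evS TI_Sc TI_Kills)
open Fermat.Agent.Red.HKMod

/-! ## The pushforward maps -/

section Push

variable {K F F' : Type*} [Field K] [Field F] [Field F'] [Algebra K F] [Algebra K F']

/-- the pushforward of degree-zero divisors along an embedding of function fields. -/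
def hkPushDegZero (φ : F →ₐ[K] F') (hφ : φ.toRingHom.IsIntegral) :
    Divisor.degZero (K := K) (F := F') →+ Divisor.degZero (K := K) (F := F) :=
  ((Divisor.pushforwardAlong φ hφ).domRestrict (Divisor.degZero (K := K) (F := F'))).codRestrict _
    (fun D => Divisor.pushforwardAlong_mem_degZero φ hφ D.2)

/-- the pushforward (norm) of divisor classes along an embedding of function fields. -/
def hkPushAlong (φ : F →ₐ[K] F') (hφ : φ.toRingHom.IsIntegral) (hfin : FiniteAlong K φ)
    (hN : NormFormulaAlong K φ hfin) : Pic0 K F' →+ Pic0 K F :=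
  QuotientAddGroup.map _ _ (hkPushDegZero φ hφ) (by
    rintro ⟨D, hD0⟩ hD
    simp only [AddSubgroup.mem_addSubgroupOf] at hD ⊢
    exact Divisor.isPrincipal_pushforwardAlong φ hφ hfin hN hD)

theorem hkPushAlong_mk (φ : F →ₐ[K] F') (hφ : φ.toRingHom.IsIntegral) (hfin : FiniteAlong K φ)
    (hN : NormFormulaAlong K φ hfin) (D : Divisor.degZero (K := K) (F := F')) :
    hkPushAlong φ hφ hfin hN (Pic0.mk D) = Pic0.mk (hkPushDegZero φ hφ D) :=
  rfl

end Push

/-- `α_* : J₀(M q) → J₀(M)`, the pushforward along the inclusion `F_M ⊆ F_{M q}`. -/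
def pushA (M q : ℕ) [NeZero M] [NeZero q] : JZero (M * q) →+ JZero M :=
  hkPushAlong (heckeAlphaBar Kbar M q) (heckeAlphaBarIntegral M q)
    (finiteAlong_heckeAlphaBar M q) (normFormulaAlong_heckeAlphaBar M q)

/-- `β_* : J₀(M q) → J₀(M)`, the pushforward along `f(t) ↦ f(t ^ q)`. -/
def pushB (M q : ℕ) [NeZero M] [NeZero q] : JZero (M * q) →+ JZero M :=
  hkPushAlong (heckeBetaBar Kbar M q) (heckeBetaBarIntegral M q)
    (finiteAlong_heckeBetaBar M q) (normFormulaAlong_heckeBetaBar M q)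

/-! ## The frozen interfaces -/

/-- **HK-GAL.**  The pushforwards commute with the Galois action. -/
def PushGalois : Prop :=
  ∀ (M q : ℕ) [NeZero M] [NeZero q] (σ : GQ) (x : JZero (M * q)),
    pushA M q (σ • x) = σ • pushA M q x ∧ pushB M q (σ • x) = σ • pushB M q x

/-- **HK-EQUIV.**  The pushforwards commute with the Hecke operators `T_ℓ` for the primes
`ℓ ∤ M q` (`q ∤ M`). -/
def PushHecke : Prop :=
  ∀ (M q : ℕ) [NeZero M] [NeZero q], q.Prime → ¬ q ∣ M →
    ∀ ℓ : Nat.Primes, ¬ (ℓ : ℕ) ∣ M * q →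
    ∀ x : JZero (M * q),
      pushA M q (heckeOperatorBar (M * q) ℓ x) = heckeOperatorBar M ℓ (pushA M q x) ∧
      pushB M q (heckeOperatorBar (M * q) ℓ x) = heckeOperatorBar M ℓ (pushB M q x)

/-- **HK-CONV.**  A Hecke polynomial in the `T_ℓ`, `ℓ ∤ N`, which acts as zero on the cusp forms
of level `N` kills the torsion of `J₀(N)`. -/
def ConvKill (N : ℕ) [NeZero N] : Prop :=
  ∀ P : MvPolynomial Nat.Primes ℤ, (∀ ℓ ∈ P.vars, ¬ (ℓ : ℕ) ∣ N) →
    ((MvPolynomial.aeval (R := ℤ) (heckeTAll N) P : CuspForm.heckeAlgebra N 2 (∅ : Set ℕ)) :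
      Module.End ℂ (CuspForm (CongruenceSubgroup.Gamma0 N) 2)) = 0 →
    ∀ n : ℕ, 0 < n → TI_Kills N n P

/-- **HK-EIG.**  Every ring homomorphism from the Hecke algebra away from `S` to `ℂ` is the
system of eigenvalues of a normalised eigenform. -/
def EigenOfChar (N : ℕ) [NeZero N] : Prop :=
  ∀ S : Finset ℕ, (∀ r : ℕ, r.Prime → r ∣ N → r ∈ S) →
    ∀ χ : CuspForm.heckeAlgebra N 2 (↑S : Set ℕ) →+* ℂ,
      ∃ g : CuspForm (CongruenceSubgroup.Gamma0 N) 2, g.IsNormalizedEigenform ∧
        ∀ (ℓ : ℕ) (hℓ : ℓ.Prime) (hℓN : ¬ ℓ ∣ N) (hℓS : ℓ ∉ (↑S : Set ℕ)),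
          ModularFormClass.qCoeff g ℓ = χ (CuspForm.heckeAlgebra.T hℓ hℓN hℓS)

/-- **HK-F1 (S-independence).**  Two normalised eigenforms of levels `N' ∣ N` whose eigenvalues
agree at the primes outside a finite set have the same eigenvalue at every prime not dividing
`N`. -/
def SIndep : Prop :=
  ∀ (N N' : ℕ) [NeZero N] [NeZero N'], N' ∣ N →
    ∀ (g : CuspForm (CongruenceSubgroup.Gamma0 N) 2)
      (g' : CuspForm (CongruenceSubgroup.Gamma0 N') 2),
      g.IsNormalizedEigenform → g'.IsNormalizedEigenform →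
      ∀ S : Finset ℕ,
        (∀ ℓ : ℕ, ℓ.Prime → ℓ ∉ S → ModularFormClass.qCoeff g' ℓ = ModularFormClass.qCoeff g ℓ) →
        ∀ ℓ : ℕ, ℓ.Prime → ¬ ℓ ∣ N →
          ModularFormClass.qCoeff g' ℓ = ModularFormClass.qCoeff g ℓ

/-- **HK-NEW (the projector to the part new at `q`).**  For a newform `g` of level `M * q` and
a system of eigenvalues `chig` of `g` away from `S`, there is a Hecke polynomial `e` in the
`T_ℓ`, `ℓ ∉ S`, with `chig e ≠ 0`, which kills the torsion of `J₀(M)`. -/
def NewProjector : Prop :=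
  ∀ (M q : ℕ) [NeZero M] [NeZero q], q.Prime →
    ∀ (g : CuspForm (CongruenceSubgroup.Gamma0 (M * q)) 2), g.IsNewform →
    ∀ S : Finset ℕ, (∀ r : ℕ, r.Prime → r ∣ M * q → r ∈ S) →
    ∀ chig : CuspForm.heckeAlgebra (M * q) 2 (↑S : Set ℕ) →+* ℂ,
      (∀ (ℓ : ℕ) (hℓ : ℓ.Prime) (hℓM : ¬ ℓ ∣ M * q) (hℓS : ℓ ∉ (↑S : Set ℕ)),
        chig (CuspForm.heckeAlgebra.T hℓ hℓM hℓS) = ModularFormClass.qCoeff g ℓ) →
      ∃ e ∈ MvPolynomial.supported ℤ (TI_Sc S),
        chig (TI_evS (M * q) S e) ≠ 0 ∧ ∀ n : ℕ, 0 < n → TI_Kills M n e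

/-- **the points `e • x` are new at `q`.** -/
def PushNewZero : Prop :=
  ∀ (M q : ℕ) [NeZero M] [NeZero q], q.Prime → ¬ q ∣ M →
    ∀ S : Finset ℕ, (∀ r : ℕ, r.Prime → r ∣ M * q → r ∈ S) →
    ∀ e ∈ MvPolynomial.supported ℤ (TI_Sc S), (∀ n : ℕ, 0 < n → TI_Kills M n e) →
      ∀ (n : ℕ) (x : JZero (M * q)), 0 < n → n • x = 0 →
        letI := heckeModuleBar (M * q)
        pushA M q (e • x) = 0 ∧ pushB M q (e • x) = 0

end Fermat.Agent.S35
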