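import Fermat.Agent.S30.PackageAdicCore
import Fermat.Agent.S34.Skeleton
import Fermat.Agent.Red.HKInputs
import Fermat.Agent.S37.Defs
import Fermat.Prelude.Def_CuspForm_Newforms

/-!
# S35 (Frobenius at `q ∥ M` on the representation of a newform): frozen interface skeleton

Architect: helper37.  Every declaration is a definition or a frozen interface `Prop`; nothing is
assumed.  Blueprint: findings stmt='S35' kind='blueprint'; board: table `s35_tasks`.

## The route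

Let `g` be a newform of level `N`, `q ∥ N`, `q ≠ p`, `N = M * q`, `σ` a Frobenius at `q`.

* `J₀(N)` has the two push-forward maps `α_*, β_* : J₀(M * q) → J₀(M)` (`pushAlpha`, `pushBeta`).
  On the `p`-power torsion of `ker α_* ∩ ker β_*` ("`q`-new part") the quartic
  `(σ² - 1)(σ² - q²) = σ⁴ - (q² + 1) σ² + q²` vanishes up to a bounded exponent `t`
  (`FrobNewTorsion`, GEOM):  the reductions `r_∞, r_0` of a function `u`, `div u = m D`, on the
  two components of `X₀(M q)` mod `q` satisfy `r(α_* u) = r_∞(u) · F(r_0(u))`,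
  `r(β_* u) = F(r_∞(u)) · r_0(u)` and `r(σ u) = F(r(u))`, so `(σ² - 1) x` lies in the toric part
  `ker r_∞ ∩ ker r_0`, on which `σ² = q²` (the supersingular points are `𝔽_{q²}`-rational).
* `α_*`, `β_*` commute with the Hecke operators `T_r`, `r ∤ M q` (`PushHeckeComm`, HECKE-a).
* A Hecke polynomial `P` with `P(T) = 0` on `S₂(Γ₀(M))` kills the torsion of `J₀(M)` up to a
  bounded exponent (`ConvKey`, HECKE-c; converse of `Fermat.Agent.S31.HeckeKeyLattice`).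
* Hence `t • quartic(σ) (P • x) = 0` for all torsion points `x` of `J₀(N)` (`NewQuarticStatement`).
* For a newform there is such a `P = e` with `χ_g(e) ≠ 0` (`OldKillStatement`, HECKE-b).
* Algebra (ALG): on the eigenlattice `Λ` of `χ_g` (torsion free) the quartic of `ρ(σ)` vanishes;
  together with `ρ(σ)² - b ρ(σ) + q = 0` this gives
  `0 = quartic = (b² - (q + 1)²) ρ(σ)²`, so `b = ± (q + 1)`.

The exponents `t` are there to make the interfaces robust (component groups, torsion of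
`H₁`, thickness of the nodes); the consumer only needs SOME `t > 0` independent of `k` and `x`.
-/

set_option autoImplicit false

open AlgebraicCurve ModularCurve Polynomial

noncomputable section

namespace Fermat.Agent.S35

open Fermat.Agent.S37 (Kbar GQ FF)
open Fermat.Agent.S29 (WeakChebotarev HeckeGaloisCommute EichlerShimuraTorsion
  TorsionFiniteLevel)
open Fermat.Agent.S30 (heckeTAll HeckeKeyInt)
open Fermat.Agent.S30.PackageAdic (GoodPrime evS)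
open Fermat.Agent.Red.HKMod

/-! ## Definitions -/

section Push

variable {K F F' : Type*} [Field K] [Field F] [Field F'] [Algebra K F] [Algebra K F']

/-- push-forward of degree zero divisors along `φ : F → F'`. -/
def degZeroPush (φ : F →ₐ[K] F') (hφ : φ.toRingHom.IsIntegral) :
    Divisor.degZero (K := K) (F := F') →+ Divisor.degZero (K := K) (F := F) :=
  ((Divisor.pushforwardAlong φ hφ).domRestrict
    (Divisor.degZero (K := K) (F := F'))).codRestrict _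
    (fun D => Divisor.pushforwardAlong_mem_degZero φ hφ D.2)

@[simp]
theorem coe_degZeroPush (φ : F →ₐ[K] F') (hφ : φ.toRingHom.IsIntegral)
    (D : Divisor.degZero (K := K) (F := F')) :
    (degZeroPush φ hφ D : Divisor K F) = Divisor.pushforwardAlong φ hφ (D : Divisor K F') :=
  rfl

/-- push-forward `Pic⁰(F') → Pic⁰(F)` along `φ : F → F'`. -/
def pic0Push (φ : F →ₐ[K] F') (hφ : φ.toRingHom.IsIntegral) (hfin : FiniteAlong K φ)
    (hN : NormFormulaAlong K φ hfin) : Pic0 K F' →+ Pic0 K F :=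
  QuotientAddGroup.map _ _ (degZeroPush φ hφ) (by
    rintro ⟨D, hD0⟩ hD
    simp only [AddSubgroup.mem_addSubgroupOf] at hD ⊢
    exact Divisor.isPrincipal_pushforwardAlong φ hφ hfin hN hD)

theorem pic0Push_mk (φ : F →ₐ[K] F') (hφ : φ.toRingHom.IsIntegral) (hfin : FiniteAlong K φ)
    (hN : NormFormulaAlong K φ hfin) (D : Divisor.degZero (K := K) (F := F')) :
    pic0Push φ hφ hfin hN (Pic0.mk D) = Pic0.mk (degZeroPush φ hφ D) :=
  rfl

end Push

/-- `α_* : J₀(M q) → J₀(M)` (`α` = the inclusion `F_M ⊆ F_{M q}` of `q`-expansions). -/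
def pushAlpha (M q : ℕ) [NeZero M] [NeZero q] : JZero (M * q) →+ JZero M :=
  pic0Push (heckeAlphaBar Kbar M q) (heckeAlphaBarIntegral M q) (finiteAlong_heckeAlphaBar M q)
    (normFormulaAlong_heckeAlphaBar M q)

/-- `β_* : J₀(M q) → J₀(M)` (`β` = the substitution `t ↦ t ^ q` on `q`-expansions). -/
def pushBeta (M q : ℕ) [NeZero M] [NeZero q] : JZero (M * q) →+ JZero M :=
  pic0Push (heckeBetaBar Kbar M q) (heckeBetaBarIntegral M q) (finiteAlong_heckeBetaBar M q)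
    (normFormulaAlong_heckeBetaBar M q)

/-- `P(T) = 0` on the cusp forms of weight 2 and level `N / q` (written `N = M * q`). -/
def KillsOld (N q : ℕ) (P : MvPolynomial Nat.Primes ℤ) : Prop :=
  ∀ (M : ℕ) [NeZero M], N = M * q →
    ((MvPolynomial.aeval (R := ℤ) (heckeTAll M) P : CuspForm.heckeAlgebra M 2 (∅ : Set ℕ)) :
      Module.End ℂ (CuspForm (CongruenceSubgroup.Gamma0 M) 2)) = 0

/-! ## GEOM: the quartic on the `q`-new torsion -/

/-- **GEOM (target).**  For `q ∤ M`, `p ≠ q`, a Frobenius `σ` at `q`: the quartic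
`σ⁴ - (q² + 1) σ² + q²` kills, up to a bounded exponent `t`, the `p`-power torsion points of
`J₀(M q)` in the kernel of both push-forwards to `J₀(M)`. -/
def FrobNewTorsion (M q p : ℕ) [NeZero M] [NeZero q] : Prop :=
  q.Prime → ¬ q ∣ M → p.Prime → p ≠ q →
    ∀ A : ValuationSubring Kbar, A.LiesOverPrime q → ∀ σ : GQ, A.IsFrobeniusAt σ q →
      ∃ t : ℕ, 0 < t ∧ ∀ (k : ℕ) (x : JZero (M * q)), p ^ k • x = 0 →
        pushAlpha M q x = 0 → pushBeta M q x = 0 →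
          t • (σ • σ • σ • σ • x + q ^ 2 • x) = t • ((q ^ 2 + 1) • σ • σ • x)

/-! ## HECKE -/

/-- **HECKE-a.**  The push-forwards commute with the Hecke operators `T_r`, `r ∤ M q`. -/
def PushHeckeComm (M q : ℕ) [NeZero M] [NeZero q] : Prop :=
  ∀ r : Nat.Primes, ¬ (r : ℕ) ∣ M * q → ∀ x : JZero (M * q),
    pushAlpha M q (heckeOperatorBar (M * q) r x) = heckeOperatorBar M r (pushAlpha M q x) ∧
    pushBeta M q (heckeOperatorBar (M * q) r x) = heckeOperatorBar M r (pushBeta M q x)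

/-- **HECKE-c (converse key lemma).**  There is `t > 0` such that for every integer polynomial `P`
in the Hecke operators `T_ℓ`, `ℓ ∤ M n`, with `P(T) = 0` on `S₂(Γ₀(M))`, the operator `t P` kills
`J₀(M)[n]`.  (`t` = an exponent of the torsion of `(Γ₀(M) / parabolic)^ab`.) -/
def ConvKey (M : ℕ) [NeZero M] : Prop :=
  ∃ t : ℕ, 0 < t ∧ ∀ (n : ℕ) (P : MvPolynomial Nat.Primes ℤ), 0 < n →
    (∀ ℓ ∈ P.vars, ¬ (ℓ : ℕ) ∣ M * n) →
    ((MvPolynomial.aeval (R := ℤ) (heckeTAll M) P : CuspForm.heckeAlgebra M 2 (∅ : Set ℕ)) :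
      Module.End ℂ (CuspForm (CongruenceSubgroup.Gamma0 M) 2)) = 0 →
    (letI := ModularCurve.heckeModuleBar M
      ∀ x : JZero M, n • x = 0 → (MvPolynomial.C (t : ℤ) * P) • x = 0)

/-- **HECKE-b (OldKill).**  For a newform `g` of level `N` and a prime `q ∥ N` there is a Hecke
polynomial `e` (in the `T_r`, `r ∉ S`) with `χ_g(e) ≠ 0` which kills `S₂(Γ₀(N / q))`. -/
def OldKillStatement : Prop :=
  ∀ (N : ℕ) [NeZero N] (g : CuspForm (CongruenceSubgroup.Gamma0 N) 2), g.IsNewform →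
    ∀ (S : Finset ℕ) (chig : CuspForm.heckeAlgebra N 2 (↑S : Set ℕ) →+* ℂ),
      (∀ (ℓ : ℕ) (hℓ : ℓ.Prime) (hℓN : ¬ ℓ ∣ N) (hℓS : ℓ ∉ (↑S : Set ℕ)),
        chig (CuspForm.heckeAlgebra.T hℓ hℓN hℓS) = ModularFormClass.qCoeff g ℓ) →
      (∀ q : ℕ, q.Prime → q ∣ N → q ∈ S) →
      ∀ q : ℕ, q.Prime → q ∣ N → ¬ q ^ 2 ∣ N →
        ∃ e : MvPolynomial (GoodPrime N S) ℤ,
          chig (evS S e) ≠ 0 ∧ KillsOld N q (MvPolynomial.rename Subtype.val e)

/-! ## The interface between geometry and algebra -/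

/-- **NEWQ (assembled from GEOM, HECKE-a, HECKE-c).**  For `q ∥ N`, `q ≠ p`, a Frobenius `σ` at
`q` and a Hecke polynomial `P` (in the `T_ℓ`, `ℓ ∤ N p`) killing `S₂(Γ₀(N / q))`: the quartic of
`σ` kills `P • x` for every `p`-power torsion point `x` of `J₀(N)`, up to a bounded exponent. -/
def NewQuarticStatement (N p : ℕ) [NeZero N] : Prop :=
  ∀ q : ℕ, q.Prime → q ≠ p → q ∣ N → ¬ q ^ 2 ∣ N →
    ∀ A : ValuationSubring Kbar, A.LiesOverPrime q → ∀ σ : GQ, A.IsFrobeniusAt σ q →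
      ∀ P : MvPolynomial Nat.Primes ℤ, (∀ ℓ ∈ P.vars, ¬ (ℓ : ℕ) ∣ N * p) → KillsOld N q P →
        ∃ t : ℕ, 0 < t ∧
          (letI := ModularCurve.heckeModuleBar N
            ∀ (k : ℕ) (x : JZero N), p ^ k • x = 0 →
              t • (σ • σ • σ • σ • (P • x) + q ^ 2 • (P • x))
                = t • ((q ^ 2 + 1) • σ • σ • (P • x)))

/-- **ASM-A.**  Assembly of `NewQuarticStatement`. -/
def NewQuarticAssembly : Prop :=
  (∀ (M q p : ℕ) [NeZero M] [NeZero q], FrobNewTorsion M q p) →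
  (∀ (M q : ℕ) [NeZero M] [NeZero q], q.Prime → ¬ q ∣ M → PushHeckeComm M q) →
  (∀ (M : ℕ) [NeZero M], ConvKey M) →
  (∀ (N : ℕ) [NeZero N], ModularCurve.HeckeOperatorsCommuteBar N) →
    ∀ (N p : ℕ) [NeZero N], p.Prime → NewQuarticStatement N p

/-! ## ALG -/

/-- **ESLatticeNew.**  An `ESLattice` (`Fermat.Agent.S30.ESLattice`) on which, moreover, the
Frobenius elements at the primes `q ∥ N`, `q ≠ p`, satisfy the quartic. -/
def ESLatticeNew (p N : ℕ) [NeZero N] (S : Finset ℕ)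
    (𝒪 : Type) [CommRing 𝒪] [IsLocalRing 𝒪]
    (χ : CuspForm.heckeAlgebra N 2 (↑S : Set ℕ) →+* 𝒪) : Prop :=
  ∃ (Λ : Type) (_ : AddCommGroup Λ) (_ : Module 𝒪 Λ) (_ : Module.Free 𝒪 Λ)
    (_ : Module.Finite 𝒪 Λ) (_ : Nontrivial Λ) (ρ : GQ →* Module.End 𝒪 Λ),
    GaloisActionIsAdicContinuous 𝒪 ρ ∧
    (∀ q : ℕ, q.Prime → ¬ q ∣ N → q ≠ p →
      ∀ A : ValuationSubring (AlgebraicClosure ℚ), A.LiesOverPrime q →
        ∀ σ ∈ A.inertiaSubgroupIn ℚ, ρ σ = 1) ∧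
    (∀ (ℓ : ℕ) (hℓ : ℓ.Prime) (hℓN : ¬ ℓ ∣ N) (hℓS : ℓ ∉ (↑S : Set ℕ)),
      ∀ A : ValuationSubring (AlgebraicClosure ℚ), A.LiesOverPrime ℓ →
        ∀ σ : GQ, A.IsFrobeniusAt σ ℓ →
          ρ σ * ρ σ - χ (CuspForm.heckeAlgebra.T hℓ hℓN hℓS) • ρ σ
            + (ℓ : 𝒪) • (1 : Module.End 𝒪 Λ) = 0) ∧
    (∀ q : ℕ, q.Prime → q ≠ p → q ∣ N → ¬ q ^ 2 ∣ N →
      ∀ A : ValuationSubring (AlgebraicClosure ℚ), A.LiesOverPrime q →
        ∀ σ : GQ, A.IsFrobeniusAt σ q →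
          ρ σ ^ 4 + ((q : 𝒪) ^ 2) • (1 : Module.End 𝒪 Λ) = ((q : 𝒪) ^ 2 + 1) • ρ σ ^ 2)

/-- **ALG-1 (PackageNew).**  From the Tate package and `NewQuarticStatement` to the
eigenlattice with the quartic, for a character `χ` admitting old-killing polynomials. -/
def PackageNewStatement (N p : ℕ) [NeZero N] : Prop :=
  p.Prime → HeckeGaloisCommute N → EichlerShimuraTorsion N p →
    (∀ k : ℕ, TorsionFiniteLevel N (p ^ k)) → (∀ k : ℕ, HeckeKeyInt N (p ^ k)) →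
    NewQuarticStatement N p →
    ∀ (S : Finset ℕ), p ∈ S → (∀ q : ℕ, q.Prime → q ∣ N → q ∈ S) →
    ∀ (𝒪 : Type) [CommRing 𝒪] [IsDomain 𝒪] [IsDiscreteValuationRing 𝒪]
      [IsAdicComplete (IsLocalRing.maximalIdeal 𝒪) 𝒪] [Finite (IsLocalRing.ResidueField 𝒪)]
      [CharZero 𝒪],
      (p : 𝒪) ∈ IsLocalRing.maximalIdeal 𝒪 →
      ∀ χ : CuspForm.heckeAlgebra N 2 (↑S : Set ℕ) →+* 𝒪,
        (∀ q : ℕ, q.Prime → q ≠ p → q ∣ N → ¬ q ^ 2 ∣ N →
          ∃ e : MvPolynomial (GoodPrime N S) ℤ,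
            χ (evS S e) ≠ 0 ∧ KillsOld N q (MvPolynomial.rename Subtype.val e)) →
        ESLatticeNew p N S 𝒪 χ

/-- The conclusion of S35 with `𝒪'' = 𝒪'`. -/
def GalRepNewConclusion (p N : ℕ) [NeZero N] (S : Finset ℕ)
    (𝒪 : Type) [CommRing 𝒪] [IsLocalRing 𝒪]
    (χ : CuspForm.heckeAlgebra N 2 (↑S : Set ℕ) →+* 𝒪) : Prop :=
  ∃ ρ : GaloisRepAdic 𝒪,
    (∀ (ℓ : ℕ) (hℓ : ℓ.Prime) (hℓN : ¬ ℓ ∣ N) (hℓS : ℓ ∉ (↑S : Set ℕ)),
      ∀ A : ValuationSubring (AlgebraicClosure ℚ), A.LiesOverPrime ℓ →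
        ∀ σ : GQ, A.IsFrobeniusAt σ ℓ →
          LinearMap.charpoly (ρ.ρ σ) =
            X ^ 2 - C (χ (CuspForm.heckeAlgebra.T hℓ hℓN hℓS)) * X + C ((ℓ : 𝒪))) ∧
    (∀ q : ℕ, q.Prime → q ≠ p → q ∣ N → ¬ q ^ 2 ∣ N →
      ∀ A : ValuationSubring (AlgebraicClosure ℚ), A.LiesOverPrime q →
        ∀ σ : GQ, A.IsFrobeniusAt σ q →
          LinearMap.charpoly (ρ.ρ σ) = X ^ 2 - C ((q : 𝒪) + 1) * X + C ((q : 𝒪)) ∨
          LinearMap.charpoly (ρ.ρ σ) = X ^ 2 + C ((q : 𝒪) + 1) * X + C ((q : 𝒪)))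

/-- **ALG-2 (CoreNew).**  From an `ESLatticeNew` and weak Chebotarev to the conclusion of S35
(relative to the landed `QuadRepOdd`, `CycCharAdic`, `AdicClosure`). -/
def CoreNewStatement : Prop :=
  WeakChebotarev →
  ∀ (p : ℕ), p.Prime → ∀ (N : ℕ) [NeZero N] (S : Finset ℕ), p ∈ S →
    (∀ q : ℕ, q.Prime → q ∣ N → q ∈ S) →
  ∀ (𝒪 : Type) [CommRing 𝒪] [IsDomain 𝒪] [IsDiscreteValuationRing 𝒪]
    [IsAdicComplete (IsLocalRing.maximalIdeal 𝒪) 𝒪] [CharZero 𝒪],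
    (p : 𝒪) ∈ IsLocalRing.maximalIdeal 𝒪 →
    ∀ χ : CuspForm.heckeAlgebra N 2 (↑S : Set ℕ) →+* 𝒪,
      ESLatticeNew p N S 𝒪 χ → GalRepNewConclusion p N S 𝒪 χ

/-- **S35 from its two open inputs** (everything else is landed). -/
def S35Assembly : Prop :=
  (∀ (N p : ℕ) [NeZero N], p.Prime → NewQuarticStatement N p) → OldKillStatement →
  ∀ {M : ℕ} [NeZero M] {g : CuspForm (CongruenceSubgroup.Gamma0 M) 2} (_ : g.IsNewform)
    (lam : ℕ) [Fact lam.Prime] (S : Finset ℕ)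
    (O' : Type) [CommRing O'] [IsDomain O'] [IsDiscreteValuationRing O']
    [IsAdicComplete (IsLocalRing.maximalIdeal O') O'] [Finite (IsLocalRing.ResidueField O')]
    [CharZero O'] (_ : (lam : O') ∈ IsLocalRing.maximalIdeal O')
    (chig : CuspForm.heckeAlgebra M 2 (↑S : Set ℕ) →+* ℂ)
    (_ : ∀ (ℓ : ℕ) (hℓ : ℓ.Prime) (hℓM : ¬ ℓ ∣ M) (hℓS : ℓ ∉ (↑S : Set ℕ)),
      chig (CuspForm.heckeAlgebra.T hℓ hℓM hℓS) = ModularFormClass.qCoeff g ℓ)
    (iota : chig.range →+* O')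
    (_ : lam ∈ S) (_ : ∀ q : ℕ, q.Prime → q ∣ M → q ∈ S),
    GalRepNewConclusion lam M S O' (iota.comp chig.rangeRestrict)

end Fermat.Agent.S35
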