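import Fermat.Agent.S35.H62Node
import Fermat.Agent.Bridge.Frobenius

/-!
# S35, block TOR (helper13): the square of a Frobenius fixes the nodes

`B = chart (M * ℓ) A (jSS M ℓ)` the finite chart of level `M ℓ` (`ℓ ∤ M`, `auxLevel ℓ ∣ M`),
`σ` a Frobenius at `ℓ`, `𝔫` a prime of `B` containing the two components `P∞`, `P₀` of the
special fibre (a node).

* `h13x_galB` : the action of an element of the decomposition group on the chart;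
* `h13x_frob_sq_congr` : `σ² b ≡ b ^ (ℓ²)` modulo `𝔫` for every `b ∈ B`
  (the nodes are `𝔽_{ℓ²}`-rational);
* `h13x_frob_sq_mem_iff` : `σ² b ∈ 𝔫 ↔ b ∈ 𝔫`;
* `h13x_perm_node` : `σ²` permutes the places centered at `𝔫` (hypothesis `hperm` of
  `h13x_node_frob`).
-/

set_option autoImplicit false
set_option linter.unusedSectionVars false
set_option linter.style.haveILetI false

open AlgebraicCurve ModularCurve WithZero IsLocalRing Polynomial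

noncomputable section

namespace Fermat.Agent.S35

open Fermat.Agent.S37 Fermat.Agent.Red Fermat.Agent.Red.GG Fermat.Agent.Red.GV
  Fermat.Agent.Red.GV.Soft Fermat.Agent.Red.Kron Fermat.Agent.Red.KR Fermat.Agent.Red.ModelO
  Fermat.Agent.LGC

section Abs

variable {R : Type*} [CommRing R]

/-- Frobenius congruences add up modulo an ideal containing `p`. -/
theorem h13x_cong_add {p : ℕ} (hp : p.Prime) (n : ℕ) (I : Ideal R) (hpI : (p : R) ∈ I)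
    {c₁ c₂ b₁ b₂ : R} (h₁ : c₁ - b₁ ^ p ^ n ∈ I) (h₂ : c₂ - b₂ ^ p ^ n ∈ I) :
    (c₁ + c₂) - (b₁ + b₂) ^ p ^ n ∈ I := by
  rw [add_pow_prime_pow_eq hp b₁ b₂ n]
  have h3 : (p : R) * b₁ * b₂ * ∑ k ∈ Finset.Ioo 0 (p ^ n),
      b₁ ^ (k - 1) * b₂ ^ (p ^ n - k - 1) * ((((p ^ n).choose k / p : ℕ) : R)) ∈ I := by
    rw [mul_assoc, mul_assoc]
    exact I.mul_mem_right _ hpI
  have h4 : ∀ S : R, (c₁ + c₂) - (b₁ ^ p ^ n + b₂ ^ p ^ n + S) =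
      (c₁ - b₁ ^ p ^ n) + (c₂ - b₂ ^ p ^ n) - S := fun S => by ring
  rw [h4]
  exact I.sub_mem (I.add_mem h₁ h₂) h3

/-- Frobenius congruences multiply. -/
theorem h13x_cong_mul (q : ℕ) (I : Ideal R) {c₁ c₂ b₁ b₂ : R} (h₁ : c₁ - b₁ ^ q ∈ I)
    (h₂ : c₂ - b₂ ^ q ∈ I) : c₁ * c₂ - (b₁ * b₂) ^ q ∈ I := by
  have h3 : c₁ * c₂ - (b₁ * b₂) ^ q = (c₁ - b₁ ^ q) * c₂ + b₁ ^ q * (c₂ - b₂ ^ q) := by ring
  rw [h3]
  exact I.add_mem (I.mul_mem_right _ h₁) (I.mul_mem_left _ h₂)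

end Abs

section Concrete

variable (A : ValuationSubring Kbar) (M : ℕ) {ℓ : ℕ} [NeZero M] [NeZero ℓ]

/-- the action of an element of the decomposition group on the finite chart of level `M ℓ`. -/
def h13x_galB (σ : GQ) (hσ : σ ∈ A.decompositionSubgroup ℚ) :
    chart (M * ℓ) A (jSS M ℓ) →+* chart (M * ℓ) A (jSS M ℓ) where
  toFun b := ⟨gal (M * ℓ) σ • (b : FF (M * ℓ)),
    h63r_gal_mem_chart (M * ℓ) (jSS M ℓ) (fun _ ha => decomp_apply_mem hσ ha)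
      (h63p_gal_jSS M ℓ σ) b.2⟩
  map_one' := Subtype.ext (smul_one _)
  map_mul' _ _ := Subtype.ext (smul_mul' _ _ _)
  map_zero' := Subtype.ext (smul_zero _)
  map_add' _ _ := Subtype.ext (smul_add _ _ _)

@[simp]
theorem h13x_coe_galB (σ : GQ) (hσ : σ ∈ A.decompositionSubgroup ℚ)
    (b : chart (M * ℓ) A (jSS M ℓ)) :
    ((h13x_galB A M σ hσ b : chart (M * ℓ) A (jSS M ℓ)) : FF (M * ℓ)) =
      gal (M * ℓ) σ • (b : FF (M * ℓ)) := rfl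

/-- the action on the constants. -/
theorem h13x_galB_algebraMap (σ : GQ) (hσ : σ ∈ A.decompositionSubgroup ℚ) (a : A) :
    h13x_galB A M (ℓ := ℓ) σ hσ (algebraMap A (chart (M * ℓ) A (jSS M ℓ)) a) =
      algebraMap A (chart (M * ℓ) A (jSS M ℓ)) ⟨σ (a : Kbar), decomp_apply_mem hσ a.2⟩ := by
  apply Subtype.ext
  exact GalI.gal_smul_cst σ (a : Kbar)

/-- the action fixes `α u`, `u` rational. -/
theorem h13x_galB_α (σ : GQ) (hσ : σ ∈ A.decompositionSubgroup ℚ) (u : chart M A (jB M))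
    (hu : u ∈ h62i_R A M) :
    h13x_galB A M σ hσ (h62i_α A M ℓ u) = h62i_α A M ℓ u :=
  Subtype.ext (h62x_α_mem_fixedB A M u hu σ)

/-- the action preserves the component `P∞`. -/
theorem h13x_galB_Pinf (hℓ : ℓ.Prime) (hM : ¬ ℓ ∣ M) (hA : A.LiesOverPrime ℓ) (σ : GQ)
    (hσ : σ ∈ A.decompositionSubgroup ℚ) (b : chart (M * ℓ) A (jSS M ℓ))
    (hb : b ∈ h62i_Pinf A M hℓ hM hA) : h13x_galB A M σ hσ b ∈ h62i_Pinf A M hℓ hM hA := by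
  rw [h62i_mem_Pinf_iff_softR] at hb ⊢
  obtain ⟨h, hred⟩ := softR_gal A (M * ℓ) σ hσ ⟨(b : FF (M * ℓ)), h62i_mem_soft A M hℓ hM hA b⟩
  have h1 : softR A (M * ℓ) ⟨gal (M * ℓ) σ • (b : FF (M * ℓ)), h⟩ = 0 := by
    rw [hred, hb, map_zero]
  exact h1

/-- a Frobenius is the `ℓ`-th power on `A` modulo `𝔪_A`. -/
theorem h13x_frob_A (σ : GQ) (hσ : A.IsFrobeniusAt σ ℓ) (a : A) :
    (⟨σ (a : Kbar), decomp_apply_mem hσ.mem_decompositionSubgroup a.2⟩ : A) - a ^ ℓ ∈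
      maximalIdeal A := by
  rw [← ValuationSubring.coe_mem_nonunits_iff]
  exact Fermat.Agent.Bridge.frob_sub_pow_mem_nonunits hσ a.2

/-- `ℓ` lies in `P∞`. -/
theorem h13x_natCast_mem_Pinf (hℓ : ℓ.Prime) (hM : ¬ ℓ ∣ M) (hA : A.LiesOverPrime ℓ) :
    ((ℓ : ℕ) : chart (M * ℓ) A (jSS M ℓ)) ∈ h62i_Pinf A M hℓ hM hA := by
  have h1 : ((ℓ : ℕ) : chart (M * ℓ) A (jSS M ℓ)) =
      algebraMap A (chart (M * ℓ) A (jSS M ℓ)) ((ℓ : ℕ) : A) := by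
    rw [map_natCast]
  rw [h1]
  exact h62i_m_le_Pinf A M hℓ hM hA (Ideal.mem_map_of_mem _ (h62i_natCast_mem A hA))

/-- the square of a Frobenius is the `ℓ²`-th power on the constants, modulo `P∞`. -/
theorem h13x_frob_sq_const (hℓ : ℓ.Prime) (hM : ¬ ℓ ∣ M) (hA : A.LiesOverPrime ℓ) (σ : GQ)
    (hσ : A.IsFrobeniusAt σ ℓ) (a : A) :
    h13x_galB A M σ hσ.mem_decompositionSubgroup
        (h13x_galB A M σ hσ.mem_decompositionSubgroup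
          (algebraMap A (chart (M * ℓ) A (jSS M ℓ)) a)) -
      (algebraMap A (chart (M * ℓ) A (jSS M ℓ)) a) ^ ℓ ^ 2 ∈ h62i_Pinf A M hℓ hM hA := by
  have hd := hσ.mem_decompositionSubgroup
  set a₁ : A := ⟨σ (a : Kbar), decomp_apply_mem hd a.2⟩ with ha₁
  set a₂ : A := ⟨σ (a₁ : Kbar), decomp_apply_mem hd a₁.2⟩ with ha₂
  have h1 : a₁ - a ^ ℓ ∈ maximalIdeal A := h13x_frob_A A σ hσ a
  have h2 : a₂ - a₁ ^ ℓ ∈ maximalIdeal A := h13x_frob_A A σ hσ a₁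
  have h3 : a₂ - a ^ ℓ ^ 2 ∈ maximalIdeal A := by
    have h4 : a₂ - a ^ ℓ ^ 2 = (a₂ - a₁ ^ ℓ) + (a₁ ^ ℓ - (a ^ ℓ) ^ ℓ) := by
      rw [← pow_mul, sq]; ring
    rw [h4]
    refine (maximalIdeal A).add_mem h2 ?_
    obtain ⟨c, hc⟩ := sub_dvd_pow_sub_pow a₁ (a ^ ℓ) ℓ
    rw [hc]
    exact (maximalIdeal A).mul_mem_right _ h1
  rw [h13x_galB_algebraMap, h13x_galB_algebraMap, ← map_pow, ← map_sub]
  exact h62i_m_le_Pinf A M hℓ hM hA (Ideal.mem_map_of_mem _ h3)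

/-- **The nodes are `𝔽_{ℓ²}`-rational**: the square of a Frobenius is the `ℓ²`-th power
modulo a prime of the finite chart which contains both components of the special fibre. -/
theorem h13x_frob_sq_congr (hℓ : ℓ.Prime) (hM : ¬ ℓ ∣ M) (haux : auxLevel ℓ ∣ M)
    (hA : A.LiesOverPrime ℓ) (σ : GQ) (hσ : A.IsFrobeniusAt σ ℓ)
    (𝔫 : Ideal (chart (M * ℓ) A (jSS M ℓ)))
    (hPinf : h62i_Pinf A M hℓ hM hA ≤ 𝔫) (hP0 : h62i_P0 A M hℓ hM hA ≤ 𝔫)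
    (b : chart (M * ℓ) A (jSS M ℓ)) :
    h13x_galB A M σ hσ.mem_decompositionSubgroup
        (h13x_galB A M σ hσ.mem_decompositionSubgroup b) - b ^ ℓ ^ 2 ∈ 𝔫 := by
  have hd := hσ.mem_decompositionSubgroup
  set τ : chart (M * ℓ) A (jSS M ℓ) →+* chart (M * ℓ) A (jSS M ℓ) :=
    (h13x_galB A M σ hd).comp (h13x_galB A M σ hd) with hτ
  have hτapp : ∀ x, τ x = h13x_galB A M σ hd (h13x_galB A M σ hd x) := fun _ => rfl
  have hℓ𝔫 : ((ℓ : ℕ) : chart (M * ℓ) A (jSS M ℓ)) ∈ 𝔫 :=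
    hPinf (h13x_natCast_mem_Pinf A M hℓ hM hA)
  -- the rational functions
  have hB : ∀ u ∈ h62i_R A M, τ (h62i_α A M ℓ u) - (h62i_α A M ℓ u) ^ ℓ ^ 2 ∈ 𝔫 := by
    intro u hu
    rw [hτapp, h13x_galB_α A M σ hd u hu, h13x_galB_α A M σ hd u hu]
    have h1 : h62i_β A M hℓ hM hA u - (h62i_α A M ℓ u) ^ ℓ ∈ 𝔫 :=
      hPinf (h62d_frob A M hℓ hM hA u hu)
    have h2 : h62i_α A M ℓ u - (h62i_β A M hℓ hM hA u) ^ ℓ ∈ 𝔫 := by
      apply hP0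
      rw [h62i_mem_P0_iff_w, map_sub, map_pow, h62i_w_α, h62i_w_β]
      exact h62d_frob A M hℓ hM hA u hu
    have h3 : h62i_α A M ℓ u - (h62i_α A M ℓ u) ^ ℓ ^ 2 =
        (h62i_α A M ℓ u - (h62i_β A M hℓ hM hA u) ^ ℓ) +
          ((h62i_β A M hℓ hM hA u) ^ ℓ - ((h62i_α A M ℓ u) ^ ℓ) ^ ℓ) := by
      rw [← pow_mul, sq]; ring
    rw [h3]
    refine 𝔫.add_mem h2 ?_
    obtain ⟨c, hc⟩ := sub_dvd_pow_sub_pow (h62i_β A M hℓ hM hA u) ((h62i_α A M ℓ u) ^ ℓ) ℓ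
    rw [hc]
    exact 𝔫.mul_mem_right _ h1
  -- the image of `α`
  have hC : ∀ x : chart M A (jB M), τ (h62i_α A M ℓ x) - (h62i_α A M ℓ x) ^ ℓ ^ 2 ∈ 𝔫 := by
    intro x
    have hx := h62d_span A M hℓ hM hA x
    induction hx using Submodule.span_induction with
    | mem u hu => exact hB u hu
    | zero => simp [hℓ.ne_zero]
    | add x y _ _ hx hy =>
      rw [map_add, map_add]
      exact h13x_cong_add hℓ 2 𝔫 hℓ𝔫 hx hy
    | smul a x _ hx =>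
      rw [Algebra.smul_def, map_mul, map_mul, AlgHom.commutes]
      refine h13x_cong_mul _ 𝔫 ?_ hx
      exact hPinf (h13x_frob_sq_const A M hℓ hM hA σ hσ a)
  -- the general element
  obtain ⟨x, hx⟩ := h62d_surj A M hℓ hM haux hA b
  have h1 : τ (b - h62i_α A M ℓ x) - (b - h62i_α A M ℓ x) ^ ℓ ^ 2 ∈ 𝔫 := by
    refine 𝔫.sub_mem ?_ (𝔫.pow_mem_of_mem (hPinf hx) _ (pow_pos hℓ.pos 2))
    exact hPinf (h13x_galB_Pinf A M hℓ hM hA σ hd _ (h13x_galB_Pinf A M hℓ hM hA σ hd _ hx))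
  have h2 := h13x_cong_add hℓ 2 𝔫 hℓ𝔫 h1 (hC x)
  rw [← map_add, sub_add_cancel] at h2
  exact h2

/-- `σ² b ∈ 𝔫 ↔ b ∈ 𝔫` at a node. -/
theorem h13x_frob_sq_mem_iff (hℓ : ℓ.Prime) (hM : ¬ ℓ ∣ M) (haux : auxLevel ℓ ∣ M)
    (hA : A.LiesOverPrime ℓ) (σ : GQ) (hσ : A.IsFrobeniusAt σ ℓ)
    (𝔫 : Ideal (chart (M * ℓ) A (jSS M ℓ))) [h𝔫 : 𝔫.IsPrime]
    (hPinf : h62i_Pinf A M hℓ hM hA ≤ 𝔫) (hP0 : h62i_P0 A M hℓ hM hA ≤ 𝔫)
    (b : chart (M * ℓ) A (jSS M ℓ)) :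
    h13x_galB A M σ hσ.mem_decompositionSubgroup
        (h13x_galB A M σ hσ.mem_decompositionSubgroup b) ∈ 𝔫 ↔ b ∈ 𝔫 := by
  have h := h13x_frob_sq_congr A M hℓ hM haux hA σ hσ 𝔫 hPinf hP0 b
  constructor
  · intro h1
    have h2 : b ^ ℓ ^ 2 ∈ 𝔫 := by
      have := 𝔫.sub_mem h1 h
      simpa using this
    exact h𝔫.mem_of_pow_mem _ h2
  · intro h1
    have h2 : b ^ ℓ ^ 2 ∈ 𝔫 := 𝔫.pow_mem_of_mem h1 _ (pow_pos hℓ.pos 2)
    have := 𝔫.add_mem h h2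
    simpa using this

/-- **PERM at a node**: the square of a Frobenius permutes the places centered at a node. -/
theorem h13x_perm_node (hℓ : ℓ.Prime) (hM : ¬ ℓ ∣ M) (haux : auxLevel ℓ ∣ M)
    (hA : A.LiesOverPrime ℓ) (σ : GQ) (hσ : A.IsFrobeniusAt σ ℓ)
    (𝔫 : Ideal (chart (M * ℓ) A (jSS M ℓ))) [h𝔫 : 𝔫.IsPrime]
    (hPinf : h62i_Pinf A M hℓ hM hA ≤ 𝔫) (hP0 : h62i_P0 A M hℓ hM hA ≤ 𝔫)
    (x : FF (M * ℓ))
    (hx : ∀ k, h26Centered (chart (M * ℓ) A (jSS M ℓ)) (chartVal (M * ℓ) (jSS M ℓ)) 𝔫 k →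
      chartVal (M * ℓ) (jSS M ℓ) k x = 1)
    (k : ChartPlace (M * ℓ) (jSS M ℓ))
    (hk : h26Centered (chart (M * ℓ) A (jSS M ℓ)) (chartVal (M * ℓ) (jSS M ℓ)) 𝔫 k) :
    chartVal (M * ℓ) (jSS M ℓ) k (gal (M * ℓ) σ • gal (M * ℓ) σ • x) = 1 := by
  set g : SemilinearAut Kbar (FF (M * ℓ)) := gal (M * ℓ) σ * gal (M * ℓ) σ with hg
  have hgx : ∀ y : FF (M * ℓ), g • y = gal (M * ℓ) σ • gal (M * ℓ) σ • y := fun y =>
    mul_smul _ _ y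
  have ht : g • jSS M ℓ = jSS M ℓ := by
    rw [hgx, h63p_gal_jSS, h63p_gal_jSS]
  have htmem : jSS M ℓ ∈ (g⁻¹ • k.1).toValuationSubring := by
    rw [SemilinearAut.smul_toValuationSubring,
      ValuationSubring.mem_pointwise_smul_iff_inv_smul_mem, inv_inv, ht]
    exact k.2
  set k' : ChartPlace (M * ℓ) (jSS M ℓ) := ⟨g⁻¹ • k.1, htmem⟩ with hk'
  have hval : ∀ y : FF (M * ℓ), chartVal (M * ℓ) (jSS M ℓ) k' y =
      chartVal (M * ℓ) (jSS M ℓ) k (g • y) := fun y => h63p_adic_inv_smul g k.1 y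
  have hcent : h26Centered (chart (M * ℓ) A (jSS M ℓ)) (chartVal (M * ℓ) (jSS M ℓ)) 𝔫 k' := by
    intro b hb
    rw [hval, hgx] at hb
    have h1 : h13x_galB A M σ hσ.mem_decompositionSubgroup
        (h13x_galB A M σ hσ.mem_decompositionSubgroup b) ∈ 𝔫 := hk _ hb
    exact (h13x_frob_sq_mem_iff A M hℓ hM haux hA σ hσ 𝔫 hPinf hP0 b).mp h1
  rw [← hgx, ← hval]
  exact hx k' hcent

end Concrete

end Fermat.Agent.S35
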