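import Fermat.Agent.LGC.SS85Comp
import Fermat.Agent.Red.GV.SoftGal

/-!
# S35, block G-TOR, modular inputs (G1): Galois stability (helper85)

`A` a valuation subring of `ℚ̄` over the prime `ℓ`, `σ` in the decomposition group of `A`
(e.g. a Frobenius element), `N = M * ℓ`, `W_∞ = softV A N`, `W_0 = w⁻¹ W_∞`
(`h85cWinf`, `h85cW0` of `LGC/SS85Comp.lean`), `B = chart N A t` a chart with `σ t = t`,
`P_∞ = h85cPinf`, `P_0 = h85cP0`.

* `h85t_gal_mem_softV_iff`, `h85t_gal_mem_nonunits_iff` : `σ` preserves the Gauss valuation ring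
  (any level) and its maximal ideal.
* `h85t_gal_mem_Winf_iff`, `h85t_gal_mem_W0_iff`, `h85t_gal_mem_W0_nonunits_iff`,
  `h85t_gal_mem_ssV_iff` : the same for `W_∞`, `W_0`, `ssV` at level `M * ℓ`.
* `h85t_gal_mem_chart_iff` : `σ` preserves a chart with `σ t = t`.
* `h85tGal σ` : the ring automorphism of the chart induced by `σ`; `h85t_coe_gal`,
  `h85t_gal_algebraMap` (semilinearity), `h85t_gal_mem_Pinf_iff`, `h85t_gal_mem_P0_iff`,
  `h85t_gal_mem_mExt_iff`.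
-/

set_option autoImplicit false
set_option linter.unusedSectionVars false
set_option linter.style.haveILetI false

open AlgebraicCurve ModularCurve WithZero IsLocalRing

noncomputable section

namespace Fermat.Agent.S35

open Fermat.Agent.S37 Fermat.Agent.Red Fermat.Agent.Red.GG Fermat.Agent.Red.GV
  Fermat.Agent.Red.GV.Soft Fermat.Agent.Red.Kron Fermat.Agent.LGC

section AnyLevel

variable (A : ValuationSubring Kbar) (N : ℕ)

theorem h85t_gal_inv_smul (σ : GQ) (x : FF N) : gal N σ⁻¹ • (gal N σ • x) = x := by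
  have e : gal N σ⁻¹ = (gal N σ)⁻¹ := map_inv _ σ
  rw [e, inv_smul_smul]

theorem h85t_gal_smul_inv (σ : GQ) (x : FF N) : gal N σ • (gal N σ⁻¹ • x) = x := by
  have e : gal N σ⁻¹ = (gal N σ)⁻¹ := map_inv _ σ
  rw [e, smul_inv_smul]

/-- the decomposition group preserves the Gauss valuation ring (both directions). -/
theorem h85t_gal_mem_softV_iff {σ : GQ} (hσ : σ ∈ A.decompositionSubgroup ℚ) (x : FF N) :
    gal N σ • x ∈ softV A N ↔ x ∈ softV A N := by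
  constructor
  · intro h
    have h1 := gal_smul_mem_softV A N σ⁻¹ (inv_mem hσ) _ h
    rwa [h85t_gal_inv_smul] at h1
  · exact gal_smul_mem_softV A N σ hσ x

variable {ℓ : ℕ}

/-- the decomposition group preserves the maximal ideal of the Gauss valuation ring. -/
theorem h85t_gal_mem_nonunits_iff (hℓ : ℓ.Prime) (hA : A.LiesOverPrime ℓ) {σ : GQ}
    (hσ : σ ∈ A.decompositionSubgroup ℚ) (x : FF N) :
    gal N σ • x ∈ (softRing A N hℓ hA).nonunits ↔ x ∈ (softRing A N hℓ hA).nonunits := by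
  rcases eq_or_ne x 0 with rfl | hx
  · rw [smul_zero]
  · have hσx : gal N σ • x ≠ 0 := by
      intro h0
      apply hx
      have h1 := congrArg (fun y => gal N σ⁻¹ • y) h0
      simpa [h85t_gal_inv_smul] using h1
    rw [h85c_mem_nonunits_iff_inv hσx, h85c_mem_nonunits_iff_inv hx]
    have e : (gal N σ • x)⁻¹ = gal N σ • x⁻¹ := (smul_inv'' (gal N σ) x).symm
    rw [e]
    exact not_congr (h85t_gal_mem_softV_iff A N hσ x⁻¹)

end AnyLevel

section Level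

variable (A : ValuationSubring Kbar) (M ℓ : ℕ) [NeZero M] [NeZero ℓ]
  (hℓ : ℓ.Prime) (hM : ¬ ℓ ∣ M) (hA : A.LiesOverPrime ℓ)

theorem h85t_gal_mem_Winf_iff {σ : GQ} (hσ : σ ∈ A.decompositionSubgroup ℚ)
    (x : FF (M * ℓ)) :
    gal (M * ℓ) σ • x ∈ h85cWinf A M ℓ hℓ hA ↔ x ∈ h85cWinf A M ℓ hℓ hA :=
  h85t_gal_mem_softV_iff A (M * ℓ) hσ x

theorem h85t_gal_mem_Winf_nonunits_iff {σ : GQ} (hσ : σ ∈ A.decompositionSubgroup ℚ)
    (x : FF (M * ℓ)) :
    gal (M * ℓ) σ • x ∈ (h85cWinf A M ℓ hℓ hA).nonunits ↔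
      x ∈ (h85cWinf A M ℓ hℓ hA).nonunits :=
  h85t_gal_mem_nonunits_iff A (M * ℓ) hℓ hA hσ x

theorem h85t_kFricke_gal (σ : GQ) (x : FF (M * ℓ)) :
    kFricke M ℓ hℓ hM (gal (M * ℓ) σ • x) = gal (M * ℓ) σ • kFricke M ℓ hℓ hM x :=
  kFricke_gal M ℓ hℓ hM σ x

theorem h85t_gal_mem_W0_iff {σ : GQ} (hσ : σ ∈ A.decompositionSubgroup ℚ)
    (x : FF (M * ℓ)) :
    gal (M * ℓ) σ • x ∈ h85cW0 A M ℓ hℓ hM hA ↔ x ∈ h85cW0 A M ℓ hℓ hM hA := by
  rw [h85c_mem_W0_iff, h85c_mem_W0_iff, h85t_kFricke_gal]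
  exact h85t_gal_mem_softV_iff A (M * ℓ) hσ _

theorem h85t_gal_mem_W0_nonunits_iff {σ : GQ} (hσ : σ ∈ A.decompositionSubgroup ℚ)
    (x : FF (M * ℓ)) :
    gal (M * ℓ) σ • x ∈ (h85cW0 A M ℓ hℓ hM hA).nonunits ↔
      x ∈ (h85cW0 A M ℓ hℓ hM hA).nonunits := by
  rw [h85c_mem_W0_nonunits_iff, h85c_mem_W0_nonunits_iff, h85t_kFricke_gal]
  exact h85t_gal_mem_nonunits_iff A (M * ℓ) hℓ hA hσ _

include hℓ hM hA in
/-- the decomposition group preserves the semistable Gauss ring. -/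
theorem h85t_gal_mem_ssV_iff {σ : GQ} (hσ : σ ∈ A.decompositionSubgroup ℚ)
    (x : FF (M * ℓ)) :
    gal (M * ℓ) σ • x ∈ ssV A M ℓ ↔ x ∈ ssV A M ℓ := by
  rw [h63r_mem_ssV_iff hℓ hM hA, h63r_mem_ssV_iff hℓ hM hA, h85t_kFricke_gal,
    h85t_gal_mem_softV_iff A (M * ℓ) hσ, h85t_gal_mem_softV_iff A (M * ℓ) hσ]

end Level

section Chart

variable (A : ValuationSubring Kbar) (N : ℕ)

theorem h85t_decomp_apply_mem {σ : GQ} (hσ : σ ∈ A.decompositionSubgroup ℚ) :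
    ∀ a ∈ A, σ a ∈ A := fun a ha => (decompA A σ hσ ⟨a, ha⟩).2

/-- the decomposition group preserves a chart with Galois invariant coordinate. -/
theorem h85t_gal_mem_chart_iff {σ : GQ} (hσ : σ ∈ A.decompositionSubgroup ℚ) (t : FF N)
    (ht : gal N σ • t = t) (b : FF N) :
    gal N σ • b ∈ chart N A t ↔ b ∈ chart N A t := by
  have ht' : gal N σ⁻¹ • t = t := by
    conv_lhs => rw [← ht]
    exact h85t_gal_inv_smul N σ t
  constructor
  · intro h
    have h1 := h63r_gal_mem_chart (A := A) N t (h85t_decomp_apply_mem A (inv_mem hσ)) ht' h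
    rwa [h85t_gal_inv_smul] at h1
  · intro h
    exact h63r_gal_mem_chart (A := A) N t (h85t_decomp_apply_mem A hσ) ht h

/-- the ring automorphism of a chart induced by an element of the decomposition group fixing
the coordinate. -/
def h85tGal {σ : GQ} (hσ : σ ∈ A.decompositionSubgroup ℚ) (t : FF N)
    (ht : gal N σ • t = t) : chart N A t ≃+* chart N A t where
  toFun b := ⟨gal N σ • (b : FF N), (h85t_gal_mem_chart_iff A N hσ t ht _).mpr b.2⟩
  invFun b := ⟨gal N σ⁻¹ • (b : FF N), by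
    have ht' : gal N σ⁻¹ • t = t := by
      conv_lhs => rw [← ht]
      exact h85t_gal_inv_smul N σ t
    exact (h85t_gal_mem_chart_iff A N (inv_mem hσ) t ht' _).mpr b.2⟩
  left_inv b := Subtype.ext (h85t_gal_inv_smul N σ _)
  right_inv b := Subtype.ext (h85t_gal_smul_inv N σ _)
  map_mul' a b := Subtype.ext (smul_mul' (gal N σ) (a : FF N) (b : FF N))
  map_add' a b := Subtype.ext (smul_add (gal N σ) (a : FF N) (b : FF N))

@[simp]
theorem h85t_coe_gal {σ : GQ} (hσ : σ ∈ A.decompositionSubgroup ℚ) (t : FF N)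
    (ht : gal N σ • t = t) (b : chart N A t) :
    ((h85tGal A N hσ t ht b : chart N A t) : FF N) = gal N σ • (b : FF N) := rfl

/-- semilinearity: `σ (a b) = σ(a) σ(b)` for `a ∈ A`. -/
theorem h85t_gal_algebraMap {σ : GQ} (hσ : σ ∈ A.decompositionSubgroup ℚ) (t : FF N)
    (ht : gal N σ • t = t) (a : A) :
    h85tGal A N hσ t ht (algebraMap A (chart N A t) a) =
      algebraMap A (chart N A t) (decompA A σ hσ a) := by
  apply Subtype.ext
  show gal N σ • cst N (a : Kbar) = cst N ((decompA A σ hσ a : A) : Kbar)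
  rw [GalI.gal_smul_cst]
  rfl

end Chart

section Comp

variable (A : ValuationSubring Kbar) (M ℓ : ℕ) [NeZero M] [NeZero ℓ]
  (hℓ : ℓ.Prime) (hM : ¬ ℓ ∣ M) (hA : A.LiesOverPrime ℓ)
  {t : FF (M * ℓ)}

theorem h85t_gal_mem_Pinf_iff (hC : IfaceSSChart A M ℓ t) {σ : GQ}
    (hσ : σ ∈ A.decompositionSubgroup ℚ) (ht : gal (M * ℓ) σ • t = t)
    (b : chart (M * ℓ) A t) :
    h85tGal A (M * ℓ) hσ t ht b ∈ h85cPinf A M ℓ hℓ hA t ↔ b ∈ h85cPinf A M ℓ hℓ hA t := by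
  rw [h85c_mem_Pinf_iff A M ℓ hℓ hA hC, h85c_mem_Pinf_iff A M ℓ hℓ hA hC, h85t_coe_gal]
  exact h85t_gal_mem_nonunits_iff A (M * ℓ) hℓ hA hσ _

theorem h85t_gal_mem_P0_iff (hC : IfaceSSChart A M ℓ t) {σ : GQ}
    (hσ : σ ∈ A.decompositionSubgroup ℚ) (ht : gal (M * ℓ) σ • t = t)
    (b : chart (M * ℓ) A t) :
    h85tGal A (M * ℓ) hσ t ht b ∈ h85cP0 A M ℓ hℓ hM hA t ↔
      b ∈ h85cP0 A M ℓ hℓ hM hA t := by
  rw [h85c_mem_P0_iff A M ℓ hℓ hM hA hC, h85c_mem_P0_iff A M ℓ hℓ hM hA hC, h85t_coe_gal,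
    h85t_kFricke_gal]
  exact h85t_gal_mem_nonunits_iff A (M * ℓ) hℓ hA hσ _

include hℓ hM hA in
/-- `σ` preserves `𝔪_A B`. -/
theorem h85t_gal_mem_mExt_iff (hC : IfaceSSChart A M ℓ t) {σ : GQ}
    (hσ : σ ∈ A.decompositionSubgroup ℚ) (ht : gal (M * ℓ) σ • t = t)
    (b : chart (M * ℓ) A t) :
    h85tGal A (M * ℓ) hσ t ht b ∈ mExt A M ℓ t ↔ b ∈ mExt A M ℓ t := by
  have e := h85c_inf_eq A M ℓ hℓ hM hA hC
  have e' : mExt A M ℓ t = h85cPinf A M ℓ hℓ hA t ⊓ h85cP0 A M ℓ hℓ hM hA t := e.symm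
  rw [e', Ideal.mem_inf, Ideal.mem_inf, h85t_gal_mem_Pinf_iff A M ℓ hℓ hA hC hσ ht,
    h85t_gal_mem_P0_iff A M ℓ hℓ hM hA hC hσ ht]

end Comp

end Fermat.Agent.S35
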