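import Fermat.Agent.S35.H13TorAsmAbs
import Fermat.Agent.S35.H13TorRat
import Fermat.Agent.S35.H86TorIface
import Fermat.Agent.S35.H85TorGal
import Fermat.Agent.LGC.Pieces63c
import Fermat.Agent.LGC.H31Overlap

/-!
# S35, block TOR (helper13): the assembly TOR-ASM

`h13x_torAssembly : TorAssemblyStatement`, i.e. `TorNodeStatement → IfaceTorPieces → IfaceTor`
(frozen Props of `S35/H86TorIface.lean`).

For `w ≡ 1` modulo `π · ssV` with divisor divisible by `m`, the function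
`W = σ² w / w ^ (ℓ²)` is `≡ 1` modulo `π' · ssV`, and it has the local datum of the gate at all
closed points of the special fibre of the two charts:

* finite chart, smooth points (`TorSmoothAt`): `h63_local_all_ss`;
* finite chart, nodes (`TorNodeAt`): `TorNodeStatement`, with a uniform modulus
  (`h13x_uniform_nodes`; at the nodes off the support of `w` the function `W` is a local unit
  by `IfaceTorPerm`);
* chart at infinity, cusps: `IfaceTorCusp` and `h63_local_all_ss`;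
* chart at infinity, other points: overlap transfer from the finite chart
  (`h13x_gate_transfer`).

Then the abstract gate `h63_gate_asm_loc` gives `t` with `t ^ m / W` regular on both charts,
hence constant.
-/

set_option autoImplicit false
set_option linter.unusedSectionVars false
set_option linter.style.haveILetI false

open AlgebraicCurve ModularCurve WithZero IsLocalRing

noncomputable section

namespace Fermat.Agent.S35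

open Fermat.Agent.S37 Fermat.Agent.Red Fermat.Agent.Red.GG Fermat.Agent.Red.GV
  Fermat.Agent.Red.ModelO Fermat.Agent.LGC

/-! ## The end of the gate -/

set_option maxHeartbeats 1600000 in
/-- **the gate from the local data** (second half of `gateSS_of_pieces`). -/
theorem h13x_gate_end (N : ℕ) [NeZero N] {ℓ : ℕ} (hℓ : ℓ.Prime)
    (A : ValuationSubring Kbar) (hA : A.LiesOverPrime ℓ) (V : Subring (FF N))
    (hC₀ : H26Chart (chart N A (jB N)) V (chartVal N (jB N)))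
    (hC₁ : H26Chart (chart N A (jB N)⁻¹) V (chartVal N (jB N)⁻¹))
    (hnt : ∀ m ∈ maximalIdeal A, ∀ x ∈ V, algebraMap A (FF N) m * x ≠ 1)
    (hfin : IfaceFinite N A (jB N))
    (hgen₀ : IfaceGeneric N A (jB N)) (hgen₁ : IfaceGeneric N A (jB N)⁻¹)
    (m : ℕ) (hm : ¬ ℓ ∣ m) (W : FF N)
    (hrw : ∀ v : Place Kbar (FF N), (m : ℤ) ∣ v.ord W)
    (π : A) (hπ : π ∈ maximalIdeal A) (hπ0 : π ≠ 0) (hWU : W ∈ h26U π V)
    (hloc₀ : LocDatum N A (jB N) V π W m) (hloc₁ : LocDatum N A (jB N)⁻¹ V π W m) :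
    ∃ f : FF N, f ^ m = W := by
  have hm0 : m ≠ 0 := by
    rintro rfl
    exact hm (dvd_zero ℓ)
  have hmA : IsUnit ((m : ℕ) : A) := by
    rw [← IsLocalRing.notMem_maximalIdeal]
    intro hmem
    have hℓmem : ((ℓ : ℕ) : A) ∈ maximalIdeal A := by
      rw [mem_maximalIdeal_iff]
      exact hA
    have hcop : IsCoprime (m : ℤ) (ℓ : ℤ) :=
      Nat.isCoprime_iff_coprime.mpr (Nat.Coprime.symm ((Nat.Prime.coprime_iff_not_dvd hℓ).2 hm))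
    obtain ⟨a, b, hab⟩ := hcop
    have h1 : ((a : ℤ) : A) * ((m : ℕ) : A) + ((b : ℤ) : A) * ((ℓ : ℕ) : A) = 1 := by
      have := congrArg (Int.cast : ℤ → A) hab
      push_cast at this
      exact this
    have h2 : (1 : A) ∈ maximalIdeal A := by
      rw [← h1]
      exact Ideal.add_mem _ (Ideal.mul_mem_left _ _ hmem) (Ideal.mul_mem_left _ _ hℓmem)
    exact (Ideal.ne_top_iff_one _).mp (IsLocalRing.maximalIdeal.isMaximal A).ne_top h2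
  have hw0 : W ≠ 0 := h26U_ne_zero (hnt π hπ) hWU
  obtain ⟨S, hS, hfin'⟩ := span_of_ifaceFinite N A (jB N) hfin
  have hjV : jB N ∈ V := hC₀.hBV _ (h85_jB_mem_modelFin N A)
  obtain ⟨t, ht0, ht₀, htinf⟩ := h63_gate_asm_loc (algebraMap_injective_FF N A)
    (harch_of_liesOver A hℓ hA) V hnt (jB N) (h85_jB_ne_zero N)
    (chart N A (jB N)) (chart N A (jB N)⁻¹) (chartMid N A)
    (h85_jB_mem_modelFin N A) (h85_jB_inv_mem_modelInf N A)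
    (h85_modelFin_le_modelMid N A) (h85_modelInf_le_modelMid N A)
    (fun x hx => h85_modelMid_scale_fin N A hx) (fun x hx => h85_modelMid_scale_inf N A hx)
    m (Nat.pos_of_ne_zero hm0) hmA
    (fun x hx => h85_modelAt_root_closed N A _ hm0 hx)
    (fun x hx => h85_modelAt_root_closed N A _ hm0 hx)
    (fun x hx => h85_modelMid_root_closed N A hm0 hx)
    (fun a ha x hx hax => h85_modelMid_qep N A V hjV (algebraMap A (FF N) a)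
      (fun y hy hay => hC₀.hQEP a ha y hy (by rw [Algebra.smul_def]; exact hay)) hx
      (by rw [Algebra.smul_def] at hax; exact hax))
    (chartVal N (jB N)) (chartVal N (jB N)⁻¹) hC₀ hC₁ hgen₀ hgen₁
    S hS hfin' W hw0 (exists_val_eq N (jB N) W hw0 m hrw) (exists_val_eq N (jB N)⁻¹ W hw0 m hrw)
    π hπ hπ0 hWU hloc₀ hloc₁
  -- `t ^ m / W` is a constant
  obtain ⟨a, -, ha⟩ := h85_modelFin_inf_modelInf N A ht₀ htinf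
  have ha0 : a ≠ 0 := by
    rintro rfl
    rw [cst, map_zero] at ha
    exact mul_ne_zero (pow_ne_zero _ ht0) (inv_ne_zero hw0) ha
  obtain ⟨b, hb⟩ := IsAlgClosed.exists_pow_nat_eq a (Nat.pos_of_ne_zero hm0)
  have hb0 : b ≠ 0 := by
    rintro rfl
    rw [zero_pow hm0] at hb
    exact ha0 hb.symm
  have hcb0 : cst N b ≠ 0 := by
    simpa only [cst, ne_eq, map_eq_zero] using hb0
  refine ⟨t * (cst N b)⁻¹, ?_⟩
  have h1 : cst N b ^ m = t ^ m * W⁻¹ := by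
    rw [ha, ← hb]
    exact (map_pow _ _ _).symm
  rw [mul_pow, inv_pow, h1]
  field_simp

/-- the gate from the local data, for a coordinate `t = jB N`. -/
theorem h13x_gate_end' (N : ℕ) [NeZero N] {ℓ : ℕ} (hℓ : ℓ.Prime)
    (A : ValuationSubring Kbar) (hA : A.LiesOverPrime ℓ) (V : Subring (FF N))
    (t : FF N) (ht : t = jB N)
    (hC₀ : H26Chart (chart N A t) V (chartVal N t))
    (hC₁ : H26Chart (chart N A t⁻¹) V (chartVal N t⁻¹))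
    (hnt : ∀ m ∈ maximalIdeal A, ∀ x ∈ V, algebraMap A (FF N) m * x ≠ 1)
    (hfin : IfaceFinite N A t)
    (hgen₀ : IfaceGeneric N A t) (hgen₁ : IfaceGeneric N A t⁻¹)
    (m : ℕ) (hm : ¬ ℓ ∣ m) (W : FF N)
    (hrw : ∀ v : Place Kbar (FF N), (m : ℤ) ∣ v.ord W)
    (π : A) (hπ : π ∈ maximalIdeal A) (hπ0 : π ≠ 0) (hWU : W ∈ h26U π V)
    (hloc₀ : LocDatum N A t V π W m) (hloc₁ : LocDatum N A t⁻¹ V π W m) :
    ∃ f : FF N, f ^ m = W := by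
  subst ht
  exact h13x_gate_end N hℓ A hA V hC₀ hC₁ hnt hfin hgen₀ hgen₁ m hm W hrw π hπ hπ0 hWU
    hloc₀ hloc₁

/-! ## Overlap transfer on the charts -/

/-- overlap transfer of the local datum of the gate, from the chart of `t` to the chart of
`t⁻¹`. -/
theorem h13x_transfer_chart (N : ℕ) (A : ValuationSubring Kbar) (t : FF N) (ht : t ≠ 0)
    (U : Set (FF N)) (W : FF N) (r : ℕ)
    (hloc : ∀ 𝔫₀ : Ideal (chart N A t), 𝔫₀.IsMaximal →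
      (maximalIdeal A).map (algebraMap A (chart N A t)) ≤ 𝔫₀ →
      ∃ g ∈ U, ∃ s : chart N A t, s ∉ 𝔫₀ ∧
        (s : FF N) * (W * (g ^ r)⁻¹) ∈ chart N A t ∧ (s : FF N) * (g ^ r * W⁻¹) ∈ chart N A t)
    (𝔫 : Ideal (chart N A t⁻¹)) (h𝔫 : 𝔫.IsMaximal)
    (hm : (maximalIdeal A).map (algebraMap A (chart N A t⁻¹)) ≤ 𝔫)
    (htn : (⟨t⁻¹, h85_self_mem_modelAt N A t⁻¹⟩ : chart N A t⁻¹) ∉ 𝔫) :
    ∃ g ∈ U, ∃ s : chart N A t⁻¹, s ∉ 𝔫 ∧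
      (s : FF N) * (W * (g ^ r)⁻¹) ∈ chart N A t⁻¹ ∧
      (s : FF N) * (g ^ r * W⁻¹) ∈ chart N A t⁻¹ := by
  refine h13x_gate_transfer (A := A) (F := FF N) (B₀ := chart N A t) (B₁ := chart N A t⁻¹)
    (t := t) ht (h85_self_mem_modelAt N A t) (h85_self_mem_modelAt N A t⁻¹) ?_ ?_
    (h85ev N A t⁻¹) ?_ ?_ ?_ U W r hloc 𝔫 h𝔫 hm htn
  · intro y hy
    exact h85_exists_pow_mul_mem_modelAt N A ht hy
  · intro y hy
    have hy' : y ∈ modelAt N A (t⁻¹)⁻¹ := by rw [inv_inv]; exact hy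
    exact h85_exists_pow_mul_mem_modelAt N A (inv_ne_zero ht) hy'
  · intro a
    rw [h85ev_C]
    rfl
  · exact h85ev_X N A t⁻¹
  · intro y hy
    exact (h85_mem_modelAt_iff_isIntegralElem N A t⁻¹ y).1 hy

/-! ## The function `W = σ² w / w ^ (ℓ²)` -/

/-- a nonunit of a valuation ring times an element of the ring is not `1`. -/
theorem h13x_nonunit_mul_ne_one {F : Type*} [Field F] (W : ValuationSubring F) {y x : F}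
    (hy : y ∈ W.nonunits) (hx : x ∈ W) : y * x ≠ 1 := by
  intro h
  have h1 : W.valuation y < 1 := (W.mem_nonunits_iff).mp hy
  have h2 : W.valuation x ≤ 1 := (W.valuation_le_one_iff x).mpr hx
  have h3 : W.valuation (y * x) = 1 := by rw [h, map_one]
  rw [map_mul] at h3
  have h4 : W.valuation y * W.valuation x ≤ W.valuation y := mul_le_of_le_one_right' h2
  rw [h3] at h4
  exact absurd h1 (not_lt.mpr h4)

section Level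

variable (A : ValuationSubring Kbar) (M : ℕ) {ℓ : ℕ} [NeZero M] [NeZero ℓ]

/-- the square of a Frobenius on the constants. -/
theorem h13x_frob_sq_A (σ : GQ) (hσ : A.IsFrobeniusAt σ ℓ) (a : A) :
    ∃ a' : A, gal (M * ℓ) σ • (gal (M * ℓ) σ • algebraMap A (FF (M * ℓ)) a) =
        algebraMap A (FF (M * ℓ)) a' ∧ a' - a ^ ℓ ^ 2 ∈ maximalIdeal A := by
  have hd := hσ.mem_decompositionSubgroup
  set a₁ : A := ⟨σ (a : Kbar), Fermat.Agent.Red.KR.decomp_apply_mem hd a.2⟩ with ha₁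
  set a₂ : A := ⟨σ (a₁ : Kbar), Fermat.Agent.Red.KR.decomp_apply_mem hd a₁.2⟩ with ha₂
  have h1 : a₁ - a ^ ℓ ∈ maximalIdeal A := h13x_frob_A A σ hσ a
  have h2 : a₂ - a₁ ^ ℓ ∈ maximalIdeal A := h13x_frob_A A σ hσ a₁
  refine ⟨a₂, ?_, ?_⟩
  · have e1 : gal (M * ℓ) σ • algebraMap A (FF (M * ℓ)) a = algebraMap A (FF (M * ℓ)) a₁ :=
      GalI.gal_smul_cst σ (a : Kbar)
    have e2 : gal (M * ℓ) σ • algebraMap A (FF (M * ℓ)) a₁ = algebraMap A (FF (M * ℓ)) a₂ :=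
      GalI.gal_smul_cst σ (a₁ : Kbar)
    rw [e1, e2]
  · have h4 : a₂ - a ^ ℓ ^ 2 = (a₂ - a₁ ^ ℓ) + (a₁ ^ ℓ - (a ^ ℓ) ^ ℓ) := by
      rw [← pow_mul, sq]; ring
    rw [h4]
    refine (maximalIdeal A).add_mem h2 ?_
    obtain ⟨c, hc⟩ := sub_dvd_pow_sub_pow a₁ (a ^ ℓ) ℓ
    rw [hc]
    exact (maximalIdeal A).mul_mem_right _ h1

/-- `W = σ² w / w ^ q` is `≡ 1` modulo `π · ssV`. -/
theorem h13x_W_mem_U (hℓ : ℓ.Prime) (hM : ¬ ℓ ∣ M) (hA : A.LiesOverPrime ℓ) (σ : GQ)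
    (hσ : A.IsFrobeniusAt σ ℓ) (q : ℕ) (w : FF (M * ℓ)) (π₁ : A) (hπ₁ : π₁ ∈ maximalIdeal A)
    (hπ₁0 : π₁ ≠ 0) (hwU : w ∈ h26U π₁ (ssV A M ℓ)) :
    ∃ π ∈ maximalIdeal A, π ≠ 0 ∧ π ∣ π₁ ∧
      (gal (M * ℓ) σ • (gal (M * ℓ) σ • w)) / w ^ q ∈ h26U π (ssV A M ℓ) := by
  have hd := hσ.mem_decompositionSubgroup
  have hC₀ := h85s_ifaceSSChart_fin A M ℓ hℓ hM hA
  have hNt := h85s_ifaceSSNt A M ℓ hℓ hM hA
  have hAV : ∀ a : A, algebraMap A (FF (M * ℓ)) a ∈ ssV A M ℓ := fun a =>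
    hC₀.hBV _ ((chart (M * ℓ) A (jSS M ℓ)).algebraMap_mem a)
  obtain ⟨a₂, ha₂, ha₂m⟩ := h13x_frob_sq_A A M σ hσ π₁
  have hℓ2 : 0 < ℓ ^ 2 := pow_pos hℓ.pos 2
  have ha₂𝔪 : a₂ ∈ maximalIdeal A := by
    have e : a₂ = (a₂ - π₁ ^ ℓ ^ 2) + π₁ ^ ℓ ^ 2 := by ring
    rw [e]
    exact (maximalIdeal A).add_mem ha₂m (Ideal.pow_mem_of_mem _ hπ₁ _ hℓ2)
  have hπ₁F : algebraMap A (FF (M * ℓ)) π₁ ≠ 0 := fun h =>
    hπ₁0 (algebraMap_injective_FF (M * ℓ) A (by rw [h, map_zero]))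
  have ha₂0 : a₂ ≠ 0 := by
    intro h0
    rw [h0, map_zero] at ha₂
    exact h63_gal_ne_zero (M * ℓ) σ (h63_gal_ne_zero (M * ℓ) σ hπ₁F) ha₂
  have hwU' := hwU
  obtain ⟨x, hx, rfl⟩ := hwU
  have hθw : gal (M * ℓ) σ • (gal (M * ℓ) σ • (1 + algebraMap A (FF (M * ℓ)) π₁ * x)) =
      1 + algebraMap A (FF (M * ℓ)) a₂ * (gal (M * ℓ) σ • (gal (M * ℓ) σ • x)) := by
    rw [smul_add, smul_add, smul_one, smul_one, smul_mul', smul_mul', ha₂]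
  have hθx : gal (M * ℓ) σ • (gal (M * ℓ) σ • x) ∈ ssV A M ℓ :=
    (h85t_gal_mem_ssV_iff A M ℓ hℓ hM hA hd _).mpr
      ((h85t_gal_mem_ssV_iff A M ℓ hℓ hM hA hd _).mpr hx)
  have hθU : gal (M * ℓ) σ • (gal (M * ℓ) σ • (1 + algebraMap A (FF (M * ℓ)) π₁ * x)) ∈
      h26U a₂ (ssV A M ℓ) := ⟨_, hθx, hθw⟩
  rcases ValuationRing.dvd_total π₁ a₂ with h | h
  · refine ⟨π₁, hπ₁, hπ₁0, dvd_rfl, ?_⟩
    rw [div_eq_mul_inv]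
    exact h26U_mul (hAV π₁) (h13x_U_mono hAV h hθU)
      (h26U_inv (hC₀.hVunit π₁ hπ₁) (hNt π₁ hπ₁) (h26U_pow (hAV π₁) hwU' q))
  · refine ⟨a₂, ha₂𝔪, ha₂0, h, ?_⟩
    rw [div_eq_mul_inv]
    exact h26U_mul (hAV a₂) hθU
      (h26U_inv (hC₀.hVunit a₂ ha₂𝔪) (hNt a₂ ha₂𝔪)
        (h26U_pow (hAV a₂) (h13x_U_mono hAV h hwU') q))

/-- the divisor of `W = σ² w / w ^ q` is divisible by `m`. -/
theorem h13x_dvd_ord_W (N : ℕ) (σ : GQ) (m q : ℕ) (w : FF N) (hw0 : w ≠ 0)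
    (hord : ∀ v : Place Kbar (FF N), (m : ℤ) ∣ v.ord w) (v : Place Kbar (FF N)) :
    (m : ℤ) ∣ v.ord ((gal N σ • (gal N σ • w)) / w ^ q) := by
  have h1 := h63_gal_ne_zero N σ hw0
  have h2 := h63_gal_ne_zero N σ h1
  rw [div_eq_mul_inv, v.ord_mul h2 (inv_ne_zero (pow_ne_zero _ hw0)), v.ord_inv,
    ← zpow_natCast, v.ord_zpow]
  exact dvd_add (h63_dvd_ord_gal N σ m _ (h63_dvd_ord_gal N σ m w hord) v)
    (Dvd.dvd.neg_right (Dvd.dvd.mul_left (hord v) _))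

/-! ## The assembly -/

set_option maxHeartbeats 1600000 in
/-- **TOR-ASM at a good level.** -/
theorem h13x_ifaceTor_at (hNode : TorNodeStatement.{0, 0, 0})
    (hℓ : ℓ.Prime) (hM : ¬ ℓ ∣ M) (hA : A.LiesOverPrime ℓ)
    (hLocal : IfaceTorLocal A M ℓ hℓ hM hA) (hCusp : IfaceTorCusp A M ℓ)
    (hPerm : IfaceTorPerm A M ℓ hℓ hM hA)
    (σ : GQ) (hσ : A.IsFrobeniusAt σ ℓ) (m : ℕ) (hm : ¬ ℓ ∣ m) (w : FF (M * ℓ))
    (hord : ∀ v : Place Kbar (FF (M * ℓ)), (m : ℤ) ∣ v.ord w)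
    (π₁ : A) (hπ₁ : π₁ ∈ maximalIdeal A) (hπ₁0 : π₁ ≠ 0) (hwU : w ∈ h26U π₁ (ssV A M ℓ)) :
    ∃ f : FF (M * ℓ), f ^ m = (gal (M * ℓ) σ • (gal (M * ℓ) σ • w)) / w ^ (ℓ ^ 2) := by
  classical
  have hd := hσ.mem_decompositionSubgroup
  have hC₀ : IfaceSSChart A M ℓ (jSS M ℓ) := h85s_ifaceSSChart_fin A M ℓ hℓ hM hA
  have hC₁ : IfaceSSChart A M ℓ (jSS M ℓ)⁻¹ := h85s_ifaceSSChart_inf A M ℓ hℓ hM hA
  have hNt : IfaceSSNt A M ℓ := h85s_ifaceSSNt A M ℓ hℓ hM hA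
  have hF₀ : IfaceFinite (M * ℓ) A (jSS M ℓ) := h71_finite_fin' hℓ hM hA
  have hF₁ : IfaceFinite (M * ℓ) A (jSS M ℓ)⁻¹ := h71_finite_inf' hℓ hM hA
  have hS₀ : IfaceSSSection A M ℓ (jSS M ℓ) := h85s_ifaceSSSection_of A M ℓ _ hF₀
  have hS₁ : IfaceSSSection A M ℓ (jSS M ℓ)⁻¹ := h85s_ifaceSSSection_of A M ℓ _ hF₁
  have hG₀ : IfaceSSGeneric A M ℓ (jSS M ℓ) := h85s_ifaceSSGeneric_fin A M ℓ hℓ hA
  have hG₁ : IfaceSSGeneric A M ℓ (jSS M ℓ)⁻¹ := h85s_ifaceSSGeneric_inf A M ℓ hℓ hA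
  have hAF := algebraMap_injective_FF (M * ℓ) A
  have harch := harch_of_liesOver A hℓ hA
  have hAV : ∀ a : A, algebraMap A (FF (M * ℓ)) a ∈ ssV A M ℓ := fun a =>
    hC₀.hBV _ ((chart (M * ℓ) A (jSS M ℓ)).algebraMap_mem a)
  have hw0 : w ≠ 0 := h26U_ne_zero (hNt π₁ hπ₁) hwU
  have hm0 : m ≠ 0 := by
    rintro rfl
    exact hm (dvd_zero ℓ)
  have hmpos : 0 < m := Nat.pos_of_ne_zero hm0
  have hℓ2 : 0 < ℓ ^ 2 := pow_pos hℓ.pos 2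
  -- the function `W`
  obtain ⟨π₂, hπ₂, hπ₂0, hπ₂π₁, hWU⟩ :=
    h13x_W_mem_U A M hℓ hM hA σ hσ (ℓ ^ 2) w π₁ hπ₁ hπ₁0 hwU
  obtain ⟨W, hW⟩ : ∃ W : FF (M * ℓ),
      W = (gal (M * ℓ) σ • (gal (M * ℓ) σ • w)) / w ^ (ℓ ^ 2) := ⟨_, rfl⟩
  rw [← hW] at hWU ⊢
  have hW0 : W ≠ 0 := h26U_ne_zero (hNt π₂ hπ₂) hWU
  have hordW : ∀ v : Place Kbar (FF (M * ℓ)), (m : ℤ) ∣ v.ord W := fun v => by
    rw [hW]
    exact h13x_dvd_ord_W (M * ℓ) σ m (ℓ ^ 2) w hw0 hord v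
  -- the Frobenius
  set θ : FF (M * ℓ) ≃+* FF (M * ℓ) :=
    (SemilinearAut.toRingAut (gal (M * ℓ) σ)).trans (SemilinearAut.toRingAut (gal (M * ℓ) σ))
    with hθ
  have hθapp : ∀ z : FF (M * ℓ), θ z = gal (M * ℓ) σ • (gal (M * ℓ) σ • z) := fun z => rfl
  have hWθ : W = θ w / w ^ (ℓ ^ 2) := by rw [hW, hθapp]
  -- the two Gauss valuation rings
  set Winf : Subring (FF (M * ℓ)) := (h85cWinf A M ℓ hℓ hA).toSubring with hWinf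
  set W0 : Subring (FF (M * ℓ)) := (h85cW0 A M ℓ hℓ hM hA).toSubring with hW0def
  have hntinf : ∀ m ∈ maximalIdeal A, ∀ x ∈ Winf, algebraMap A (FF (M * ℓ)) m * x ≠ 1 :=
    fun m hm x hx => h13x_nonunit_mul_ne_one (h85cWinf A M ℓ hℓ hA)
      (h85c_cst_mem_Winf_nonunits A M ℓ hℓ hA ((GG.mem_maximalIdeal_iff A m).mp hm)) hx
  have hnt0 : ∀ m ∈ maximalIdeal A, ∀ x ∈ W0, algebraMap A (FF (M * ℓ)) m * x ≠ 1 :=
    fun m hm x hx => h13x_nonunit_mul_ne_one (h85cW0 A M ℓ hℓ hM hA)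
      (h85c_cst_mem_W0_nonunits A M ℓ hℓ hM hA ((GG.mem_maximalIdeal_iff A m).mp hm)) hx
  have hθinf : ∀ x ∈ Winf, θ x ∈ Winf := fun x hx =>
    (h85t_gal_mem_Winf_iff A M ℓ hℓ hA hd _).mpr ((h85t_gal_mem_Winf_iff A M ℓ hℓ hA hd _).mpr hx)
  have hθ0 : ∀ x ∈ W0, θ x ∈ W0 := fun x hx =>
    (h85t_gal_mem_W0_iff A M ℓ hℓ hM hA hd _).mpr
      ((h85t_gal_mem_W0_iff A M ℓ hℓ hM hA hd _).mpr hx)
  have hwinf : w ∈ h86t_U1 A Winf := by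
    obtain ⟨x, hx, hwx⟩ := hwU
    exact ⟨π₁, hπ₁, x, h85c_ssV_le_Winf A M ℓ hℓ hA hx, hwx⟩
  have hw0' : w ∈ h86t_U1 A W0 := by
    obtain ⟨x, hx, hwx⟩ := hwU
    exact ⟨π₁, hπ₁, x, h85c_ssV_le_W0 A M ℓ hℓ hM hA hx, hwx⟩
  -- the finite chart: nodes
  set Nd₀ : Set (Ideal (chart (M * ℓ) A (jSS M ℓ))) :=
    {𝔫 | TorNodeAt A M ℓ hℓ hM hA (jSS M ℓ) 𝔫} with hNd₀
  have hnode : ∀ 𝔫 : Ideal (chart (M * ℓ) A (jSS M ℓ)), 𝔫.IsMaximal →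
      (maximalIdeal A).map (algebraMap A (chart (M * ℓ) A (jSS M ℓ))) ≤ 𝔫 → 𝔫 ∈ Nd₀ →
      ∃ π₀ ∈ maximalIdeal A, π₀ ≠ 0 ∧ ∃ g ∈ h26U π₀ (ssV A M ℓ),
        ∃ s : chart (M * ℓ) A (jSS M ℓ), s ∉ 𝔫 ∧
        (s : FF (M * ℓ)) * (W * (g ^ m)⁻¹) ∈ chart (M * ℓ) A (jSS M ℓ) ∧
        (s : FF (M * ℓ)) * (g ^ m * W⁻¹) ∈ chart (M * ℓ) A (jSS M ℓ) := by
    intro 𝔫 h𝔫 hle hNd
    obtain ⟨hboth, x, hx, y, hy, c, hc, a, ha, hxy, hprin, hxinf, hy0⟩ := hNd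
    rw [hWθ]
    exact hNode hC₀ hAF Winf W0 (h85c_hWV A M ℓ hℓ hM hA)
      (fun b hb => h85c_hBWinf A M ℓ hℓ hA hC₀ ⟨b, hb⟩)
      (fun b hb => h85c_hBW0 A M ℓ hℓ hM hA hC₀ ⟨b, hb⟩)
      (fun x => (h85cWinf A M ℓ hℓ hA).mem_or_inv_mem x)
      (fun x => (h85cW0 A M ℓ hℓ hM hA).mem_or_inv_mem x)
      hntinf hnt0 𝔫 h𝔫 hle hboth.1 hboth.2 x hx y hy c hc a ha hxy hprin hxinf hy0
      (fun i hi => hS₀ i 𝔫 h𝔫 hle hi) θ (ℓ ^ 2) hℓ2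
      (fun a => h13x_frob_sq_A A M σ hσ a) hθinf hθ0
      (hPerm σ hσ 𝔫 h𝔫 hle hboth) w m hmpos hwinf hw0'
      (exists_val_eq (M * ℓ) (jSS M ℓ) w hw0 m hord)
  have hunit : ∀ 𝔫 : Ideal (chart (M * ℓ) A (jSS M ℓ)), 𝔫.IsMaximal →
      (maximalIdeal A).map (algebraMap A (chart (M * ℓ) A (jSS M ℓ))) ≤ 𝔫 → 𝔫 ∈ Nd₀ →
      (∀ k, h26Centered (chart (M * ℓ) A (jSS M ℓ)) (chartVal (M * ℓ) (jSS M ℓ)) 𝔫 k →
        chartVal (M * ℓ) (jSS M ℓ) k w = 1) →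
      ∀ k, h26Centered (chart (M * ℓ) A (jSS M ℓ)) (chartVal (M * ℓ) (jSS M ℓ)) 𝔫 k →
        chartVal (M * ℓ) (jSS M ℓ) k W = 1 := by
    intro 𝔫 h𝔫 hle hNd hw1 k hk
    have h1 := hPerm σ hσ 𝔫 h𝔫 hle hNd.1 w hw1 k hk
    rw [hW, map_div₀, map_pow, h1, hw1 k hk, one_pow, div_one]
  obtain ⟨π₃, hπ₃, hπ₃0, hπ₃π₂, hnode'⟩ := h13x_uniform_nodes hC₀ hNt Nd₀ hS₀ w hw0 W m
    π₂ hπ₂ hπ₂0 hWU hunit hnode
  -- the finite chart: all points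
  have hSM₀ : ∀ 𝔫 : Ideal (chart (M * ℓ) A (jSS M ℓ)), 𝔫.IsMaximal →
      (maximalIdeal A).map (algebraMap A (chart (M * ℓ) A (jSS M ℓ))) ≤ 𝔫 → 𝔫 ∉ Nd₀ →
      ∃ t ∈ 𝔫, (t : FF (M * ℓ)) ≠ 0 ∧ (t : FF (M * ℓ))⁻¹ ∈ ssV A M ℓ ∧ ∀ y ∈ 𝔫, ∃ s, s ∉ 𝔫 ∧
        s * y ∈ Ideal.span {t} ⊔
          (maximalIdeal A).map (algebraMap A (chart (M * ℓ) A (jSS M ℓ))) := by
    intro 𝔫 h𝔫 hle hNd
    rcases hLocal 𝔫 h𝔫 hle with h | h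
    · exact h
    · exact (hNd h).elim
  obtain ⟨π₄, hπ₄, hπ₄0, hπ₄π₃, hloc₀⟩ := h13x_local_all hC₀ hAF harch hNt Nd₀ hSM₀ hS₀ hG₀
    W hW0 m (exists_val_eq (M * ℓ) (jSS M ℓ) W hW0 m hordW) π₃ hπ₃ hπ₃0
    (h13x_U_mono hAV hπ₃π₂ hWU) hnode'
  -- the chart at infinity
  set Nd₁ : Set (Ideal (chart (M * ℓ) A (jSS M ℓ)⁻¹)) :=
    {𝔫 | (⟨(jSS M ℓ)⁻¹, h85_self_mem_modelAt (M * ℓ) A (jSS M ℓ)⁻¹⟩ :
      chart (M * ℓ) A (jSS M ℓ)⁻¹) ∉ 𝔫} with hNd₁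
  have hSM₁ : ∀ 𝔫 : Ideal (chart (M * ℓ) A (jSS M ℓ)⁻¹), 𝔫.IsMaximal →
      (maximalIdeal A).map (algebraMap A (chart (M * ℓ) A (jSS M ℓ)⁻¹)) ≤ 𝔫 → 𝔫 ∉ Nd₁ →
      ∃ t ∈ 𝔫, (t : FF (M * ℓ)) ≠ 0 ∧ (t : FF (M * ℓ))⁻¹ ∈ ssV A M ℓ ∧ ∀ y ∈ 𝔫, ∃ s, s ∉ 𝔫 ∧
        s * y ∈ Ideal.span {t} ⊔
          (maximalIdeal A).map (algebraMap A (chart (M * ℓ) A (jSS M ℓ)⁻¹)) := by
    intro 𝔫 h𝔫 hle hNd
    exact hCusp 𝔫 h𝔫 hle (not_not.mp hNd)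
  have hnode₁ : ∀ 𝔫 : Ideal (chart (M * ℓ) A (jSS M ℓ)⁻¹), 𝔫.IsMaximal →
      (maximalIdeal A).map (algebraMap A (chart (M * ℓ) A (jSS M ℓ)⁻¹)) ≤ 𝔫 → 𝔫 ∈ Nd₁ →
      ∃ g ∈ h26U π₄ (ssV A M ℓ), ∃ s : chart (M * ℓ) A (jSS M ℓ)⁻¹, s ∉ 𝔫 ∧
        (s : FF (M * ℓ)) * (W * (g ^ m)⁻¹) ∈ chart (M * ℓ) A (jSS M ℓ)⁻¹ ∧
        (s : FF (M * ℓ)) * (g ^ m * W⁻¹) ∈ chart (M * ℓ) A (jSS M ℓ)⁻¹ := by
    intro 𝔫 h𝔫 hle hNd
    exact h13x_transfer_chart (M * ℓ) A (jSS M ℓ) (h31o_jSS_ne_zero M ℓ)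
      (h26U π₄ (ssV A M ℓ)) W m (hloc₀ π₄ hπ₄ dvd_rfl) 𝔫 h𝔫 hle hNd
  obtain ⟨π₅, hπ₅, hπ₅0, hπ₅π₄, hloc₁⟩ := h13x_local_all hC₁ hAF harch hNt Nd₁ hSM₁ hS₁ hG₁
    W hW0 m (exists_val_eq (M * ℓ) (jSS M ℓ)⁻¹ W hW0 m hordW) π₄ hπ₄ hπ₄0
    (h13x_U_mono hAV (hπ₄π₃.trans hπ₃π₂) hWU) hnode₁
  -- the gate
  exact h13x_gate_end' (M * ℓ) hℓ A hA (ssV A M ℓ) (jSS M ℓ) (h63_jSS_eq M ℓ) hC₀ hC₁ hNt hF₀
    hG₀ hG₁ m hm W hordW π₅ hπ₅ hπ₅0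
    (h13x_U_mono hAV ((hπ₅π₄.trans hπ₄π₃).trans hπ₃π₂) hWU)
    (fun 𝔫 h𝔫 hle => hloc₀ π₅ hπ₅ hπ₅π₄ 𝔫 h𝔫 hle)
    (fun 𝔫 h𝔫 hle => hloc₁ π₅ hπ₅ dvd_rfl 𝔫 h𝔫 hle)

end Level

/-- **TOR-ASM**: the assembly of the block (frozen Prop of `S35/H86TorIface.lean`). -/
theorem h13x_torAssembly : TorAssemblyStatement := by
  intro hNode hP ℓ hℓ M _ hM haux
  have : NeZero ℓ := ⟨hℓ.ne_zero⟩
  intro A hA σ hσ m hm w hord hw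
  obtain ⟨π₁, hπ₁, hπ₁0, hwU⟩ := hw
  obtain ⟨hLocal, hCusp, hPerm⟩ := hP ℓ hℓ M hM haux A hA
  exact h13x_ifaceTor_at A M hNode hℓ hM hA hLocal hCusp hPerm σ hσ m hm w hord π₁ hπ₁ hπ₁0 hwU

end Fermat.Agent.S35
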