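import Fermat.Agent.S35.H86TorIface
import Fermat.Agent.Red.GV.SoftGal
import Fermat.Agent.Red.Kron.FrickeGal
import Fermat.Agent.S37.Inertia

/-!
# S35, block TOR (helper86): the square of a Frobenius on the two Gauss rings

`τ = (gal σ)²` for a Frobenius `σ` at `ℓ`:

* `h86t_tau`, `h86t_tau_apply` : the ring automorphism `x ↦ σ (σ x)` of `FF N`;
* `h86t_tau_mem_Winf`, `h86t_tau_mem_W0`, `h86t_tau_mem_ssV` : `τ` preserves `W∞`, `W₀`, `ssV`;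
* `h86t_tau_const` : `τ` is the `ℓ²`-power map on the constants of `A` modulo `𝔪_A`;
* `h86t_Winf_unit`, `h86t_Winf_nt`, `h86t_W0_unit`, `h86t_W0_nt` : `1 + 𝔪_A W ⊆ W^×`.
-/

set_option autoImplicit false
set_option linter.unusedSectionVars false

open AlgebraicCurve ModularCurve WithZero IsLocalRing

noncomputable section

namespace Fermat.Agent.S35

open Fermat.Agent.S37 Fermat.Agent.Red Fermat.Agent.Red.GG Fermat.Agent.Red.GV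
  Fermat.Agent.Red.GV.Soft Fermat.Agent.Red.Kron Fermat.Agent.Red.ModelO Fermat.Agent.LGC

/-- the square of the Galois action, as a ring automorphism. -/
def h86t_tau (N : ℕ) (σ : GQ) : FF N ≃+* FF N :=
  (SemilinearAut.toRingAut (gal N σ)).trans (SemilinearAut.toRingAut (gal N σ))

theorem h86t_tau_apply (N : ℕ) (σ : GQ) (x : FF N) :
    h86t_tau N σ x = gal N σ • (gal N σ • x) := rfl

section Level

variable (A : ValuationSubring Kbar) (M ℓ : ℕ) [NeZero M] [NeZero ℓ]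
  (hℓ : ℓ.Prime) (hM : ¬ ℓ ∣ M) (hA : A.LiesOverPrime ℓ)

theorem h86t_gal_mem_Winf {σ : GQ} (hσ : σ ∈ A.decompositionSubgroup ℚ) {x : FF (M * ℓ)}
    (hx : x ∈ h85cWinf A M ℓ hℓ hA) : gal (M * ℓ) σ • x ∈ h85cWinf A M ℓ hℓ hA :=
  gal_smul_mem_softV A (M * ℓ) σ hσ x hx

theorem h86t_gal_mem_W0 {σ : GQ} (hσ : σ ∈ A.decompositionSubgroup ℚ) {x : FF (M * ℓ)}
    (hx : x ∈ h85cW0 A M ℓ hℓ hM hA) : gal (M * ℓ) σ • x ∈ h85cW0 A M ℓ hℓ hM hA := by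
  rw [h85c_mem_W0_iff] at hx ⊢
  rw [kFricke_gal M ℓ hℓ hM σ x]
  exact gal_smul_mem_softV A (M * ℓ) σ hσ _ hx

theorem h86t_tau_mem_Winf {σ : GQ} (hσ : σ ∈ A.decompositionSubgroup ℚ) (x : FF (M * ℓ))
    (hx : x ∈ (h85cWinf A M ℓ hℓ hA).toSubring) :
    h86t_tau (M * ℓ) σ x ∈ (h85cWinf A M ℓ hℓ hA).toSubring :=
  h86t_gal_mem_Winf A M ℓ hℓ hA hσ (h86t_gal_mem_Winf A M ℓ hℓ hA hσ hx)

theorem h86t_tau_mem_W0 {σ : GQ} (hσ : σ ∈ A.decompositionSubgroup ℚ) (x : FF (M * ℓ))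
    (hx : x ∈ (h85cW0 A M ℓ hℓ hM hA).toSubring) :
    h86t_tau (M * ℓ) σ x ∈ (h85cW0 A M ℓ hℓ hM hA).toSubring :=
  h86t_gal_mem_W0 A M ℓ hℓ hM hA hσ (h86t_gal_mem_W0 A M ℓ hℓ hM hA hσ hx)

include hℓ hM hA in
theorem h86t_tau_mem_ssV {σ : GQ} (hσ : σ ∈ A.decompositionSubgroup ℚ) (x : FF (M * ℓ))
    (hx : x ∈ ssV A M ℓ) : h86t_tau (M * ℓ) σ x ∈ ssV A M ℓ :=
  h85c_hWV A M ℓ hℓ hM hA _
    (h86t_tau_mem_Winf A M ℓ hℓ hA hσ x (h85c_ssV_le_Winf A M ℓ hℓ hA hx))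
    (h86t_tau_mem_W0 A M ℓ hℓ hM hA hσ x (h85c_ssV_le_W0 A M ℓ hℓ hM hA hx))

/-- the Frobenius on `A`. -/
theorem h86t_frobA {σ : GQ} (hσ : A.IsFrobeniusAt σ ℓ) (a : A) :
    decompA A σ hσ.mem_decompositionSubgroup a - a ^ ℓ ∈ maximalIdeal A := by
  rw [← IsLocalRing.residue_eq_zero_iff, map_sub, map_pow, residue_decompA, sub_eq_zero]
  exact hσ.smul_residue_eq _

/-- `τ` on the constants: the `ℓ²`-power map modulo `𝔪_A`. -/
theorem h86t_tau_const {σ : GQ} (hσ : A.IsFrobeniusAt σ ℓ) (a : A) :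
    ∃ d ∈ maximalIdeal A, h86t_tau (M * ℓ) σ (algebraMap A (FF (M * ℓ)) a) =
      algebraMap A (FF (M * ℓ)) (a ^ (ℓ ^ 2) + d) := by
  have hD := hσ.mem_decompositionSubgroup
  set a₁ : A := decompA A σ hD a with ha₁
  set a₂ : A := decompA A σ hD a₁ with ha₂
  refine ⟨a₂ - a ^ (ℓ ^ 2), ?_, ?_⟩
  · rw [← IsLocalRing.residue_eq_zero_iff, map_sub, sub_eq_zero]
    have h1 : IsLocalRing.residue A a₂ = (IsLocalRing.residue A a₁) ^ ℓ := by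
      have := h86t_frobA A ℓ hσ a₁
      rw [← IsLocalRing.residue_eq_zero_iff, map_sub, map_pow, sub_eq_zero] at this
      exact this
    have h2 : IsLocalRing.residue A a₁ = (IsLocalRing.residue A a) ^ ℓ := by
      have := h86t_frobA A ℓ hσ a
      rw [← IsLocalRing.residue_eq_zero_iff, map_sub, map_pow, sub_eq_zero] at this
      exact this
    rw [h1, h2, map_pow, ← pow_mul, sq]
  · have e : a ^ (ℓ ^ 2) + (a₂ - a ^ (ℓ ^ 2)) = a₂ := by ring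
    rw [e, h86t_tau_apply]
    have h1 : algebraMap A (FF (M * ℓ)) a = cst (M * ℓ) (a : Kbar) := rfl
    have h2 : algebraMap A (FF (M * ℓ)) a₂ = cst (M * ℓ) (a₂ : Kbar) := rfl
    rw [h1, h2, GalI.gal_smul_cst, GalI.gal_smul_cst]
    rfl

/-- `(1 + m x)⁻¹ ∈ W∞`. -/
theorem h86t_Winf_unit (m : A) (hm : m ∈ maximalIdeal A) (x : FF (M * ℓ))
    (hx : x ∈ (h85cWinf A M ℓ hℓ hA).toSubring) :
    (1 + algebraMap A (FF (M * ℓ)) m * x)⁻¹ ∈ (h85cWinf A M ℓ hℓ hA).toSubring :=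
  one_add_cst_mul_inv_mem_softV A (M * ℓ) (m : Kbar) ((GG.mem_maximalIdeal_iff A m).mp hm) x hx

/-- `1 ∉ 𝔪_A W∞`. -/
theorem h86t_Winf_nt (m : A) (hm : m ∈ maximalIdeal A) (x : FF (M * ℓ))
    (hx : x ∈ (h85cWinf A M ℓ hℓ hA).toSubring) :
    algebraMap A (FF (M * ℓ)) m * x ≠ 1 := by
  intro h
  have h1 : cst (M * ℓ) (m : Kbar) ∈ (h85cWinf A M ℓ hℓ hA).nonunits :=
    h85c_cst_mem_Winf_nonunits A M ℓ hℓ hA ((GG.mem_maximalIdeal_iff A m).mp hm)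
  rw [ValuationSubring.mem_nonunits_iff] at h1
  have hx1 : (h85cWinf A M ℓ hℓ hA).valuation x ≤ 1 :=
    ((h85cWinf A M ℓ hℓ hA).valuation_le_one_iff x).mpr hx
  have e : cst (M * ℓ) (m : Kbar) * x = 1 := h
  have h3 := congrArg (h85cWinf A M ℓ hℓ hA).valuation e
  rw [map_mul, map_one] at h3
  have h4 : (h85cWinf A M ℓ hℓ hA).valuation (cst (M * ℓ) (m : Kbar)) *
      (h85cWinf A M ℓ hℓ hA).valuation x < 1 :=
    mul_lt_one_of_lt_of_le h1 hx1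
  rw [h3] at h4
  exact lt_irrefl _ h4

/-- `1 ∉ 𝔪_A W₀`. -/
theorem h86t_W0_nt (m : A) (hm : m ∈ maximalIdeal A) (x : FF (M * ℓ))
    (hx : x ∈ (h85cW0 A M ℓ hℓ hM hA).toSubring) :
    algebraMap A (FF (M * ℓ)) m * x ≠ 1 := by
  intro h
  have h1 : cst (M * ℓ) (m : Kbar) ∈ (h85cW0 A M ℓ hℓ hM hA).nonunits :=
    h85c_cst_mem_W0_nonunits A M ℓ hℓ hM hA ((GG.mem_maximalIdeal_iff A m).mp hm)
  rw [ValuationSubring.mem_nonunits_iff] at h1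
  have hx1 : (h85cW0 A M ℓ hℓ hM hA).valuation x ≤ 1 :=
    ((h85cW0 A M ℓ hℓ hM hA).valuation_le_one_iff x).mpr hx
  have e : cst (M * ℓ) (m : Kbar) * x = 1 := h
  have h3 := congrArg (h85cW0 A M ℓ hℓ hM hA).valuation e
  rw [map_mul, map_one] at h3
  have h4 : (h85cW0 A M ℓ hℓ hM hA).valuation (cst (M * ℓ) (m : Kbar)) *
      (h85cW0 A M ℓ hℓ hM hA).valuation x < 1 :=
    mul_lt_one_of_lt_of_le h1 hx1
  rw [h3] at h4
  exact lt_irrefl _ h4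

/-- `(1 + m x)⁻¹ ∈ W₀`. -/
theorem h86t_W0_unit (m : A) (hm : m ∈ maximalIdeal A) (x : FF (M * ℓ))
    (hx : x ∈ (h85cW0 A M ℓ hℓ hM hA).toSubring) :
    (1 + algebraMap A (FF (M * ℓ)) m * x)⁻¹ ∈ (h85cW0 A M ℓ hℓ hM hA).toSubring := by
  have hx' : kFricke M ℓ hℓ hM x ∈ softV A (M * ℓ) := hx
  show kFricke M ℓ hℓ hM (1 + algebraMap A (FF (M * ℓ)) m * x)⁻¹ ∈ softV A (M * ℓ)
  have e : kFricke M ℓ hℓ hM (1 + algebraMap A (FF (M * ℓ)) m * x)⁻¹ =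
      (1 + cst (M * ℓ) (m : Kbar) * kFricke M ℓ hℓ hM x)⁻¹ := by
    rw [map_inv₀, map_add, map_one, map_mul]
    have : kFricke M ℓ hℓ hM (algebraMap A (FF (M * ℓ)) m) = cst (M * ℓ) (m : Kbar) :=
      kFricke_cst M ℓ hℓ hM (m : Kbar)
    rw [this]
  rw [e]
  exact one_add_cst_mul_inv_mem_softV A (M * ℓ) (m : Kbar)
    ((GG.mem_maximalIdeal_iff A m).mp hm) _ hx'

end Level

end Fermat.Agent.S35
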