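import Fermat.Agent.Red.Kron.NormSym
import Fermat.Agent.Red.Kron.FrickeGal

/-!
# S35 / block NORM (helper76): the norm formula along `α` for an arbitrary function of level `Nℓ`

For a prime `ℓ ∤ N`, `f ∈ F_{Nℓ}`, `w` the Fricke involution and `ζ` a primitive `ℓ`-th root of
unity, in the variable `t = q^{1/ℓ}`:

  `Norm_α(f)(t^ℓ) = f(t^ℓ) · ∏_{b < ℓ} (w f)(ζ^b t)`        (`h76n_norm_eq`),
  `Norm_β(f) = Norm_α(w f)`                                  (`h76n_norm_beta_eq`).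

(`Red/Kron/Norm.lean` is the special case `f = β u`.)
-/

set_option autoImplicit false
set_option linter.style.haveILetI false

open ModularCurve AlgebraicCurve CongruenceSubgroup IntermediateField UpperHalfPlane
open scoped MatrixGroups Manifold

noncomputable section

namespace Fermat.Agent.S35

open Fermat.Agent.S24 Fermat.Agent.Red.Kron

variable (N ℓ : ℕ) [NeZero N] [NeZero ℓ]

/-- the twisted standard expansion of the Fricke transform, in the variable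
`𝕋 = exp (2πiτ/(Nℓ))`: `f ↦ (w f)(ω^b 𝕋^N)`. -/
def h76n_R (hℓ : ℓ.Prime) (hN : ¬ ℓ ∣ N) (b : ℤ) : FF (N * ℓ) →+* LaurentSeries ℂ :=
  (qExpand ℂ N).comp ((twistHom (kOmega ℓ b) (kOmega_ne_zero ℓ b)).comp
    ((coeffMap embC).comp ((algebraMap (FF (N * ℓ)) (LaurentSeries Kbar)).comp
      ((kFricke N ℓ hℓ hN : FF (N * ℓ) ≃ₐ[Kbar] FF (N * ℓ)) : FF (N * ℓ) →+* FF (N * ℓ)))))

theorem h76n_R_apply (hℓ : ℓ.Prime) (hN : ¬ ℓ ∣ N) (b : ℤ) (f : FF (N * ℓ)) :
    h76n_R N ℓ hℓ hN b f = qExpand ℂ N (twistK (kOmega ℓ b)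
      (coeffMap embC ((kFricke N ℓ hℓ hN f : FF (N * ℓ)) : LaurentSeries Kbar))) := rfl

theorem h76n_kOmega_pow (b : ℤ) : kOmega ℓ b ^ ℓ = 1 := by
  rw [kOmega, ← Complex.exp_nat_mul]
  have hℓ0 : (ℓ : ℂ) ≠ 0 := by exact_mod_cast NeZero.ne ℓ
  have : (ℓ : ℂ) * (2 * Real.pi * Complex.I * (b : ℂ) / (ℓ : ℂ)) = (b : ℂ) * (2 * Real.pi * Complex.I) := by
    field_simp
  rw [this]
  exact Complex.exp_int_mul_two_pi_mul_I b

/-- the embedding at the cusp `b` is the twisted standard expansion of the Fricke transform. -/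
theorem h76n_kEmb_eq (hℓ : ℓ.Prime) (hN : ¬ ℓ ∣ N) (m y : ℤ)
    (h : (ℓ : ℤ) * m - (N : ℤ) * y = 1) (b : ℤ) (f : FF (N * ℓ)) :
    kEmb N ℓ m y h b f = h76n_R N ℓ hℓ hN b f := by
  induction f using kFF_induction_ab N ℓ hℓ with
  | hc a =>
    rw [kEmb_cst, h76n_R_apply, kFricke_cst]
    have h1 : ((cst (N * ℓ) a : FF (N * ℓ)) : LaurentSeries Kbar) = HahnSeries.C a := by
      change algebraMap Kbar (LaurentSeries Kbar) a = HahnSeries.C a
      rw [algebraMap_laurentSeries_eq_single]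
      rfl
    have h2 : coeffMap embC (HahnSeries.C a : LaurentSeries Kbar) = HahnSeries.C (embC a) := by
      have : (HahnSeries.C a : LaurentSeries Kbar) = HahnSeries.single 0 a := rfl
      rw [this, coeffMap_single]
      rfl
    rw [h1, h2, twistK_C, qExpand_C]
  | ha x =>
    rw [kEmb_alpha, h76n_R_apply, kFricke_alpha, coe_heckeBetaBar, ModularCurve.coeffMap_qExpand,
      twistK_qExpand ℓ (h76n_kOmega_pow ℓ b), qExpand_qExpand]
  | hb x =>
    rw [kEmb_beta, h76n_R_apply, kFricke_beta, coe_heckeAlphaBar]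
  | hadd x y hx hy => rw [map_add, map_add, hx, hy]
  | hinv x hx => rw [map_inv₀, map_inv₀, hx]
  | hmul x y hx hy => rw [map_mul, map_mul, hx, hy]

/-- **norm formula over `ℂ`** for an arbitrary `f ∈ F_{Nℓ}`. -/
theorem h76n_norm_C (hℓ : ℓ.Prime) (hN : ¬ ℓ ∣ N) (f : FF (N * ℓ)) :
    letI := algebraAlong (heckeAlphaBar Kbar N ℓ)
    kIota N ℓ (Algebra.norm (FF N) f) =
      kEmbInf N ℓ f * ∏ b ∈ Finset.range ℓ, h76n_R N ℓ hℓ hN (b : ℤ) f := by
  letI := algebraAlong (heckeAlphaBar Kbar N ℓ)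
  have hcop : IsCoprime (ℓ : ℤ) (N : ℤ) := by
    rw [Int.isCoprime_iff_gcd_eq_one, Int.gcd_natCast_natCast]
    exact (Nat.Prime.coprime_iff_not_dvd hℓ).mpr hN
  obtain ⟨a, c, hac⟩ := hcop
  have hb : (ℓ : ℤ) * a - (N : ℤ) * (-c) = 1 := by linear_combination hac
  haveI : FiniteDimensional (FF N) (FF (N * ℓ)) :=
    Fermat.Agent.Red.HKMod.finiteAlong_heckeAlphaBar N ℓ
  haveI : Algebra.IsSeparable (FF N) (FF (N * ℓ)) := inferInstance
  have key := norm_eq_prod_of_embeddings (K := FF N) (L := FF (N * ℓ)) (kIota N ℓ)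
    (kFam N ℓ a (-c) hb) (kFam_injective N ℓ a (-c) hb hℓ.one_lt)
    (fun i x => kFam_alpha N ℓ a (-c) hb i x)
    (by rw [Fintype.card_fin]; exact (finrank_heckeAlphaBar N ℓ hℓ hN).symm) f
  rw [key, Fin.prod_univ_succ, kFam_zero]
  congr 1
  simp only [kFam_succ, h76n_kEmb_eq N ℓ hℓ hN a (-c) hb]
  exact Fin.prod_univ_eq_prod_range (fun b : ℕ => h76n_R N ℓ hℓ hN (b : ℤ) f) ℓ

/-- **The norm formula along `α`.**  For a prime `ℓ ∤ N`, a primitive `ℓ`-th root of unity `ζ`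
and `f ∈ F_{Nℓ}`:  `Norm_α(f)(t^ℓ) = f(t^ℓ) · ∏_{b < ℓ} (w f)(ζ^b t)`. -/
theorem h76n_norm_eq (hℓ : ℓ.Prime) (hN : ¬ ℓ ∣ N) (ζ : Kbar) (hζ : IsPrimitiveRoot ζ ℓ)
    (f : FF (N * ℓ)) :
    letI := algebraAlong (heckeAlphaBar Kbar N ℓ)
    qExpand Kbar ℓ ((Algebra.norm (FF N) f : FF N) : LaurentSeries Kbar) =
      qExpand Kbar ℓ (f : LaurentSeries Kbar) *
        ∏ b ∈ Finset.range ℓ,
          twistK (ζ ^ b) ((kFricke N ℓ hℓ hN f : FF (N * ℓ)) : LaurentSeries Kbar) := by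
  letI := algebraAlong (heckeAlphaBar Kbar N ℓ)
  apply h23_coeffMap_embC_injective
  apply qExpand_injective (R := ℂ) N
  have hC := h76n_norm_C N ℓ hℓ hN f
  rw [kIota_apply, kEmbInf_apply] at hC
  rw [ModularCurve.coeffMap_qExpand, qExpand_qExpand, hC, map_mul, map_mul, map_prod, map_prod,
    ModularCurve.coeffMap_qExpand, qExpand_qExpand]
  congr 1
  have hζC : IsPrimitiveRoot (embC ζ) ℓ := hζ.map_of_injective embC.injective
  have h1 := prod_range_pow_primitiveRoot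
    (fun ω : ℂ => qExpand ℂ N (twistK ω
      (coeffMap embC ((kFricke N ℓ hℓ hN f : FF (N * ℓ)) : LaurentSeries Kbar))))
    (Complex.isPrimitiveRoot_exp ℓ (NeZero.ne ℓ)) hζC
  simp only [← kOmega_eq_pow] at h1
  simp only [h76n_R_apply]
  rw [h1]
  refine Finset.prod_congr rfl (fun b _ => ?_)
  rw [coeffMap_twistK, map_pow]

/-- **Fricke symmetry of the norm**: `Norm_β(f) = Norm_α(w f)`. -/
theorem h76n_norm_beta_eq (hℓ : ℓ.Prime) (hN : ¬ ℓ ∣ N) (f : FF (N * ℓ)) :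
    (letI := algebraAlong (heckeBetaBar Kbar N ℓ); Algebra.norm (FF N) f) =
    (letI := algebraAlong (heckeAlphaBar Kbar N ℓ);
      Algebra.norm (FF N) (kFricke N ℓ hℓ hN f)) := by
  have hcop : IsCoprime (ℓ : ℤ) (N : ℤ) := by
    rw [Int.isCoprime_iff_gcd_eq_one, Int.gcd_natCast_natCast]
    exact (Nat.Prime.coprime_iff_not_dvd hℓ).mpr hN
  obtain ⟨a, c, hac⟩ := hcop
  have hb : (ℓ : ℤ) * a - (N : ℤ) * (-c) = 1 := by linear_combination hac
  apply kIota_injective N ℓ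
  have h1 : (letI := algebraAlong (heckeBetaBar Kbar N ℓ);
      kIota N ℓ (Algebra.norm (FF N) f)) =
      ∏ i, kFam N ℓ a (-c) hb i (kFricke N ℓ hℓ hN f) := by
    letI := algebraAlong (heckeBetaBar Kbar N ℓ)
    haveI : FiniteDimensional (FF N) (FF (N * ℓ)) :=
      Fermat.Agent.Red.HKMod.finiteAlong_heckeBetaBar N ℓ
    haveI : Algebra.IsSeparable (FF N) (FF (N * ℓ)) := inferInstance
    let w := kFricke N ℓ hℓ hN
    let e : Fin (ℓ + 1) → (FF (N * ℓ) →+* LaurentSeries ℂ) :=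
      fun i => (kFam N ℓ a (-c) hb i).comp (w : FF (N * ℓ) →+* FF (N * ℓ))
    have he : Function.Injective e := by
      intro i j hij
      apply kFam_injective N ℓ a (-c) hb hℓ.one_lt
      ext1 g
      have h1 : e i (w g) = e j (w g) := by rw [hij]
      have h2 : w (w g) = g := kFricke_kFricke N ℓ hℓ hN g
      simpa [e, h2] using h1
    have hcomm : ∀ i x, e i (algebraMap (FF N) (FF (N * ℓ)) x) = kIota N ℓ x := by
      intro i x
      show kFam N ℓ a (-c) hb i (w (heckeBetaBar Kbar N ℓ x)) = kIota N ℓ x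
      rw [show w (heckeBetaBar Kbar N ℓ x) = heckeAlphaBar Kbar N ℓ x from
        kFricke_beta N ℓ hℓ hN x]
      exact kFam_alpha N ℓ a (-c) hb i x
    exact norm_eq_prod_of_embeddings (K := FF N) (L := FF (N * ℓ)) (kIota N ℓ) e he hcomm
      (by rw [Fintype.card_fin]; exact (finrank_heckeBetaBar N ℓ hℓ hN).symm) f
  have h2 : (letI := algebraAlong (heckeAlphaBar Kbar N ℓ);
      kIota N ℓ (Algebra.norm (FF N) (kFricke N ℓ hℓ hN f))) =
      ∏ i, kFam N ℓ a (-c) hb i (kFricke N ℓ hℓ hN f) := by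
    letI := algebraAlong (heckeAlphaBar Kbar N ℓ)
    haveI : FiniteDimensional (FF N) (FF (N * ℓ)) :=
      Fermat.Agent.Red.HKMod.finiteAlong_heckeAlphaBar N ℓ
    haveI : Algebra.IsSeparable (FF N) (FF (N * ℓ)) := inferInstance
    exact norm_eq_prod_of_embeddings (K := FF N) (L := FF (N * ℓ)) (kIota N ℓ)
      (kFam N ℓ a (-c) hb) (kFam_injective N ℓ a (-c) hb hℓ.one_lt)
      (fun i x => kFam_alpha N ℓ a (-c) hb i x)
      (by rw [Fintype.card_fin]; exact (finrank_heckeAlphaBar N ℓ hℓ hN).symm)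
      (kFricke N ℓ hℓ hN f)
  rw [h1, h2]

end Fermat.Agent.S35
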