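import Fermat.Agent.Red.ESTF.Cong

/-!
# S35 / block NORM (helper76): the Kronecker congruence for a product of conjugate series

Two-series form of `Red.ESTF.h76_norm_series`: if, in the variable `t = q^{1/ℓ}`,
`X(t^ℓ) = y(t^ℓ) · ∏_{b < ℓ} g(ζ^b t)` with `y, g ∈ A((q))`, then `X ∈ A((q))` and
`X ≡ y · Frob(g)` modulo `𝔪_A` (`Frob` = the Frobenius on the coefficients).
-/

set_option autoImplicit false

open ModularCurve AlgebraicCurve

noncomputable section

namespace Fermat.Agent.S35

open Fermat.Agent.S37 Fermat.Agent.Red.GV Fermat.Agent.Red.ESTF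

variable (A : ValuationSubring Kbar) {ℓ : ℕ}

/-- the series of a norm: coefficients in `A`, reduction `y · Frob(g)`. -/
theorem h76n_norm_series2 (hℓ : ℓ.Prime) (hA : A.LiesOverPrime ℓ) [NeZero ℓ]
    [ExpChar (IsLocalRing.ResidueField A) ℓ] {ζ : Kbar} (hζ : ζ ^ ℓ = 1)
    (y g : LaurentSeries A) (X : LaurentSeries Kbar) (T : ℕ → LaurentSeries Kbar)
    (hT : ∀ b n, (T b).coeff n = (ζ ^ b) ^ n * (embA A g).coeff n)
    (hX : qExpand Kbar ℓ X = qExpand Kbar ℓ (embA A y) * ∏ b ∈ Finset.range ℓ, T b) :
    ∃ a : LaurentSeries A, embA A a = X ∧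
      redA (IsLocalRing.residue A) a
        = redA (IsLocalRing.residue A) y
          * coeffMap (frobenius (IsLocalRing.ResidueField A) ℓ)
              (redA (IsLocalRing.residue A) g) := by
  have hex : ∀ b : ℕ, ∃ TA : LaurentSeries A, embA A TA = T b ∧
      redA (IsLocalRing.residue A) TA = redA (IsLocalRing.residue A) g := by
    intro b
    have hω : (ζ ^ b) ^ ℓ = 1 := by rw [← pow_mul, mul_comm, pow_mul, hζ, one_pow]
    exact h76_exists_twist A hℓ hA hω g (T b) (hT b)
  choose TA hTA hTAred using hex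
  set P : LaurentSeries A := qExpand A ℓ y * ∏ b ∈ Finset.range ℓ, TA b with hP
  have hembP : embA A P = qExpand Kbar ℓ X := by
    rw [hX, hP, map_mul, map_prod]
    congr 1
    · exact coeffMap_qExpand A.subtype ℓ y
    · exact Finset.prod_congr rfl fun b _ => hTA b
  have hmem : ∀ n, X.coeff n ∈ A := by
    intro n
    have h1 : X.coeff n = (qExpand Kbar ℓ X).coeff ((ℓ : ℤ) * n) := (qExpand_coeff_mul ℓ X n).symm
    rw [h1, ← hembP, h36_embA_coeff]
    exact (P.coeff _).2
  obtain ⟨a, ha⟩ := (exists_embA_eq_iff A X).mpr hmem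
  refine ⟨a, ha, ?_⟩
  have haP : qExpand A ℓ a = P := by
    apply embA_injective A
    rw [hembP, ← ha]
    exact coeffMap_qExpand A.subtype ℓ a
  have hredP : redA (IsLocalRing.residue A) P
      = qExpand (IsLocalRing.ResidueField A) ℓ
          (redA (IsLocalRing.residue A) y
            * coeffMap (frobenius (IsLocalRing.ResidueField A) ℓ)
                (redA (IsLocalRing.residue A) g)) := by
    rw [hP, map_mul, map_prod, map_mul, ← h76_pow_char_eq_qExpand]
    congr 1
    · exact coeffMap_qExpand (IsLocalRing.residue A) ℓ y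
    · rw [Finset.prod_congr rfl fun b _ => hTAred b, Finset.prod_const, Finset.card_range]
  apply qExpand_injective (R := IsLocalRing.ResidueField A) ℓ
  rw [← hredP, ← haP]
  exact (coeffMap_qExpand (IsLocalRing.residue A) ℓ a).symm

end Fermat.Agent.S35
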