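import Fermat.Agent.LGC.H31OverlapAbs
import Fermat.Agent.LGC.GateSSAbs
import Fermat.Agent.LGC.NodeSoft

/-!
# S35, block TOR (helper86): abstract lemmas for the assembly of the gate

* `h86t_gate_transfer` : the local datum of the gate at the closed points of the chart `B₀`
  gives the local datum at the closed points `𝔫` of the chart `B₁` with `t⁻¹ ∉ 𝔫` (overlap
  transfer; helper31's contraction `h31o_contr`).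
* `h86t_U_of_dvd` : `1 + π V ⊆ 1 + π' V` for `π' ∣ π`.
* `h86t_local_all` : `h63_local_all_ss` together with a local datum at the exceptional points,
  given for one modulus at each exceptional point, trivial at all but finitely many of them:
  a common modulus.
* `h86t_theta_U` : `τ w / w ^ Q ≡ 1` for `w ≡ 1`.
* `h86t_unit_datum` : the trivial datum at an exceptional point where `w` has no zero or pole.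
-/

set_option autoImplicit false
set_option linter.unusedSectionVars false

open WithZero IsLocalRing Polynomial

namespace Fermat.Agent.S35

open Fermat.Agent.Red Fermat.Agent.LGC

section Transfer

variable {A : Type*} [CommRing A] [IsLocalRing A] {F : Type*} [Field F] [Algebra A F]
variable {B₀ B₁ : Subalgebra A F} {t : F}

/-- **Overlap transfer of a local datum.** -/
theorem h86t_gate_transfer (ht : t ≠ 0) (ht₀ : t ∈ B₀) (ht₁ : t⁻¹ ∈ B₁)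
    (hs₀ : ∀ y ∈ B₁, ∃ n : ℕ, t ^ n * y ∈ B₀)
    (hs₁ : ∀ y ∈ B₀, ∃ n : ℕ, t⁻¹ ^ n * y ∈ B₁)
    (ev : A[X] →+* F) (hevC : ∀ a, ev (C a) = algebraMap A F a) (hevX : ev X = t⁻¹)
    (hint₁ : ∀ y ∈ B₁, ev.IsIntegralElem y)
    (P : F → Prop) (X₁ X₂ : F → F)
    (hloc : ∀ 𝔫₀ : Ideal B₀, 𝔫₀.IsMaximal → (maximalIdeal A).map (algebraMap A B₀) ≤ 𝔫₀ →
      ∃ g, P g ∧ ∃ s : B₀, s ∉ 𝔫₀ ∧ (s : F) * X₁ g ∈ B₀ ∧ (s : F) * X₂ g ∈ B₀)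
    (𝔫 : Ideal B₁) (h𝔫 : 𝔫.IsMaximal) (hm : (maximalIdeal A).map (algebraMap A B₁) ≤ 𝔫)
    (htn : (⟨t⁻¹, ht₁⟩ : B₁) ∉ 𝔫) :
    ∃ g, P g ∧ ∃ s : B₁, s ∉ 𝔫 ∧ (s : F) * X₁ g ∈ B₁ ∧ (s : F) * X₂ g ∈ B₁ := by
  classical
  haveI hprime : 𝔫.IsPrime := h𝔫.isPrime
  haveI := h𝔫
  have htn' : ¬ h31o_In B₁ 𝔫 t⁻¹ := fun h => htn h.2
  have hmax₀ : (h31o_contr B₀ B₁ t ht₁ hs₁ 𝔫).IsMaximal :=
    h31o_contr_isMaximal ht ht₀ ht₁ hs₀ hs₁ ev hevC hevX hint₁ 𝔫 hm htn'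
  have hm₀ : (maximalIdeal A).map (algebraMap A B₀) ≤ h31o_contr B₀ B₁ t ht₁ hs₁ 𝔫 :=
    h31o_mExt_le_contr hm
  obtain ⟨g, hg, s₀, hs₀n, h1, h2⟩ := hloc _ hmax₀ hm₀
  obtain ⟨n₁, hn₁⟩ := hs₁ s₀ s₀.2
  obtain ⟨n₂, hn₂⟩ := hs₁ _ h1
  obtain ⟨n₃, hn₃⟩ := hs₁ _ h2
  have hk₁ : t⁻¹ ^ (n₁ + n₂ + n₃) * (s₀ : F) ∈ B₁ :=
    h31o_scale_mono ht₁ (show n₁ ≤ n₁ + n₂ + n₃ by omega) hn₁
  have hk₂ : t⁻¹ ^ (n₁ + n₂ + n₃) * ((s₀ : F) * X₁ g) ∈ B₁ :=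
    h31o_scale_mono ht₁ (show n₂ ≤ n₁ + n₂ + n₃ by omega) hn₂
  have hk₃ : t⁻¹ ^ (n₁ + n₂ + n₃) * ((s₀ : F) * X₂ g) ∈ B₁ :=
    h31o_scale_mono ht₁ (show n₃ ≤ n₁ + n₂ + n₃ by omega) hn₃
  refine ⟨g, hg, ⟨_, hk₁⟩, ?_, ?_, ?_⟩
  · intro hmem
    apply hs₀n
    exact (h31o_mem_contr_iff htn' hk₁).2 ⟨hk₁, hmem⟩
  · show t⁻¹ ^ (n₁ + n₂ + n₃) * (s₀ : F) * X₁ g ∈ B₁
    rw [mul_assoc]; exact hk₂
  · show t⁻¹ ^ (n₁ + n₂ + n₃) * (s₀ : F) * X₂ g ∈ B₁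
    rw [mul_assoc]; exact hk₃

end Transfer

section Uniform

variable {A : Type*} [CommRing A] [IsDomain A] [ValuationRing A]
  {F : Type*} [Field F] [Algebra A F]
  {B : Subalgebra A F} {V : Subring F} {ι : Type*} {v : ι → Valuation F ℤᵐ⁰}

theorem h86t_U_of_dvd (hAV : ∀ a : A, algebraMap A F a ∈ V) {π π' : A} (h : π' ∣ π) {g : F}
    (hg : g ∈ h26U π V) : g ∈ h26U π' V := by
  obtain ⟨a, rfl⟩ := h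
  obtain ⟨x, hx, rfl⟩ := hg
  exact ⟨algebraMap A F a * x, V.mul_mem (hAV a) hx, by rw [map_mul]; ring⟩

/-- **The local input of the gate at all closed points of a chart**, with exceptional points
carrying their own datum. -/
theorem h86t_local_all (hC : H26Chart B V v)
    (hAF : Function.Injective (algebraMap A F))
    (harch : ∀ c ∈ maximalIdeal A, c ≠ 0 → ∀ a : A, a ≠ 0 → ∃ k : ℕ, a ∣ c ^ k)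
    (hVnt : ∀ m ∈ maximalIdeal A, ∀ x ∈ V, algebraMap A F m * x ≠ 1)
    (Nd : Set (Ideal B))
    (hSM : ∀ 𝔫 : Ideal B, 𝔫.IsMaximal → (maximalIdeal A).map (algebraMap A B) ≤ 𝔫 → 𝔫 ∉ Nd →
      ∃ t ∈ 𝔫, (t : F) ≠ 0 ∧ (t : F)⁻¹ ∈ V ∧ ∀ y ∈ 𝔫, ∃ s, s ∉ 𝔫 ∧
        s * y ∈ Ideal.span {t} ⊔ (maximalIdeal A).map (algebraMap A B))
    (hsec : ∀ (i : ι) (𝔫 : Ideal B), 𝔫.IsMaximal →
      (maximalIdeal A).map (algebraMap A B) ≤ 𝔫 → h26Centered B v 𝔫 i →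
      ∃ φ : B →ₐ[A] A, (∀ b : B, φ b = 0 ↔ v i (b : F) < 1) ∧
        (RingHom.ker (φ : B →+* A)).FG)
    (hgen : ∀ 𝔫 : Ideal B, 𝔫.IsMaximal → ¬ (maximalIdeal A).map (algebraMap A B) ≤ 𝔫 →
      ∀ i k, h26Centered B v 𝔫 i → h26Centered B v 𝔫 k → i = k)
    (W : F) (hW0 : W ≠ 0) (r : ℕ) (hrW : ∀ i, ∃ n : ℤ, v i W = exp (-((r : ℤ) * n)))
    (π₁ : A) (hπ₁ : π₁ ∈ maximalIdeal A) (hπ₁0 : π₁ ≠ 0) (hWU : W ∈ h26U π₁ V)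
    (hnode : ∀ 𝔫 : Ideal B, 𝔫.IsMaximal → (maximalIdeal A).map (algebraMap A B) ≤ 𝔫 →
      𝔫 ∈ Nd → ∃ π ∈ maximalIdeal A, π ≠ 0 ∧ ∃ g ∈ h26U π V, ∃ s : B, s ∉ 𝔫 ∧
        (s : F) * (W * (g ^ r)⁻¹) ∈ B ∧ (s : F) * (g ^ r * W⁻¹) ∈ B)
    (Z : Finset ι)
    (hZ : ∀ 𝔫 : Ideal B, 𝔫.IsMaximal → (maximalIdeal A).map (algebraMap A B) ≤ 𝔫 →
      𝔫 ∈ Nd → (∀ i ∈ Z, ¬ h26Centered B v 𝔫 i) →
      ∃ s : B, s ∉ 𝔫 ∧ (s : F) * W ∈ B ∧ (s : F) * W⁻¹ ∈ B) :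
    ∃ π₀ ∈ maximalIdeal A, π₀ ≠ 0 ∧ π₀ ∣ π₁ ∧ ∀ π ∈ maximalIdeal A, π ∣ π₀ →
      ∀ 𝔫 : Ideal B, 𝔫.IsMaximal →
        ∃ g : F, g ≠ 0 ∧ ((maximalIdeal A).map (algebraMap A B) ≤ 𝔫 → g ∈ h26U π V) ∧
          ∃ s : B, s ∉ 𝔫 ∧ (s : F) * (W * (g ^ r)⁻¹) ∈ B ∧ (s : F) * (g ^ r * W⁻¹) ∈ B := by
  classical
  have hAV : ∀ a : A, algebraMap A F a ∈ V := fun a => hC.hBV _ (B.algebraMap_mem a)
  obtain ⟨π₀', hπ₀', hπ₀'0, hπ₀'π₁, hloc⟩ := h63_local_all_ss hC hAF harch hVnt Nd hSM hsec hgen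
    W hW0 r hrW π₁ hπ₁ hπ₁0 hWU
  -- the moduli at the exceptional points
  have hex : ∀ 𝔫 : Ideal B, ∃ π ∈ maximalIdeal A, π ≠ 0 ∧ (𝔫.IsMaximal →
      (maximalIdeal A).map (algebraMap A B) ≤ 𝔫 → 𝔫 ∈ Nd →
      ∃ g ∈ h26U π V, ∃ s : B, s ∉ 𝔫 ∧
        (s : F) * (W * (g ^ r)⁻¹) ∈ B ∧ (s : F) * (g ^ r * W⁻¹) ∈ B) := by
    intro 𝔫
    by_cases h : 𝔫.IsMaximal ∧ (maximalIdeal A).map (algebraMap A B) ≤ 𝔫 ∧ 𝔫 ∈ Nd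
    · obtain ⟨π, hπ, hπ0, hd⟩ := hnode 𝔫 h.1 h.2.1 h.2.2
      exact ⟨π, hπ, hπ0, fun _ _ _ => hd⟩
    · exact ⟨π₁, hπ₁, hπ₁0, fun h1 h2 h3 => (h ⟨h1, h2, h3⟩).elim⟩
  choose πN hπN hπN0 hπNd using hex
  -- the centre of a place
  have hex2 : ∀ i : ι, ∃ 𝔫 : Ideal B, ∀ 𝔫' : Ideal B, 𝔫'.IsMaximal →
      (maximalIdeal A).map (algebraMap A B) ≤ 𝔫' → h26Centered B v 𝔫' i → 𝔫' = 𝔫 := by
    intro i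
    by_cases h : ∃ 𝔫 : Ideal B, 𝔫.IsMaximal ∧ (maximalIdeal A).map (algebraMap A B) ≤ 𝔫 ∧
        h26Centered B v 𝔫 i
    · obtain ⟨𝔫, h𝔫, hle, hc⟩ := h
      obtain ⟨φ, hφ, -⟩ := hsec i 𝔫 h𝔫 hle hc
      exact ⟨𝔫, fun 𝔫' h𝔫' _ hc' => h75s_center_unique 𝔫' 𝔫 h𝔫' h𝔫 i hc' hc φ hφ⟩
    · exact ⟨⊥, fun 𝔫' h𝔫' hle' hc' => (h ⟨𝔫', h𝔫', hle', hc'⟩).elim⟩
  choose cen hcen using hex2
  obtain ⟨π₀, hπ₀, hπ₀0, hπ₀d, hπ₀c⟩ := h26_common_divisor Z (fun i => πN (cen i))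
    (fun i _ => hπN _) π₀' hπ₀' hπ₀'0
  refine ⟨π₀, hπ₀, hπ₀0, hπ₀d.trans hπ₀'π₁, fun π hπ hππ₀ 𝔫 h𝔫 => ?_⟩
  by_cases hN : (maximalIdeal A).map (algebraMap A B) ≤ 𝔫 ∧ 𝔫 ∈ Nd
  · by_cases hi : ∃ i ∈ Z, h26Centered B v 𝔫 i
    · obtain ⟨i, hiZ, hic⟩ := hi
      have e : 𝔫 = cen i := hcen i 𝔫 h𝔫 hN.1 hic
      obtain ⟨g, hg, s, hs, h1, h2⟩ := hπNd 𝔫 h𝔫 hN.1 hN.2
      have hdvd : π ∣ πN 𝔫 := by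
        rw [e]
        exact hππ₀.trans (hπ₀c i hiZ)
      have hgU := h86t_U_of_dvd hAV hdvd hg
      exact ⟨g, h26U_ne_zero (hVnt π hπ) hgU, fun _ => hgU, s, hs, h1, h2⟩
    · have hi' : ∀ i ∈ Z, ¬ h26Centered B v 𝔫 i := fun i hiZ hc => hi ⟨i, hiZ, hc⟩
      obtain ⟨s, hs, h1, h2⟩ := hZ 𝔫 h𝔫 hN.1 hN.2 hi'
      refine ⟨1, one_ne_zero, fun _ => h26U_one, s, hs, ?_, ?_⟩
      · simpa using h1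
      · simpa using h2
  · exact hloc π hπ (hππ₀.trans hπ₀d) 𝔫 h𝔫 (fun hle hNd => hN ⟨hle, hNd⟩)

/-- `τ w / w ^ Q ≡ 1` modulo `ϖ V` for `w ≡ 1` modulo `π V`, `ϖ ∣ π`, `ϖ ∣ τ π`. -/
theorem h86t_theta_U (hC : H26Chart B V v)
    (hVnt : ∀ m ∈ maximalIdeal A, ∀ x ∈ V, algebraMap A F m * x ≠ 1)
    (τ : F ≃+* F) (hτV : ∀ x ∈ V, τ x ∈ V) (Q : ℕ) (π π' ϖ : A)
    (hτπ : τ (algebraMap A F π) = algebraMap A F π') (hϖ : ϖ ∈ maximalIdeal A)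
    (h1 : ϖ ∣ π) (h2 : ϖ ∣ π') {w : F} (hw : w ∈ h26U π V) :
    τ w * (w ^ Q)⁻¹ ∈ h26U ϖ V := by
  have hAV : ∀ a : A, algebraMap A F a ∈ V := fun a => hC.hBV _ (B.algebraMap_mem a)
  have hτw : τ w ∈ h26U π' V := by
    obtain ⟨x, hx, rfl⟩ := hw
    exact ⟨τ x, hτV x hx, by rw [map_add, map_one, map_mul, hτπ]⟩
  exact h26U_mul (hAV ϖ) (h86t_U_of_dvd hAV h2 hτw)
    (h26U_inv (hC.hVunit ϖ hϖ) (hVnt ϖ hϖ) (h26U_pow (hAV ϖ) (h86t_U_of_dvd hAV h1 hw) Q))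

/-- the trivial local datum for `τ w / w ^ Q` at a closed point where `w` has no zero or pole,
if `τ` respects the places centered at the point. -/
theorem h86t_unit_datum (hC : H26Chart B V v) (𝔫 : Ideal B) [h𝔫 : 𝔫.IsPrime]
    (τ : F ≃+* F) (Q : ℕ)
    (hperm : ∀ z : F, (∀ k, h26Centered B v 𝔫 k → v k z = 1) →
      ∀ k, h26Centered B v 𝔫 k → v k (τ z) = 1)
    (w : F) (hWV : τ w * (w ^ Q)⁻¹ ∈ V) (hWV' : (τ w * (w ^ Q)⁻¹)⁻¹ ∈ V)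
    (hw1 : ∀ k, h26Centered B v 𝔫 k → v k w = 1) :
    ∃ s : B, s ∉ 𝔫 ∧ (s : F) * (τ w * (w ^ Q)⁻¹) ∈ B ∧
      (s : F) * (τ w * (w ^ Q)⁻¹)⁻¹ ∈ B := by
  refine h26_local_unit hC 𝔫 _ hWV hWV' (fun k hk => ?_)
  rw [map_mul, map_inv₀, map_pow, hperm w hw1 k hk, hw1 k hk]
  simp

end Uniform

end Fermat.Agent.S35
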