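import Fermat.Agent.S35.H86TorFrob
import Fermat.Agent.S35.H86TorAsmAbs
import Fermat.Agent.S35.H13TorNode
import Fermat.Agent.LGC.Integrate63
import Fermat.Agent.LGC.Pieces63c
import Fermat.Agent.LGC.SS85Section
import Fermat.Agent.LGC.SS85Generic
import Fermat.Agent.LGC.H31Overlap

/-!
# S35, block TOR (helper86): TOR-ASM, the assembly of `IfaceTor`

`h86t_torAssembly : TorAssemblyStatement` and `h86t_ifaceTor_of : IfaceTorPieces → IfaceTor`.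

For `w ≡ 1` modulo `π₁ · ssV` with divisor divisible by `m`, the function
`W = σ²(w) / w ^ (ℓ²)` is an `m`-th power: the landed abstract gate `h63_gateAsmOfLocal` is
applied to `W`.  The local datum of the gate:

* finite chart, closed points with a refined smooth datum: `h63_local_all_ss`;
* finite chart, nodes: helper13's `h13x_node_frob` (one modulus for each node; a common modulus
  by `h86t_local_all`: only finitely many nodes carry a zero or pole of `w`);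
* chart at infinity, closed points of the special fibre outside the cusps: overlap transfer
  `h86t_gate_transfer`;
* chart at infinity, cusps and generic points: `h63_local_all_ss`.
-/

set_option autoImplicit false
set_option linter.unusedSectionVars false
set_option linter.style.haveILetI false

open AlgebraicCurve ModularCurve WithZero IsLocalRing

noncomputable section

namespace Fermat.Agent.S35

open Fermat.Agent.S37 Fermat.Agent.Red Fermat.Agent.Red.GG Fermat.Agent.Red.GV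
  Fermat.Agent.Red.GV.Soft Fermat.Agent.Red.Kron Fermat.Agent.Red.ModelO Fermat.Agent.LGC

/-- divisibility of the orders of `σ²(w) / w ^ Q`. -/
theorem h86t_dvd_ord_theta (N : ℕ) (σ : GQ) (m Q : ℕ) (w : FF N) (hw0 : w ≠ 0)
    (hord : ∀ v : Place Kbar (FF N), (m : ℤ) ∣ v.ord w) (v : Place Kbar (FF N)) :
    (m : ℤ) ∣ v.ord (h86t_tau N σ w * (w ^ Q)⁻¹) := by
  have h1 : h86t_tau N σ w ≠ 0 := (map_ne_zero_iff _ (h86t_tau N σ).injective).mpr hw0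
  have h2 : (w ^ Q)⁻¹ ≠ 0 := inv_ne_zero (pow_ne_zero _ hw0)
  rw [v.ord_mul h1 h2, v.ord_inv]
  have h3 : v.ord (w ^ Q) = (Q : ℤ) * v.ord w := by
    rw [← zpow_natCast, v.ord_zpow]
  rw [h3]
  refine dvd_add ?_ (Dvd.dvd.neg_right (Dvd.dvd.mul_left (hord v) _))
  rw [h86t_tau_apply]
  exact h63_dvd_ord_gal N σ m _ (h63_dvd_ord_gal N σ m w hord) v

section Core

variable (A : ValuationSubring Kbar) (M ℓ : ℕ) [NeZero M] [NeZero ℓ]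
  (hℓ : ℓ.Prime) (hM : ¬ ℓ ∣ M) (hA : A.LiesOverPrime ℓ)

set_option maxHeartbeats 3200000 in
/-- **the core of TOR-ASM**, for a coordinate `t = j`. -/
theorem h86t_core (t : FF (M * ℓ)) (ht : t = jB (M * ℓ))
    (hC₀ : IfaceSSChart A M ℓ t) (hC₁ : IfaceSSChart A M ℓ t⁻¹)
    (hNt : IfaceSSNt A M ℓ)
    (hF₀ : IfaceFinite (M * ℓ) A t)
    (hS₀ : IfaceSSSection A M ℓ t) (hS₁ : IfaceSSSection A M ℓ t⁻¹)
    (hG₀ : IfaceSSGeneric A M ℓ t) (hG₁ : IfaceSSGeneric A M ℓ t⁻¹)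
    (hLocal : ∀ 𝔫 : Ideal (chart (M * ℓ) A t), 𝔫.IsMaximal → mExt A M ℓ t ≤ 𝔫 →
      TorSmoothAt A M ℓ t 𝔫 ∨ TorNodeAt A M ℓ hℓ hM hA t 𝔫)
    (hCusp : ∀ 𝔫 : Ideal (chart (M * ℓ) A t⁻¹), 𝔫.IsMaximal → mExt A M ℓ t⁻¹ ≤ 𝔫 →
      (⟨t⁻¹, h85_self_mem_modelAt (M * ℓ) A t⁻¹⟩ : chart (M * ℓ) A t⁻¹) ∈ 𝔫 →
      TorSmoothAt A M ℓ t⁻¹ 𝔫)
    (σ : GQ) (hσ : A.IsFrobeniusAt σ ℓ)
    (hPerm : ∀ 𝔫 : Ideal (chart (M * ℓ) A t), 𝔫.IsMaximal → mExt A M ℓ t ≤ 𝔫 →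
      TorOnBoth A M ℓ hℓ hM hA t 𝔫 → ∀ z : FF (M * ℓ),
        (∀ k, h26Centered (chart (M * ℓ) A t) (chartVal (M * ℓ) t) 𝔫 k →
          chartVal (M * ℓ) t k z = 1) →
        ∀ k, h26Centered (chart (M * ℓ) A t) (chartVal (M * ℓ) t) 𝔫 k →
          chartVal (M * ℓ) t k (gal (M * ℓ) σ • (gal (M * ℓ) σ • z)) = 1)
    (m : ℕ) (hm : ¬ ℓ ∣ m) (w : FF (M * ℓ))
    (hord : ∀ v : Place Kbar (FF (M * ℓ)), (m : ℤ) ∣ v.ord w)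
    (π₁ : A) (hπ₁ : π₁ ∈ maximalIdeal A) (hπ₁0 : π₁ ≠ 0) (hwU : w ∈ h26U π₁ (ssV A M ℓ)) :
    ∃ f : FF (M * ℓ), f ^ m = (gal (M * ℓ) σ • (gal (M * ℓ) σ • w)) / w ^ (ℓ ^ 2) := by
  classical
  subst ht
  have hσD := hσ.mem_decompositionSubgroup
  have hAF : Function.Injective (algebraMap A (FF (M * ℓ))) := algebraMap_injective_FF (M * ℓ) A
  have harch := harch_of_liesOver A hℓ hA
  have hm0 : m ≠ 0 := by
    rintro rfl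
    exact hm (dvd_zero ℓ)
  have hmpos : 0 < m := Nat.pos_of_ne_zero hm0
  have hmA : IsUnit ((m : ℕ) : A) := by
    rw [← IsLocalRing.notMem_maximalIdeal]
    intro hmem
    have hℓmem : ((ℓ : ℕ) : A) ∈ maximalIdeal A := by
      rw [GG.mem_maximalIdeal_iff]
      exact hA
    have hcop : IsCoprime (m : ℤ) (ℓ : ℤ) :=
      Nat.isCoprime_iff_coprime.mpr (Nat.Coprime.symm ((Nat.Prime.coprime_iff_not_dvd hℓ).2 hm))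
    obtain ⟨a, b, hab⟩ := hcop
    have h1 : ((a : ℤ) : A) * ((m : ℕ) : A) + ((b : ℤ) : A) * ((ℓ : ℕ) : A) = 1 := by
      have := congrArg (Int.cast : ℤ → A) hab
      push_cast at this
      exact this
    have h2 : (1 : A) ∈ maximalIdeal A := by
      rw [← h1]
      exact Ideal.add_mem _ (Ideal.mul_mem_left _ _ hmem) (Ideal.mul_mem_left _ _ hℓmem)
    exact (Ideal.ne_top_iff_one _).mp (IsLocalRing.maximalIdeal.isMaximal A).ne_top h2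
  have hAV : ∀ a : A, algebraMap A (FF (M * ℓ)) a ∈ ssV A M ℓ := fun a =>
    hC₀.hBV _ ((chart (M * ℓ) A (jB (M * ℓ))).algebraMap_mem a)
  have hw0 : w ≠ 0 := h26U_ne_zero (hNt π₁ hπ₁) hwU
  have hQ : 0 < ℓ ^ 2 := pow_pos hℓ.pos 2
  -- the Frobenius
  have hτinf := h86t_tau_mem_Winf A M ℓ hℓ hA hσD
  have hτ0 := h86t_tau_mem_W0 A M ℓ hℓ hM hA hσD
  have hτV := h86t_tau_mem_ssV A M ℓ hℓ hM hA hσD
  have hτA := h86t_tau_const A M ℓ hσ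
  -- the function `W`
  have hWeq : (gal (M * ℓ) σ • (gal (M * ℓ) σ • w)) / w ^ (ℓ ^ 2) =
      h86t_tau (M * ℓ) σ w * (w ^ (ℓ ^ 2))⁻¹ := by
    rw [div_eq_mul_inv]; rfl
  rw [hWeq]
  have hW0 : h86t_tau (M * ℓ) σ w * (w ^ (ℓ ^ 2))⁻¹ ≠ 0 :=
    mul_ne_zero ((map_ne_zero_iff _ (h86t_tau (M * ℓ) σ).injective).mpr hw0)
      (inv_ne_zero (pow_ne_zero _ hw0))
  have hordW := h86t_dvd_ord_theta (M * ℓ) σ m (ℓ ^ 2) w hw0 hord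
  -- the modulus of `W`
  obtain ⟨d₁, hd₁, hτπ⟩ := hτA π₁
  have hπ₁'m : π₁ ^ (ℓ ^ 2) + d₁ ∈ maximalIdeal A :=
    (maximalIdeal A).add_mem (Ideal.pow_mem_of_mem _ hπ₁ _ hQ) hd₁
  obtain ⟨ϖ, hϖ, hϖ0, hϖπ, hϖc⟩ := h26_common_divisor ({0} : Finset (Fin 1))
    (fun _ => π₁ ^ (ℓ ^ 2) + d₁) (fun _ _ => hπ₁'m) π₁ hπ₁ hπ₁0
  have hϖπ' : ϖ ∣ π₁ ^ (ℓ ^ 2) + d₁ := hϖc 0 (by simp)
  have hWU : h86t_tau (M * ℓ) σ w * (w ^ (ℓ ^ 2))⁻¹ ∈ h26U ϖ (ssV A M ℓ) :=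
    h86t_theta_U hC₀ hNt (h86t_tau (M * ℓ) σ) hτV (ℓ ^ 2) π₁ _ ϖ hτπ hϖ hϖπ hϖπ' hwU
  have hWV : h86t_tau (M * ℓ) σ w * (w ^ (ℓ ^ 2))⁻¹ ∈ ssV A M ℓ := h26U_mem_V (hAV ϖ) hWU
  have hWV' : (h86t_tau (M * ℓ) σ w * (w ^ (ℓ ^ 2))⁻¹)⁻¹ ∈ ssV A M ℓ :=
    h26U_mem_V (hAV ϖ) (h26U_inv (hC₀.hVunit ϖ hϖ) (hNt ϖ hϖ) hWU)
  -- the finite chart
  have hrW₀ := exists_val_eq (M * ℓ) (jB (M * ℓ)) _ hW0 m hordW
  have hrw₀ := exists_val_eq (M * ℓ) (jB (M * ℓ)) w hw0 m hord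
  have hSM₀ : ∀ 𝔫 : Ideal (chart (M * ℓ) A (jB (M * ℓ))), 𝔫.IsMaximal →
      (maximalIdeal A).map (algebraMap A (chart (M * ℓ) A (jB (M * ℓ)))) ≤ 𝔫 →
      𝔫 ∉ {𝔫 | TorNodeAt A M ℓ hℓ hM hA (jB (M * ℓ)) 𝔫} →
      ∃ t' ∈ 𝔫, (t' : FF (M * ℓ)) ≠ 0 ∧ ((t' : FF (M * ℓ)))⁻¹ ∈ ssV A M ℓ ∧
        ∀ y ∈ 𝔫, ∃ s, s ∉ 𝔫 ∧ s * y ∈ Ideal.span {t'} ⊔
          (maximalIdeal A).map (algebraMap A (chart (M * ℓ) A (jB (M * ℓ)))) := by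
    intro 𝔫 h𝔫 hle hNd
    rcases hLocal 𝔫 h𝔫 hle with h | h
    · exact h
    · exact (hNd h).elim
  have hperm₀ : ∀ 𝔫 : Ideal (chart (M * ℓ) A (jB (M * ℓ))), 𝔫.IsMaximal →
      (maximalIdeal A).map (algebraMap A (chart (M * ℓ) A (jB (M * ℓ)))) ≤ 𝔫 →
      TorNodeAt A M ℓ hℓ hM hA (jB (M * ℓ)) 𝔫 → ∀ z : FF (M * ℓ),
        (∀ k, h26Centered (chart (M * ℓ) A (jB (M * ℓ))) (chartVal (M * ℓ) (jB (M * ℓ))) 𝔫 k →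
          chartVal (M * ℓ) (jB (M * ℓ)) k z = 1) →
        ∀ k, h26Centered (chart (M * ℓ) A (jB (M * ℓ))) (chartVal (M * ℓ) (jB (M * ℓ))) 𝔫 k →
          chartVal (M * ℓ) (jB (M * ℓ)) k (h86t_tau (M * ℓ) σ z) = 1 :=
    fun 𝔫 h𝔫 hle hNd => hPerm 𝔫 h𝔫 hle hNd.1
  obtain ⟨π₀, hπ₀, hπ₀0, hπ₀ϖ, hL₀⟩ := h86t_local_all hC₀ hAF harch hNt
    {𝔫 | TorNodeAt A M ℓ hℓ hM hA (jB (M * ℓ)) 𝔫} hSM₀ hS₀ hG₀ _ hW0 m hrW₀ ϖ hϖ hϖ0 hWU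
    (by
      intro 𝔫 h𝔫 hle hNd
      have hNd' : TorNodeAt A M ℓ hℓ hM hA (jB (M * ℓ)) 𝔫 := hNd
      obtain ⟨⟨hbi, hb0⟩, x, hx, y, hy, c, hc, a, ha, hxy, hgen, hxinf, hy0⟩ := hNd'
      haveI := h𝔫.isPrime
      obtain ⟨π, hπ, hπ0, -, g, hg, s, hs, h1, h2⟩ := h13x_node_frob hC₀ hAF
        (h85cWinf A M ℓ hℓ hA).toSubring (h85cW0 A M ℓ hℓ hM hA).toSubring
        (fun x hx => h85c_ssV_le_Winf A M ℓ hℓ hA hx)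
        (fun x hx => h85c_ssV_le_W0 A M ℓ hℓ hM hA hx)
        (h85c_hWV A M ℓ hℓ hM hA)
        (fun π hπ x hx => h86t_Winf_unit A M ℓ hℓ hA π hπ x hx)
        (fun π hπ x hx => h86t_W0_unit A M ℓ hℓ hM hA π hπ x hx)
        (fun π hπ x hx => h86t_Winf_nt A M ℓ hℓ hA π hπ x hx)
        (fun π hπ x hx => h86t_W0_nt A M ℓ hℓ hM hA π hπ x hx)
        𝔫 hle
        (fun b hb => by_contra fun h => hb (hbi b h))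
        (fun b hb => by_contra fun h => hb (hb0 b h))
        x y c hx hy hc a ha hxy hxinf hy0 hgen
        (fun i hi => hS₀ i 𝔫 h𝔫 hle hi)
        (h86t_tau (M * ℓ) σ) (ℓ ^ 2) hQ hτinf hτ0 hτA
        (hperm₀ 𝔫 h𝔫 hle hNd)
        w hw0 m hmpos hrw₀ π₁ hπ₁ hπ₁0 hwU
      exact ⟨π, hπ, hπ0, g, hg, s, hs, h1, h2⟩)
    (h26_finite_support hC₀ w hw0).toFinset
    (by
      intro 𝔫 h𝔫 hle hNd hZ
      haveI := h𝔫.isPrime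
      refine h86t_unit_datum hC₀ 𝔫 (h86t_tau (M * ℓ) σ) (ℓ ^ 2) (hperm₀ 𝔫 h𝔫 hle hNd) w
        hWV hWV' ?_
      intro k hk
      by_contra hne
      exact hZ k ((Set.Finite.mem_toFinset _).mpr hne) hk)
  -- the chart at infinity: cusps and generic points
  have hrW₁ := exists_val_eq (M * ℓ) (jB (M * ℓ))⁻¹ _ hW0 m hordW
  obtain ⟨π₀', hπ₀', hπ₀'0, hπ₀'ϖ, hL₁⟩ := h63_local_all_ss hC₁ hAF harch hNt
    {𝔫 | (⟨(jB (M * ℓ))⁻¹, h85_self_mem_modelAt (M * ℓ) A (jB (M * ℓ))⁻¹⟩ :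
      chart (M * ℓ) A (jB (M * ℓ))⁻¹) ∉ 𝔫}
    (fun 𝔫 h𝔫 hle hNd => hCusp 𝔫 h𝔫 hle (not_not.mp hNd)) hS₁ hG₁ _ hW0 m hrW₁ ϖ hϖ hϖ0 hWU
  -- the common modulus
  obtain ⟨π, hπ, hπ0, hππ₀, hπc⟩ := h26_common_divisor ({0} : Finset (Fin 1))
    (fun _ => π₀') (fun _ _ => hπ₀') π₀ hπ₀ hπ₀0
  have hππ₀' : π ∣ π₀' := hπc 0 (by simp)
  have hWUπ : h86t_tau (M * ℓ) σ w * (w ^ (ℓ ^ 2))⁻¹ ∈ h26U π (ssV A M ℓ) :=
    h86t_U_of_dvd hAV (hππ₀.trans hπ₀ϖ) hWU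
  have hD₀ := hL₀ π hπ hππ₀
  have hj0 : jB (M * ℓ) ≠ 0 := h85_jB_ne_zero (M * ℓ)
  have hD₁ : ∀ 𝔫 : Ideal (chart (M * ℓ) A (jB (M * ℓ))⁻¹), 𝔫.IsMaximal →
      ∃ g : FF (M * ℓ), g ≠ 0 ∧
        ((maximalIdeal A).map (algebraMap A (chart (M * ℓ) A (jB (M * ℓ))⁻¹)) ≤ 𝔫 →
          g ∈ h26U π (ssV A M ℓ)) ∧
        ∃ s : chart (M * ℓ) A (jB (M * ℓ))⁻¹, s ∉ 𝔫 ∧
          (s : FF (M * ℓ)) * (h86t_tau (M * ℓ) σ w * (w ^ (ℓ ^ 2))⁻¹ * (g ^ m)⁻¹) ∈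
            chart (M * ℓ) A (jB (M * ℓ))⁻¹ ∧
          (s : FF (M * ℓ)) * (g ^ m * (h86t_tau (M * ℓ) σ w * (w ^ (ℓ ^ 2))⁻¹)⁻¹) ∈
            chart (M * ℓ) A (jB (M * ℓ))⁻¹ := by
    intro 𝔫 h𝔫
    by_cases hov : (maximalIdeal A).map (algebraMap A (chart (M * ℓ) A (jB (M * ℓ))⁻¹)) ≤ 𝔫 ∧
        (⟨(jB (M * ℓ))⁻¹, h85_self_mem_modelAt (M * ℓ) A (jB (M * ℓ))⁻¹⟩ :
          chart (M * ℓ) A (jB (M * ℓ))⁻¹) ∉ 𝔫
    · obtain ⟨g, hg, s, hs, h1, h2⟩ := h86t_gate_transfer (A := A) (F := FF (M * ℓ))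
        (B₀ := chart (M * ℓ) A (jB (M * ℓ))) (B₁ := chart (M * ℓ) A (jB (M * ℓ))⁻¹)
        (t := jB (M * ℓ)) hj0 (h85_self_mem_modelAt (M * ℓ) A (jB (M * ℓ)))
        (h85_self_mem_modelAt (M * ℓ) A (jB (M * ℓ))⁻¹)
        (fun y hy => h85_exists_pow_mul_mem_modelAt (M * ℓ) A hj0 hy)
        (fun y hy => by
          have hy' : y ∈ modelAt (M * ℓ) A ((jB (M * ℓ))⁻¹)⁻¹ := by rw [inv_inv]; exact hy
          exact h85_exists_pow_mul_mem_modelAt (M * ℓ) A (inv_ne_zero hj0) hy')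
        (h85ev (M * ℓ) A (jB (M * ℓ))⁻¹)
        (fun a => by rw [h85ev_C]; rfl)
        (h85ev_X (M * ℓ) A (jB (M * ℓ))⁻¹)
        (fun y hy => (h85_mem_modelAt_iff_isIntegralElem (M * ℓ) A (jB (M * ℓ))⁻¹ y).1 hy)
        (fun g => g ∈ h26U π (ssV A M ℓ))
        (fun g => h86t_tau (M * ℓ) σ w * (w ^ (ℓ ^ 2))⁻¹ * (g ^ m)⁻¹)
        (fun g => g ^ m * (h86t_tau (M * ℓ) σ w * (w ^ (ℓ ^ 2))⁻¹)⁻¹)
        (fun 𝔫₀ h𝔫₀ hle₀ => by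
          obtain ⟨g, -, hgU, s, hs, h1, h2⟩ := hD₀ 𝔫₀ h𝔫₀
          exact ⟨g, hgU hle₀, s, hs, h1, h2⟩)
        𝔫 h𝔫 hov.1 hov.2
      exact ⟨g, h26U_ne_zero (hNt π hπ) hg, fun _ => hg, s, hs, h1, h2⟩
    · exact hL₁ π hπ hππ₀' 𝔫 h𝔫 (fun hle hNd => hov ⟨hle, hNd⟩)
  -- the gate
  obtain ⟨S, hS, hfin⟩ := span_of_ifaceFinite (M * ℓ) A (jB (M * ℓ)) hF₀
  have hjV : jB (M * ℓ) ∈ ssV A M ℓ := hC₀.hBV _ (h85_jB_mem_modelFin (M * ℓ) A)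
  obtain ⟨f₀, hf0, hf₀, hfinf⟩ := h63_gateAsmOfLocal hAF harch (ssV A M ℓ) hNt (jB (M * ℓ)) hj0
    (chart (M * ℓ) A (jB (M * ℓ))) (chart (M * ℓ) A (jB (M * ℓ))⁻¹) (chartMid (M * ℓ) A)
    (h85_jB_mem_modelFin (M * ℓ) A) (h85_jB_inv_mem_modelInf (M * ℓ) A)
    (h85_modelFin_le_modelMid (M * ℓ) A) (h85_modelInf_le_modelMid (M * ℓ) A)
    (fun x hx => h85_modelMid_scale_fin (M * ℓ) A hx)
    (fun x hx => h85_modelMid_scale_inf (M * ℓ) A hx)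
    m hmpos hmA
    (fun x hx => h85_modelAt_root_closed (M * ℓ) A _ hm0 hx)
    (fun x hx => h85_modelAt_root_closed (M * ℓ) A _ hm0 hx)
    (fun x hx => h85_modelMid_root_closed (M * ℓ) A hm0 hx)
    (fun a ha x hx hax => h85_modelMid_qep (M * ℓ) A (ssV A M ℓ) hjV
      (algebraMap A (FF (M * ℓ)) a)
      (fun y hy hay => hC₀.hQEP a ha y hy (by rw [Algebra.smul_def]; exact hay)) hx
      (by rw [Algebra.smul_def] at hax; exact hax))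
    (chartVal (M * ℓ) (jB (M * ℓ))) (chartVal (M * ℓ) (jB (M * ℓ))⁻¹) hC₀ hC₁
    S hS hfin _ hW0 π hπ hπ0 hWUπ hD₀ hD₁
  -- `f₀ ^ m / W` is a constant
  obtain ⟨a, -, ha⟩ := h85_modelFin_inf_modelInf (M * ℓ) A hf₀ hfinf
  have ha0 : a ≠ 0 := by
    rintro rfl
    rw [cst, map_zero] at ha
    exact mul_ne_zero (pow_ne_zero _ hf0) (inv_ne_zero hW0) ha
  obtain ⟨b, hb⟩ := IsAlgClosed.exists_pow_nat_eq a hmpos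
  have hb0 : b ≠ 0 := by
    rintro rfl
    rw [zero_pow hm0] at hb
    exact ha0 hb.symm
  have hcb0 : cst (M * ℓ) b ≠ 0 := by
    simpa only [cst, ne_eq, map_eq_zero] using hb0
  refine ⟨f₀ * (cst (M * ℓ) b)⁻¹, ?_⟩
  have h1 : cst (M * ℓ) b ^ m = f₀ ^ m * (h86t_tau (M * ℓ) σ w * (w ^ (ℓ ^ 2))⁻¹)⁻¹ := by
    rw [ha, ← hb]
    exact (map_pow _ _ _).symm
  rw [mul_pow, inv_pow, h1]
  field_simp

end Core

/-- **TOR-ASM**: `IfaceTor` from the modular pieces. -/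
theorem h86t_ifaceTor_of (hP : IfaceTorPieces) : IfaceTor := by
  intro ℓ hℓ M _ hM haux
  haveI : NeZero ℓ := ⟨hℓ.ne_zero⟩
  intro A hA σ hσ m hm w hord hw
  obtain ⟨π₁, hπ₁, hπ₁0, hwU⟩ := hw
  obtain ⟨hLocal, hCusp, hPerm⟩ := hP ℓ hℓ M hM haux A hA
  obtain ⟨hF₀, hF₁⟩ := ifaceSSFiniteAll ℓ hℓ M hM haux A hA
  exact h86t_core A M ℓ hℓ hM hA (jSS M ℓ) (h63_jSS_eq M ℓ)
    (h85s_ifaceSSChart_fin A M ℓ hℓ hM hA) (h85s_ifaceSSChart_inf A M ℓ hℓ hM hA)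
    (h85s_ifaceSSNt A M ℓ hℓ hM hA) hF₀
    (h85s_ifaceSSSection_of A M ℓ _ hF₀) (h85s_ifaceSSSection_of A M ℓ _ hF₁)
    (h85s_ifaceSSGeneric_fin A M ℓ hℓ hA) (h85s_ifaceSSGeneric_inf A M ℓ hℓ hA)
    hLocal hCusp σ hσ (hPerm σ hσ) m hm w hord π₁ hπ₁ hπ₁0 hwU

/-- **TOR-ASM** in the frozen form. -/
theorem h86t_torAssembly : TorAssemblyStatement :=
  fun _ hP => h86t_ifaceTor_of hP

end Fermat.Agent.S35
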