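import Fermat.Agent.LGC.H62Done
import Fermat.Agent.LGC.H62BranchLocal
import Fermat.Agent.Red.HKGal

/-!
# S35 / G-TOR input (helper62): the closed points of the special fibre of the finite chart of
level `M ℓ`, WITH branch information and rational local parameters

`B = chart (M * ℓ) A (jSS M ℓ)`, `Λ = chart M A (jB M)`, `α = h62i_α`, `β = h62i_β`,
`P∞ = h62i_Pinf`, `P₀ = h62i_P0` (`LGC/H62Inst.lean`; equal to helper85's `h85cPinf`, `h85cP0`).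

* `h62x_dichotomy` : every maximal ideal `𝔫 ⊇ 𝔪_A B` contains `P∞` or `P₀`;
* `h62x_node` (N1) : at `𝔫 ⊇ P∞ + P₀` there are a rational `u ∈ Λ`, a local parameter at
  `α⁻¹ 𝔫` and at `β⁻¹ 𝔫`, and Galois-fixed `x, y, c' ∈ B` with `x y = ℓ c'`, `c' ∉ 𝔫`,
  `x ∈ P₀ \ P∞`, `y = β u - (α u) ^ ℓ ∈ P∞ \ P₀`, `𝔫 = (x) + P∞ = (y) + P₀ = (x, y) + 𝔪_A B`
  locally, and `𝔫` is the only maximal ideal over `α⁻¹ 𝔫`;
* `h62x_smooth_inf`, `h62x_smooth_zero` (N2) : at a point on one component only,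
  `𝔫 = (α u) + P∞` resp. `𝔫 = (β u) + P₀` locally with `u` rational.
-/

set_option autoImplicit false
set_option linter.unusedSectionVars false
set_option linter.style.haveILetI false

open AlgebraicCurve ModularCurve WithZero IsLocalRing Polynomial

noncomputable section

namespace Fermat.Agent.S35

open Fermat.Agent.S37 Fermat.Agent.Red Fermat.Agent.Red.GG Fermat.Agent.Red.GV
  Fermat.Agent.Red.GV.Soft Fermat.Agent.Red.Kron Fermat.Agent.Red.KR Fermat.Agent.Red.ModelO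
  Fermat.Agent.LGC

section Abs

variable {Λ B : Type*} [CommRing Λ] [CommRing B]

/-- the value at a point of a subring of a polynomial with coefficients in a subring. -/
theorem h62x_eval₂_mem (φ : Λ →+* B) (R : Subring Λ) (R' : Subring B)
    (hφ : ∀ x ∈ R, φ x ∈ R') (Y : B) (hY : Y ∈ R') (p : Λ[X]) (hp : ∀ n, p.coeff n ∈ R) :
    p.eval₂ φ Y ∈ R' := by
  rw [Polynomial.eval₂_eq_sum]
  exact Subring.sum_mem _ fun n _ => R'.mul_mem (hφ _ (hp n)) (R'.pow_mem hY n)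

theorem h62x_coeff_derivative_mem (R : Subring Λ) (p : Λ[X]) (hp : ∀ n, p.coeff n ∈ R)
    (n : ℕ) : (derivative p).coeff n ∈ R := by
  rw [Polynomial.coeff_derivative]
  exact R.mul_mem (hp _) (R.add_mem (natCast_mem R n) R.one_mem)

end Abs

section Rat

variable (N : ℕ)

/-- the functions of level `N` fixed by the arithmetic Galois action (= with rational
`q`-expansion). -/
def h62x_fixed : Subring (FF N) where
  carrier := {x | ∀ σ : GQ, gal N σ • x = x}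
  mul_mem' := fun {a b} ha hb σ => by rw [smul_mul', ha σ, hb σ]
  one_mem' := fun σ => smul_one _
  add_mem' := fun {a b} ha hb σ => by rw [smul_add, ha σ, hb σ]
  zero_mem' := fun σ => smul_zero _
  neg_mem' := fun {a} ha σ => by rw [smul_neg, ha σ]

theorem h62x_mem_fixed (x : FF N) : x ∈ h62x_fixed N ↔ ∀ σ : GQ, gal N σ • x = x := Iff.rfl

theorem h62x_mem_fixed_iff_isRat (x : FF N) : x ∈ h62x_fixed N ↔ IsRat x :=
  (isRat_iff_gal_fixed N x).symm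

end Rat

section Concrete

variable (A : ValuationSubring Kbar) (M : ℕ) {ℓ : ℕ} [NeZero M] [NeZero ℓ]

/-- the Galois-fixed elements of the finite chart of level `M ℓ`. -/
def h62x_fixedB : Subring (chart (M * ℓ) A (jSS M ℓ)) :=
  (h62x_fixed (M * ℓ)).comap (chart (M * ℓ) A (jSS M ℓ)).val.toRingHom

theorem h62x_mem_fixedB (b : chart (M * ℓ) A (jSS M ℓ)) :
    b ∈ h62x_fixedB A M (ℓ := ℓ) ↔ ∀ σ : GQ, gal (M * ℓ) σ • (b : FF (M * ℓ)) = b := Iff.rfl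

theorem h62x_α_mem_fixedB (u : chart M A (jB M)) (hu : u ∈ h62i_R A M) :
    h62i_α A M ℓ u ∈ h62x_fixedB A M (ℓ := ℓ) := by
  have hrat : IsRat (u : FF M) := (h62i_mem_R A M u).mp hu
  intro σ
  have h := Fermat.Agent.Red.HKGal.intertwines_heckeAlphaBar M ℓ σ (u : FF M)
  have h1 : gal M σ • (u : FF M) = u := GalI.gal_smul_of_isRat σ hrat
  have h2 : gal (M * ℓ) σ • heckeAlphaBar Kbar M ℓ (u : FF M) =
      heckeAlphaBar Kbar M ℓ (gal M σ • (u : FF M)) := h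
  rw [h1] at h2
  exact h2

theorem h62x_β_mem_fixedB (hℓ : ℓ.Prime) (hM : ¬ ℓ ∣ M) (hA : A.LiesOverPrime ℓ)
    (u : chart M A (jB M)) (hu : u ∈ h62i_R A M) :
    h62i_β A M hℓ hM hA u ∈ h62x_fixedB A M (ℓ := ℓ) := by
  have hrat : IsRat (u : FF M) := (h62i_mem_R A M u).mp hu
  intro σ
  have h := Fermat.Agent.Red.HKGal.intertwines_heckeBetaBar M ℓ σ (u : FF M)
  have h1 : gal M σ • (u : FF M) = u := GalI.gal_smul_of_isRat σ hrat
  have h2 : gal (M * ℓ) σ • heckeBetaBar Kbar M ℓ (u : FF M) =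
      heckeBetaBar Kbar M ℓ (gal M σ • (u : FF M)) := h
  rw [h1] at h2
  exact h2

/-- (I4) with rational coefficients, in the chart vocabulary. -/
theorem h62x_kron (hℓ : ℓ.Prime) (hM : ¬ ℓ ∣ M) (hA : A.LiesOverPrime ℓ)
    (u : chart M A (jB M)) (hu : u ∈ h62i_R A M) :
    ∃ r : (chart M A (jB M))[X], (∀ n, r.coeff n ∈ h62i_R A M) ∧ r.natDegree ≤ ℓ ∧
      (h62n_poly ℓ (u ^ ℓ) u r).eval₂
        ((h62i_α A M ℓ : chart M A (jB M) →ₐ[A] chart (M * ℓ) A (jSS M ℓ)) :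
          chart M A (jB M) →+* chart (M * ℓ) A (jSS M ℓ))
        (h62i_β A M hℓ hM hA u) = 0 := by
  have hrat : IsRat (u : FF M) := (h62i_mem_R A M u).mp hu
  obtain ⟨r, hr, hdeg, hΨ⟩ := h55k_charpoly_eq M ℓ A hℓ hM hA (u : FF M) u.2 hrat
  have heq : ((X - C ((u : FF M) ^ ℓ)) * (X ^ ℓ - C (u : FF M)) + C ((ℓ : ℕ) : FF M) * r).eval₂
      (heckeAlphaBar Kbar M ℓ).toRingHom (heckeBetaBar Kbar M ℓ (u : FF M)) = 0 := by
    rw [← hΨ]
    exact h44g_eval₂_charpolyAlong (heckeAlphaBar Kbar M ℓ) _ _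
  have hℓ0 : ((ℓ : ℕ) : FF M) ≠ 0 := by
    intro h
    have h3 : algebraMap Kbar (FF M) ((ℓ : ℕ) : Kbar) = 0 := by
      rw [map_natCast]
      exact h
    have h4 : ((ℓ : ℕ) : Kbar) = 0 :=
      (algebraMap Kbar (FF M)).injective (h3.trans (map_zero _).symm)
    exact NeZero.ne ℓ (Nat.cast_eq_zero.mp h4)
  have hrrat : ∀ n, IsRat (r.coeff n) := by
    intro n
    have h1 : IsRat ((h55k_Psi M ℓ (u : FF M) - h55k_P0 M ℓ (u : FF M)).coeff n) :=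
      h55k_isRat_coeff M ℓ hℓ hM (u : FF M) hrat n
    have h2 : (h55k_Psi M ℓ (u : FF M) - h55k_P0 M ℓ (u : FF M)).coeff n =
        ((ℓ : ℕ) : FF M) * r.coeff n := by
      rw [hΨ]
      unfold h55k_P0
      rw [add_sub_cancel_left, Polynomial.coeff_C_mul]
    rw [h2] at h1
    rw [isRat_iff_gal_fixed] at h1 ⊢
    intro σ
    have h3 := h1 σ
    have h4 : gal M σ • ((ℓ : ℕ) : FF M) = ((ℓ : ℕ) : FF M) :=
      natCast_mem (h62x_fixed M) ℓ σ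
    rw [smul_mul', h4] at h3
    exact mul_left_cancel₀ hℓ0 h3
  set ι : chart M A (jB M) →+* FF M := (chart M A (jB M)).val.toRingHom with hι
  have hιinj : Function.Injective ι := Subtype.val_injective
  have hlift : r ∈ Polynomial.lifts ι := by
    rw [Polynomial.lifts_iff_coeff_lifts]
    intro n
    exact ⟨⟨r.coeff n, hr n⟩, rfl⟩
  rw [Polynomial.mem_lifts] at hlift
  obtain ⟨r', hr'⟩ := hlift
  refine ⟨r', ?_, ?_, ?_⟩
  · intro n
    rw [h62i_mem_R]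
    have h1 : ((r'.coeff n : chart M A (jB M)) : FF M) = r.coeff n := by
      rw [← hr', Polynomial.coeff_map]
      rfl
    rw [h1]
    exact hrrat n
  · rw [← Polynomial.natDegree_map_eq_of_injective hιinj r', hr']
    exact hdeg
  · apply Subtype.ext
    set κ : chart (M * ℓ) A (jSS M ℓ) →+* FF (M * ℓ) :=
      (chart (M * ℓ) A (jSS M ℓ)).val.toRingHom with hκ
    show κ (eval₂ _ _ _) = 0
    rw [Polynomial.hom_eval₂]
    have hcomp : κ.comp ((h62i_α A M ℓ : chart M A (jB M) →ₐ[A] chart (M * ℓ) A (jSS M ℓ)) :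
          chart M A (jB M) →+* chart (M * ℓ) A (jSS M ℓ)) =
        ((heckeAlphaBar Kbar M ℓ).toRingHom).comp ι := rfl
    rw [hcomp, ← Polynomial.eval₂_map]
    have hmap : (h62n_poly ℓ (u ^ ℓ) u r').map ι =
        (X - C ((u : FF M) ^ ℓ)) * (X ^ ℓ - C (u : FF M)) + C ((ℓ : ℕ) : FF M) * r := by
      unfold h62n_poly
      simp only [Polynomial.map_add, Polynomial.map_mul, Polynomial.map_sub, Polynomial.map_X,
        Polynomial.map_pow, Polynomial.map_C, hr', map_natCast, map_pow,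
        Polynomial.map_natCast]
      rfl
    rw [hmap]
    exact heq

/-- every closed point of the special fibre lies on one of the two components. -/
theorem h62x_dichotomy (hℓ : ℓ.Prime) (hM : ¬ ℓ ∣ M) (hA : A.LiesOverPrime ℓ)
    (𝔫 : Ideal (chart (M * ℓ) A (jSS M ℓ))) (h𝔫 : 𝔫.IsMaximal)
    (hm : mExt A M ℓ (jSS M ℓ) ≤ 𝔫) :
    h62i_Pinf A M hℓ hM hA ≤ 𝔫 ∨ h62i_P0 A M hℓ hM hA ≤ 𝔫 :=
  (Ideal.IsPrime.inf_le h𝔫.isPrime).mp (le_trans (h62c_comp A M hℓ hM hA) hm)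

/-- **(N1) the nodes, with branch information and rational parameters.** -/
theorem h62x_node (hℓ : ℓ.Prime) (hM : ¬ ℓ ∣ M) (haux : auxLevel ℓ ∣ M)
    (hA : A.LiesOverPrime ℓ)
    (𝔫 : Ideal (chart (M * ℓ) A (jSS M ℓ))) (h𝔫 : 𝔫.IsMaximal)
    (hPinf𝔫 : h62i_Pinf A M hℓ hM hA ≤ 𝔫) (hP0𝔫 : h62i_P0 A M hℓ hM hA ≤ 𝔫) :
    ∃ (u : chart M A (jB M)) (x y c' : chart (M * ℓ) A (jSS M ℓ)),
      IsRat (u : FF M) ∧
      h62l_LP (h62i_mΛ A M)
        (𝔫.comap ((h62i_α A M ℓ : chart M A (jB M) →ₐ[A] chart (M * ℓ) A (jSS M ℓ)) :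
          chart M A (jB M) →+* chart (M * ℓ) A (jSS M ℓ))) u ∧
      h62l_LP (h62i_mΛ A M)
        (𝔫.comap ((h62i_β A M hℓ hM hA : chart M A (jB M) →ₐ[A] chart (M * ℓ) A (jSS M ℓ)) :
          chart M A (jB M) →+* chart (M * ℓ) A (jSS M ℓ))) u ∧
      y = h62i_β A M hℓ hM hA u - (h62i_α A M ℓ u) ^ ℓ ∧
      x ∈ h62x_fixedB A M (ℓ := ℓ) ∧ y ∈ h62x_fixedB A M (ℓ := ℓ) ∧
      c' ∈ h62x_fixedB A M (ℓ := ℓ) ∧
      (∀ s : chart (M * ℓ) A (jSS M ℓ), s ∉ 𝔫 → ∃ s' : chart (M * ℓ) A (jSS M ℓ),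
        s * s' - 1 ∈ (𝔫.comap ((h62i_α A M ℓ :
            chart M A (jB M) →ₐ[A] chart (M * ℓ) A (jSS M ℓ)) :
          chart M A (jB M) →+* chart (M * ℓ) A (jSS M ℓ))).map
          ((h62i_α A M ℓ : chart M A (jB M) →ₐ[A] chart (M * ℓ) A (jSS M ℓ)) :
          chart M A (jB M) →+* chart (M * ℓ) A (jSS M ℓ))) ∧
      H62bNodeDatum (mExt A M ℓ (jSS M ℓ)) 𝔫 (h62i_Pinf A M hℓ hM hA) (h62i_P0 A M hℓ hM hA)
        ((ℓ : ℕ) : chart (M * ℓ) A (jSS M ℓ)) x y c' := by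
  have hded := h13l_hded_fin M A hℓ hM haux hA
  have hC : IfaceSSChart A M ℓ (jSS M ℓ) := h85s_ifaceSSChart_fin A M ℓ hℓ hM hA
  have hKer := h62d_ker A M hℓ hM hA
  have hSurj := h62d_surj A M hℓ hM haux hA
  have hFrob := h62d_frob A M hℓ hM hA
  obtain ⟨u, huR, r, hQ, hr, hf, hLPα, hLPβ, hU, hD⟩ :=
    h62b_local_node (A := A) (F := FF (M * ℓ)) (B := chart (M * ℓ) A (jSS M ℓ))
    (V := ssV A M ℓ) (v := chartVal (M * ℓ) (jSS M ℓ)) hC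
    (softV A (M * ℓ))
    ((softV A (M * ℓ)).comap (kFricke M ℓ hℓ hM : FF (M * ℓ) →+* FF (M * ℓ)))
    (fun x hx hwx => h63r_mem_ssV_of_soft hℓ hM hA hx hwx)
    (fun b => h62i_mem_soft A M hℓ hM hA b)
    (fun b => h62i_mem_soft A M hℓ hM hA (h62i_w A M hℓ hM hA b))
    (h62i_Pinf A M hℓ hM hA) (h62i_P0 A M hℓ hM hA)
    (h62c_comp A M hℓ hM hA) (h62i_m_le_Pinf A M hℓ hM hA) (h62i_m_le_P0 A M hℓ hM hA)
    (fun b hb => h62i_inv_mem_soft A M hℓ hM hA b hb)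
    (fun b hb => by
      have h1 : h62i_w A M hℓ hM hA b ∉ h62i_Pinf A M hℓ hM hA := hb
      have h2 := h62i_inv_mem_soft A M hℓ hM hA _ h1
      show kFricke M ℓ hℓ hM ((b : FF (M * ℓ)))⁻¹ ∈ softV A (M * ℓ)
      rw [map_inv₀]
      exact h2)
    (h62i_α A M ℓ) (h62i_β A M hℓ hM hA)
    (h4f_finite_of_ifaceFinite A M ℓ (h71_ssFinite hℓ hM hA) _ (fun _ => rfl))
    (h13l_hnf_fin M A hℓ hM hA) (h62d_res A M) hKer.1
    (fun x hx => by
      apply hKer.2 x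
      have h1 : h62i_w A M hℓ hM hA (h62i_α A M ℓ x) ∈ h62i_Pinf A M hℓ hM hA := hx
      rwa [h62i_w_α] at h1)
    (fun x hx => by
      apply hKer.1 x
      have h1 : h62i_w A M hℓ hM hA (h62i_β A M hℓ hM hA x) ∈ h62i_Pinf A M hℓ hM hA := hx
      rwa [h62i_w_β] at h1)
    hSurj
    (fun b => by
      obtain ⟨x, hx⟩ := hSurj (h62i_w A M hℓ hM hA b)
      refine ⟨x, ?_⟩
      rw [h62i_mem_P0_iff_w, map_sub, h62i_w_β]
      exact hx)
    (h62i_R A M) (h62d_span A M hℓ hM hA) ℓ hℓ (h62i_natCast_mem A hA)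
    (h62i_natCast_ne_zero A M)
    hFrob
    (fun u hu => by
      rw [h62i_mem_P0_iff_w, map_sub, map_pow, h62i_w_α, h62i_w_β]
      exact hFrob u hu)
    (fun _ r => ∀ n, r.coeff n ∈ h62i_R A M)
    (fun u hu => h62x_kron A M hℓ hM hA u hu)
    (h62i_perf A ℓ) (h62d_sep A hℓ hA)
    (K := Kbar)
    (fun 𝔫 _ _ _ i _ => by
      obtain ⟨T, φ, φ', hiT, hcard, hzero, hag⟩ := h18l_hpl M ℓ A hℓ hM haux i
      exact ⟨T, φ, φ', hiT, hcard, hzero, fun k hk x => hag k hk (h62i_α A M ℓ x) x rfl⟩)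
    𝔫 h𝔫 hPinf𝔫 hP0𝔫
  have hαR : ∀ x ∈ h62i_R A M,
      ((h62i_α A M ℓ : chart M A (jB M) →ₐ[A] chart (M * ℓ) A (jSS M ℓ)) :
          chart M A (jB M) →+* chart (M * ℓ) A (jSS M ℓ)) x ∈ h62x_fixedB A M (ℓ := ℓ) :=
    fun x hx => h62x_α_mem_fixedB A M x hx
  have hY : h62i_β A M hℓ hM hA u ∈ h62x_fixedB A M (ℓ := ℓ) :=
    h62x_β_mem_fixedB A M hℓ hM hA u huR
  have hX : h62i_α A M ℓ u ∈ h62x_fixedB A M (ℓ := ℓ) := h62x_α_mem_fixedB A M u huR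
  have hy : h62i_β A M hℓ hM hA u - (h62i_α A M ℓ u) ^ ℓ ∈ h62x_fixedB A M (ℓ := ℓ) :=
    Subring.sub_mem _ hY (Subring.pow_mem _ hX ℓ)
  have hpolyR : ∀ n, (h62n_poly ℓ (u ^ ℓ) u r).coeff n ∈ h62i_R A M := by
    intro n
    unfold h62n_poly
    have h1 : ∀ (p q : (chart M A (jB M))[X]), (∀ n, p.coeff n ∈ h62i_R A M) →
        (∀ n, q.coeff n ∈ h62i_R A M) → ∀ n, (p * q).coeff n ∈ h62i_R A M := by
      intro p q hp hq n
      rw [Polynomial.coeff_mul]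
      exact Subring.sum_mem _ fun i _ => Subring.mul_mem _ (hp _) (hq _)
    have hXc : ∀ n, (X : (chart M A (jB M))[X]).coeff n ∈ h62i_R A M := by
      intro n
      rw [Polynomial.coeff_X]
      split_ifs
      · exact Subring.one_mem _
      · exact Subring.zero_mem _
    have hCc : ∀ (a : chart M A (jB M)), a ∈ h62i_R A M →
        ∀ n, (C a : (chart M A (jB M))[X]).coeff n ∈ h62i_R A M := by
      intro a ha n
      rw [Polynomial.coeff_C]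
      split_ifs
      · exact ha
      · exact Subring.zero_mem _
    have hXp : ∀ n, ((X : (chart M A (jB M))[X]) ^ ℓ).coeff n ∈ h62i_R A M := by
      intro n
      rw [Polynomial.coeff_X_pow]
      split_ifs
      · exact Subring.one_mem _
      · exact Subring.zero_mem _
    rw [Polynomial.coeff_add]
    refine Subring.add_mem _ (h1 _ _ ?_ ?_ n) (h1 _ _ (hCc _ (natCast_mem _ ℓ)) hQ n)
    · intro k
      rw [Polynomial.coeff_sub]
      exact Subring.sub_mem _ (hXc k) (hCc _ (Subring.pow_mem _ huR ℓ) k)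
    · intro k
      rw [Polynomial.coeff_sub]
      exact Subring.sub_mem _ (hXp k) (hCc _ huR k)
  refine ⟨u, _, _, _, (h62i_mem_R A M u).mp huR, hLPα, hLPβ, rfl, ?_, hy, ?_, hU, hD⟩
  · exact h62x_eval₂_mem _ (h62i_R A M) _ hαR _ hY _
      (h62x_coeff_derivative_mem (h62i_R A M) _ hpolyR)
  · refine Subring.add_mem _ (Subring.add_mem _ (Subring.neg_mem _ ?_) ?_) ?_
    · exact h62x_eval₂_mem _ (h62i_R A M) _ hαR _ hY _ hQ
    · exact Subring.mul_mem _ (Subring.pow_mem _ hy 2) (Subring.pow_mem _ hY _)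
    · exact Subring.mul_mem _ hy (h62x_eval₂_mem _ (h62i_R A M) _ hαR _ hY _
        (h62x_coeff_derivative_mem (h62i_R A M) _ hQ))

/-- **(N2) smooth points on `C∞` only.** -/
theorem h62x_smooth_inf (hℓ : ℓ.Prime) (hM : ¬ ℓ ∣ M) (haux : auxLevel ℓ ∣ M)
    (hA : A.LiesOverPrime ℓ)
    (𝔫 : Ideal (chart (M * ℓ) A (jSS M ℓ))) (h𝔫 : 𝔫.IsMaximal)
    (hPinf𝔫 : h62i_Pinf A M hℓ hM hA ≤ 𝔫) (hP0𝔫 : ¬ h62i_P0 A M hℓ hM hA ≤ 𝔫) :
    ∃ u : chart M A (jB M), IsRat (u : FF M) ∧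
      h62l_LP (h62i_mΛ A M)
        (𝔫.comap ((h62i_α A M ℓ : chart M A (jB M) →ₐ[A] chart (M * ℓ) A (jSS M ℓ)) :
          chart M A (jB M) →+* chart (M * ℓ) A (jSS M ℓ))) u ∧
      (∀ z ∈ 𝔫, ∃ s, s ∉ 𝔫 ∧
        s * z ∈ Ideal.span {h62i_α A M ℓ u} ⊔ h62i_Pinf A M hℓ hM hA) ∧
      (∀ z ∈ 𝔫, ∃ s, s ∉ 𝔫 ∧
        s * z ∈ Ideal.span {h62i_α A M ℓ u} ⊔ mExt A M ℓ (jSS M ℓ)) := by
  have hded := h13l_hded_fin M A hℓ hM haux hA
  obtain ⟨u, huR, hLP, h1, h2⟩ := h62b_local_smooth (A := A) (h62i_α A M ℓ) 𝔫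
    (h62i_Pinf A M hℓ hM hA) (h62i_P0 A M hℓ hM hA) h𝔫 hP0𝔫 (h62c_comp A M hℓ hM hA)
    (h62i_m_le_Pinf A M hℓ hM hA) (h62d_surj A M hℓ hM haux hA) hPinf𝔫
    (h13l_hnf_fin M A hℓ hM hA) (h62d_res A M) (h62i_R A M) (h62d_span A M hℓ hM hA)
    (h62d_sep A hℓ hA)
  exact ⟨u, (h62i_mem_R A M u).mp huR, hLP, h1, h2⟩

/-- **(N2) smooth points on `C₀` only.** -/
theorem h62x_smooth_zero (hℓ : ℓ.Prime) (hM : ¬ ℓ ∣ M) (haux : auxLevel ℓ ∣ M)
    (hA : A.LiesOverPrime ℓ)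
    (𝔫 : Ideal (chart (M * ℓ) A (jSS M ℓ))) (h𝔫 : 𝔫.IsMaximal)
    (hP0𝔫 : h62i_P0 A M hℓ hM hA ≤ 𝔫) (hPinf𝔫 : ¬ h62i_Pinf A M hℓ hM hA ≤ 𝔫) :
    ∃ u : chart M A (jB M), IsRat (u : FF M) ∧
      h62l_LP (h62i_mΛ A M)
        (𝔫.comap ((h62i_β A M hℓ hM hA : chart M A (jB M) →ₐ[A] chart (M * ℓ) A (jSS M ℓ)) :
          chart M A (jB M) →+* chart (M * ℓ) A (jSS M ℓ))) u ∧
      (∀ z ∈ 𝔫, ∃ s, s ∉ 𝔫 ∧
        s * z ∈ Ideal.span {h62i_β A M hℓ hM hA u} ⊔ h62i_P0 A M hℓ hM hA) ∧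
      (∀ z ∈ 𝔫, ∃ s, s ∉ 𝔫 ∧
        s * z ∈ Ideal.span {h62i_β A M hℓ hM hA u} ⊔ mExt A M ℓ (jSS M ℓ)) := by
  have hded := h13l_hded_fin M A hℓ hM haux hA
  have hSurj := h62d_surj A M hℓ hM haux hA
  obtain ⟨u, huR, hLP, h1, h2⟩ := h62b_local_smooth (A := A) (h62i_β A M hℓ hM hA) 𝔫
    (h62i_P0 A M hℓ hM hA) (h62i_Pinf A M hℓ hM hA) h𝔫 hPinf𝔫
    (by rw [inf_comm]; exact h62c_comp A M hℓ hM hA)
    (h62i_m_le_P0 A M hℓ hM hA)
    (fun b => by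
      obtain ⟨x, hx⟩ := hSurj (h62i_w A M hℓ hM hA b)
      refine ⟨x, ?_⟩
      rw [h62i_mem_P0_iff_w, map_sub, h62i_w_β]
      exact hx)
    hP0𝔫
    (h13l_hnf_fin M A hℓ hM hA) (h62d_res A M) (h62i_R A M) (h62d_span A M hℓ hM hA)
    (h62d_sep A hℓ hA)
  exact ⟨u, (h62i_mem_R A M u).mp huR, hLP, h1, h2⟩

end Concrete

end Fermat.Agent.S35
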