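import Mathlib
import Fermat.Agent.S22
import Fermat.Agent.S23.Main
import Fermat.Agent.S23.AutC
import Fermat.Agent.S49.EigenChar
import Fermat.Agent.S49.Eigenform
import Fermat.Agent.S49.HeckeFinite

/-!
# S35, block HECKE, leaf HK-EIG (helper45): characters of the Hecke algebra are eigenforms

`h45e_eigenOfChar_core`: every ring homomorphism `χ` from the Hecke algebra of level `N`
(weight `2`, away from `S`) to `ℂ` is the system of eigenvalues of a normalised eigenform of
level `N`.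

Proof.  The Hecke algebra `𝕋` is finite over `ℤ` (S22) and acts faithfully on the finite
dimensional space of cusp forms, so there is a common eigenvector whose character `χ'` has kernel
contained in `ker χ` (S49, abstract Deligne–Serre lemma); the two kernels are primes of `𝕋` over
`(0) ⊆ ℤ`, hence equal.  So `χ = σ ∘ χ'` for an automorphism `σ` of `ℂ` (`h45e_exists_aut`).
In the `χ'`-eigenspace choose a common eigenvector of all `T_p`, `U_p`; normalise it (S49) to an
eigenform `g'`; its conjugate `g = σ(g')` is again a cusp form (S23, `galois_stable`) and is a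
normalised eigenform with eigenvalues `σ(χ'(T_ℓ)) = χ(T_ℓ)`.
-/

set_option autoImplicit false
set_option linter.style.haveILetI false

namespace Fermat.Agent.S35

open Fermat.Agent.S23 Fermat.Agent.S49 ModularFormClass UpperHalfPlane

/-- elements of the algebraic closure of `ℚ` in `ℂ` are algebraic over `ℤ`. -/
theorem h45e_isAlgebraic_int (x : algebraicClosure ℚ ℂ) : IsAlgebraic ℤ x := by
  have h1 : IsAlgebraic ℚ (x : ℂ) := mem_algebraicClosure_iff.mp x.2
  have h2 : IsAlgebraic ℤ (x : ℂ) := (IsFractionRing.isAlgebraic_iff ℤ ℚ ℂ).mpr h1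
  obtain ⟨p, hp0, hp⟩ := h2
  refine ⟨p, hp0, ?_⟩
  apply Subtype.ext
  have h3 : ((Polynomial.aeval x p : algebraicClosure ℚ ℂ) : ℂ) = Polynomial.aeval (x : ℂ) p := by
    have := Polynomial.aeval_algHom_apply
      ((algebraicClosure ℚ ℂ).val.toRingHom.toIntAlgHom) x p
    exact this.symm
  rw [h3, hp]
  rfl

/-- two characters of a ring integral over `ℤ` with the same kernel differ by an automorphism
of `ℂ`. -/
theorem h45e_exists_aut {A : Type*} [CommRing A] [Algebra.IsIntegral ℤ A] (χ χ' : A →+* ℂ)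
    (hker : RingHom.ker χ' = RingHom.ker χ) : ∃ σ : ℂ ≃+* ℂ, ∀ a, σ (χ' a) = χ a := by
  classical
  -- values are algebraic
  have hval : ∀ a, χ' a ∈ algebraicClosure ℚ ℂ := by
    intro a
    rw [mem_algebraicClosure_iff]
    have h1 : IsIntegral ℤ a := Algebra.IsIntegral.isIntegral a
    have h2 : IsIntegral ℤ (χ' a) := h1.map (χ'.toIntAlgHom)
    exact (IsFractionRing.isAlgebraic_iff ℤ ℚ ℂ).mp h2.isAlgebraic
  haveI : (RingHom.ker χ').IsPrime := RingHom.ker_isPrime χ'
  let f' : A ⧸ RingHom.ker χ' →+* algebraicClosure ℚ ℂ :=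
    (RingHom.kerLift χ').codRestrict (algebraicClosure ℚ ℂ) (by
      intro x
      obtain ⟨a, rfl⟩ := Ideal.Quotient.mk_surjective x
      exact hval a)
  let f : A ⧸ RingHom.ker χ' →+* ℂ :=
    Ideal.Quotient.lift (RingHom.ker χ') χ (fun a ha => by
      rw [hker] at ha
      exact ha)
  have hf'inj : Function.Injective f' := by
    intro x y hxy
    apply RingHom.kerLift_injective χ'
    exact congrArg Subtype.val hxy
  have hfinj : Function.Injective f := by
    rw [injective_iff_map_eq_zero]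
    intro x hx
    obtain ⟨a, rfl⟩ := Ideal.Quotient.mk_surjective x
    rw [Ideal.Quotient.eq_zero_iff_mem, hker]
    exact hx
  letI : Algebra (A ⧸ RingHom.ker χ') (algebraicClosure ℚ ℂ) := f'.toAlgebra
  letI : Algebra (A ⧸ RingHom.ker χ') ℂ := f.toAlgebra
  haveI : FaithfulSMul (A ⧸ RingHom.ker χ') (algebraicClosure ℚ ℂ) :=
    (faithfulSMul_iff_algebraMap_injective _ _).mpr hf'inj
  haveI : FaithfulSMul (A ⧸ RingHom.ker χ') ℂ :=
    (faithfulSMul_iff_algebraMap_injective _ _).mpr hfinj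
  have hZinj : Function.Injective (algebraMap ℤ (A ⧸ RingHom.ker χ')) := by
    intro m n hmn
    have := congrArg f hmn
    simpa using this
  haveI : Algebra.IsAlgebraic (A ⧸ RingHom.ker χ') (algebraicClosure ℚ ℂ) :=
    ⟨fun x => (h45e_isAlgebraic_int x).extendScalars hZinj⟩
  -- the lift
  let ψ : algebraicClosure ℚ ℂ →ₐ[A ⧸ RingHom.ker χ'] ℂ := IsAlgClosed.lift
  have hψ : ∀ a : A, ψ ⟨χ' a, hval a⟩ = χ a := by
    intro a
    have := ψ.commutes (Ideal.Quotient.mk _ a)
    exact this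
  have hψmem : ∀ x, ψ x ∈ algebraicClosure ℚ ℂ := by
    intro x
    rw [mem_algebraicClosure_iff]
    have h1 : IsAlgebraic ℤ (ψ x) :=
      IsAlgebraic.algHom (ψ.toRingHom.toIntAlgHom) (h45e_isAlgebraic_int x)
    exact (IsFractionRing.isAlgebraic_iff ℤ ℚ ℂ).mp h1
  let φ₀ : algebraicClosure ℚ ℂ →+* algebraicClosure ℚ ℂ :=
    ψ.toRingHom.codRestrict (algebraicClosure ℚ ℂ) hψmem
  haveI : Algebra.IsAlgebraic ℤ (algebraicClosure ℚ ℂ) := ⟨h45e_isAlgebraic_int⟩
  have hbij : Function.Bijective φ₀ :=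
    Algebra.IsAlgebraic.algHom_bijective (φ₀.toIntAlgHom)
  let φ : algebraicClosure ℚ ℂ ≃+* algebraicClosure ℚ ℂ := RingEquiv.ofBijective φ₀ hbij
  obtain ⟨s, hs⟩ := exists_isTranscendenceBasis (algebraicClosure ℚ ℂ) ℂ
  obtain ⟨σ, hσ⟩ := exists_ringEquiv_extending hs (MvPolynomial.mapEquiv s φ)
  refine ⟨σ, fun a => ?_⟩
  have h := hσ (MvPolynomial.C ⟨χ' a, hval a⟩)
  simp only [MvPolynomial.mapEquiv_apply, MvPolynomial.map_C, MvPolynomial.aeval_C] at h
  have h' : σ (χ' a) = ((φ ⟨χ' a, hval a⟩ : algebraicClosure ℚ ℂ) : ℂ) := h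
  rw [h']
  exact hψ a

section Conj

variable {N : ℕ} [NeZero N]

/-- the conjugate of a normalised eigenform by a ring endomorphism of `ℂ` is a normalised
eigenform. -/
theorem h45e_conj_eigenform (σ : ℂ →+* ℂ) (g' : CuspForm (CongruenceSubgroup.Gamma0 N) 2)
    (hg' : g'.IsNormalizedEigenform) :
    ∃ g : CuspForm (CongruenceSubgroup.Gamma0 N) 2, g.IsNormalizedEigenform ∧
      ∀ n : ℕ, qCoeff g n = σ (qCoeff g' n) := by
  obtain ⟨g, hg⟩ := galois_stable N 2 σ g'
  have hcoeff : ∀ n : ℕ, qCoeff g n = σ (qCoeff g' n) := by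
    intro n
    show (qExpansion 1 g).coeff n = σ ((qExpansion 1 g').coeff n)
    rw [hg]
    simp
  refine ⟨g, ⟨?_, ?_, ?_, ?_⟩, hcoeff⟩
  · rw [hcoeff, hg'.qCoeff_one, map_one]
  · intro m n hmn
    rw [hcoeff, hcoeff, hcoeff, hg'.qCoeff_mul_of_coprime m n hmn, map_mul]
  · intro p r hp hpN
    rw [hcoeff, hcoeff, hcoeff, hcoeff, hg'.qCoeff_prime_pow_of_not_dvd p r hp hpN, map_sub,
      map_mul, map_mul, map_natCast]
  · intro p r hp hpN
    rw [hcoeff, hcoeff, hcoeff, hg'.qCoeff_prime_pow_of_dvd p r hp hpN, map_mul]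

end Conj

/-- **HK-EIG** (core form): every character of the Hecke algebra is the system of eigenvalues
of a normalised eigenform. -/
theorem h45e_eigenOfChar_core (N : ℕ) [NeZero N] (S : Set ℕ)
    (χ : CuspForm.heckeAlgebra N 2 S →+* ℂ) :
    ∃ g : CuspForm (CongruenceSubgroup.Gamma0 N) 2, g.IsNormalizedEigenform ∧
      ∀ (ℓ : ℕ) (hℓ : ℓ.Prime) (hℓN : ¬ ℓ ∣ N) (hℓS : ℓ ∉ S),
        qCoeff g ℓ = χ (CuspForm.heckeAlgebra.T hℓ hℓN hℓS) := by
  classical
  haveI : Module.Finite ℤ (CuspForm.heckeAlgebra N 2 S) := Fermat.Agent.S22.result N 2 S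
  haveI : FiniteDimensional ℂ (CuspForm (CongruenceSubgroup.Gamma0 N) 2) :=
    finiteDimensional_cuspForm N 2
  haveI : Algebra.IsIntegral ℤ (CuspForm.heckeAlgebra N 2 S) := Algebra.IsIntegral.of_finite ℤ _
  -- the tautological representation
  let ρ : CuspForm.heckeAlgebra N 2 S →+*
      Module.End ℂ (CuspForm (CongruenceSubgroup.Gamma0 N) 2) :=
    (CuspForm.heckeAlgebra N 2 S).val.toRingHom
  have hρ : Function.Injective ρ := Subtype.val_injective
  haveI : (RingHom.ker χ).IsPrime := RingHom.ker_isPrime χ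
  obtain ⟨v, χ', hv0, hv, hle⟩ := exists_eigenchar_ker_le ρ hρ (RingHom.ker χ)
  haveI : (RingHom.ker χ').IsPrime := RingHom.ker_isPrime χ'
  -- the kernels agree
  have hcomap : (RingHom.ker χ).comap (algebraMap ℤ (CuspForm.heckeAlgebra N 2 S)) = ⊥ := by
    rw [eq_bot_iff]
    intro n hn
    rw [Ideal.mem_comap, RingHom.mem_ker] at hn
    have : ((n : ℤ) : ℂ) = 0 := by
      rw [← hn]; simp
    rw [Ideal.mem_bot]
    exact_mod_cast this
  have hker : RingHom.ker χ' = RingHom.ker χ := by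
    refine le_antisymm hle ?_
    intro x hx
    by_contra hx'
    have hlt := Ideal.comap_lt_comap_of_integral_mem_sdiff (R := ℤ) hle
      ⟨hx, hx'⟩ (Algebra.IsIntegral.isIntegral x)
    rw [hcomap] at hlt
    exact not_lt_bot hlt
  obtain ⟨σ, hσ⟩ := h45e_exists_aut χ χ' hker
  -- the eigenspace of `χ'`
  let W : Submodule ℂ (CuspForm (CongruenceSubgroup.Gamma0 N) 2) :=
    ⨅ T : CuspForm.heckeAlgebra N 2 S, LinearMap.ker (ρ T - χ' T • 1)
  have hWmem : ∀ x, x ∈ W ↔ ∀ T : CuspForm.heckeAlgebra N 2 S, ρ T x = χ' T • x := by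
    intro x
    simp only [W, Submodule.mem_iInf, LinearMap.mem_ker, LinearMap.sub_apply,
      LinearMap.smul_apply, Module.End.one_apply, sub_eq_zero]
  have hW : W ≠ ⊥ := by
    intro h
    have : v ∈ W := (hWmem v).2 hv
    rw [h] at this
    exact hv0 ((Submodule.mem_bot ℂ).1 this)
  -- all Hecke operators commute with `𝕋` and stabilise `W`
  have hcomm : ∀ T ∈ CuspForm.heckeGenerators N 2 ∅, ∀ T' ∈ CuspForm.heckeGenerators N 2 ∅,
      Commute T T' := fun T hT T' hT' => CuspForm.commute_of_mem_heckeGenerators hT hT'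
  have hstab : ∀ G ∈ CuspForm.heckeGenerators N 2 ∅, ∀ w ∈ W, G w ∈ W := by
    intro G hG w hw
    rw [hWmem] at hw ⊢
    intro T
    have hTmem : (T : Module.End ℂ (CuspForm (CongruenceSubgroup.Gamma0 N) 2)) ∈
        CuspForm.heckeAlgebra N 2 ∅ :=
      CuspForm.heckeAlgebra_mono (Set.empty_subset S) T.2
    have hGmem : G ∈ CuspForm.heckeAlgebra N 2 ∅ := Algebra.subset_adjoin hG
    have hc : (T : Module.End ℂ (CuspForm (CongruenceSubgroup.Gamma0 N) 2)) * G =
        G * (T : Module.End ℂ (CuspForm (CongruenceSubgroup.Gamma0 N) 2)) := by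
      have := mul_comm (⟨_, hTmem⟩ : CuspForm.heckeAlgebra N 2 ∅) ⟨G, hGmem⟩
      exact congrArg Subtype.val this
    have h1 : ρ T (G w) = G (ρ T w) := congrArg (fun f : Module.End ℂ _ => f w) hc
    rw [h1, hw T, map_smul]
  obtain ⟨v', hv'W, hv'0, hv'⟩ :=
    exists_common_eigenvector (CuspForm.heckeGenerators N 2 ∅) hcomm W hW hstab
  -- the eigenvalues
  have hT : ∀ (p : ℕ) (hp : p.Prime) (hpN : ¬ p ∣ N),
      ∃ μ : ℂ, CuspForm.heckeTLin 2 hp hpN v' = μ • v' := fun p hp hpN =>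
    hv' _ (CuspForm.heckeTLin_mem_heckeGenerators hp hpN (Set.notMem_empty p))
  have hU : ∀ (p : ℕ) (hp : p.Prime) (hpN : p ∣ N),
      ∃ μ : ℂ, CuspForm.heckeULin 2 hpN v' = μ • v' := fun p hp hpN =>
    hv' _ (CuspForm.heckeULin_mem_heckeGenerators hp hpN (Set.notMem_empty p))
  let lam : ℕ → ℂ := fun p =>
    if hp : p.Prime then
      (if hpN : p ∣ N then (hU p hp hpN).choose else (hT p hp hpN).choose)
    else 0
  have hlamT : ∀ (p : ℕ) (hp : p.Prime) (hpN : ¬ p ∣ N),
      CuspForm.heckeTLin 2 hp hpN v' = lam p • v' := by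
    intro p hp hpN
    simp only [lam, dif_pos hp, dif_neg hpN]
    exact (hT p hp hpN).choose_spec
  have hlamU : ∀ (p : ℕ) (_ : p.Prime) (hpN : p ∣ N),
      CuspForm.heckeULin 2 hpN v' = lam p • v' := by
    intro p hp hpN
    simp only [lam, dif_pos hp, dif_pos hpN]
    exact (hU p hp hpN).choose_spec
  obtain ⟨g', hg', hg'lam⟩ := exists_normalized_eigenform v' hv'0 lam hlamT hlamU
  obtain ⟨g, hg, hgcoeff⟩ := h45e_conj_eigenform (σ : ℂ →+* ℂ) g' hg'
  refine ⟨g, hg, fun ℓ hℓ hℓN hℓS => ?_⟩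
  rw [hgcoeff, hg'lam ℓ hℓ]
  have h1 : lam ℓ • v' = χ' (CuspForm.heckeAlgebra.T hℓ hℓN hℓS) • v' := by
    rw [← hlamT ℓ hℓ hℓN]
    exact (hWmem v').1 hv'W (CuspForm.heckeAlgebra.T hℓ hℓN hℓS)
  have h2 : lam ℓ = χ' (CuspForm.heckeAlgebra.T hℓ hℓN hℓS) :=
    smul_left_injective ℂ hv'0 h1
  rw [h2]
  exact hσ _

end Fermat.Agent.S35
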