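import Fermat.Agent.S35.HeckeSkeleton
import Fermat.Agent.S35.H45EigCore

/-!
# S35, block HECKE, leaf HK-EIG (helper45)

`theorem h45e_eigenOfChar : ∀ N, EigenOfChar N` — every ring homomorphism from the Hecke algebra
of level `N` away from `S` to `ℂ` is the system of eigenvalues of a normalised eigenform of
level `N`.  The proof is in `S35/H45EigCore.lean` (no hypothesis on `S` is needed).
-/

set_option autoImplicit false

namespace Fermat.Agent.S35

/-- **HK-EIG.** -/
theorem h45e_eigenOfChar (N : ℕ) [NeZero N] : EigenOfChar N :=
  fun S _ χ => h45e_eigenOfChar_core N (↑S) χ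

end Fermat.Agent.S35
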