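import Fermat.Agent.LGC.Res44

/-!
# S35 / block NORM (helper58): reduction of the norms along `α` and `β`

`ℓ ∤ M` prime, `A` a valuation subring of `ℚ̄` over `ℓ`, `N = Mℓ`, `α, β : F_M → F_N`,
`w` the Fricke involution of `F_N`, `softV A N` the Gauss valuation ring at `∞` (soft form),
`softR` its reduction map to `k((q))`, `k = A / 𝔪_A`.

For `x ∈ F_N` the `ℓ + 1` conjugates of `x` over `α(F_M)` are, in the variable `t = q^{1/ℓ}`,
`x(t^ℓ)` and `(w x)(ζ^b t)`, `b < ℓ` (`LGC/Conj.lean`).  Hence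

* `h58n_coe_beta_nmA` : `Nm_α(x)(t^ℓ) = x(t^ℓ) · ∏_{b<ℓ} (w x)(ζ^b t)`;
* `h58n_norm_alpha`   : if `x = c₁ x₁`, `w x = c₀ y₁` with `x₁, y₁ ∈ softV A N` and constants
  `c₁, c₀ ≠ 0`, then `Nm_α(x) = c₁ c₀^ℓ · z` with `z ∈ softV A M` and
  `red z = red x₁ · Frob (red y₁)`   (`Frob` = coefficientwise Frobenius of `k((q))`);
* `h58n_norm_beta`    : the same for `Nm_β(x) = Nm_α(w x)`:
  `Nm_β(x) = c₀ c₁^ℓ · z`, `red z = red y₁ · Frob (red x₁)`;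
* `h58n_nmA_eq_norm`, `h58n_nmB_eq_norm` : `nmA`, `nmB` are `Algebra.norm` along `α`, `β`.
-/

set_option autoImplicit false
set_option linter.style.haveILetI false
set_option linter.unusedSectionVars false
set_option synthInstance.maxHeartbeats 400000

open AlgebraicCurve ModularCurve IsLocalRing Polynomial

noncomputable section

namespace Fermat.Agent.S35

open Fermat.Agent.S37 Fermat.Agent.Red Fermat.Agent.Red.GV Fermat.Agent.Red.GV.Soft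
  Fermat.Agent.Red.TRK Fermat.Agent.Red.Kron Fermat.Agent.LGC

/-! ### series level -/

section Series

variable {K : Type} [Field K] {A : ValuationSubring K} {k : Type} [Field k] {π : A →+* k}

/-- the reduction of a twist by a unit of `A` is the twist of the reduction. -/
theorem h58n_softRedT_twistK (u : Aˣ) (x : softOT A π)
    (h' : twistK (((u : A) : K)) (x : LaurentSeries K) ∈ softOT A π) :
    softRedT A π ⟨_, h'⟩ = twistK (π (u : A)) (softRedT A π x) := by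
  obtain ⟨a, b, h⟩ := x.2
  have h2 : IsWit A π ((⟨_, h'⟩ : softOT A π) : LaurentSeries K) (h44g_twA u a)
      (h44g_twA u b) := h44r_isWit_twistK u h
  have hπu : π (u : A) ≠ 0 := (u.map π.toMonoidHom).ne_zero
  rw [softRedT_apply _ h2, softRedT_apply x h, h44g_redA_twA, h44g_redA_twA]
  exact (map_div₀ (twistHom (π (u : A)) hπu) _ _).symm

/-- the reduction of a twist by a unit `≡ 1` is the reduction. -/
theorem h58n_softRedT_twistK_one (u : Aˣ) (hu : π (u : A) = 1) (x : softOT A π)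
    (h' : twistK (((u : A) : K)) (x : LaurentSeries K) ∈ softOT A π) :
    softRedT A π ⟨_, h'⟩ = softRedT A π x := by
  rw [h58n_softRedT_twistK u x h', hu, twistK_one_left]

/-- the product over the conjugates, as an element of `softOT`. -/
def h58n_Z (ℓ : ℕ) [NeZero ℓ] (u : Aˣ) (X₁ Y₁ : softOT A π) : softOT A π :=
  ⟨_, mem_softOT_qExpand A π ℓ X₁.2⟩ *
    ∏ b ∈ Finset.range ℓ, ⟨_, h44r_twistK_mem_softOT (u ^ b) Y₁.2⟩

theorem h58n_coe_Z (ℓ : ℕ) [NeZero ℓ] (u : Aˣ) (X₁ Y₁ : softOT A π) :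
    ((h58n_Z ℓ u X₁ Y₁ : softOT A π) : LaurentSeries K) =
      qExpand K ℓ (X₁ : LaurentSeries K) *
        ∏ b ∈ Finset.range ℓ, twistK ((((u ^ b : Aˣ) : A)) : K) (Y₁ : LaurentSeries K) := by
  rw [h58n_Z, Subring.coe_mul, SubmonoidClass.coe_finsetProd]

/-- **the reduction of the product over the conjugates**: `red X₁ · Frob (red Y₁)`, in the
variable `q = t^ℓ`. -/
theorem h58n_red_Z (ℓ : ℕ) [NeZero ℓ] [ExpChar k ℓ] (u : Aˣ) (hu : π (u : A) = 1)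
    (X₁ Y₁ : softOT A π) :
    softRedT A π (h58n_Z ℓ u X₁ Y₁) =
      qExpand k ℓ (softRedT A π X₁ * coeffMap (frobenius k ℓ) (softRedT A π Y₁)) := by
  have hub : ∀ b : ℕ, π ((u ^ b : Aˣ) : A) = 1 := by
    intro b
    rw [Units.val_pow_eq_pow_val, map_pow, hu, one_pow]
  rw [h58n_Z, map_mul, map_prod, softRedT_qExpand A π ℓ X₁ (mem_softOT_qExpand A π ℓ X₁.2),
    Finset.prod_congr rfl (fun b _ =>
      h58n_softRedT_twistK_one (u ^ b) (hub b) Y₁ (h44r_twistK_mem_softOT (u ^ b) Y₁.2)),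
    Finset.prod_const, Finset.card_range, map_mul,
    Fermat.Agent.Red.ESTF.h76_pow_char_eq_qExpand ℓ (softRedT A π Y₁)]

end Series

/-! ### the norm along `α` and along `β` -/

section Norm

open Fermat.Agent.Red.KR (normAlong normAlong_sub_eq_eval)

theorem h58n_normAlong_eq_coeff {K F F' : Type*} [Field K] [Field F] [Field F'] [Algebra K F]
    [Algebra K F'] (φ : F →ₐ[K] F') (hfin : FiniteAlong K φ) (x : F') :
    normAlong φ x = (charpolyAlong φ hfin (-x)).coeff 0 := by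
  have h := normAlong_sub_eq_eval φ hfin 0 (-x)
  rw [map_zero, zero_sub, neg_neg] at h
  rw [h, Polynomial.coeff_zero_eq_eval_zero]

variable (A : ValuationSubring Kbar) (M ℓ : ℕ) [NeZero M] [NeZero ℓ]

/-- the norm along `α` is the norm of `F_{Mℓ}` over `α(F_M)`. -/
theorem h58n_nmA_eq_norm (x : FF (M * ℓ)) :
    normAlong (heckeAlphaBar Kbar M ℓ) x =
      (letI := algebraAlong (heckeAlphaBar Kbar M ℓ); Algebra.norm (FF M) x) := rfl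

/-- the norm along `β` is the norm of `F_{Mℓ}` over `β(F_M)`. -/
theorem h58n_nmB_eq_norm (x : FF (M * ℓ)) :
    normAlong (heckeBetaBar Kbar M ℓ) x =
      (letI := algebraAlong (heckeBetaBar Kbar M ℓ); Algebra.norm (FF M) x) := rfl

/-- the value at `0` of `h44g_rhsK ζ (-x)`. -/
theorem h58n_rhsK_coeff_zero (hℓ : ℓ.Prime) (hM : ¬ ℓ ∣ M) (ζ : Kbar)
    (hζ : IsPrimitiveRoot ζ ℓ) (x : FF (M * ℓ)) :
    (h44g_rhsK M ℓ hℓ hM ζ (-x)).coeff 0 =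
      qExpand Kbar ℓ (x : LaurentSeries Kbar) *
        ∏ b ∈ Finset.range ℓ,
          twistK (ζ ^ b) ((kFricke M ℓ hℓ hM x : FF (M * ℓ)) : LaurentSeries Kbar) := by
  have hζ0 : ∀ b : ℕ, ζ ^ b ≠ 0 := fun b => pow_ne_zero b (hζ.ne_zero (NeZero.ne ℓ))
  have htw : ∀ (b : ℕ) (s : LaurentSeries Kbar), twistK (ζ ^ b) (-s) = -twistK (ζ ^ b) s := by
    intro b s
    exact map_neg (twistHom (ζ ^ b) (hζ0 b)) s
  rw [Polynomial.coeff_zero_eq_eval_zero, h44g_rhsK, Polynomial.eval_mul, Polynomial.eval_prod,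
    Polynomial.eval_sub, Polynomial.eval_X, Polynomial.eval_C, map_neg, NegMemClass.coe_neg,
    NegMemClass.coe_neg, map_neg, zero_sub, neg_neg]
  congr 1
  refine Finset.prod_congr rfl (fun b _ => ?_)
  rw [Polynomial.eval_sub, Polynomial.eval_X, Polynomial.eval_C, htw, zero_sub, neg_neg]

/-- **the `q`-expansion of the norm along `α`**, in the variable `t = q^{1/ℓ}`:
`Nm_α(x)(t^ℓ) = x(t^ℓ) · ∏_{b<ℓ} (w x)(ζ^b t)`. -/
theorem h58n_coe_beta_nmA (hℓ : ℓ.Prime) (hM : ¬ ℓ ∣ M) (ζ : Kbar) (hζ : IsPrimitiveRoot ζ ℓ)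
    (x : FF (M * ℓ)) :
    ((heckeBetaBar Kbar M ℓ (normAlong (heckeAlphaBar Kbar M ℓ) x) : FF (M * ℓ)) :
        LaurentSeries Kbar) =
      qExpand Kbar ℓ (x : LaurentSeries Kbar) *
        ∏ b ∈ Finset.range ℓ,
          twistK (ζ ^ b) ((kFricke M ℓ hℓ hM x : FF (M * ℓ)) : LaurentSeries Kbar) := by
  have key := h44g_charpolyAlong_alpha M ℓ hℓ hM ζ hζ
    (Fermat.Agent.Red.HKMod.finiteAlong_heckeAlphaBar M ℓ) (-x)
  have h1 := congrArg (fun p : Polynomial (LaurentSeries Kbar) => p.coeff 0) key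
  simp only [Polynomial.coeff_map] at h1
  rw [h58n_rhsK_coeff_zero M ℓ hℓ hM ζ hζ x] at h1
  rw [coe_heckeBetaBar, ← kIotaK_apply,
    h58n_normAlong_eq_coeff _ (Fermat.Agent.Red.HKMod.finiteAlong_heckeAlphaBar M ℓ) x, h1]

/-- the norm along `β` is the norm along `α` of the Fricke transform. -/
theorem h58n_nmB_eq_nmA_fricke (hℓ : ℓ.Prime) (hM : ¬ ℓ ∣ M) (x : FF (M * ℓ)) :
    normAlong (heckeBetaBar Kbar M ℓ) x =
      normAlong (heckeAlphaBar Kbar M ℓ) (kFricke M ℓ hℓ hM x) := by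
  haveI : NeZero ((ℓ : ℕ) : Kbar) := ⟨by exact_mod_cast NeZero.ne ℓ⟩
  obtain ⟨ζ, hζ⟩ := HasEnoughRootsOfUnity.exists_primitiveRoot Kbar ℓ
  have hb := h44g_charpolyAlong_beta M ℓ hℓ hM ζ hζ
    (Fermat.Agent.Red.HKMod.finiteAlong_heckeBetaBar M ℓ) (-x)
  have ha := h44g_charpolyAlong_alpha M ℓ hℓ hM ζ hζ
    (Fermat.Agent.Red.HKMod.finiteAlong_heckeAlphaBar M ℓ) (kFricke M ℓ hℓ hM (-x))
  have e := Polynomial.map_injective (kIotaK M ℓ) (kIotaK M ℓ).injective (hb.trans ha.symm)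
  rw [h58n_normAlong_eq_coeff _ (Fermat.Agent.Red.HKMod.finiteAlong_heckeBetaBar M ℓ) x,
    h58n_normAlong_eq_coeff _ (Fermat.Agent.Red.HKMod.finiteAlong_heckeAlphaBar M ℓ)
      (kFricke M ℓ hℓ hM x), e, map_neg]

/-- a root of unity of order `ℓ` reduces to `1` in characteristic `ℓ`. -/
theorem h58n_residue_unit_eq_one (hℓ : ℓ.Prime) (hA : A.LiesOverPrime ℓ) (u : Aˣ)
    (hu : (((u : A) : Kbar)) ^ ℓ = 1) : IsLocalRing.residue A (u : A) = 1 := by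
  haveI : Fact ℓ.Prime := ⟨hℓ⟩
  haveI : CharP (IsLocalRing.ResidueField A) ℓ :=
    Base.h80_charP A (IsLocalRing.residue A) ℓ (isResidueMap_residue A ℓ hA)
  haveI : ExpChar (IsLocalRing.ResidueField A) ℓ := ExpChar.prime hℓ
  have h1 : (u : A) ^ ℓ = 1 := Subtype.ext hu
  have h2 : (IsLocalRing.residue A (u : A)) ^ ℓ = 1 := by
    rw [← map_pow, h1, map_one]
  apply frobenius_inj (IsLocalRing.ResidueField A) ℓ
  rw [frobenius_def, frobenius_def, h2, one_pow]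

/-- **NORM, along `α`.**  If `x = c₁ x₁` and `w x = c₀ y₁` with `x₁, y₁` Gauss-integral and
constants `c₁, c₀ ≠ 0`, then `Nm_α(x) = c₁ c₀^ℓ · z` with `z` Gauss-integral of level `M` and
`red z = red x₁ · Frob (red y₁)`. -/
theorem h58n_norm_alpha [ExpChar (IsLocalRing.ResidueField A) ℓ]
    (hℓ : ℓ.Prime) (hM : ¬ ℓ ∣ M) (hA : A.LiesOverPrime ℓ)
    (x x₁ y₁ : FF (M * ℓ)) (c₁ c₀ : Kbar) (hc₁ : c₁ ≠ 0) (hc₀ : c₀ ≠ 0)
    (hx : x = cst (M * ℓ) c₁ * x₁) (hwx : kFricke M ℓ hℓ hM x = cst (M * ℓ) c₀ * y₁)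
    (hx₁ : x₁ ∈ softV A (M * ℓ)) (hy₁ : y₁ ∈ softV A (M * ℓ)) :
    ∃ (z : FF M) (hz : z ∈ softV A M),
      normAlong (heckeAlphaBar Kbar M ℓ) x = cst M (c₁ * c₀ ^ ℓ) * z ∧
      softR A M ⟨z, hz⟩ =
        softR A (M * ℓ) ⟨x₁, hx₁⟩ *
          coeffMap (frobenius (IsLocalRing.ResidueField A) ℓ) (softR A (M * ℓ) ⟨y₁, hy₁⟩) := by
  haveI : NeZero ((ℓ : ℕ) : Kbar) := ⟨by exact_mod_cast NeZero.ne ℓ⟩
  obtain ⟨ζ, hζ⟩ := HasEnoughRootsOfUnity.exists_primitiveRoot Kbar ℓ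
  obtain ⟨u, hu⟩ := h44g_exists_unit_of_pow_eq_one A (NeZero.ne ℓ) hζ.pow_eq_one
  have huℓ : (((u : A) : Kbar)) ^ ℓ = 1 := by
    rw [hu]; exact hζ.pow_eq_one
  have hπu : IsLocalRing.residue A (u : A) = 1 := h58n_residue_unit_eq_one A ℓ hℓ hA u huℓ
  have hζb : ∀ b : ℕ, ζ ^ b = ((((u ^ b : Aˣ) : A)) : Kbar) := by
    intro b
    rw [Units.val_pow_eq_pow_val, ← hu]
    rfl
  have hζ0 : ∀ b : ℕ, ζ ^ b ≠ 0 := fun b => pow_ne_zero b (hζ.ne_zero (NeZero.ne ℓ))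
  have hc : c₁ * c₀ ^ ℓ ≠ 0 := mul_ne_zero hc₁ (pow_ne_zero _ hc₀)
  -- the element `z`
  obtain ⟨z, hzdef⟩ : ∃ z : FF M,
      z = cst M (c₁ * c₀ ^ ℓ)⁻¹ * normAlong (heckeAlphaBar Kbar M ℓ) x := ⟨_, rfl⟩
  have hnm : normAlong (heckeAlphaBar Kbar M ℓ) x = cst M (c₁ * c₀ ^ ℓ) * z := by
    rw [hzdef, ← mul_assoc, ← map_mul, mul_inv_cancel₀ hc, map_one, one_mul]
  -- the series of `β z`
  obtain ⟨Z, hZ⟩ : ∃ Z : softOT A (IsLocalRing.residue A),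
      Z = h58n_Z ℓ u (softIncl A (M * ℓ) ⟨x₁, hx₁⟩) (softIncl A (M * ℓ) ⟨y₁, hy₁⟩) := ⟨_, rfl⟩
  have hZcoe : (Z : LaurentSeries Kbar) =
      ((heckeBetaBar Kbar M ℓ z : FF (M * ℓ)) : LaurentSeries Kbar) := by
    have hcoe := h58n_coe_beta_nmA M ℓ hℓ hM ζ hζ x
    rw [hwx] at hcoe
    have e1 : ((heckeBetaBar Kbar M ℓ z : FF (M * ℓ)) : LaurentSeries Kbar) =
        HahnSeries.C (c₁ * c₀ ^ ℓ)⁻¹ *
          ((heckeBetaBar Kbar M ℓ (normAlong (heckeAlphaBar Kbar M ℓ) x) : FF (M * ℓ)) :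
            LaurentSeries Kbar) := by
      rw [hzdef, map_mul, MulMemClass.coe_mul, AlgHom.commutes]
      congr 1
      exact soft_coe_cst (M * ℓ) _
    have e2 : ((x : FF (M * ℓ)) : LaurentSeries Kbar) =
        HahnSeries.C c₁ * ((x₁ : FF (M * ℓ)) : LaurentSeries Kbar) := by
      rw [hx, MulMemClass.coe_mul]
      congr 1
      exact soft_coe_cst (M * ℓ) _
    have e3 : (((cst (M * ℓ) c₀ * y₁ : FF (M * ℓ))) : LaurentSeries Kbar) =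
        HahnSeries.C c₀ * ((y₁ : FF (M * ℓ)) : LaurentSeries Kbar) := by
      rw [MulMemClass.coe_mul]
      congr 1
      exact soft_coe_cst (M * ℓ) _
    rw [e1, hcoe, e2, e3, hZ, h58n_coe_Z, coe_softIncl, coe_softIncl, map_mul, qExpand_C,
      Finset.prod_congr rfl (fun b _ => by
        rw [twistK_mul (hζ0 b), twistK_C] :
        ∀ b ∈ Finset.range ℓ, twistK (ζ ^ b)
          (HahnSeries.C c₀ * ((y₁ : FF (M * ℓ)) : LaurentSeries Kbar)) =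
          HahnSeries.C c₀ * twistK (ζ ^ b) ((y₁ : FF (M * ℓ)) : LaurentSeries Kbar)),
      Finset.prod_mul_distrib, Finset.prod_const, Finset.card_range]
    have e4 : ∀ b ∈ Finset.range ℓ,
        twistK ((((u ^ b : Aˣ) : A)) : Kbar) ((y₁ : FF (M * ℓ)) : LaurentSeries Kbar) =
          twistK (ζ ^ b) ((y₁ : FF (M * ℓ)) : LaurentSeries Kbar) := by
      intro b _
      rw [hζb b]
    rw [Finset.prod_congr rfl e4]
    have e5 : HahnSeries.C (c₁ * c₀ ^ ℓ)⁻¹ * (HahnSeries.C c₁ * (HahnSeries.C c₀) ^ ℓ) =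
        (1 : LaurentSeries Kbar) := by
      rw [← map_pow, ← map_mul, ← map_mul, inv_mul_cancel₀ hc, map_one]
    calc _ = (HahnSeries.C (c₁ * c₀ ^ ℓ)⁻¹ * (HahnSeries.C c₁ * (HahnSeries.C c₀) ^ ℓ)) *
          (qExpand Kbar ℓ ((x₁ : FF (M * ℓ)) : LaurentSeries Kbar) *
            ∏ b ∈ Finset.range ℓ,
              twistK (ζ ^ b) ((y₁ : FF (M * ℓ)) : LaurentSeries Kbar)) := by
            rw [e5, one_mul]
      _ = _ := by ring
  have hZred : softRedT A (IsLocalRing.residue A) Z =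
      qExpand (IsLocalRing.ResidueField A) ℓ
        (softR A (M * ℓ) ⟨x₁, hx₁⟩ *
          coeffMap (frobenius (IsLocalRing.ResidueField A) ℓ)
            (softR A (M * ℓ) ⟨y₁, hy₁⟩)) := by
    rw [hZ]
    exact h58n_red_Z ℓ u hπu _ _
  have hβ : heckeBetaBar Kbar M ℓ z ∈ softV A (M * ℓ) := by
    obtain ⟨a, b, hb, hab⟩ := Z.2
    rw [hZcoe] at hab
    exact mem_softV_of_frac A (M * ℓ) _ a b hb hab
  have hz : z ∈ softV A M := (beta_mem_softV_iff A hℓ hA ℓ _).mp hβ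
  refine ⟨z, hz, hnm, ?_⟩
  have h1 := softR_beta A ℓ ⟨_, hz⟩ hβ
  have h2 : softR A (M * ℓ) ⟨_, hβ⟩ = softRedT A (IsLocalRing.residue A) Z := by
    have e : softIncl A (M * ℓ) ⟨_, hβ⟩ = Z := Subtype.ext hZcoe.symm
    show softRedT A _ (softIncl A (M * ℓ) ⟨_, hβ⟩) = _
    rw [e]
  rw [h2, hZred] at h1
  exact ((qExpand (IsLocalRing.ResidueField A) ℓ).injective h1).symm

/-- **NORM, along `β`.**  If `x = c₁ x₁` and `w x = c₀ y₁` with `x₁, y₁` Gauss-integral and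
constants `c₁, c₀ ≠ 0`, then `Nm_β(x) = c₀ c₁^ℓ · z` with `z` Gauss-integral of level `M` and
`red z = red y₁ · Frob (red x₁)`. -/
theorem h58n_norm_beta [ExpChar (IsLocalRing.ResidueField A) ℓ]
    (hℓ : ℓ.Prime) (hM : ¬ ℓ ∣ M) (hA : A.LiesOverPrime ℓ)
    (x x₁ y₁ : FF (M * ℓ)) (c₁ c₀ : Kbar) (hc₁ : c₁ ≠ 0) (hc₀ : c₀ ≠ 0)
    (hx : x = cst (M * ℓ) c₁ * x₁) (hwx : kFricke M ℓ hℓ hM x = cst (M * ℓ) c₀ * y₁)
    (hx₁ : x₁ ∈ softV A (M * ℓ)) (hy₁ : y₁ ∈ softV A (M * ℓ)) :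
    ∃ (z : FF M) (hz : z ∈ softV A M),
      normAlong (heckeBetaBar Kbar M ℓ) x = cst M (c₀ * c₁ ^ ℓ) * z ∧
      softR A M ⟨z, hz⟩ =
        softR A (M * ℓ) ⟨y₁, hy₁⟩ *
          coeffMap (frobenius (IsLocalRing.ResidueField A) ℓ) (softR A (M * ℓ) ⟨x₁, hx₁⟩) := by
  have hww : kFricke M ℓ hℓ hM (kFricke M ℓ hℓ hM x) = cst (M * ℓ) c₁ * x₁ := by
    rw [kFricke_kFricke, ← hx]
  rw [h58n_nmB_eq_nmA_fricke M ℓ hℓ hM x]
  exact h58n_norm_alpha A M ℓ hℓ hM hA (kFricke M ℓ hℓ hM x) y₁ x₁ c₀ c₁ hc₀ hc₁ hwx hww hy₁ hx₁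

/-- the residue field of `A` has characteristic `ℓ` (as an `ExpChar` statement). -/
theorem h58n_expChar (hℓ : ℓ.Prime) (hA : A.LiesOverPrime ℓ) :
    ExpChar (IsLocalRing.ResidueField A) ℓ := by
  haveI : Fact ℓ.Prime := ⟨hℓ⟩
  haveI : CharP (IsLocalRing.ResidueField A) ℓ :=
    Base.h80_charP A (IsLocalRing.residue A) ℓ (isResidueMap_residue A ℓ hA)
  exact ExpChar.prime hℓ

/-- **NORM, along `α`, instance-free form**: `red z (t^ℓ) = red x₁ (t^ℓ) · (red y₁ (t))^ℓ`. -/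
theorem h58n_norm_alpha_pow (hℓ : ℓ.Prime) (hM : ¬ ℓ ∣ M) (hA : A.LiesOverPrime ℓ)
    (x x₁ y₁ : FF (M * ℓ)) (c₁ c₀ : Kbar) (hc₁ : c₁ ≠ 0) (hc₀ : c₀ ≠ 0)
    (hx : x = cst (M * ℓ) c₁ * x₁) (hwx : kFricke M ℓ hℓ hM x = cst (M * ℓ) c₀ * y₁)
    (hx₁ : x₁ ∈ softV A (M * ℓ)) (hy₁ : y₁ ∈ softV A (M * ℓ)) :
    ∃ (z : FF M) (hz : z ∈ softV A M),
      normAlong (heckeAlphaBar Kbar M ℓ) x = cst M (c₁ * c₀ ^ ℓ) * z ∧
      qExpand (IsLocalRing.ResidueField A) ℓ (softR A M ⟨z, hz⟩) =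
        qExpand (IsLocalRing.ResidueField A) ℓ (softR A (M * ℓ) ⟨x₁, hx₁⟩) *
          (softR A (M * ℓ) ⟨y₁, hy₁⟩) ^ ℓ := by
  haveI : ExpChar (IsLocalRing.ResidueField A) ℓ := h58n_expChar A ℓ hℓ hA
  obtain ⟨z, hz, h1, h2⟩ := h58n_norm_alpha A M ℓ hℓ hM hA x x₁ y₁ c₁ c₀ hc₁ hc₀ hx hwx hx₁ hy₁
  refine ⟨z, hz, h1, ?_⟩
  rw [h2, map_mul, Fermat.Agent.Red.ESTF.h76_pow_char_eq_qExpand ℓ (softR A (M * ℓ) ⟨y₁, hy₁⟩)]

/-- **NORM, along `β`, instance-free form**: `red z (t^ℓ) = red y₁ (t^ℓ) · (red x₁ (t))^ℓ`. -/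
theorem h58n_norm_beta_pow (hℓ : ℓ.Prime) (hM : ¬ ℓ ∣ M) (hA : A.LiesOverPrime ℓ)
    (x x₁ y₁ : FF (M * ℓ)) (c₁ c₀ : Kbar) (hc₁ : c₁ ≠ 0) (hc₀ : c₀ ≠ 0)
    (hx : x = cst (M * ℓ) c₁ * x₁) (hwx : kFricke M ℓ hℓ hM x = cst (M * ℓ) c₀ * y₁)
    (hx₁ : x₁ ∈ softV A (M * ℓ)) (hy₁ : y₁ ∈ softV A (M * ℓ)) :
    ∃ (z : FF M) (hz : z ∈ softV A M),
      normAlong (heckeBetaBar Kbar M ℓ) x = cst M (c₀ * c₁ ^ ℓ) * z ∧
      qExpand (IsLocalRing.ResidueField A) ℓ (softR A M ⟨z, hz⟩) =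
        qExpand (IsLocalRing.ResidueField A) ℓ (softR A (M * ℓ) ⟨y₁, hy₁⟩) *
          (softR A (M * ℓ) ⟨x₁, hx₁⟩) ^ ℓ := by
  haveI : ExpChar (IsLocalRing.ResidueField A) ℓ := h58n_expChar A ℓ hℓ hA
  obtain ⟨z, hz, h1, h2⟩ := h58n_norm_beta A M ℓ hℓ hM hA x x₁ y₁ c₁ c₀ hc₁ hc₀ hx hwx hx₁ hy₁
  refine ⟨z, hz, h1, ?_⟩
  rw [h2, map_mul, Fermat.Agent.Red.ESTF.h76_pow_char_eq_qExpand ℓ (softR A (M * ℓ) ⟨x₁, hx₁⟩)]

end Norm

end Fermat.Agent.S35
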