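import Fermat.Agent.LGC.KronRed44
import Fermat.Agent.LGC.H55Kron
import Fermat.Agent.Red.Kron.Norm
import Fermat.Agent.Red.ESTF.FrobSeries

/-!
# S35 / NORM (helper71): the norm along the degeneracy maps, modulo `𝔪`

`ℓ ∤ M` prime, `A` a valuation subring of `ℚ̄` over `ℓ`, `k` its residue field,
`α, β : F_M → F_{Mℓ}` the two degeneracy maps, `w` the Fricke involution of `F_{Mℓ}`,
`W_∞ = softV A (Mℓ)`, `W_0 = w W_∞`, `red_∞ = softR`, `red_0 = softR ∘ w`, `φ` the coefficientwise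
Frobenius of `k((q))`.

* `h71n_norm_series` : for ANY `x ∈ F_{Mℓ}`, in the variable `t = q^{1/ℓ}`,
  `Nm_α(x)(t^ℓ) = x(t^ℓ) · ∏_{b < ℓ} (w x)(ζ^b t)`.
* `h71n_norm_alpha_red` : if `x ∈ W_∞` and `c · w x ∈ W_∞` (`c ∈ ℚ̄` a constant), then
  `c^ℓ · Nm_α(x)` is Gauss-integral of level `M` and
  `red (c^ℓ · Nm_α x) = red_∞ (x) · φ (red_∞ (c · w x))`.
* `h71n_norm_beta_red` : the same for `Nm_β`: if `c · x ∈ W_∞` and `w x ∈ W_∞`, then
  `red (c^ℓ · Nm_β x) = φ (red_∞ (c · x)) · red_∞ (w x)`.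
-/

set_option autoImplicit false
set_option linter.style.haveILetI false
set_option linter.unusedSectionVars false
set_option synthInstance.maxHeartbeats 400000

open AlgebraicCurve ModularCurve IsLocalRing Polynomial

noncomputable section

namespace Fermat.Agent.S35

section Series

open Fermat.Agent.S24 Fermat.Agent.Red.Kron Fermat.Agent.Red.TRK Fermat.Agent.LGC

variable (N ℓ : ℕ) [NeZero N] [NeZero ℓ]

/-- **norm formula over `ℂ`** for a general element of `F_{Nℓ}`. -/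
theorem h71n_norm_C (hℓ : ℓ.Prime) (hN : ¬ ℓ ∣ N) (x : FF (N * ℓ)) :
    letI := algebraAlong (heckeAlphaBar Kbar N ℓ)
    qExpand ℂ (N * ℓ) (coeffMap embC
        ((Algebra.norm (FF N) x : FF N) : LaurentSeries Kbar)) =
      qExpand ℂ (N * ℓ) (coeffMap embC (x : LaurentSeries Kbar)) *
        ∏ b ∈ Finset.range ℓ,
          qExpand ℂ N (twistK (kOmega ℓ (b : ℤ)) (coeffMap embC
            ((kFricke N ℓ hℓ hN x : FF (N * ℓ)) : LaurentSeries Kbar))) := by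
  letI := algebraAlong (heckeAlphaBar Kbar N ℓ)
  have hcop : IsCoprime (ℓ : ℤ) (N : ℤ) := by
    rw [Int.isCoprime_iff_gcd_eq_one, Int.gcd_natCast_natCast]
    exact (Nat.Prime.coprime_iff_not_dvd hℓ).mpr hN
  obtain ⟨a, c, hac⟩ := hcop
  have hb : (ℓ : ℤ) * a - (N : ℤ) * (-c) = 1 := by linear_combination hac
  haveI : FiniteDimensional (FF N) (FF (N * ℓ)) :=
    Fermat.Agent.Red.HKMod.finiteAlong_heckeAlphaBar N ℓ
  haveI : Algebra.IsSeparable (FF N) (FF (N * ℓ)) := inferInstance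
  have key := norm_eq_prod_of_embeddings (K := FF N) (L := FF (N * ℓ)) (kIota N ℓ)
    (kFam N ℓ a (-c) hb) (kFam_injective N ℓ a (-c) hb hℓ.one_lt)
    (fun i x => kFam_alpha N ℓ a (-c) hb i x)
    (by rw [Fintype.card_fin]; exact (finrank_heckeAlphaBar N ℓ hℓ hN).symm) x
  rw [kIota_apply] at key
  rw [key, Fin.prod_univ_succ, kFam_zero, kEmbInf_apply]
  congr 1
  simp only [kFam_succ, h44g_kEmb_eq N ℓ hℓ hN a (-c) hb, h44g_embW_apply]
  exact Fin.prod_univ_eq_prod_range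
    (fun b : ℕ => qExpand ℂ N (twistK (kOmega ℓ (b : ℤ)) (coeffMap embC
      ((kFricke N ℓ hℓ hN x : FF (N * ℓ)) : LaurentSeries Kbar)))) ℓ

/-- **the norm along `α` of a general `x ∈ F_{Nℓ}`**, in the variable `t = q^{1/ℓ}`:
`Nm_α(x)(t^ℓ) = x(t^ℓ) · ∏_{b < ℓ} (w x)(ζ^b t)`. -/
theorem h71n_norm_series (hℓ : ℓ.Prime) (hN : ¬ ℓ ∣ N) (ζ : Kbar)
    (hζ : IsPrimitiveRoot ζ ℓ) (x : FF (N * ℓ)) :
    letI := algebraAlong (heckeAlphaBar Kbar N ℓ)
    qExpand Kbar ℓ ((Algebra.norm (FF N) x : FF N) : LaurentSeries Kbar) =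
      qExpand Kbar ℓ (x : LaurentSeries Kbar) *
        ∏ b ∈ Finset.range ℓ,
          twistK (ζ ^ b) ((kFricke N ℓ hℓ hN x : FF (N * ℓ)) : LaurentSeries Kbar) := by
  letI := algebraAlong (heckeAlphaBar Kbar N ℓ)
  apply h23_coeffMap_embC_injective
  apply qExpand_injective (R := ℂ) N
  have hC := h71n_norm_C N ℓ hℓ hN x
  rw [ModularCurve.coeffMap_qExpand, qExpand_qExpand, hC, map_mul, map_mul, map_prod, map_prod,
    ModularCurve.coeffMap_qExpand, qExpand_qExpand]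
  congr 1
  have hζC : IsPrimitiveRoot (embC ζ) ℓ := hζ.map_of_injective embC.injective
  have h1 := prod_range_pow_primitiveRoot
    (fun ω : ℂ => qExpand ℂ N (twistK ω (coeffMap embC
      ((kFricke N ℓ hℓ hN x : FF (N * ℓ)) : LaurentSeries Kbar))))
    (Complex.isPrimitiveRoot_exp ℓ (NeZero.ne ℓ)) hζC
  simp only [← kOmega_eq_pow] at h1
  rw [h1]
  refine Finset.prod_congr rfl (fun b _ => ?_)
  rw [coeffMap_twistK, map_pow]

/-- **norm formula over `ℂ`, along `β`**, for a general element of `F_{Nℓ}`. -/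
theorem h71n_norm_beta_C (hℓ : ℓ.Prime) (hN : ¬ ℓ ∣ N) (x : FF (N * ℓ)) :
    letI := algebraAlong (heckeBetaBar Kbar N ℓ)
    qExpand ℂ (N * ℓ) (coeffMap embC
        ((Algebra.norm (FF N) x : FF N) : LaurentSeries Kbar)) =
      qExpand ℂ (N * ℓ) (coeffMap embC
          ((kFricke N ℓ hℓ hN x : FF (N * ℓ)) : LaurentSeries Kbar)) *
        ∏ b ∈ Finset.range ℓ,
          qExpand ℂ N (twistK (kOmega ℓ (b : ℤ)) (coeffMap embC
            ((kFricke N ℓ hℓ hN (kFricke N ℓ hℓ hN x) : FF (N * ℓ)) :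
              LaurentSeries Kbar))) := by
  letI := algebraAlong (heckeBetaBar Kbar N ℓ)
  have hcop : IsCoprime (ℓ : ℤ) (N : ℤ) := by
    rw [Int.isCoprime_iff_gcd_eq_one, Int.gcd_natCast_natCast]
    exact (Nat.Prime.coprime_iff_not_dvd hℓ).mpr hN
  obtain ⟨a, c, hac⟩ := hcop
  have hb : (ℓ : ℤ) * a - (N : ℤ) * (-c) = 1 := by linear_combination hac
  haveI : FiniteDimensional (FF N) (FF (N * ℓ)) :=
    Fermat.Agent.Red.HKMod.finiteAlong_heckeBetaBar N ℓ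
  haveI : Algebra.IsSeparable (FF N) (FF (N * ℓ)) := inferInstance
  let w := kFricke N ℓ hℓ hN
  let e : Fin (ℓ + 1) → (FF (N * ℓ) →+* LaurentSeries ℂ) :=
    fun i => (kFam N ℓ a (-c) hb i).comp (w : FF (N * ℓ) →+* FF (N * ℓ))
  have he : Function.Injective e := by
    intro i j hij
    apply kFam_injective N ℓ a (-c) hb hℓ.one_lt
    ext1 f
    have h1 : e i (w f) = e j (w f) := by rw [hij]
    have h2 : w (w f) = f := kFricke_kFricke N ℓ hℓ hN f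
    simpa [e, h2] using h1
  have hcomm : ∀ i z, e i (algebraMap (FF N) (FF (N * ℓ)) z) = kIota N ℓ z := by
    intro i z
    show kFam N ℓ a (-c) hb i (w (heckeBetaBar Kbar N ℓ z)) = kIota N ℓ z
    rw [show w (heckeBetaBar Kbar N ℓ z) = heckeAlphaBar Kbar N ℓ z from
      kFricke_beta N ℓ hℓ hN z]
    exact kFam_alpha N ℓ a (-c) hb i z
  have key := norm_eq_prod_of_embeddings (K := FF N) (L := FF (N * ℓ)) (kIota N ℓ) e he hcomm
    (by rw [Fintype.card_fin]; exact (finrank_heckeBetaBar N ℓ hℓ hN).symm) x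
  rw [kIota_apply] at key
  rw [key, Fin.prod_univ_succ]
  show kFam N ℓ a (-c) hb 0 (w x) * ∏ i : Fin ℓ, kFam N ℓ a (-c) hb i.succ (w x) = _
  rw [kFam_zero, kEmbInf_apply]
  congr 1
  simp only [kFam_succ, h44g_kEmb_eq N ℓ hℓ hN a (-c) hb, h44g_embW_apply]
  exact Fin.prod_univ_eq_prod_range
    (fun b : ℕ => qExpand ℂ N (twistK (kOmega ℓ (b : ℤ)) (coeffMap embC
      ((kFricke N ℓ hℓ hN (w x) : FF (N * ℓ)) : LaurentSeries Kbar)))) ℓ

/-- **`Nm_β(x) = Nm_α(w x)`**: the Fricke involution exchanges the two norms. -/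
theorem h71n_norm_beta_eq (hℓ : ℓ.Prime) (hN : ¬ ℓ ∣ N) (x : FF (N * ℓ)) :
    (letI := algebraAlong (heckeBetaBar Kbar N ℓ); Algebra.norm (FF N) x) =
      (letI := algebraAlong (heckeAlphaBar Kbar N ℓ);
        Algebra.norm (FF N) (kFricke N ℓ hℓ hN x)) := by
  have h1 := h71n_norm_beta_C N ℓ hℓ hN x
  have h2 := h71n_norm_C N ℓ hℓ hN (kFricke N ℓ hℓ hN x)
  have h3 := h1.trans h2.symm
  have h4 := qExpand_injective (R := ℂ) (N * ℓ) h3
  have h5 := h23_coeffMap_embC_injective h4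
  exact Subtype.ext h5

end Series

section Soft

open Fermat.Agent.S37 Fermat.Agent.Red Fermat.Agent.Red.GV Fermat.Agent.Red.GV.Soft
  Fermat.Agent.Red.TRK Fermat.Agent.Red.Kron Fermat.Agent.LGC

variable (A : ValuationSubring Kbar) (M ℓ : ℕ) [NeZero M] [NeZero ℓ]

/-- the series identity behind the scaled norm formula. -/
theorem h71n_norm_series_scaled (hℓ : ℓ.Prime) (hM : ¬ ℓ ∣ M) (ζ : Kbar)
    (hζ : IsPrimitiveRoot ζ ℓ) (x : FF (M * ℓ)) (c : Kbar) :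
    letI := algebraAlong (heckeAlphaBar Kbar M ℓ)
    qExpand Kbar ℓ ((cst M (c ^ ℓ) * Algebra.norm (FF M) x : FF M) : LaurentSeries Kbar) =
      qExpand Kbar ℓ (x : LaurentSeries Kbar) *
        ∏ b ∈ Finset.range ℓ,
          twistK (ζ ^ b)
            ((cst (M * ℓ) c * kFricke M ℓ hℓ hM x : FF (M * ℓ)) : LaurentSeries Kbar) := by
  letI := algebraAlong (heckeAlphaBar Kbar M ℓ)
  have hζ0 : ∀ b : ℕ, ζ ^ b ≠ 0 := fun b => pow_ne_zero b (hζ.ne_zero (NeZero.ne ℓ))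
  have h1 : ∀ b ∈ Finset.range ℓ, twistK (ζ ^ b)
      ((cst (M * ℓ) c * kFricke M ℓ hℓ hM x : FF (M * ℓ)) : LaurentSeries Kbar) =
        HahnSeries.C c * twistK (ζ ^ b)
          ((kFricke M ℓ hℓ hM x : FF (M * ℓ)) : LaurentSeries Kbar) := by
    intro b _
    have e : ((cst (M * ℓ) c * kFricke M ℓ hℓ hM x : FF (M * ℓ)) : LaurentSeries Kbar) =
        HahnSeries.C c * ((kFricke M ℓ hℓ hM x : FF (M * ℓ)) : LaurentSeries Kbar) := by
      rw [← soft_coe_cst (M * ℓ) c]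
      rfl
    rw [e, twistK_mul (hζ0 b), twistK_C]
  have e2 : ((cst M (c ^ ℓ) * Algebra.norm (FF M) x : FF M) : LaurentSeries Kbar) =
      HahnSeries.C (c ^ ℓ) * ((Algebra.norm (FF M) x : FF M) : LaurentSeries Kbar) := by
    rw [← soft_coe_cst M (c ^ ℓ)]
    rfl
  rw [Finset.prod_congr rfl h1, Finset.prod_mul_distrib, Finset.prod_const, Finset.card_range,
    e2, map_mul, qExpand_C, h71n_norm_series M ℓ hℓ hM ζ hζ x, map_pow]
  ring

/-- **NORM, along `α`, power form.**  If `x ∈ W_∞` and `c · w x ∈ W_∞`, then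
`n = c^ℓ · Nm_α(x)` is Gauss-integral of level `M` and `n̄(t^ℓ) = x̄(t^ℓ) · (\overline{c w x})^ℓ`. -/
theorem h71n_norm_alpha_red_pow (hℓ : ℓ.Prime) (hM : ¬ ℓ ∣ M) (hA : A.LiesOverPrime ℓ)
    (x : FF (M * ℓ)) (c : Kbar) (hx : x ∈ softV A (M * ℓ))
    (hy : cst (M * ℓ) c * kFricke M ℓ hℓ hM x ∈ softV A (M * ℓ)) :
    letI := algebraAlong (heckeAlphaBar Kbar M ℓ)
    ∃ hn : cst M (c ^ ℓ) * Algebra.norm (FF M) x ∈ softV A M,
      qExpand (ResidueField A) ℓ (softR A M ⟨_, hn⟩) =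
        qExpand (ResidueField A) ℓ (softR A (M * ℓ) ⟨x, hx⟩) *
          (softR A (M * ℓ) ⟨_, hy⟩) ^ ℓ := by
  letI := algebraAlong (heckeAlphaBar Kbar M ℓ)
  haveI : NeZero ((ℓ : ℕ) : Kbar) := ⟨by exact_mod_cast NeZero.ne ℓ⟩
  obtain ⟨ζ, hζ⟩ := HasEnoughRootsOfUnity.exists_primitiveRoot Kbar ℓ
  have hser := h71n_norm_series_scaled M ℓ hℓ hM ζ hζ x c
  set n : FF M := cst M (c ^ ℓ) * Algebra.norm (FF M) x with hn_def
  set y : FF (M * ℓ) := cst (M * ℓ) c * kFricke M ℓ hℓ hM x with hy_def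
  have hroot : ∀ b : ℕ, (ζ ^ b) ^ ℓ = 1 := by
    intro b
    rw [← pow_mul, mul_comm, pow_mul, hζ.pow_eq_one, one_pow]
  have hS : qExpand Kbar ℓ (x : LaurentSeries Kbar) ∈ softOT A (residue A) :=
    mem_softOT_qExpand A _ ℓ hx
  have hSred : softRedT A (residue A) ⟨_, hS⟩ =
      qExpand (ResidueField A) ℓ (softR A (M * ℓ) ⟨x, hx⟩) :=
    softRedT_qExpand A (residue A) ℓ (softIncl A (M * ℓ) ⟨x, hx⟩) hS
  have hT : ∀ b : ℕ, ∃ h : twistK (ζ ^ b) (y : LaurentSeries Kbar) ∈ softOT A (residue A),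
      softRedT A (residue A) ⟨_, h⟩ = softR A (M * ℓ) ⟨y, hy⟩ := by
    intro b
    exact h55k_twist_root A hℓ hA (hroot b) (softIncl A (M * ℓ) ⟨y, hy⟩)
  choose hTm hTr using hT
  -- the product in `softOT`
  obtain ⟨Q, hQ⟩ : ∃ Q : softOT A (residue A),
      Q = ⟨_, hS⟩ * ∏ b ∈ Finset.range ℓ, ⟨_, hTm b⟩ := ⟨_, rfl⟩
  have hQcoe : (Q : LaurentSeries Kbar) = qExpand Kbar ℓ ((n : FF M) : LaurentSeries Kbar) := by
    rw [hser, hQ, Subring.coe_mul, ← Subring.coe_subtype, map_prod]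
    rfl
  have hQred : softRedT A (residue A) Q =
      qExpand (ResidueField A) ℓ (softR A (M * ℓ) ⟨x, hx⟩) *
        (softR A (M * ℓ) ⟨y, hy⟩) ^ ℓ := by
    rw [hQ, map_mul, map_prod, hSred, Finset.prod_congr rfl (fun b _ => hTr b),
      Finset.prod_const, Finset.card_range]
  have hβn : heckeBetaBar Kbar M ℓ n ∈ softV A (M * ℓ) := by
    rw [mem_softV_iff, coe_heckeBetaBar, ← hQcoe]
    exact Q.2
  have hn : n ∈ softV A M := (beta_mem_softV_iff A hℓ hA ℓ n).mp hβn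
  refine ⟨hn, ?_⟩
  rw [← softR_beta A ℓ ⟨n, hn⟩ hβn, ← hQred]
  show softRedT A _ (softIncl A (M * ℓ) ⟨heckeBetaBar Kbar M ℓ n, hβn⟩) = softRedT A _ Q
  congr 1
  apply Subtype.ext
  rw [coe_softIncl, hQcoe, coe_heckeBetaBar]

/-- **NORM, along `α`.**  If `x ∈ W_∞` and `c · w x ∈ W_∞`, then `c^ℓ · Nm_α(x)` is
Gauss-integral of level `M` and
`red (c^ℓ · Nm_α x) = red_∞ (x) · φ (red_∞ (c · w x))`, `φ` the coefficientwise Frobenius. -/
theorem h71n_norm_alpha_red (hℓ : ℓ.Prime) (hM : ¬ ℓ ∣ M) (hA : A.LiesOverPrime ℓ)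
    [ExpChar (ResidueField A) ℓ]
    (x : FF (M * ℓ)) (c : Kbar) (hx : x ∈ softV A (M * ℓ))
    (hy : cst (M * ℓ) c * kFricke M ℓ hℓ hM x ∈ softV A (M * ℓ)) :
    letI := algebraAlong (heckeAlphaBar Kbar M ℓ)
    ∃ hn : cst M (c ^ ℓ) * Algebra.norm (FF M) x ∈ softV A M,
      softR A M ⟨_, hn⟩ = softR A (M * ℓ) ⟨x, hx⟩ *
        coeffMap (frobenius (ResidueField A) ℓ) (softR A (M * ℓ) ⟨_, hy⟩) := by
  letI := algebraAlong (heckeAlphaBar Kbar M ℓ)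
  obtain ⟨hn, h⟩ := h71n_norm_alpha_red_pow A M ℓ hℓ hM hA x c hx hy
  refine ⟨hn, ?_⟩
  apply qExpand_injective (R := ResidueField A) ℓ
  rw [h, map_mul, ← Fermat.Agent.Red.ESTF.h76_pow_char_eq_qExpand ℓ]

/-- **NORM, along `β`, power form.**  If `w x ∈ W_∞` and `c · x ∈ W_∞`, then
`n = c^ℓ · Nm_β(x)` is Gauss-integral of level `M` and
`n̄(t^ℓ) = (\overline{w x})(t^ℓ) · (\overline{c x})^ℓ`. -/
theorem h71n_norm_beta_red_pow (hℓ : ℓ.Prime) (hM : ¬ ℓ ∣ M) (hA : A.LiesOverPrime ℓ)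
    (x : FF (M * ℓ)) (c : Kbar) (hwx : kFricke M ℓ hℓ hM x ∈ softV A (M * ℓ))
    (hy : cst (M * ℓ) c * x ∈ softV A (M * ℓ)) :
    letI := algebraAlong (heckeBetaBar Kbar M ℓ)
    ∃ hn : cst M (c ^ ℓ) * Algebra.norm (FF M) x ∈ softV A M,
      qExpand (ResidueField A) ℓ (softR A M ⟨_, hn⟩) =
        qExpand (ResidueField A) ℓ (softR A (M * ℓ) ⟨_, hwx⟩) *
          (softR A (M * ℓ) ⟨_, hy⟩) ^ ℓ := by
  have hww : kFricke M ℓ hℓ hM (kFricke M ℓ hℓ hM x) = x := kFricke_kFricke M ℓ hℓ hM x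
  have hy' : cst (M * ℓ) c * kFricke M ℓ hℓ hM (kFricke M ℓ hℓ hM x) ∈ softV A (M * ℓ) := by
    rw [hww]; exact hy
  obtain ⟨hn, h⟩ := h71n_norm_alpha_red_pow A M ℓ hℓ hM hA (kFricke M ℓ hℓ hM x) c hwx hy'
  have e := h71n_norm_beta_eq M ℓ hℓ hM x
  have hn' : (cst M (c ^ ℓ) *
      (letI := algebraAlong (heckeBetaBar Kbar M ℓ); Algebra.norm (FF M) x)) ∈ softV A M := by
    rw [e]; exact hn
  refine ⟨hn', ?_⟩
  have e1 : (⟨_, hn'⟩ : softV A M) = ⟨_, hn⟩ :=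
    Subtype.ext (congrArg (fun t => cst M (c ^ ℓ) * t) e)
  have e2 : (⟨_, hy⟩ : softV A (M * ℓ)) = ⟨_, hy'⟩ :=
    Subtype.ext (congrArg (fun t => cst (M * ℓ) c * t) hww.symm)
  rw [e1, e2]
  exact h

/-- **NORM, along `β`.**  If `w x ∈ W_∞` and `c · x ∈ W_∞`, then `c^ℓ · Nm_β(x)` is
Gauss-integral of level `M` and
`red (c^ℓ · Nm_β x) = red_∞ (w x) · φ (red_∞ (c · x))`, `φ` the coefficientwise Frobenius. -/
theorem h71n_norm_beta_red (hℓ : ℓ.Prime) (hM : ¬ ℓ ∣ M) (hA : A.LiesOverPrime ℓ)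
    [ExpChar (ResidueField A) ℓ]
    (x : FF (M * ℓ)) (c : Kbar) (hwx : kFricke M ℓ hℓ hM x ∈ softV A (M * ℓ))
    (hy : cst (M * ℓ) c * x ∈ softV A (M * ℓ)) :
    letI := algebraAlong (heckeBetaBar Kbar M ℓ)
    ∃ hn : cst M (c ^ ℓ) * Algebra.norm (FF M) x ∈ softV A M,
      softR A M ⟨_, hn⟩ = softR A (M * ℓ) ⟨_, hwx⟩ *
        coeffMap (frobenius (ResidueField A) ℓ) (softR A (M * ℓ) ⟨_, hy⟩) := by
  letI := algebraAlong (heckeBetaBar Kbar M ℓ)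
  obtain ⟨hn, h⟩ := h71n_norm_beta_red_pow A M ℓ hℓ hM hA x c hwx hy
  refine ⟨hn, ?_⟩
  apply qExpand_injective (R := ResidueField A) ℓ
  rw [h, map_mul, ← Fermat.Agent.Red.ESTF.h76_pow_char_eq_qExpand ℓ]

end Soft

end Fermat.Agent.S35
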