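import Fermat.Agent.S35.GeomSkeleton
import Fermat.Agent.S35.H71Norm
import Fermat.Agent.LGC.Unip

/-!
# S35 / G-DESC (helper31, independent second seat): from the good levels to all levels

* `h31s_degen_alpha`, `h31s_degen_beta` : the degeneracy inclusion `F_{Mq} ⊆ F_{M'q}` (`M ∣ M'`)
  commutes with `α` and `β`.
* `h31s_kFricke_degen` : the Fricke involutions of the levels `M q` and `M' q` are compatible.
* `h31s_norm_alpha_degen`, `h31s_norm_beta_degen` : **base change of the norms**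
  `Nm_{α'} (u|_{M'q}) = (Nm_α u)|_{M'}`, `Nm_{β'} (u|_{M'q}) = (Nm_β u)|_{M'}` (flag F2 of the audit),
  from the `q`-expansion formula for the norm (`h71n_norm_series`).
* `h31s_fq_degen` : the quartic `fq` commutes with the degeneracy inclusion.
* `h31s_frobGateDescent : FrobGateDescent` (**G-DESC**, unconditional), with the SAME exponent `t`
  (no norm back: the landed descent of roots `h63_descent_pow` is used instead).
-/

set_option autoImplicit false
set_option linter.unusedSectionVars false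
set_option linter.style.haveILetI false

open AlgebraicCurve ModularCurve

noncomputable section

namespace Fermat.Agent.S35

open Fermat.Agent.S37 Fermat.Agent.Red.KR Fermat.Agent.Red.Kron Fermat.Agent.Red.TRK
  Fermat.Agent.LGC Fermat.Agent.Red.GateAll

section Degen

variable {M M' : ℕ} (q : ℕ) [NeZero M] [NeZero M'] [NeZero q]

/-- `F_{Mq} ⊆ F_{M'q}` is compatible with `α`. -/
theorem h31s_degen_alpha (h : M ∣ M') (x : FF M) :
    degen (Nat.mul_dvd_mul_right h q) (heckeAlphaBar Kbar M q x) =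
      heckeAlphaBar Kbar M' q (degen h x) :=
  Subtype.ext (by rw [coe_degen, coe_heckeAlphaBar, coe_heckeAlphaBar, coe_degen])

/-- `F_{Mq} ⊆ F_{M'q}` is compatible with `β`. -/
theorem h31s_degen_beta (h : M ∣ M') (x : FF M) :
    degen (Nat.mul_dvd_mul_right h q) (heckeBetaBar Kbar M q x) =
      heckeBetaBar Kbar M' q (degen h x) :=
  Subtype.ext (by rw [coe_degen, coe_heckeBetaBar, coe_heckeBetaBar, coe_degen])

/-- composition of degeneracy inclusions. -/
theorem h31s_degen_degen {N₁ N₂ N₃ : ℕ} [NeZero N₁] [NeZero N₂] [NeZero N₃] (h₁ : N₁ ∣ N₂)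
    (h₂ : N₂ ∣ N₃) (x : FF N₁) : degen h₂ (degen h₁ x) = degen (h₁.trans h₂) x :=
  Subtype.ext (by rw [coe_degen, coe_degen, coe_degen])

theorem h31s_degen_ne_zero {N₁ N₂ : ℕ} [NeZero N₁] [NeZero N₂] (h : N₁ ∣ N₂) {x : FF N₁}
    (hx : x ≠ 0) : degen h x ≠ 0 := fun h0 =>
  hx ((degen h).toRingHom.injective (by simpa using h0))

/-- **the Fricke involutions of the levels `M q ∣ M' q` are compatible.** -/
theorem h31s_kFricke_degen (hq : q.Prime) (hqM : ¬ q ∣ M) (hqM' : ¬ q ∣ M') (h : M ∣ M')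
    (x : FF (M * q)) :
    kFricke M' q hq hqM' (degen (Nat.mul_dvd_mul_right h q) x) =
      degen (Nat.mul_dvd_mul_right h q) (kFricke M q hq hqM x) := by
  induction x using kFF_induction_ab M q hq with
  | hc a =>
    rw [kFricke_cst, AlgHom.commutes]
    exact (kFricke M' q hq hqM').commutes a
  | ha x => rw [kFricke_alpha, h31s_degen_alpha q h, kFricke_alpha, h31s_degen_beta q h]
  | hb x => rw [kFricke_beta, h31s_degen_beta q h, kFricke_beta, h31s_degen_alpha q h]
  | hadd x y hx hy => rw [map_add, map_add, map_add, map_add, hx, hy]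
  | hinv x hx => rw [map_inv₀, map_inv₀, map_inv₀, map_inv₀, hx]
  | hmul x y hx hy => rw [map_mul, map_mul, map_mul, map_mul, hx, hy]

/-- **base change of the norm along `α`.** -/
theorem h31s_norm_alpha_degen (hq : q.Prime) (hqM : ¬ q ∣ M) (hqM' : ¬ q ∣ M') (h : M ∣ M')
    (x : FF (M * q)) :
    normAlong (heckeAlphaBar Kbar M' q) (degen (Nat.mul_dvd_mul_right h q) x) =
      degen h (normAlong (heckeAlphaBar Kbar M q) x) := by
  obtain ⟨ζ, hζ⟩ := HasEnoughRootsOfUnity.exists_primitiveRoot Kbar q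
  have h1 := h71n_norm_series M' q hq hqM' ζ hζ (degen (Nat.mul_dvd_mul_right h q) x)
  have h2 := h71n_norm_series M q hq hqM ζ hζ x
  rw [h31s_kFricke_degen q hq hqM hqM' h, coe_degen, coe_degen] at h1
  have h3 := h1.trans h2.symm
  have h4 := qExpand_injective (R := Kbar) q h3
  apply Subtype.ext
  rw [coe_degen]
  exact h4

/-- **base change of the norm along `β`.** -/
theorem h31s_norm_beta_degen (hq : q.Prime) (hqM : ¬ q ∣ M) (hqM' : ¬ q ∣ M') (h : M ∣ M')
    (x : FF (M * q)) :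
    normAlong (heckeBetaBar Kbar M' q) (degen (Nat.mul_dvd_mul_right h q) x) =
      degen h (normAlong (heckeBetaBar Kbar M q) x) := by
  have h1 := h71n_norm_beta_eq M' q hq hqM' (degen (Nat.mul_dvd_mul_right h q) x)
  have h2 := h71n_norm_beta_eq M q hq hqM x
  have h3 := h31s_norm_alpha_degen q hq hqM hqM' h (kFricke M q hq hqM x)
  rw [← h31s_kFricke_degen q hq hqM hqM' h] at h3
  unfold normAlong at h3 ⊢
  rw [h1, h3, h2]

end Degen

/-- the quartic `fq` commutes with the degeneracy inclusions. -/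
theorem h31s_fq_degen {N N' : ℕ} [NeZero N] [NeZero N'] (h : N ∣ N') (q : ℕ) (σ : GQ)
    (u : FF N) : degen h (fq N q σ u) = fq N' q σ (degen h u) := by
  unfold fq
  rw [map_div₀, map_mul, map_pow, map_pow]
  simp only [h63_degen_gal]

/-- the divisor of `σ u` is divisible by `m` if the divisor of `u` is. -/
theorem h31s_dvd_ord_gal {N : ℕ} (σ : GQ) {m : ℕ} {u : FF N}
    (hord : ∀ v : Place Kbar (FF N), (m : ℤ) ∣ v.ord u) (v : Place Kbar (FF N)) :
    (m : ℤ) ∣ v.ord (gal N σ • u) := by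
  have h := SemilinearAut.ord_smul (gal N σ) ((gal N σ)⁻¹ • v) u
  rw [smul_inv_smul] at h
  rw [h]
  exact hord _

/-- the divisor of `fq u ^ t` is divisible by `m` if the divisor of `u` is. -/
theorem h31s_dvd_ord_fq {N : ℕ} (q : ℕ) (σ : GQ) {m : ℕ} {u : FF N} (hu : u ≠ 0)
    (hord : ∀ v : Place Kbar (FF N), (m : ℤ) ∣ v.ord u) (t : ℕ) (v : Place Kbar (FF N)) :
    (m : ℤ) ∣ v.ord (fq N q σ u ^ t) := by
  have h2 := h31s_dvd_ord_gal σ (h31s_dvd_ord_gal σ hord)
  have h4 := h31s_dvd_ord_gal σ (h31s_dvd_ord_gal σ h2)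
  have hu2 : gal N σ • gal N σ • u ≠ 0 := gal_smul_ne_zero σ (gal_smul_ne_zero σ hu)
  have hu4 : gal N σ • gal N σ • gal N σ • gal N σ • u ≠ 0 :=
    gal_smul_ne_zero σ (gal_smul_ne_zero σ hu2)
  rw [← zpow_natCast, Place.ord_zpow]
  refine Dvd.dvd.mul_left ?_ _
  unfold fq
  rw [div_eq_mul_inv, Place.ord_mul _ (mul_ne_zero hu4 (pow_ne_zero _ hu))
    (inv_ne_zero (pow_ne_zero _ hu2)), Place.ord_mul _ hu4 (pow_ne_zero _ hu), Place.ord_inv,
    ← zpow_natCast, Place.ord_zpow, ← zpow_natCast, Place.ord_zpow]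
  exact dvd_add (dvd_add (h4 v) (Dvd.dvd.mul_left (hord v) _))
    ((dvd_neg).2 (Dvd.dvd.mul_left (h2 v) _))

/-- the good level above `M * q` contains `goodLevel q M * q`. -/
theorem h31s_goodLevel_mul_dvd {q M : ℕ} (hq : q.Prime) (hqM : ¬ q ∣ M) :
    goodLevel q M * q ∣ goodLevel q (M * q) := by
  have hcop : Nat.Coprime (goodLevel q M) q :=
    ((Nat.Prime.coprime_iff_not_dvd hq).2 (not_dvd_goodLevel hq hqM)).symm
  refine hcop.mul_dvd_of_dvd_of_dvd ?_ ?_
  · exact Nat.lcm_dvd ((dvd_mul_right M q).trans (dvd_goodLevel q (M * q)))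
      (auxLevel_dvd_goodLevel q (M * q))
  · exact (dvd_mul_left q M).trans (dvd_goodLevel q (M * q))

/-- **G-DESC.**  The Frobenius gate at the good levels implies the Frobenius gate at all
levels, with the same exponent. -/
theorem h31s_frobGateDescent : FrobGateDescent := by
  intro hG q hq M _ hqM
  haveI : NeZero q := ⟨hq.ne_zero⟩
  intro A hA σ hσ
  obtain ⟨t, ht, H⟩ := hG q hq (goodLevel q M) (not_dvd_goodLevel hq hqM)
    (auxLevel_dvd_goodLevel q M) A hA σ hσ
  refine ⟨t, ht, ?_⟩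
  intro m hqm u hu hord hα hβ
  have hm0 : m ≠ 0 := fun h0 => hqm (h0 ▸ dvd_zero q)
  have hd : M ∣ goodLevel q M := dvd_goodLevel q M
  have hdq : M * q ∣ goodLevel q M * q := Nat.mul_dvd_mul_right hd q
  obtain ⟨h₁, hh₁⟩ := hα
  obtain ⟨h₂, hh₂⟩ := hβ
  obtain ⟨h', hh'⟩ := H m hqm (degen hdq u) (h31s_degen_ne_zero hdq hu)
    (by
      intro v
      rw [Place.ord_restrictAlong (degen hdq) (h99_isIntegral_degen _) v u]
      exact Dvd.dvd.mul_left (hord _) _)
    ⟨degen hd h₁, by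
      rw [h31s_norm_alpha_degen q hq hqM (not_dvd_goodLevel hq hqM) hd, hh₁, map_pow]⟩
    ⟨degen hd h₂, by
      rw [h31s_norm_beta_degen q hq hqM (not_dvd_goodLevel hq hqM) hd, hh₂, map_pow]⟩
  rw [← h31s_fq_degen hdq, ← map_pow] at hh'
  have hu2 : gal (M * q) σ • gal (M * q) σ • u ≠ 0 :=
    gal_smul_ne_zero σ (gal_smul_ne_zero σ hu)
  have hu4 : gal (M * q) σ • gal (M * q) σ • gal (M * q) σ • gal (M * q) σ • u ≠ 0 :=
    gal_smul_ne_zero σ (gal_smul_ne_zero σ hu2)
  have hw : fq (M * q) q σ u ^ t ≠ 0 :=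
    pow_ne_zero t (div_ne_zero (mul_ne_zero hu4 (pow_ne_zero _ hu)) (pow_ne_zero _ hu2))
  have hgl := h31s_goodLevel_mul_dvd hq hqM
  obtain ⟨h, hh⟩ := h63_descent_pow q (M * q) m hm0 (fq (M * q) q σ u ^ t) hw
    (h31s_dvd_ord_fq q σ hu hord t)
    ⟨degen hgl h', by
      rw [← map_pow, hh', h31s_degen_degen]⟩
  exact ⟨h, hh⟩

end Fermat.Agent.S35
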