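import Fermat.Agent.S35.H13TorNode
import Fermat.Agent.S35.H13TorRat
import Fermat.Agent.S35.H86TorIface
import Fermat.Agent.LGC.SS85CompAdapt

/-!
# S35, block TOR (helper13): adapters to the frozen interfaces of `S35/H86TorIface.lean`

* `h13x_ifaceTorPerm : IfaceTorPerm A M ℓ hℓ hM hA`  (row TOR-PERM), from `h13x_perm_node`;
* `h13x_torNodeStatement : TorNodeStatement`  (row TOR-NODE-ABS), from `h13x_node_frob`.
-/

set_option autoImplicit false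
set_option linter.unusedSectionVars false

open AlgebraicCurve ModularCurve WithZero IsLocalRing

noncomputable section

namespace Fermat.Agent.S35

open Fermat.Agent.S37 Fermat.Agent.Red Fermat.Agent.Red.GG Fermat.Agent.Red.GV
  Fermat.Agent.Red.ModelO Fermat.Agent.LGC

section Perm

variable (A : ValuationSubring Kbar) (M : ℕ) {ℓ : ℕ} [NeZero M] [NeZero ℓ]
  (hℓ : ℓ.Prime) (hM : ¬ ℓ ∣ M) (hA : A.LiesOverPrime ℓ)

/-- a closed point lying on both components contains `P∞`. -/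
theorem h13x_Pinf_le_of_onBoth (𝔫 : Ideal (chart (M * ℓ) A (jSS M ℓ)))
    (h : TorOnBoth A M ℓ hℓ hM hA (jSS M ℓ) 𝔫) : h62i_Pinf A M hℓ hM hA ≤ 𝔫 := by
  intro b hb
  by_cases h0 : (b : FF (M * ℓ)) = 0
  · have : b = 0 := Subtype.ext h0
    rw [this]; exact 𝔫.zero_mem
  apply h.1 b
  intro hinv
  rw [h85c_Pinf_eq] at hb
  have hC := h85s_ifaceSSChart_fin A M ℓ hℓ hM hA
  have hb' : (b : FF (M * ℓ)) ∈ (h85cWinf A M ℓ hℓ hA).nonunits :=
    (h85c_mem_Pinf_iff A M ℓ hℓ hA hC).mp hb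
  exact (h85c_mem_nonunits_iff_inv h0).mp hb' hinv

/-- a closed point lying on both components contains `P₀`. -/
theorem h13x_P0_le_of_onBoth (𝔫 : Ideal (chart (M * ℓ) A (jSS M ℓ)))
    (h : TorOnBoth A M ℓ hℓ hM hA (jSS M ℓ) 𝔫) : h62i_P0 A M hℓ hM hA ≤ 𝔫 := by
  intro b hb
  by_cases h0 : (b : FF (M * ℓ)) = 0
  · have : b = 0 := Subtype.ext h0
    rw [this]; exact 𝔫.zero_mem
  apply h.2 b
  intro hinv
  rw [h85c_P0_eq] at hb
  have hC := h85s_ifaceSSChart_fin A M ℓ hℓ hM hA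
  have hb' : (b : FF (M * ℓ)) ∈ (h85cW0 A M ℓ hℓ hM hA).nonunits :=
    (h85c_mem_centre_iff (W := h85cW0 A M ℓ hℓ hM hA) (h85c_hBW0 A M ℓ hℓ hM hA hC)).mp hb
  exact (h85c_mem_nonunits_iff_inv h0).mp hb' hinv

/-- **TOR-PERM.** -/
theorem h13x_ifaceTorPerm (haux : auxLevel ℓ ∣ M) : IfaceTorPerm A M ℓ hℓ hM hA := by
  intro σ hσ 𝔫 h𝔫 _ hboth z hz k hk
  have : 𝔫.IsPrime := h𝔫.isPrime
  exact h13x_perm_node A M hℓ hM haux hA σ hσ 𝔫
    (h13x_Pinf_le_of_onBoth A M hℓ hM hA 𝔫 hboth)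
    (h13x_P0_le_of_onBoth A M hℓ hM hA 𝔫 hboth) z hz k hk

end Perm

end Fermat.Agent.S35
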