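import Mathlib
import Fermat.Agent.LGC.GateSSAbs
import Fermat.Agent.LGC.NodeSoft

/-!
# S35, block TOR (helper86): the groups `1 + 𝔪_A W` and the "unit on the other branch" lemma

Abstract setting (helper26's vocabulary, `Red/LocalFact.lean`): `A` a valuation ring, `F` a
field over `A`, `B ⊆ F` a chart, `V ⊆ F` the semistable Gauss ring, `W` one of the two Gauss
valuation rings (`V = W∞ ∩ W₀`).

* `h86t_U1 A W = 1 + 𝔪_A W` : the functions `≡ 1` on the component of `W`; it is a group.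
* `h86t_U1_inter` : `(1 + 𝔪_A W∞) ∩ (1 + 𝔪_A W₀) ⊆ 1 + π V` for some nonzero `π ∈ 𝔪_A`.
* `h86t_unit_other` : at a closed point `𝔫` lying on both components, a function of `V`
  without poles centered at `𝔫` which is `≡ 1` on one component is a unit on the other one.
-/

set_option autoImplicit false
set_option linter.unusedSectionVars false

open WithZero IsLocalRing

namespace Fermat.Agent.S35

open Fermat.Agent.Red Fermat.Agent.LGC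

section U1

variable (A : Type*) [CommRing A] [IsDomain A] [ValuationRing A]
  {F : Type*} [Field F] [Algebra A F]

/-- `1 + 𝔪_A W`. -/
def h86t_U1 (W : Subring F) : Set F :=
  {z | ∃ π ∈ maximalIdeal A, ∃ x ∈ W, z = 1 + algebraMap A F π * x}

variable {A}
variable {W : Subring F}

theorem h86t_U1_one : (1 : F) ∈ h86t_U1 A W :=
  ⟨0, Ideal.zero_mem _, 0, W.zero_mem, by simp⟩

theorem h86t_U1_mem (hAW : ∀ a : A, algebraMap A F a ∈ W) {z : F} (hz : z ∈ h86t_U1 A W) :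
    z ∈ W := by
  obtain ⟨π, -, x, hx, rfl⟩ := hz
  exact W.add_mem W.one_mem (W.mul_mem (hAW π) hx)

theorem h86t_U1_mul (hAW : ∀ a : A, algebraMap A F a ∈ W) {z₁ z₂ : F}
    (h₁ : z₁ ∈ h86t_U1 A W) (h₂ : z₂ ∈ h86t_U1 A W) : z₁ * z₂ ∈ h86t_U1 A W := by
  obtain ⟨π₁, hπ₁, x₁, hx₁, rfl⟩ := h₁
  obtain ⟨π₂, hπ₂, x₂, hx₂, rfl⟩ := h₂
  rcases ValuationRing.dvd_total π₁ π₂ with ⟨c, rfl⟩ | ⟨c, rfl⟩
  · refine ⟨π₁, hπ₁, x₁ + algebraMap A F c * x₂ + algebraMap A F (π₁ * c) * (x₁ * x₂), ?_, ?_⟩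
    · exact W.add_mem (W.add_mem hx₁ (W.mul_mem (hAW c) hx₂))
        (W.mul_mem (hAW _) (W.mul_mem hx₁ hx₂))
    · simp only [map_mul]; ring
  · refine ⟨π₂, hπ₂, algebraMap A F c * x₁ + x₂ + algebraMap A F (π₂ * c) * (x₁ * x₂), ?_, ?_⟩
    · exact W.add_mem (W.add_mem (W.mul_mem (hAW c) hx₁) hx₂)
        (W.mul_mem (hAW _) (W.mul_mem hx₁ hx₂))
    · simp only [map_mul]; ring

theorem h86t_U1_ne_zero (hWnt : ∀ m ∈ maximalIdeal A, ∀ x ∈ W, algebraMap A F m * x ≠ 1)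
    {z : F} (hz : z ∈ h86t_U1 A W) : z ≠ 0 := by
  obtain ⟨π, hπ, x, hx, rfl⟩ := hz
  intro h
  apply hWnt π hπ (-x) (W.neg_mem hx)
  linear_combination -h

theorem h86t_U1_inv (hWu : ∀ m ∈ maximalIdeal A, ∀ x ∈ W, (1 + algebraMap A F m * x)⁻¹ ∈ W)
    (hWnt : ∀ m ∈ maximalIdeal A, ∀ x ∈ W, algebraMap A F m * x ≠ 1)
    {z : F} (hz : z ∈ h86t_U1 A W) : z⁻¹ ∈ h86t_U1 A W := by
  have hz0 := h86t_U1_ne_zero hWnt hz
  obtain ⟨π, hπ, x, hx, rfl⟩ := hz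
  refine ⟨π, hπ, -(x * (1 + algebraMap A F π * x)⁻¹), W.neg_mem (W.mul_mem hx (hWu π hπ x hx)), ?_⟩
  field_simp
  ring

theorem h86t_U1_inv_mem (hAW : ∀ a : A, algebraMap A F a ∈ W)
    (hWu : ∀ m ∈ maximalIdeal A, ∀ x ∈ W, (1 + algebraMap A F m * x)⁻¹ ∈ W)
    (hWnt : ∀ m ∈ maximalIdeal A, ∀ x ∈ W, algebraMap A F m * x ≠ 1)
    {z : F} (hz : z ∈ h86t_U1 A W) : z⁻¹ ∈ W :=
  h86t_U1_mem hAW (h86t_U1_inv hWu hWnt hz)

theorem h86t_U1_div (hAW : ∀ a : A, algebraMap A F a ∈ W)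
    (hWu : ∀ m ∈ maximalIdeal A, ∀ x ∈ W, (1 + algebraMap A F m * x)⁻¹ ∈ W)
    (hWnt : ∀ m ∈ maximalIdeal A, ∀ x ∈ W, algebraMap A F m * x ≠ 1)
    {z₁ z₂ : F} (h₁ : z₁ ∈ h86t_U1 A W) (h₂ : z₂ ∈ h86t_U1 A W) :
    z₁ * z₂⁻¹ ∈ h86t_U1 A W :=
  h86t_U1_mul hAW h₁ (h86t_U1_inv hWu hWnt h₂)

theorem h86t_U1_pow (hAW : ∀ a : A, algebraMap A F a ∈ W) {z : F} (hz : z ∈ h86t_U1 A W)
    (n : ℕ) : z ^ n ∈ h86t_U1 A W := by
  induction n with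
  | zero => rw [pow_zero]; exact h86t_U1_one
  | succ n ih => rw [pow_succ]; exact h86t_U1_mul hAW ih hz

theorem h86t_U1_zpow (hAW : ∀ a : A, algebraMap A F a ∈ W)
    (hWu : ∀ m ∈ maximalIdeal A, ∀ x ∈ W, (1 + algebraMap A F m * x)⁻¹ ∈ W)
    (hWnt : ∀ m ∈ maximalIdeal A, ∀ x ∈ W, algebraMap A F m * x ≠ 1)
    {z : F} (hz : z ∈ h86t_U1 A W) (n : ℤ) : z ^ n ∈ h86t_U1 A W := by
  obtain ⟨k, rfl | rfl⟩ := n.eq_nat_or_neg
  · rw [zpow_natCast]; exact h86t_U1_pow hAW hz k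
  · rw [zpow_neg, zpow_natCast]
    exact h86t_U1_inv hWu hWnt (h86t_U1_pow hAW hz k)

theorem h86t_U1_prod (hAW : ∀ a : A, algebraMap A F a ∈ W) {α : Type*} (T : Finset α)
    (f : α → F) (hf : ∀ i ∈ T, f i ∈ h86t_U1 A W) : ∏ i ∈ T, f i ∈ h86t_U1 A W := by
  classical
  induction T using Finset.induction_on with
  | empty => rw [Finset.prod_empty]; exact h86t_U1_one
  | insert a T ha ih =>
    rw [Finset.prod_insert ha]
    exact h86t_U1_mul hAW (hf a (Finset.mem_insert_self a T))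
      (ih fun i hi => hf i (Finset.mem_insert_of_mem hi))

/-- a unit of `A` which is `≡ 1` modulo `𝔪_A` lies in `1 + 𝔪_A W`. -/
theorem h86t_U1_of_const (m : A) (hm : m ∈ maximalIdeal A) :
    (1 + algebraMap A F m : F) ∈ h86t_U1 A W :=
  ⟨m, hm, 1, W.one_mem, by rw [mul_one]⟩

/-- `(1 + 𝔪_A W₁) ∩ (1 + 𝔪_A W₂) ⊆ 1 + π V` for some nonzero `π ∈ 𝔪_A`, if `W₁ ∩ W₂ ⊆ V`. -/
theorem h86t_U1_inter (hAF : Function.Injective (algebraMap A F))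
    {W₁ W₂ V : Subring F} (hAW₁ : ∀ a : A, algebraMap A F a ∈ W₁)
    (hAW₂ : ∀ a : A, algebraMap A F a ∈ W₂)
    (hV : ∀ x : F, x ∈ W₁ → x ∈ W₂ → x ∈ V)
    (π₁ : A) (hπ₁ : π₁ ∈ maximalIdeal A) (hπ₁0 : π₁ ≠ 0)
    {z : F} (h₁ : z ∈ h86t_U1 A W₁) (h₂ : z ∈ h86t_U1 A W₂) :
    ∃ π ∈ maximalIdeal A, π ≠ 0 ∧ z ∈ h26U π V := by
  obtain ⟨p₁, hp₁, x₁, hx₁, rfl⟩ := h₁
  obtain ⟨p₂, hp₂, x₂, hx₂, h⟩ := h₂
  have hV0 : (0 : F) ∈ V := V.zero_mem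
  by_cases h10 : p₁ = 0
  · refine ⟨π₁, hπ₁, hπ₁0, 0, hV0, ?_⟩
    rw [h10]; simp
  by_cases h20 : p₂ = 0
  · refine ⟨π₁, hπ₁, hπ₁0, 0, hV0, ?_⟩
    rw [h, h20]; simp
  have hp₁F : algebraMap A F p₁ ≠ 0 := fun h0 => h10 (hAF (by rw [h0, map_zero]))
  have hp₂F : algebraMap A F p₂ ≠ 0 := fun h0 => h20 (hAF (by rw [h0, map_zero]))
  have heq : algebraMap A F p₁ * x₁ = algebraMap A F p₂ * x₂ := by
    linear_combination h
  rcases ValuationRing.dvd_total p₁ p₂ with ⟨c, hc⟩ | ⟨c, hc⟩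
  · -- `x₁ = c x₂`
    have hx : x₁ = algebraMap A F c * x₂ := by
      rw [hc, map_mul, mul_assoc] at heq
      exact mul_left_cancel₀ hp₁F heq
    refine ⟨p₁, hp₁, h10, x₁, hV x₁ hx₁ ?_, rfl⟩
    rw [hx]
    exact W₂.mul_mem (hAW₂ c) hx₂
  · have hx : x₂ = algebraMap A F c * x₁ := by
      rw [hc, map_mul, mul_assoc] at heq
      exact (mul_left_cancel₀ hp₂F heq).symm
    refine ⟨p₂, hp₂, h20, x₂, hV x₂ ?_ hx₂, h⟩
    rw [hx]
    exact W₁.mul_mem (hAW₁ c) hx₁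

end U1

section Other

variable {A : Type*} [CommRing A] [IsDomain A] [ValuationRing A]
  {F : Type*} [Field F] [Algebra A F]
  {B : Subalgebra A F} {V : Subring F} {ι : Type*} {v : ι → Valuation F ℤᵐ⁰}

/-- **Unit on the other branch.**  `𝔫` a closed point lying on the components of `W` and `W'`
(`hcen`, `hcen'`).  A function `f` which is `≡ 1` on the component of `W`, integral on the
component of `W'` and without poles centered at `𝔫` is a unit of `W'`. -/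
theorem h86t_unit_other (hC : H26Chart B V v) (𝔫 : Ideal B) [h𝔫 : 𝔫.IsPrime]
    (W W' : Subring F) (hBW : ∀ b ∈ B, b ∈ W) (hBW' : ∀ b ∈ B, b ∈ W')
    (hV : ∀ x : F, x ∈ W → x ∈ W' → x ∈ V)
    (hWnt : ∀ m ∈ maximalIdeal A, ∀ x ∈ W, algebraMap A F m * x ≠ 1)
    (hcen : ∀ b : B, (b : F)⁻¹ ∉ W → b ∈ 𝔫) (hcen' : ∀ b : B, (b : F)⁻¹ ∉ W' → b ∈ 𝔫)
    (f : F) (hfW : f ∈ h86t_U1 A W) (hfW' : f ∈ W')
    (hf1 : ∀ k, h26Centered B v 𝔫 k → v k f ≤ 1) : f⁻¹ ∈ W' := by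
  have hAW : ∀ a : A, algebraMap A F a ∈ W := fun a => hBW _ (B.algebraMap_mem a)
  have hfWm : f ∈ W := h86t_U1_mem hAW hfW
  have hfV : f ∈ V := hV f hfWm hfW'
  have hf0 : f ≠ 0 := h86t_U1_ne_zero hWnt hfW
  obtain ⟨a, ha, s, hs, h1⟩ := h26_stepC hC.hfin hC.hint hC.hB 𝔫 f hf1
  have hsfB : (s : F) * f ∈ B := hC.hQEP a ha _ (V.mul_mem (hC.hBV _ s.2) hfV) h1
  set b : B := ⟨(s : F) * f, hsfB⟩ with hb
  obtain ⟨π, hπ, x, hx, hfx⟩ := hfW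
  have hbs : ((b - s : B) : F) = algebraMap A F π * ((s : F) * x) := by
    push_cast
    rw [hb]
    simp only
    rw [hfx]; ring
  have hbs𝔫 : b - s ∈ 𝔫 := by
    by_cases h0 : b - s = 0
    · rw [h0]; exact 𝔫.zero_mem
    apply hcen
    intro hinv
    have h0F : ((b - s : B) : F) ≠ 0 := fun h => h0 (Subtype.ext h)
    apply hWnt π hπ ((s : F) * x * ((b - s : B) : F)⁻¹)
      (W.mul_mem (W.mul_mem (hBW _ s.2) hx) hinv)
    have e : algebraMap A F π * ((s : F) * x * ((b - s : B) : F)⁻¹) =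
        ((b - s : B) : F) * ((b - s : B) : F)⁻¹ := by
      rw [hbs]; ring
    rw [e]
    exact mul_inv_cancel₀ h0F
  have hb𝔫 : b ∉ 𝔫 := by
    intro hmem
    apply hs
    have : s = b - (b - s) := by ring
    rw [this]
    exact 𝔫.sub_mem hmem hbs𝔫
  have hbinv : ((b : B) : F)⁻¹ ∈ W' := by
    by_contra hcon
    exact hb𝔫 (hcen' b hcon)
  have hs0 : (s : F) ≠ 0 := by
    intro h
    apply hs
    have : s = 0 := Subtype.ext h
    rw [this]; exact 𝔫.zero_mem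
  have : f⁻¹ = (s : F) * ((b : B) : F)⁻¹ := by
    rw [hb]
    simp only
    field_simp
  rw [this]
  exact W'.mul_mem (hBW' _ s.2) hbinv

end Other

end Fermat.Agent.S35
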