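import Fermat.Agent.S35.H59Approx
import Fermat.Agent.S35.H86TorIface2
import Fermat.Agent.S35.GeomSkeleton
import Fermat.Agent.LGC.Res44
import Fermat.Agent.Red.GateGoodOf
import Fermat.Agent.S37.Inertia

/-!
# S35, block TOR (helper59): `TorGate` from `IfaceTor` (the glue APPROX)

`h59a_ifaceTorApprox : IfaceTorApprox`, `h59a_torFinal : TorFinalStatement` (the frozen Props
of `H86TorIface2.lean`), hence `h59a_torGate_of : IfaceTor → TorGate` (exponent `t = 1`).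

A function `z` in the toric part (`TorFun`: `c₁ z / h₁ ^ m ≡ 1` on the component `Z_∞` and
`c₂ w(z) / h₂ ^ m ≡ 1` on `Z_∞`, i.e. `c₂ z / w(h₂) ^ m ≡ 1` on `Z_0`) is of the form
`z = c H ^ m w₀` with `w₀ ≡ 1` modulo `π · ssV` (weak approximation for the two Gauss
valuations, with helper44's separating element `h44r_e`); `IfaceTor` applies to `w₀`, and
`σ²(x) / x ^ (q²)` is multiplicative in `x`.

* `h59a_gauss_soft` : the soft Gauss ring `softV A N` is a Gauss ring (`H59Gauss`).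
* `H59Gauss.comap` : transport of a Gauss ring along an automorphism fixing the constants.
-/

set_option autoImplicit false
set_option linter.unusedSectionVars false
set_option linter.unusedVariables false

open AlgebraicCurve ModularCurve IsLocalRing

noncomputable section

namespace Fermat.Agent.S35

open Fermat.Agent.S37 Fermat.Agent.Red Fermat.Agent.Red.GG Fermat.Agent.Red.GV
  Fermat.Agent.Red.GV.Soft Fermat.Agent.Red.Kron Fermat.Agent.LGC

section Comap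

variable {A : Type*} [CommRing A] [IsDomain A] [ValuationRing A]
  {F : Type*} [Field F] [Algebra A F] {W : Subring F}

/-- transport of a Gauss ring along an automorphism fixing the constants. -/
theorem H59Gauss.comap (hG : H59Gauss A W) (θ : F ≃+* F)
    (hθ : ∀ a : A, θ (algebraMap A F a) = algebraMap A F a) :
    H59Gauss A (W.comap (θ : F →+* F)) where
  hA := fun a => by
    show θ (algebraMap A F a) ∈ W
    rw [hθ]; exact hG.hA a
  hnt := fun m hm x hx h => by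
    have hx' : θ x ∈ W := hx
    refine hG.hnt m hm (θ x) hx' ?_
    have := congrArg θ h
    rwa [map_mul, hθ, map_one] at this
  hscale := fun f hf => by
    have hθf : θ f ≠ 0 := (map_ne_zero_iff _ θ.injective).mpr hf
    obtain ⟨a, b, ha, hb, u, hu, hu', e⟩ := hG.hscale (θ f) hθf
    refine ⟨a, b, ha, hb, θ.symm u, ?_, ?_, ?_⟩
    · show θ (θ.symm u) ∈ W
      rw [θ.apply_symm_apply]; exact hu
    · show θ (θ.symm u)⁻¹ ∈ W
      rw [map_inv₀, θ.apply_symm_apply]; exact hu'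
    · apply θ.injective
      rw [map_mul, map_mul, hθ, hθ, θ.apply_symm_apply, e]

theorem h59tM_comap_iff (θ : F ≃+* F)
    (hθ : ∀ a : A, θ (algebraMap A F a) = algebraMap A F a) (x : F) :
    x ∈ h59tM A (W.comap (θ : F →+* F)) ↔ θ x ∈ h59tM A W := by
  constructor
  · rintro ⟨d, hd, z, hz, rfl⟩
    exact ⟨d, hd, θ z, hz, by rw [map_mul, hθ]⟩
  · rintro ⟨d, hd, z, hz, e⟩
    refine ⟨d, hd, θ.symm z, ?_, ?_⟩
    · show θ (θ.symm z) ∈ W
      rw [θ.apply_symm_apply]; exact hz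
    · apply θ.injective
      rw [e, map_mul, hθ, θ.apply_symm_apply]

theorem h59tU1_comap_iff (θ : F ≃+* F)
    (hθ : ∀ a : A, θ (algebraMap A F a) = algebraMap A F a) (x : F) :
    x ∈ h59tU1 A (W.comap (θ : F →+* F)) ↔ θ x ∈ h59tU1 A W := by
  show x - 1 ∈ h59tM A (W.comap (θ : F →+* F)) ↔ θ x - 1 ∈ h59tM A W
  rw [h59tM_comap_iff θ hθ, map_sub, map_one]

end Comap

section Soft

variable (A : ValuationSubring Kbar) (N : ℕ) [NeZero N] {ℓ : ℕ}

/-- **the soft Gauss ring is a Gauss ring.** -/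
theorem h59a_gauss_soft (hℓ : ℓ.Prime) (hA : A.LiesOverPrime ℓ) :
    H59Gauss A (softV A N) where
  hA := fun a => (cst_mem_softV_iff A N (a : Kbar)).mpr a.2
  hnt := fun m hm x hx h => by
    have hmK : (m : Kbar) ∈ A.nonunits :=
      (ValuationSubring.coe_mem_nonunits_iff).mpr hm
    have hc : cst N (m : Kbar) ∈ softV A N := (cst_mem_softV_iff A N (m : Kbar)).mpr m.2
    have h0 := softR_cst_of_nonunit A N (m : Kbar) hmK hc
    have h1 : (⟨cst N (m : Kbar), hc⟩ : softV A N) * ⟨x, hx⟩ = 1 := Subtype.ext h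
    have h2 := congrArg (softR A N) h1
    rw [map_mul, h0, zero_mul, map_one] at h2
    exact zero_ne_one h2
  hscale := fun f hf => by
    obtain ⟨c, hc0, hu, hu'⟩ := exists_cst_mul_unit_soft A N hℓ hA f hf
    rcases A.mem_or_inv_mem c with hcA | hcA
    · refine ⟨⟨c, hcA⟩, 1, ?_, one_ne_zero, cst N c * f, hu, hu', ?_⟩
      · intro h0
        exact hc0 (congrArg Subtype.val h0)
      · rw [map_one, one_mul]
        rfl
    · refine ⟨1, ⟨c⁻¹, hcA⟩, one_ne_zero, ?_, cst N c * f, hu, hu', ?_⟩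
      · intro h0
        exact inv_ne_zero hc0 (congrArg Subtype.val h0)
      · rw [map_one, one_mul]
        show f = cst N c⁻¹ * (cst N c * f)
        rw [← mul_assoc, ← map_mul, inv_mul_cancel₀ hc0, map_one, one_mul]

/-- `softR x = 1` means `x ≡ 1` modulo `𝔪_A · softV`. -/
theorem h59a_U1_of_softR (hℓ : ℓ.Prime) (hA : A.LiesOverPrime ℓ) (x : FF N)
    (hx : x ∈ softV A N) (h1 : softR A N ⟨x, hx⟩ = 1) : x ∈ h59tU1 A (softV A N) := by
  show x - 1 ∈ h59tM A (softV A N)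
  have hx1 : x - 1 ∈ softV A N := sub_mem hx (softV A N).one_mem
  have h2 : softR A N ⟨x - 1, hx1⟩ = 0 := by
    have e : (⟨x - 1, hx1⟩ : softV A N) = ⟨x, hx⟩ - 1 := rfl
    rw [e, map_sub, map_one, h1, sub_self]
  rcases (softR_eq_zero_iff A N ⟨x - 1, hx1⟩).mp h2 with h3 | h3
  · have h4 : x - 1 = 0 := h3
    rw [h4]
    exact h59tM_zero
  · exact h59tM_of_nonunit (algebraMap_injective_FF N A) (h59a_gauss_soft A N hℓ hA) h3

/-- `softR x = 0` means `x ∈ 𝔪_A · softV`. -/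
theorem h59a_M_of_softR (hℓ : ℓ.Prime) (hA : A.LiesOverPrime ℓ) (x : FF N)
    (hx : x ∈ softV A N) (h0 : softR A N ⟨x, hx⟩ = 0) : x ∈ h59tM A (softV A N) := by
  rcases (softR_eq_zero_iff A N ⟨x, hx⟩).mp h0 with h3 | h3
  · have h4 : x = 0 := h3
    rw [h4]
    exact h59tM_zero
  · exact h59tM_of_nonunit (algebraMap_injective_FF N A) (h59a_gauss_soft A N hℓ hA) h3

theorem h59a_U1_of_congOne (hℓ : ℓ.Prime) (hA : A.LiesOverPrime ℓ) (x : FF N)
    (h : CongOne A x) : x ∈ h59tU1 A (softV A N) := by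
  obtain ⟨hx, h1⟩ := (congOne_iff_softR A N x).mp h
  exact h59a_U1_of_softR A N hℓ hA x hx h1

end Soft

section Gate

/-- the quotient `σ²(x) / x ^ (q²)` is multiplicative. -/
theorem h59a_theta_mul (N q : ℕ) (σ : GQ) (x y : FF N) :
    (gal N σ • gal N σ • (x * y)) / (x * y) ^ (q ^ 2) =
      ((gal N σ • gal N σ • x) / x ^ (q ^ 2)) * ((gal N σ • gal N σ • y) / y ^ (q ^ 2)) := by
  simp only [SemilinearAut.smul_def, map_mul, mul_pow]
  rw [div_mul_div_comm]

theorem h59a_theta_inv (N q : ℕ) (σ : GQ) (x : FF N) :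
    (gal N σ • gal N σ • x⁻¹) / (x⁻¹) ^ (q ^ 2) =
      ((gal N σ • gal N σ • x) / x ^ (q ^ 2))⁻¹ := by
  simp only [SemilinearAut.smul_def, map_inv₀, inv_pow]
  rw [inv_div_inv, inv_div]

theorem h59a_theta_pow (N q : ℕ) (σ : GQ) (x : FF N) (m : ℕ) :
    (gal N σ • gal N σ • (x ^ m)) / (x ^ m) ^ (q ^ 2) =
      ((gal N σ • gal N σ • x) / x ^ (q ^ 2)) ^ m := by
  simp only [SemilinearAut.smul_def, map_pow]
  rw [div_pow, ← pow_mul, ← pow_mul, mul_comm m]

theorem h59a_theta_cst (N q : ℕ) (σ : GQ) (c : Kbar) :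
    (gal N σ • gal N σ • (cst N c)) / (cst N c) ^ (q ^ 2) = cst N (σ (σ c) / c ^ (q ^ 2)) := by
  rw [GalI.gal_smul_cst, GalI.gal_smul_cst]
  simp only [cst, map_div₀, map_pow]

/-- **TOR-APPROX** (frozen Prop of `H86TorIface2.lean`): a function in the toric part is a
constant times an `m`-th power times a function `≡ 1` modulo `π · ssV`. -/
theorem h59a_ifaceTorApprox : IfaceTorApprox := by
  intro q hq M _ hqM haux
  haveI : NeZero q := ⟨hq.ne_zero⟩
  intro A hA m hmpos z hz0 hTF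
  obtain ⟨⟨c₁, h₁, hc₁, hh₁, hcong₁⟩, ⟨c₂, h₂, hc₂, hh₂, hcong₂⟩⟩ := hTF
  have hm0 : m ≠ 0 := hmpos.ne'
  -- the two Gauss rings
  set w : FF (M * q) ≃+* FF (M * q) := (kFricke M q hq hqM).toRingEquiv with hw
  have hwA : ∀ a : A, w (algebraMap A (FF (M * q)) a) = algebraMap A (FF (M * q)) a :=
    fun a => (kFricke M q hq hqM).commutes (a : Kbar)
  have hww : ∀ x, w (w x) = x := fun x => kFricke_kFricke M q hq hqM x
  set W₁ : Subring (FF (M * q)) := softV A (M * q) with hW₁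
  set W₂ : Subring (FF (M * q)) := (softV A (M * q)).comap (w : FF (M * q) →+* FF (M * q))
    with hW₂
  have hAF := algebraMap_injective_FF (M * q) A
  have harch := harch_of_liesOver A hq hA
  have hG₁ : H59Gauss A W₁ := h59a_gauss_soft A (M * q) hq hA
  have hG₂ : H59Gauss A W₂ := hG₁.comap w hwA
  have hV : ∀ x : FF (M * q), x ∈ ssV A M q ↔ x ∈ W₁ ∧ x ∈ W₂ :=
    fun x => h44r_mem_ssV_iff A M q hq hqM hA x
  -- the separating element
  obtain ⟨he, hwe, hre, hrwe⟩ := h44r_sep A M q hq hqM hA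
  have he₁ : h44r_e M q ∈ h59tU1 A W₁ := h59a_U1_of_softR A (M * q) hq hA _ he hre
  have he₂ : h44r_e M q ∈ h59tM A W₂ :=
    (h59tM_comap_iff w hwA _).mpr (h59a_M_of_softR A (M * q) hq hA _ hwe hrwe)
  -- the two congruences
  have hz₁ : cst (M * q) c₁ * z * (h₁ ^ m)⁻¹ ∈ h59tU1 A W₁ :=
    h59a_U1_of_congOne A (M * q) hq hA _ hcong₁
  have hz₂ : cst (M * q) c₂ * z * ((w h₂) ^ m)⁻¹ ∈ h59tU1 A W₂ := by
    rw [h59tU1_comap_iff w hwA]
    have e : w (cst (M * q) c₂ * z * ((w h₂) ^ m)⁻¹) =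
        cst (M * q) c₂ * kFricke M q hq hqM z * (h₂ ^ m)⁻¹ := by
      rw [map_mul, map_mul, map_inv₀, map_pow, hww]
      congr 2
      exact (kFricke M q hq hqM).commutes c₂
    rw [e]
    exact h59a_U1_of_congOne A (M * q) hq hA _ hcong₂
  -- the constant `κ`
  obtain ⟨κ, hκ⟩ := IsAlgClosed.exists_pow_nat_eq (c₂ / c₁) (Nat.pos_of_ne_zero hm0)
  have hκ0 : κ ≠ 0 := by
    rintro rfl
    rw [zero_pow hm0] at hκ
    exact div_ne_zero hc₂ hc₁ hκ.symm
  have hcst : ∀ c : Kbar, c ≠ 0 → cst (M * q) c ≠ 0 := fun c hc => by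
    rw [Ne, map_eq_zero_iff _ (algebraMap Kbar (FF (M * q))).injective]
    exact hc
  have hc : cst (M * q) c₂ = cst (M * q) c₁ * cst (M * q) κ ^ m := by
    have h4 : cst (M * q) c₁ * cst (M * q) κ ^ m = cst (M * q) (c₁ * κ ^ m) := by
      simp only [cst, map_mul, map_pow]
    rw [h4, hκ, mul_div_cancel₀ _ hc₁]
  have hwh₂ : w h₂ ≠ 0 := (map_ne_zero_iff _ w.injective).mpr hh₂
  obtain ⟨H, hH0, hH₁, hH₂⟩ := h59a_glue hAF harch hG₁ hG₂ (h44r_e M q) he₁ he₂ m z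
    (cst (M * q) c₁) (cst (M * q) c₂) (cst (M * q) κ) h₁ (w h₂) (hcst c₁ hc₁) (hcst κ hκ0) hc
    hh₁ hwh₂ hz₁ hz₂
  -- `w₀ ≡ 1` modulo `π · ssV`
  have hqA : ((q : ℕ) : A) ∈ maximalIdeal A := by
    rw [mem_maximalIdeal_iff]
    exact hA
  have hqA0 : ((q : ℕ) : A) ≠ 0 := by
    intro h0
    have h1 := congrArg (Subtype.val : A → Kbar) h0
    push_cast at h1
    exact hq.ne_zero (by exact_mod_cast h1)
  obtain ⟨π, hπ, hπ0, -, hw₀U⟩ :=
    h59tU1_inter hAF hG₁ hG₂ hV ((q : ℕ) : A) hqA hqA0 hH₁ hH₂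
  refine ⟨c₁⁻¹, H, cst (M * q) c₁ * z * (H ^ m)⁻¹, inv_ne_zero hc₁, hH0, ?_, π, hπ, hπ0, hw₀U⟩
  have h3 : cst (M * q) c₁⁻¹ = (cst (M * q) c₁)⁻¹ := map_inv₀ (algebraMap Kbar (FF (M * q))) c₁
  rw [h3]
  have h1 := hcst c₁ hc₁
  have h2 := pow_ne_zero m hH0
  field_simp

/-- **TOR-FINAL** (frozen Prop of `H86TorIface2.lean`). -/
theorem h59a_torFinal : TorFinalStatement := by
  intro hT hApp q hq M _ hqM haux
  haveI : NeZero q := ⟨hq.ne_zero⟩
  intro A hA σ hσ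
  refine ⟨1, one_pos, ?_⟩
  intro m hm z hz0 hord hTF
  have hm0 : m ≠ 0 := by
    rintro rfl
    exact hm (dvd_zero q)
  obtain ⟨c, H, w₀, hc0, hH0, hz, π, hπ, hπ0, hw₀U⟩ :=
    hApp q hq M hqM haux A hA m (Nat.pos_of_ne_zero hm0) z hz0 hTF
  have hcst0 : cst (M * q) c ≠ 0 := by
    rw [Ne, map_eq_zero_iff _ (algebraMap Kbar (FF (M * q))).injective]
    exact hc0
  have hw₀0 : w₀ ≠ 0 := by
    rintro rfl
    rw [mul_zero] at hz
    exact hz0 hz
  -- the orders of `w₀`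
  have hordw₀ : ∀ v : Place Kbar (FF (M * q)), (m : ℤ) ∣ v.ord w₀ := by
    intro v
    have h1 := hord v
    rw [hz, v.ord_mul (mul_ne_zero hcst0 (pow_ne_zero m hH0)) hw₀0,
      v.ord_mul hcst0 (pow_ne_zero m hH0), Fermat.Agent.S24.DiffPlace.ord_algebraMap, zero_add,
      ← zpow_natCast, v.ord_zpow] at h1
    exact (dvd_add_right (dvd_mul_right _ _)).mp h1
  obtain ⟨f, hf⟩ := hT q hq M hqM haux A hA σ hσ m hm w₀ hordw₀ ⟨π, hπ, hπ0, hw₀U⟩
  -- the constant `Θ(c)` is an `m`-th power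
  obtain ⟨d, hd⟩ := IsAlgClosed.exists_pow_nat_eq (σ (σ c) / c ^ (q ^ 2))
    (Nat.pos_of_ne_zero hm0)
  refine ⟨cst (M * q) d * ((gal (M * q) σ • gal (M * q) σ • H) / H ^ (q ^ 2)) * f, ?_⟩
  have h3 : cst (M * q) (d ^ m) = cst (M * q) d ^ m := map_pow (algebraMap Kbar (FF (M * q))) d m
  rw [pow_one, hz, h59a_theta_mul, h59a_theta_mul, h59a_theta_pow, h59a_theta_cst, ← hf, ← hd,
    h3, mul_pow, mul_pow]

/-- **`TorGate` from `IfaceTor`** (exponent `t = 1`). -/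
theorem h59a_torGate_of (hT : IfaceTor) : TorGate :=
  h59a_torFinal hT h59a_ifaceTorApprox

end Gate

end Fermat.Agent.S35
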