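import Fermat.Agent.S35.Top3
import Fermat.Agent.S35.H86TorAsm
import Fermat.Agent.S35.H59ApproxGate
import Fermat.Agent.S35.H62TorLocal
import Fermat.Agent.S35.H21TorCusp
import Fermat.Agent.S35.H63TorPerm

/-!
# S35: the closed toric gate and the closed theorem (helper37)

`h37t_torGate : TorGate` wires the landed TOR leaves (LOCAL helper62, CUSP helper21, PERM helper63,
ASM helper86, APPROX/FINAL helper59); `h37t_s35` is the frozen statement of S35 with no hypothesis
left.
-/

set_option autoImplicit false

namespace Fermat.Agent.S35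

/-- The three modular pieces of the toric gate. -/
theorem h37t_ifaceTorPieces : IfaceTorPieces := by
  intro ℓ hℓ M _ hM haux
  haveI : NeZero ℓ := ⟨hℓ.ne_zero⟩
  intro A hA
  exact ⟨h62x_ifaceTorLocal A M hℓ hM haux hA, h21u_ifaceTorCusp A M ℓ hℓ hM haux hA,
    h63f_ifaceTorPerm A M ℓ hℓ hM haux hA⟩

/-- **G-TOR**, closed. -/
theorem h37t_torGate : TorGate :=
  h59a_torGate_of (h86t_ifaceTor_of h37t_ifaceTorPieces)

end Fermat.Agent.S35
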