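import Fermat.Agent.S35.GeomSkeleton

/-!
# S35, block GEOM: the assembly `G-ASM`

* `h37g_frobGateAssembly : FrobGateAssembly` (`NewGate → TorGate → FrobGate`,
  with `z = σ² u / u`);
* `h37g_frobNewTorsion_of` : `FrobNewTorsion` at all levels from the four open GEOM inputs.

Author: helper37.
-/

set_option autoImplicit false

open AlgebraicCurve ModularCurve

noncomputable section

namespace Fermat.Agent.S35

open Fermat.Agent.S37 (Kbar GQ FF cst gal CongOne auxLevel)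
open Fermat.Agent.Red.KR (normAlong)
open Fermat.Agent.Red.Kron (kFricke)

/-- divisibility of the orders is stable under the Galois action. -/
theorem h37g_dvd_ord_gal (N : ℕ) (σ : GQ) (m : ℕ) (u : FF N)
    (hu : ∀ v : Place Kbar (FF N), (m : ℤ) ∣ v.ord u) (v : Place Kbar (FF N)) :
    (m : ℤ) ∣ v.ord (gal N σ • u) := by
  have h := SemilinearAut.ord_smul (gal N σ) ((gal N σ)⁻¹ • v) u
  rw [smul_inv_smul] at h
  rw [h]
  exact hu _

theorem h37g_gal_ne_zero (N : ℕ) (σ : GQ) {u : FF N} (hu : u ≠ 0) : gal N σ • u ≠ 0 := by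
  rw [SemilinearAut.smul_def]
  exact (map_ne_zero_iff _ (SemilinearAut.toRingAut (gal N σ)).injective).mpr hu

theorem h37g_gal_div (N : ℕ) (σ : GQ) (a b : FF N) :
    gal N σ • (a / b) = (gal N σ • a) / (gal N σ • b) := by
  rw [SemilinearAut.smul_def, SemilinearAut.smul_def, SemilinearAut.smul_def]
  exact map_div₀ (SemilinearAut.toRingAut (gal N σ)) a b

theorem h37g_field_aux {F : Type*} [Field F] (a b u : F) (n : ℕ) (hb : b ≠ 0) (hu : u ≠ 0) :
    (a / b) / (b / u) ^ n = a * u ^ n / b ^ (n + 1) := by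
  have h3 : b ^ n ≠ 0 := pow_ne_zero _ hb
  have h4 : u ^ n ≠ 0 := pow_ne_zero _ hu
  rw [div_pow, pow_succ]
  field_simp

/-- the quartic of `u` is the `σ² - q²`-difference of `z = σ² u / u`. -/
theorem h37g_fq_eq (N q : ℕ) (σ : GQ) {u : FF N} (hu : u ≠ 0) :
    (gal N σ • gal N σ • ((gal N σ • gal N σ • u) / u)) /
        ((gal N σ • gal N σ • u) / u) ^ (q ^ 2) = fq N q σ u := by
  have h2 : gal N σ • gal N σ • u ≠ 0 := h37g_gal_ne_zero N σ (h37g_gal_ne_zero N σ hu)
  unfold fq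
  rw [h37g_gal_div, h37g_gal_div]
  exact h37g_field_aux _ _ _ _ h2 hu

/-- **G-ASM**: the Frobenius gate at the good levels from `NewGate` and `TorGate`. -/
theorem h37g_frobGateAssembly : FrobGateAssembly := by
  intro hN hT q hq M _ hqM haux
  haveI : NeZero q := ⟨hq.ne_zero⟩
  intro A hA σ hσ
  obtain ⟨t, ht, hTor⟩ := hT q hq M hqM haux A hA σ hσ
  refine ⟨t, ht, fun m hm u hu hdiv hα hβ => ?_⟩
  have h2 : gal (M * q) σ • gal (M * q) σ • u ≠ 0 :=
    h37g_gal_ne_zero _ σ (h37g_gal_ne_zero _ σ hu)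
  have hz0 : (gal (M * q) σ • gal (M * q) σ • u) / u ≠ 0 := div_ne_zero h2 hu
  have hzdiv : ∀ v : Place Kbar (FF (M * q)),
      (m : ℤ) ∣ v.ord ((gal (M * q) σ • gal (M * q) σ • u) / u) := by
    intro v
    rw [div_eq_mul_inv, v.ord_mul h2 (inv_ne_zero hu), v.ord_inv]
    exact dvd_add (h37g_dvd_ord_gal _ σ m _ (h37g_dvd_ord_gal _ σ m u hdiv) v)
      (Dvd.dvd.neg_right (hdiv v))
  obtain ⟨h, hh⟩ := hTor m hm _ hz0 hzdiv (hN q hq M hqM haux A hA σ hσ m hm u hu hdiv hα hβ)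
  exact ⟨h, by rw [hh, h37g_fq_eq _ q σ hu]⟩

/-- `FrobNewTorsion` at all levels from the four open inputs of GEOM. -/
theorem h37g_frobNewTorsion_of (hN : NewGate) (hT : TorGate) (hD : FrobGateDescent)
    (hC : FrobTorsionOfGate) (M q p : ℕ) [NeZero M] [NeZero q] : FrobNewTorsion M q p :=
  hC (hD (h37g_frobGateAssembly hN hT)) M q p

end Fermat.Agent.S35
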