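import Fermat.Agent.LGC.GateSSAbs
import Fermat.Agent.LGC.H31OverlapAbs
import Fermat.Agent.Red.LocalAll

/-!
# S35, block TOR (helper13): abstract half of the assembly TOR-ASM

* `h13x_unique_centre` : a place with a section has at most one centre on the special fibre;
* `h13x_uniform_nodes` : the local data of the gate at the exceptional closed points, given with
  a modulus depending on the point, can be given with a common modulus, if the function is a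
  local unit at all exceptional points off the support of an auxiliary function;
* `h13x_local_all` : the local datum of the gate at all closed points of the special fibre of a
  chart, for all moduli dividing a nonzero `π₀`;
* `h13x_gate_transfer` : overlap transfer of the local datum of the gate.
-/

set_option autoImplicit false
set_option linter.unusedSectionVars false

open WithZero IsLocalRing Polynomial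

namespace Fermat.Agent.S35

open Fermat.Agent.Red Fermat.Agent.LGC

section Chart

variable {A : Type*} [CommRing A] [IsDomain A] [ValuationRing A]
  {F : Type*} [Field F] [Algebra A F]
  {B : Subalgebra A F} {V : Subring F} {ι : Type*} {v : ι → Valuation F ℤᵐ⁰}

/-- a place with a section is centered at one closed point of the special fibre at most. -/
theorem h13x_unique_centre (𝔫 𝔫' : Ideal B) (h𝔫 : 𝔫.IsMaximal) (h𝔫' : 𝔫'.IsMaximal)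
    (i : ι) (φ : B →ₐ[A] A) (hφ : ∀ b : B, φ b = 0 ↔ v i (b : F) < 1)
    (hc : h26Centered B v 𝔫 i) (hc' : h26Centered B v 𝔫' i) : 𝔫 = 𝔫' := by
  have key : ∀ 𝔭 : Ideal B, 𝔭.IsMaximal → h26Centered B v 𝔭 i →
      (maximalIdeal A).comap (φ : B →+* A) = 𝔭 := by
    intro 𝔭 h𝔭 hc𝔭
    have := h𝔭.isPrime
    have hkerle : RingHom.ker (φ : B →+* A) ≤ 𝔭 := fun b hb => hc𝔭 b ((hφ b).mp hb)
    have h1 : 𝔭 ≤ (maximalIdeal A).comap (φ : B →+* A) := fun y hy =>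
      h26_section_local 𝔭 φ hkerle y hy
    have h2 : (maximalIdeal A).comap (φ : B →+* A) ≠ ⊤ := by
      rw [Ne, Ideal.eq_top_iff_one, Ideal.mem_comap, map_one]
      exact fun h => (Ideal.ne_top_iff_one _).mp (IsLocalRing.maximalIdeal.isMaximal A).ne_top h
    exact (h𝔭.eq_of_le h2 h1).symm
  rw [← key 𝔫 h𝔫 hc, ← key 𝔫' h𝔫' hc']

/-- `1 + π V ⊆ 1 + π' V` if `π' ∣ π`. -/
theorem h13x_U_mono (hAV : ∀ a : A, algebraMap A F a ∈ V) {π π' : A} (h : π' ∣ π) {x : F}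
    (hx : x ∈ h26U π V) : x ∈ h26U π' V := by
  obtain ⟨a, rfl⟩ := h
  obtain ⟨y, hy, rfl⟩ := hx
  exact ⟨algebraMap A F a * y, V.mul_mem (hAV a) hy, by rw [map_mul]; ring⟩

/-- **uniform modulus at the exceptional points.** -/
theorem h13x_uniform_nodes (hC : H26Chart B V v)
    (hVnt : ∀ m ∈ maximalIdeal A, ∀ x ∈ V, algebraMap A F m * x ≠ 1)
    (Nd : Set (Ideal B))
    (hsec : ∀ (i : ι) (𝔫 : Ideal B), 𝔫.IsMaximal →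
      (maximalIdeal A).map (algebraMap A B) ≤ 𝔫 → h26Centered B v 𝔫 i →
      ∃ φ : B →ₐ[A] A, (∀ b : B, φ b = 0 ↔ v i (b : F) < 1) ∧
        (RingHom.ker (φ : B →+* A)).FG)
    (w₀ : F) (hw₀ : w₀ ≠ 0) (W : F) (r : ℕ)
    (π₁ : A) (hπ₁ : π₁ ∈ maximalIdeal A) (hπ₁0 : π₁ ≠ 0) (hWU : W ∈ h26U π₁ V)
    (hunit : ∀ 𝔫 : Ideal B, 𝔫.IsMaximal → (maximalIdeal A).map (algebraMap A B) ≤ 𝔫 →
      𝔫 ∈ Nd → (∀ k, h26Centered B v 𝔫 k → v k w₀ = 1) →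
      ∀ k, h26Centered B v 𝔫 k → v k W = 1)
    (hnode : ∀ 𝔫 : Ideal B, 𝔫.IsMaximal → (maximalIdeal A).map (algebraMap A B) ≤ 𝔫 →
      𝔫 ∈ Nd → ∃ π₀ ∈ maximalIdeal A, π₀ ≠ 0 ∧ ∃ g ∈ h26U π₀ V, ∃ s : B, s ∉ 𝔫 ∧
        (s : F) * (W * (g ^ r)⁻¹) ∈ B ∧ (s : F) * (g ^ r * W⁻¹) ∈ B) :
    ∃ π₂ ∈ maximalIdeal A, π₂ ≠ 0 ∧ π₂ ∣ π₁ ∧
      ∀ 𝔫 : Ideal B, 𝔫.IsMaximal → (maximalIdeal A).map (algebraMap A B) ≤ 𝔫 → 𝔫 ∈ Nd →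
        ∃ g ∈ h26U π₂ V, ∃ s : B, s ∉ 𝔫 ∧
          (s : F) * (W * (g ^ r)⁻¹) ∈ B ∧ (s : F) * (g ^ r * W⁻¹) ∈ B := by
  classical
  have hAV : ∀ a : A, algebraMap A F a ∈ V := fun a => hC.hBV _ (B.algebraMap_mem a)
  -- the modulus attached to a place
  have hex : ∀ i : ι, ∃ π₀ ∈ maximalIdeal A, π₀ ≠ 0 ∧ ∀ 𝔫 : Ideal B, 𝔫.IsMaximal →
      (maximalIdeal A).map (algebraMap A B) ≤ 𝔫 → 𝔫 ∈ Nd → h26Centered B v 𝔫 i →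
      ∃ g ∈ h26U π₀ V, ∃ s : B, s ∉ 𝔫 ∧
        (s : F) * (W * (g ^ r)⁻¹) ∈ B ∧ (s : F) * (g ^ r * W⁻¹) ∈ B := by
    intro i
    by_cases h : ∃ 𝔫 : Ideal B, 𝔫.IsMaximal ∧ (maximalIdeal A).map (algebraMap A B) ≤ 𝔫 ∧
        𝔫 ∈ Nd ∧ h26Centered B v 𝔫 i
    · obtain ⟨𝔫', h𝔫', hle', hNd', hc'⟩ := h
      obtain ⟨π₀, hπ₀, hπ₀0, hdat⟩ := hnode 𝔫' h𝔫' hle' hNd'
      refine ⟨π₀, hπ₀, hπ₀0, fun 𝔫 h𝔫 hle hNd hc => ?_⟩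
      obtain ⟨φ, hφ, -⟩ := hsec i 𝔫 h𝔫 hle hc
      have e : 𝔫 = 𝔫' := h13x_unique_centre 𝔫 𝔫' h𝔫 h𝔫' i φ hφ hc hc'
      rw [e]
      exact hdat
    · exact ⟨π₁, hπ₁, hπ₁0, fun 𝔫 h𝔫 hle hNd hc => (h ⟨𝔫, h𝔫, hle, hNd, hc⟩).elim⟩
  choose c hcm hc0 hcd using hex
  set Z : Finset ι := (h26_finite_support hC w₀ hw₀).toFinset with hZ
  obtain ⟨π₂, hπ₂, hπ₂0, hπ₂π₁, hπ₂c⟩ := h26_common_divisor Z c (fun i _ => hcm i) π₁ hπ₁ hπ₁0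
  refine ⟨π₂, hπ₂, hπ₂0, hπ₂π₁, fun 𝔫 h𝔫 hle hNd => ?_⟩
  have := h𝔫.isPrime
  by_cases h : ∃ i ∈ Z, h26Centered B v 𝔫 i
  · obtain ⟨i, hiZ, hic⟩ := h
    obtain ⟨g, hg, s, hs, h1, h2⟩ := hcd i 𝔫 h𝔫 hle hNd hic
    exact ⟨g, h13x_U_mono hAV (hπ₂c i hiZ) hg, s, hs, h1, h2⟩
  · have hw1 : ∀ k, h26Centered B v 𝔫 k → v k w₀ = 1 := by
      intro k hk
      by_contra hne
      apply h
      refine ⟨k, ?_, hk⟩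
      rw [hZ, Set.Finite.mem_toFinset]
      exact hne
    have hW1 := hunit 𝔫 h𝔫 hle hNd hw1
    have hWπ : W ∈ h26U π₂ V := h13x_U_mono hAV hπ₂π₁ hWU
    have hVπ : algebraMap A F π₂ ∈ V := hAV π₂
    have hWV : W ∈ V := h26U_mem_V hVπ hWπ
    have hWV' : W⁻¹ ∈ V := h26U_mem_V hVπ (h26U_inv (hC.hVunit π₂ hπ₂) (hVnt π₂ hπ₂) hWπ)
    obtain ⟨s, hs, h1, h2⟩ := h26_local_unit hC 𝔫 W hWV hWV' hW1
    refine ⟨1, h26U_one, s, hs, ?_, ?_⟩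
    · simpa using h1
    · simpa using h2

/-- **the local datum of the gate at all closed points of the special fibre of a chart**, for
all moduli dividing a nonzero `π₀`: smooth points by `h63_local_all_ss`, exceptional points by
hypothesis (with the modulus `π₁`). -/
theorem h13x_local_all (hC : H26Chart B V v)
    (hAF : Function.Injective (algebraMap A F))
    (harch : ∀ c ∈ maximalIdeal A, c ≠ 0 → ∀ a : A, a ≠ 0 → ∃ k : ℕ, a ∣ c ^ k)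
    (hVnt : ∀ m ∈ maximalIdeal A, ∀ x ∈ V, algebraMap A F m * x ≠ 1)
    (Nd : Set (Ideal B))
    (hSM : ∀ 𝔫 : Ideal B, 𝔫.IsMaximal → (maximalIdeal A).map (algebraMap A B) ≤ 𝔫 → 𝔫 ∉ Nd →
      ∃ t ∈ 𝔫, (t : F) ≠ 0 ∧ (t : F)⁻¹ ∈ V ∧ ∀ y ∈ 𝔫, ∃ s, s ∉ 𝔫 ∧
        s * y ∈ Ideal.span {t} ⊔ (maximalIdeal A).map (algebraMap A B))
    (hsec : ∀ (i : ι) (𝔫 : Ideal B), 𝔫.IsMaximal →
      (maximalIdeal A).map (algebraMap A B) ≤ 𝔫 → h26Centered B v 𝔫 i →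
      ∃ φ : B →ₐ[A] A, (∀ b : B, φ b = 0 ↔ v i (b : F) < 1) ∧
        (RingHom.ker (φ : B →+* A)).FG)
    (hgen : ∀ 𝔫 : Ideal B, 𝔫.IsMaximal → ¬ (maximalIdeal A).map (algebraMap A B) ≤ 𝔫 →
      ∀ i k, h26Centered B v 𝔫 i → h26Centered B v 𝔫 k → i = k)
    (W : F) (hW0 : W ≠ 0) (r : ℕ) (hrW : ∀ i, ∃ n : ℤ, v i W = exp (-((r : ℤ) * n)))
    (π₁ : A) (hπ₁ : π₁ ∈ maximalIdeal A) (hπ₁0 : π₁ ≠ 0) (hWU : W ∈ h26U π₁ V)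
    (hnode : ∀ 𝔫 : Ideal B, 𝔫.IsMaximal → (maximalIdeal A).map (algebraMap A B) ≤ 𝔫 →
      𝔫 ∈ Nd → ∃ g ∈ h26U π₁ V, ∃ s : B, s ∉ 𝔫 ∧
        (s : F) * (W * (g ^ r)⁻¹) ∈ B ∧ (s : F) * (g ^ r * W⁻¹) ∈ B) :
    ∃ π₀ ∈ maximalIdeal A, π₀ ≠ 0 ∧ π₀ ∣ π₁ ∧ ∀ π ∈ maximalIdeal A, π ∣ π₀ →
      ∀ 𝔫 : Ideal B, 𝔫.IsMaximal → (maximalIdeal A).map (algebraMap A B) ≤ 𝔫 →
        ∃ g ∈ h26U π V, ∃ s : B, s ∉ 𝔫 ∧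
          (s : F) * (W * (g ^ r)⁻¹) ∈ B ∧ (s : F) * (g ^ r * W⁻¹) ∈ B := by
  classical
  have hAV : ∀ a : A, algebraMap A F a ∈ V := fun a => hC.hBV _ (B.algebraMap_mem a)
  obtain ⟨π₀, hπ₀, hπ₀0, hπ₀π₁, hloc⟩ := h63_local_all_ss hC hAF harch hVnt Nd hSM hsec hgen
    W hW0 r hrW π₁ hπ₁ hπ₁0 hWU
  refine ⟨π₀, hπ₀, hπ₀0, hπ₀π₁, fun π hπ hππ₀ 𝔫 h𝔫 hle => ?_⟩
  by_cases hNd : 𝔫 ∈ Nd
  · obtain ⟨g, hg, s, hs, h1, h2⟩ := hnode 𝔫 h𝔫 hle hNd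
    exact ⟨g, h13x_U_mono hAV (hππ₀.trans hπ₀π₁) hg, s, hs, h1, h2⟩
  · obtain ⟨g, -, hgU, s, hs, h1, h2⟩ := hloc π hπ hππ₀ 𝔫 h𝔫 (fun _ => hNd)
    exact ⟨g, hgU hle, s, hs, h1, h2⟩

end Chart

section Transfer

variable {A : Type*} [CommRing A] [IsLocalRing A] {F : Type*} [Field F] [Algebra A F]
variable {B₀ B₁ : Subalgebra A F} {t : F}

/-- **overlap transfer of the local datum of the gate.** -/
theorem h13x_gate_transfer (ht : t ≠ 0) (ht₀ : t ∈ B₀) (ht₁ : t⁻¹ ∈ B₁)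
    (hs₀ : ∀ y ∈ B₁, ∃ n : ℕ, t ^ n * y ∈ B₀)
    (hs₁ : ∀ y ∈ B₀, ∃ n : ℕ, t⁻¹ ^ n * y ∈ B₁)
    (ev : A[X] →+* F) (hevC : ∀ a, ev (C a) = algebraMap A F a) (hevX : ev X = t⁻¹)
    (hint₁ : ∀ y ∈ B₁, ev.IsIntegralElem y)
    (U : Set F) (W : F) (r : ℕ)
    (hloc : ∀ 𝔫₀ : Ideal B₀, 𝔫₀.IsMaximal → (maximalIdeal A).map (algebraMap A B₀) ≤ 𝔫₀ →
      ∃ g ∈ U, ∃ s : B₀, s ∉ 𝔫₀ ∧
        (s : F) * (W * (g ^ r)⁻¹) ∈ B₀ ∧ (s : F) * (g ^ r * W⁻¹) ∈ B₀)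
    (𝔫 : Ideal B₁) (h𝔫 : 𝔫.IsMaximal) (hm : (maximalIdeal A).map (algebraMap A B₁) ≤ 𝔫)
    (htn : (⟨t⁻¹, ht₁⟩ : B₁) ∉ 𝔫) :
    ∃ g ∈ U, ∃ s : B₁, s ∉ 𝔫 ∧
      (s : F) * (W * (g ^ r)⁻¹) ∈ B₁ ∧ (s : F) * (g ^ r * W⁻¹) ∈ B₁ := by
  classical
  have hprime : 𝔫.IsPrime := h𝔫.isPrime
  have htn' : ¬ h31o_In B₁ 𝔫 t⁻¹ := fun h => htn h.2
  have hmax₀ : (h31o_contr B₀ B₁ t ht₁ hs₁ 𝔫).IsMaximal :=
    h31o_contr_isMaximal ht ht₀ ht₁ hs₀ hs₁ ev hevC hevX hint₁ 𝔫 hm htn'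
  have hm₀ : (maximalIdeal A).map (algebraMap A B₀) ≤ h31o_contr B₀ B₁ t ht₁ hs₁ 𝔫 :=
    h31o_mExt_le_contr hm
  obtain ⟨g, hg, s₀, hs₀n, h1, h2⟩ := hloc _ hmax₀ hm₀
  obtain ⟨k₁, hk₁⟩ := hs₁ s₀ s₀.2
  obtain ⟨k₂, hk₂⟩ := hs₁ _ h1
  obtain ⟨k₃, hk₃⟩ := hs₁ _ h2
  have hsk : t⁻¹ ^ (k₁ + k₂ + k₃) * (s₀ : F) ∈ B₁ := h31o_scale_mono ht₁ (by omega) hk₁
  have h1k : t⁻¹ ^ (k₁ + k₂ + k₃) * ((s₀ : F) * (W * (g ^ r)⁻¹)) ∈ B₁ :=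
    h31o_scale_mono ht₁ (by omega) hk₂
  have h2k : t⁻¹ ^ (k₁ + k₂ + k₃) * ((s₀ : F) * (g ^ r * W⁻¹)) ∈ B₁ :=
    h31o_scale_mono ht₁ (by omega) hk₃
  refine ⟨g, hg, ⟨t⁻¹ ^ (k₁ + k₂ + k₃) * (s₀ : F), hsk⟩, ?_, ?_, ?_⟩
  · intro h
    exact hs₀n ((h31o_mem_contr_iff htn' hsk).2 ⟨hsk, h⟩)
  · have e : ((⟨t⁻¹ ^ (k₁ + k₂ + k₃) * (s₀ : F), hsk⟩ : B₁) : F) * (W * (g ^ r)⁻¹) =
        t⁻¹ ^ (k₁ + k₂ + k₃) * ((s₀ : F) * (W * (g ^ r)⁻¹)) := by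
      simp only; ring
    rw [e]; exact h1k
  · have e : ((⟨t⁻¹ ^ (k₁ + k₂ + k₃) * (s₀ : F), hsk⟩ : B₁) : F) * (g ^ r * W⁻¹) =
        t⁻¹ ^ (k₁ + k₂ + k₃) * ((s₀ : F) * (g ^ r * W⁻¹)) := by
      simp only; ring
    rw [e]; exact h2k

end Transfer

end Fermat.Agent.S35
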