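import Fermat.Agent.Jac.HKL
import Fermat.Agent.Jac.COH
import Fermat.Agent.Jac.Per
import Fermat.Agent.LR.ES.Out
import Fermat.Agent.S30.Skeleton

/-!
# S35, HECKE-C (ConvKey), step (1) LAT (helper17)

A Hecke polynomial `P` with `P(T) = 0` on `S₂(Γ₀(N))` acts as zero on the lattice
`Λ = h57_Lam N = Hom_par(Γ₀(N), ℤ)` through the cohomological Hecke operators `h57_TLam`
(Eichler–Shimura, `Fermat.Agent.S21.result`: every parabolic homomorphism `Γ₀(N) → ℂ` is an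
Eichler–Shimura pair `periodHomPair N (f₁, f₂)`).

* `h17s_j_injective`, `h17s_j_hecke`;
* `h17s_PT N P`: the operator `P(T)` on cusp forms;
* `h17s_lat_pair`: if `j φ = periodHomPair N (f₁, f₂)` then
  `j (P_Λ φ) = periodHomPair N (P(T) f₁, P(T) f₂)`;
* `h17s_lat`: `P(T) = 0` on `S₂(Γ₀(N))` implies `evalOfCommute (h57_TLam hCoh N ·) hT P = 0`;
* `h17s_compat_zero_eval`: the same from `h57_Compat`-free hypotheses, in the form used with
  `h57_poly_step`.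
-/

set_option autoImplicit false
set_option linter.unusedSectionVars false

open ModularCurve CongruenceSubgroup
open scoped MatrixGroups

noncomputable section

namespace Fermat.Agent.S35

open Fermat.Agent.Jac Fermat.Agent.Jac.HKM Fermat.Agent.Jac.HKL Fermat.Agent.LR
  Fermat.Agent.LR.ES
open Fermat.Agent.S29.LK (evalOfCommute evalOfCommute_X evalOfCommute_C)
open Fermat.Agent.S30 (heckeTAll)

variable {N : ℕ} [NeZero N]

theorem h17s_j_injective (N : ℕ) [NeZero N] : Function.Injective (h57_j N) := by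
  intro φ ψ h
  apply Subtype.ext
  refine AddMonoidHom.ext fun γ => ?_
  have h1 := DFunLike.congr_fun h γ
  rw [h57_j_apply, h57_j_apply] at h1
  exact_mod_cast h1

theorem h17s_j_zero (N : ℕ) [NeZero N] : h57_j N 0 = 0 := map_zero _

/-- the integral cohomological Hecke operator induces the complex one. -/
theorem h17s_j_hecke (hCoh : CohHeckeStatement) {ℓ : ℕ} (h : h57_Good N ℓ) (φ : h57_Lam N) :
    IsCohHeckeAdd N ℓ (h57_j N φ) (h57_j N (h57_TLam hCoh N ℓ φ)) := by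
  rw [← h57_SC_j, h57_SC_apply]
  exact h57_Tfun_spec hCoh h ℂ _

/-! ## The operator `P(T)` on cusp forms -/

/-- the operator `P(T)` on cusp forms. -/
def h17s_PT (N : ℕ) [NeZero N] (P : MvPolynomial Nat.Primes ℤ) :
    Module.End ℂ (CuspForm (Gamma0 N) 2) :=
  ((MvPolynomial.aeval (R := ℤ) (heckeTAll N) P : CuspForm.heckeAlgebra N 2 (∅ : Set ℕ)) :
    Module.End ℂ (CuspForm (Gamma0 N) 2))

theorem h17s_PT_C (N : ℕ) [NeZero N] (a : ℤ) (f : CuspForm (Gamma0 N) 2) :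
    h17s_PT N (MvPolynomial.C a) f = (a : ℂ) • f := by
  unfold h17s_PT
  rw [MvPolynomial.aeval_C, Algebra.algebraMap_eq_smul_one]
  rw [Subalgebra.coe_smul, Subalgebra.coe_one, LinearMap.smul_apply, Module.End.one_apply]
  exact (Int.cast_smul_eq_zsmul ℂ a f).symm

theorem h17s_PT_add (N : ℕ) [NeZero N] (P Q : MvPolynomial Nat.Primes ℤ)
    (f : CuspForm (Gamma0 N) 2) :
    h17s_PT N (P + Q) f = h17s_PT N P f + h17s_PT N Q f := by
  unfold h17s_PT
  rw [map_add, Subalgebra.coe_add, LinearMap.add_apply]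

theorem h17s_PT_mul_X (N : ℕ) [NeZero N] (P : MvPolynomial Nat.Primes ℤ) (ℓ : Nat.Primes)
    (f : CuspForm (Gamma0 N) 2) :
    h17s_PT N (P * MvPolynomial.X ℓ) f
      = h17s_PT N P ((heckeTAll N ℓ : Module.End ℂ (CuspForm (Gamma0 N) 2)) f) := by
  unfold h17s_PT
  rw [map_mul, MvPolynomial.aeval_X, Subalgebra.coe_mul, Module.End.mul_apply]

theorem h17s_pair_zero (N : ℕ) [NeZero N] :
    periodHomPair N ((0 : CuspForm (Gamma0 N) 2), (0 : CuspForm (Gamma0 N) 2)) = 0 :=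
  map_zero _

/-! ## The key lemma -/

/-- **the period pair of `P_Λ φ`.** -/
theorem h17s_lat_pair (hCoh : CohHeckeStatement)
    (hT : ∀ ℓ ℓ' : Nat.Primes, h57_TLam hCoh N (ℓ : ℕ) * h57_TLam hCoh N (ℓ' : ℕ)
      = h57_TLam hCoh N (ℓ' : ℕ) * h57_TLam hCoh N (ℓ : ℕ))
    (P : MvPolynomial Nat.Primes ℤ) :
    ∀ (φ : h57_Lam N) (f₁ f₂ : CuspForm (Gamma0 N) 2),
      h57_j N φ = periodHomPair N (f₁, f₂) →
      h57_j N (evalOfCommute (fun ℓ : Nat.Primes => h57_TLam hCoh N (ℓ : ℕ)) hT P φ)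
        = periodHomPair N (h17s_PT N P f₁, h17s_PT N P f₂) := by
  induction P using MvPolynomial.induction_on with
  | C a =>
    intro φ f₁ f₂ h
    rw [evalOfCommute_C, Module.End.intCast_apply, h17s_PT_C, h17s_PT_C]
    have e : ((a : ℂ) • f₁, (a : ℂ) • f₂) = (a : ℂ) • (f₁, f₂) := rfl
    rw [e, (periodHomPair N).map_smul, ← h, map_zsmul]
    exact (Int.cast_smul_eq_zsmul ℂ a _).symm
  | add P Q hP hQ =>
    intro φ f₁ f₂ h
    rw [map_add, LinearMap.add_apply, h17s_PT_add, h17s_PT_add]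
    have e : (h17s_PT N P f₁ + h17s_PT N Q f₁, h17s_PT N P f₂ + h17s_PT N Q f₂)
        = (h17s_PT N P f₁, h17s_PT N P f₂) + (h17s_PT N Q f₁, h17s_PT N Q f₂) := rfl
    rw [e, (periodHomPair N).map_add, ← hP φ f₁ f₂ h, ← hQ φ f₁ f₂ h, map_add]
  | mul_X P ℓ hP =>
    intro φ f₁ f₂ h
    rw [map_mul, evalOfCommute_X, Module.End.mul_apply, h17s_PT_mul_X, h17s_PT_mul_X]
    apply hP
    by_cases hℓ : (ℓ : ℕ) ∣ N
    · have e : heckeTAll N ℓ = 0 := dif_pos hℓ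
      have hbad : ¬ h57_Good N (ℓ : ℕ) := fun hg => hg.2 hℓ
      rw [h57_TLam_bad hCoh hbad, e]
      simp only [LinearMap.zero_apply, ZeroMemClass.coe_zero]
      rw [h17s_pair_zero, h17s_j_zero]
    · have e : heckeTAll N ℓ = CuspForm.heckeAlgebra.T ℓ.2 hℓ (Set.notMem_empty _) :=
        dif_neg hℓ
      rw [e, CuspForm.heckeAlgebra.coe_T]
      have h1 : IsCohHeckeAdd N ℓ (h57_j N φ) (h57_j N (h57_TLam hCoh N ℓ φ)) :=
        h17s_j_hecke hCoh ⟨ℓ.2, hℓ⟩ φ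
      have h2 := h22es_pair_rel (M := N) (N := N) (fun y z => IsCohHeckeAdd N ℓ y z)
        (fun _ _ _ _ => h22es_hecke_add) (fun _ _ => h22es_hecke_neg)
        (fun _ _ => h22es_charInv_hecke ℓ.2 ℂ)
        (fun g => CuspForm.heckeTLin 2 ℓ.2 hℓ g)
        (fun g => Fermat.Agent.Jac.periodHecke N ℓ ℓ.2 hℓ g) f₁ f₂
      rw [← h] at h2
      exact h22es_hecke_unique ℓ.2 hℓ h1 h2

/-- **Step (1) of HK-CONV (LAT).**  A Hecke polynomial which vanishes on `S₂(Γ₀(N))` vanishes on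
`Λ = Hom_par(Γ₀(N), ℤ)`. -/
theorem h17s_lat (hCoh : CohHeckeStatement)
    (hT : ∀ ℓ ℓ' : Nat.Primes, h57_TLam hCoh N (ℓ : ℕ) * h57_TLam hCoh N (ℓ' : ℕ)
      = h57_TLam hCoh N (ℓ' : ℕ) * h57_TLam hCoh N (ℓ : ℕ))
    (P : MvPolynomial Nat.Primes ℤ)
    (hP : ((MvPolynomial.aeval (R := ℤ) (heckeTAll N) P :
        CuspForm.heckeAlgebra N 2 (∅ : Set ℕ)) :
      Module.End ℂ (CuspForm (Gamma0 N) 2)) = 0) :
    evalOfCommute (fun ℓ : Nat.Primes => h57_TLam hCoh N (ℓ : ℕ)) hT P = 0 := by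
  apply LinearMap.ext
  intro φ
  have hmem : h57_j N φ ∈ LinearMap.range (periodHomPair N) := by
    rw [(Fermat.Agent.S21.result N).2]
    intro γ hγ
    rw [h57_j_apply, φ.2 γ hγ]
    simp
  obtain ⟨⟨f₁, f₂⟩, hf⟩ := hmem
  have h := h17s_lat_pair hCoh hT P φ f₁ f₂ hf.symm
  have e : h17s_PT N P = 0 := hP
  rw [e] at h
  simp only [LinearMap.zero_apply] at h
  rw [h17s_pair_zero] at h
  rw [LinearMap.zero_apply]
  apply h17s_j_injective N
  rw [h, h17s_j_zero]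

/-- the same with the hypothesis in the form of `Fermat.Agent.S35.ConvKey` (`P(T) = 0` as an
element of the Hecke algebra). -/
theorem h17s_lat' (hCoh : CohHeckeStatement)
    (hT : ∀ ℓ ℓ' : Nat.Primes, h57_TLam hCoh N (ℓ : ℕ) * h57_TLam hCoh N (ℓ' : ℕ)
      = h57_TLam hCoh N (ℓ' : ℕ) * h57_TLam hCoh N (ℓ : ℕ))
    (P : MvPolynomial Nat.Primes ℤ)
    (hP : (MvPolynomial.aeval (R := ℤ) (heckeTAll N) P :
        CuspForm.heckeAlgebra N 2 (∅ : Set ℕ)) = 0) (φ : h57_Lam N) :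
    evalOfCommute (fun ℓ : Nat.Primes => h57_TLam hCoh N (ℓ : ℕ)) hT P φ = 0 := by
  rw [h17s_lat hCoh hT P (by rw [hP]; rfl)]
  rfl

end Fermat.Agent.S35
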