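import Fermat.Agent.Jac.CuspRoot
import Fermat.Agent.Jac.Ord
import Fermat.Agent.S24.EmbCusp

/-!
# S35, block HECKE-C (converse key lemma): the leaf KPAR

The Kummer character of a function `f ∈ Sel_n(F)` (all orders divisible by `n`) is trivial on
the conjugates `g T^N g⁻¹` of `T^N`, hence its `N`-th power is trivial on all parabolic
elements of `Γ₀(N)`.

Proof: let `A` be the holomorphic `n`-th root of `G = P Q^(n-1)` with character `χ` and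
`ζ = χ (g T^N g⁻¹) = exp (2πi a / n)`, `0 ≤ a < n`.  Then
`B(τ) = A(gτ) exp (2πi (n - a) τ / (nN))` is `N`-periodic and `B ^ n = G(gτ) 𝕋^(n - a)`,
`𝕋 = exp (2πiτ/N)`, so `B` has a `𝕋`-expansion (`h72_hasTExp_root`) and
`n ∣ ord_𝕋 G(g ·) + n - a`.  But `ord_𝕋 G(g ·) ≡ ord (E_g f) ≡ 0` modulo `n`
(`h83_dvd_order_germ` for the cusp embedding `E_g`).  Hence `a = 0`.
-/

set_option autoImplicit false

open ModularCurve AlgebraicCurve UpperHalfPlane CongruenceSubgroup Function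
open scoped MatrixGroups Manifold

noncomputable section

namespace Fermat.Agent.S35

open Fermat.Agent.S24 (Kbar FF embC IsAn cst)
open Fermat.Agent.S28 (HasTExp tParam)
open Fermat.Agent.Jac

/-! ### expansions of powers of the parameter -/

/-- `𝕋 ^ k` has the expansion `single k 1`. -/
theorem h1c_hasTExp_tParam_pow (N k : ℕ) :
    HasTExp N (fun τ => tParam N τ ^ k) (HahnSeries.single (k : ℤ) 1) := by
  rw [Fermat.Agent.S28.hasTExp_iff]
  intro τ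
  have h : ∀ n : ℤ, n ∉ ({(k : ℤ)} : Finset ℤ) →
      (HahnSeries.single (k : ℤ) (1 : ℂ) : LaurentSeries ℂ).coeff n * tParam N τ ^ n = 0 := by
    intro n hn
    have hn' : n ≠ (k : ℤ) := by simpa using hn
    rw [HahnSeries.coeff_single_of_ne hn', zero_mul]
  have := hasSum_sum_of_ne_finset_zero (L := SummationFilter.unconditional ℤ) (f := fun n : ℤ =>
    (HahnSeries.single (k : ℤ) (1 : ℂ) : LaurentSeries ℂ).coeff n * tParam N τ ^ n) h
  simpa using this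

/-- `exp (2πiτ/(nN)) ^ n = exp (2πiτ/N)`. -/
theorem h1c_tParam_mul_pow {n N : ℕ} (hn : 0 < n) (hN : 0 < N) (τ : ℍ) :
    tParam (n * N) τ ^ n = tParam N τ := by
  have hn' : (n : ℂ) ≠ 0 := by exact_mod_cast hn.ne'
  have hN' : (N : ℂ) ≠ 0 := by exact_mod_cast hN.ne'
  simp only [tParam, Function.Periodic.qParam, Complex.ofReal_natCast, Nat.cast_mul,
    Complex.ofReal_mul]
  rw [← Complex.exp_nat_mul]
  congr 1
  field_simp

/-- translation by `N` multiplies `exp (2πiτ/(nN))` by `exp (2πi/n)`. -/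
theorem h1c_tParam_mul_vadd {n N : ℕ} (hn : 0 < n) (hN : 0 < N) (τ : ℍ) :
    tParam (n * N) ((N : ℝ) +ᵥ τ)
      = Complex.exp (2 * Real.pi * Complex.I / (n : ℂ)) * tParam (n * N) τ := by
  have hn' : (n : ℂ) ≠ 0 := by exact_mod_cast hn.ne'
  have hN' : (N : ℂ) ≠ 0 := by exact_mod_cast hN.ne'
  rw [Fermat.Agent.S24.h84_tParam_vadd_nat (Nat.mul_pos hn hN) N τ, ← Complex.exp_nat_mul]
  congr 2
  push_cast
  field_simp

/-! ### the core -/

/-- **KPAR, core.**  The Kummer character of `f ∈ Sel_n(F)` is trivial on the conjugates of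
`T ^ N`. -/
theorem h1c_kpar_conj {N : ℕ} [NeZero N] {n : ℕ} (hn : 0 < n) {f : FF N} (hf : IsSel N n f)
    {χ : Gamma0 N →* ℂˣ} {P Q A : ℍ → ℂ} (hAn : IsAn N f P Q) (hA : MDiff A)
    (hpow : ∀ τ, A τ ^ n = P τ * Q τ ^ (n - 1)) (hχ : HasChar N A χ) (hχn : χ ^ n = 1)
    (g : SL(2, ℤ)) :
    χ ⟨g * ModularGroup.T ^ (N : ℤ) * g⁻¹, h72_conj_T_pow_mem N g⟩ = 1 := by
  have hN : 0 < N := Nat.pos_of_ne_zero (NeZero.ne N)
  have hn' : (n : ℂ) ≠ 0 := by exact_mod_cast hn.ne'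
  set γ : Gamma0 N := ⟨g * ModularGroup.T ^ (N : ℤ) * g⁻¹, h72_conj_T_pow_mem N g⟩ with hγ
  set ζ : ℂˣ := χ γ with hζ
  have hζn : ζ ^ n = 1 := by
    have := congrArg (fun F : Gamma0 N →* ℂˣ => F γ) hχn
    simpa using this
  have hnz : NeZero n := ⟨hn.ne'⟩
  obtain ⟨a, ha, hae⟩ := (Complex.mem_rootsOfUnity n ζ).mp ((mem_rootsOfUnity n ζ).mpr hζn)
  -- expansions at the cusp
  obtain ⟨sP, hsP⟩ := hAn.expP g
  obtain ⟨sQ, hsQ⟩ := hAn.expQ g
  have hsP' : HasTExp N (fun τ => P ((g⁻¹)⁻¹ • τ)) sP := hsP.congr (fun τ => by rw [inv_inv])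
  have hsQ' : HasTExp N (fun τ => Q ((g⁻¹)⁻¹ • τ)) sQ := hsQ.congr (fun τ => by rw [inv_inv])
  have hsQ0 : sQ ≠ 0 :=
    Fermat.Agent.S24.h23_series_ne_zero hsQ' (Fermat.Agent.S24.h84_translate_ne_zero hAn.Q_ne g⁻¹)
  have hE0 : Fermat.Agent.S24.h84_E N g⁻¹ f ≠ 0 := (map_ne_zero _).mpr hf.1
  have hEmul := Fermat.Agent.S24.h84_E_mul N g⁻¹ hAn hsP' hsQ'
  have hsP0 : sP ≠ 0 := by
    rw [← hEmul]
    exact mul_ne_zero hE0 hsQ0
  have hordE := Fermat.Agent.S24.h84_order_E N g⁻¹ hf.1 hAn hsP' hsQ'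
  have hdvd : (n : ℤ) ∣ (Fermat.Agent.S24.h84_E N g⁻¹ f).order :=
    h83_dvd_order_germ hf _ (Fermat.Agent.S24.h84_E_cst N g⁻¹)
  -- quasi-periodicity of `A ∘ g`
  have hquasi : ∀ τ : ℍ, A (g • ((N : ℝ) +ᵥ τ)) = (ζ : ℂ) * A (g • τ) := by
    intro τ
    have h1 : ((N : ℝ) +ᵥ τ) = ModularGroup.T ^ (N : ℤ) • τ := by
      rw [UpperHalfPlane.modular_T_zpow_smul]
      simp
    have h2 : g • (ModularGroup.T ^ (N : ℤ) • τ) =
        (g * ModularGroup.T ^ (N : ℤ) * g⁻¹) • (g • τ) := by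
      rw [mul_smul, mul_smul, inv_smul_smul]
    rw [h1, h2]
    exact hχ γ (g • τ)
  -- the periodic function `B`
  set k : ℕ := n - a with hk
  have hka : (k : ℂ) + (a : ℂ) = (n : ℂ) := by
    rw [hk]
    push_cast [Nat.cast_sub ha.le]
    ring
  set B : ℍ → ℂ := fun τ => A (g • τ) * tParam (n * N) τ ^ k with hB
  have hBdiff : MDiff B := (h72_mdiff_comp_smul hA g).mul ((h72_mdiff_tParam (n * N)).pow k)
  have hone : (ζ : ℂ) * Complex.exp (2 * Real.pi * Complex.I / (n : ℂ)) ^ k = 1 := by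
    rw [← hae, ← Complex.exp_nat_mul, ← Complex.exp_add]
    have e : 2 * (Real.pi : ℂ) * Complex.I * ((a : ℂ) / (n : ℂ))
        + (k : ℂ) * (2 * (Real.pi : ℂ) * Complex.I / (n : ℂ)) = 2 * (Real.pi : ℂ) * Complex.I := by
      have : 2 * (Real.pi : ℂ) * Complex.I * ((a : ℂ) / (n : ℂ))
        + (k : ℂ) * (2 * (Real.pi : ℂ) * Complex.I / (n : ℂ))
          = 2 * (Real.pi : ℂ) * Complex.I * (((k : ℂ) + (a : ℂ)) / (n : ℂ)) := by ring
      rw [this, hka, div_self hn', mul_one]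
    rw [e, Complex.exp_two_pi_mul_I]
  have hBper : ∀ τ : ℍ, B ((N : ℝ) +ᵥ τ) = B τ := by
    intro τ
    simp only [hB]
    rw [hquasi, h1c_tParam_mul_vadd hn hN, mul_pow]
    calc (ζ : ℂ) * A (g • τ) * (Complex.exp (2 * Real.pi * Complex.I / (n : ℂ)) ^ k
          * tParam (n * N) τ ^ k)
        = ((ζ : ℂ) * Complex.exp (2 * Real.pi * Complex.I / (n : ℂ)) ^ k)
          * (A (g • τ) * tParam (n * N) τ ^ k) := by ring
      _ = A (g • τ) * tParam (n * N) τ ^ k := by rw [hone, one_mul]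
  -- `B ^ n`
  set H : ℍ → ℂ := fun τ => (P (g • τ) * Q (g • τ) ^ (n - 1)) * tParam N τ ^ k with hH
  have hBpow : ∀ τ, B τ ^ n = H τ := by
    intro τ
    simp only [hB, hH]
    rw [mul_pow, hpow, ← pow_mul, mul_comm k n, pow_mul, h1c_tParam_mul_pow hn hN]
  have hHexp : HasTExp N H (sP * sQ ^ (n - 1) * HahnSeries.single (k : ℤ) 1) :=
    ((hsP.mul hN (hsQ.pow hN (n - 1))).mul hN (h1c_hasTExp_tParam_pow N k)).congr
      (fun τ => rfl)
  obtain ⟨s', hs'⟩ := h72_hasTExp_root hN hn hBdiff hBper hBpow hHexp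
  have hs'n : s' ^ n = sP * sQ ^ (n - 1) * HahnSeries.single (k : ℤ) 1 :=
    Fermat.Agent.S28.HasTExp.unique hN ((hs'.pow hN n).congr (fun τ => hBpow τ)) hHexp
  -- orders
  have hsingle : (HahnSeries.single (k : ℤ) (1 : ℂ)) ≠ 0 := by
    simp
  have hord : (n : ℤ) * s'.order = sP.order + ((n - 1 : ℕ) : ℤ) * sQ.order + (k : ℤ) := by
    have h1 := congrArg HahnSeries.order hs'n
    rw [HahnSeries.order_pow, HahnSeries.order_mul (mul_ne_zero hsP0 (pow_ne_zero _ hsQ0)) hsingle,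
      HahnSeries.order_mul hsP0 (pow_ne_zero _ hsQ0), HahnSeries.order_pow,
      HahnSeries.order_single one_ne_zero] at h1
    simpa [nsmul_eq_mul] using h1
  have hkdvd : (n : ℤ) ∣ (k : ℤ) := by
    obtain ⟨m, hm⟩ := hdvd
    rw [hordE] at hm
    have hn1 : ((n - 1 : ℕ) : ℤ) = (n : ℤ) - 1 := by
      rw [Nat.cast_sub hn]
      simp
    refine ⟨s'.order - m - sQ.order, ?_⟩
    rw [hn1] at hord
    have : sP.order = (n : ℤ) * m + sQ.order := by linarith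
    rw [this] at hord
    linarith
  have hkn : k = n := by
    have h1 : n ∣ k := by exact_mod_cast hkdvd
    have h2 : k ≤ n := Nat.sub_le n a
    have h3 : 0 < k := Nat.sub_pos_of_lt ha
    exact Nat.le_antisymm h2 (Nat.le_of_dvd h3 h1)
  have ha0 : a = 0 := by omega
  apply Units.ext
  rw [← hae, ha0]
  simp

/-! ### parabolic elements are conjugate to `± T ^ b` -/

/-- a matrix of trace `± 2` is conjugate in `SL(2, ℤ)` to an upper triangular matrix. -/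
theorem h1c_exists_conj_upper (γ : SL(2, ℤ))
    (h : (γ : Matrix (Fin 2) (Fin 2) ℤ).trace ^ 2 = 4) :
    ∃ r : SL(2, ℤ), (r⁻¹ * γ * r) 1 0 = 0 := by
  have hdet : γ 0 0 * γ 1 1 - γ 0 1 * γ 1 0 = 1 := by
    have := γ.det_coe
    rw [Matrix.det_fin_two] at this
    exact this
  have htr : (γ 0 0 + γ 1 1) ^ 2 = 4 := by
    rw [Matrix.trace_fin_two] at h
    exact h
  by_cases hc : γ 1 0 = 0
  · exact ⟨1, by simpa using hc⟩
  · have hg : 0 < Int.gcd (γ 0 0 - γ 1 1) (2 * γ 1 0) := by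
      apply Int.gcd_pos_of_ne_zero_right
      intro h0
      apply hc
      omega
    obtain ⟨x, y, hxy, hX, hY⟩ := Int.exists_gcd_one hg
    have hg0 : ((Int.gcd (γ 0 0 - γ 1 1) (2 * γ 1 0) : ℕ) : ℤ) ≠ 0 := by
      have : (0 : ℤ) < ((Int.gcd (γ 0 0 - γ 1 1) (2 * γ 1 0) : ℕ) : ℤ) := by exact_mod_cast hg
      exact this.ne'
    generalize ((Int.gcd (γ 0 0 - γ 1 1) (2 * γ 1 0) : ℕ) : ℤ) = g at hX hY hg0
    have hF : γ 1 0 * x ^ 2 + (γ 1 1 - γ 0 0) * x * y - γ 0 1 * y ^ 2 = 0 := by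
      have h1 : g ^ 2 * (γ 1 0 * x ^ 2 + (γ 1 1 - γ 0 0) * x * y - γ 0 1 * y ^ 2) = 0 := by
        have e : g ^ 2 * (γ 1 0 * x ^ 2 + (γ 1 1 - γ 0 0) * x * y - γ 0 1 * y ^ 2)
            = γ 1 0 * (x * g) ^ 2 + (γ 1 1 - γ 0 0) * (x * g) * (y * g)
              - γ 0 1 * (y * g) ^ 2 := by ring
        rw [e, ← hX, ← hY]
        have : γ 1 0 * (γ 0 0 - γ 1 1) ^ 2 + (γ 1 1 - γ 0 0) * (γ 0 0 - γ 1 1) * (2 * γ 1 0)
            - γ 0 1 * (2 * γ 1 0) ^ 2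
            = -γ 1 0 * ((γ 0 0 + γ 1 1) ^ 2 - 4 * (γ 0 0 * γ 1 1 - γ 0 1 * γ 1 0)) := by ring
        rw [this, htr, hdet]
        ring
      rcases mul_eq_zero.mp h1 with h2 | h2
      · exact absurd (pow_eq_zero_iff (two_ne_zero)|>.mp h2) hg0
      · exact h2
    have hbez : x * Int.gcdA x y + y * Int.gcdB x y = 1 := by
      have := Int.gcd_eq_gcd_ab x y
      rw [hxy] at this
      exact_mod_cast this.symm
    have hdetr : (!![x, -Int.gcdB x y; y, Int.gcdA x y] : Matrix (Fin 2) (Fin 2) ℤ).det = 1 := by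
      rw [Matrix.det_fin_two_of]
      linarith
    obtain ⟨r, hr⟩ : ∃ r : SL(2, ℤ),
        (r : Matrix (Fin 2) (Fin 2) ℤ) = !![x, -Int.gcdB x y; y, Int.gcdA x y] :=
      ⟨⟨_, hdetr⟩, rfl⟩
    refine ⟨r, ?_⟩
    simp only [Matrix.SpecialLinearGroup.coe_mul, Matrix.SpecialLinearGroup.coe_inv, hr,
        Matrix.adjugate_fin_two, Matrix.mul_apply, Fin.sum_univ_two]
    simp
    linear_combination hF

/-- an upper triangular element of `SL(2, ℤ)` is `± T ^ b`. -/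
theorem h1c_upper_eq (t : SL(2, ℤ)) (ht : t 1 0 = 0) :
    ∃ b : ℤ, t = ModularGroup.T ^ b ∨ t = -(ModularGroup.T ^ b) := by
  have hdet : t 0 0 * t 1 1 - t 0 1 * t 1 0 = 1 := by
    have := t.det_coe
    rw [Matrix.det_fin_two] at this
    exact this
  rw [ht, mul_zero, sub_zero] at hdet
  rcases Int.mul_eq_one_iff_eq_one_or_neg_one.mp hdet with ⟨h0, h1⟩ | ⟨h0, h1⟩
  · refine ⟨t 0 1, Or.inl ?_⟩
    apply Subtype.ext
    rw [ModularGroup.coe_T_zpow]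
    ext i j
    fin_cases i <;> fin_cases j <;> simp [h0, h1, ht]
  · refine ⟨-(t 0 1), Or.inr ?_⟩
    apply Subtype.ext
    rw [Matrix.SpecialLinearGroup.coe_neg, ModularGroup.coe_T_zpow]
    ext i j
    fin_cases i <;> fin_cases j <;> simp [h0, h1, ht]

/-- every parabolic element (trace `± 2`) of `SL(2, ℤ)` is `± r T^b r⁻¹`. -/
theorem h1c_par_eq (γ : SL(2, ℤ)) (h : (γ : Matrix (Fin 2) (Fin 2) ℤ).trace ^ 2 = 4) :
    ∃ (r : SL(2, ℤ)) (b : ℤ), γ = r * ModularGroup.T ^ b * r⁻¹ ∨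
      γ = -(r * ModularGroup.T ^ b * r⁻¹) := by
  obtain ⟨r, hr⟩ := h1c_exists_conj_upper γ h
  obtain ⟨b, hb | hb⟩ := h1c_upper_eq _ hr
  · refine ⟨r, b, Or.inl ?_⟩
    rw [← hb]
    group
  · refine ⟨r, b, Or.inr ?_⟩
    have : ModularGroup.T ^ b = -(r⁻¹ * γ * r) := by rw [hb, neg_neg]
    rw [this, mul_neg, neg_mul, neg_neg]
    group

theorem h1c_neg_one_mem (N : ℕ) : (-1 : SL(2, ℤ)) ∈ Gamma0 N := by
  rw [Gamma0_mem]
  simp

/-- **KPAR.**  The `N`-th power of the Kummer character of `f ∈ Sel_n(F)` is trivial on the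
parabolic elements of `Γ₀(N)`. -/
theorem h1c_kpar_of {N : ℕ} [NeZero N] {n : ℕ} (hn : 0 < n) {f : FF N} (hf : IsSel N n f)
    {χ : Gamma0 N →* ℂˣ} {P Q A : ℍ → ℂ} (hAn : IsAn N f P Q) (hA : MDiff A)
    (hpow : ∀ τ, A τ ^ n = P τ * Q τ ^ (n - 1)) (hχ : HasChar N A χ) (hχn : χ ^ n = 1)
    (γ : Gamma0 N) (hγ : IsPar γ) : χ γ ^ N = 1 := by
  have hN : 0 < N := Nat.pos_of_ne_zero (NeZero.ne N)
  -- `A ≠ 0`
  obtain ⟨sP, hsP⟩ := hAn.expP 1
  obtain ⟨sQ, hsQ⟩ := hAn.expQ 1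
  have hsP' : HasTExp N (fun τ => P ((1 : SL(2, ℤ))⁻¹ • τ)) sP :=
    hsP.congr (fun τ => by rw [inv_one])
  have hsQ' : HasTExp N (fun τ => Q ((1 : SL(2, ℤ))⁻¹ • τ)) sQ :=
    hsQ.congr (fun τ => by rw [inv_one])
  have hsQ0 : sQ ≠ 0 :=
    Fermat.Agent.S24.h23_series_ne_zero hsQ' (Fermat.Agent.S24.h84_translate_ne_zero hAn.Q_ne 1)
  have hsP0 : sP ≠ 0 := by
    rw [← Fermat.Agent.S24.h84_E_mul N 1 hAn hsP' hsQ']
    exact mul_ne_zero ((map_ne_zero _).mpr hf.1) hsQ0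
  have hG : HasTExp N (fun τ => P ((1 : SL(2, ℤ)) • τ) * Q ((1 : SL(2, ℤ)) • τ) ^ (n - 1))
      (sP * sQ ^ (n - 1)) := (hsP.mul hN (hsQ.pow hN (n - 1))).congr (fun τ => rfl)
  have hG0 := Fermat.Agent.S24.h23_fun_ne_zero hN hG (mul_ne_zero hsP0 (pow_ne_zero _ hsQ0))
  obtain ⟨τ₀, hτ₀⟩ : ∃ τ₀ : ℍ, A τ₀ ≠ 0 := by
    by_contra hcon
    simp only [not_exists, not_not] at hcon
    apply hG0
    funext τ
    have := hpow ((1 : SL(2, ℤ)) • τ)
    rw [hcon, zero_pow hn.ne'] at this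
    exact this.symm
  -- `χ (-1) = 1`
  have hneg : χ ⟨-1, h1c_neg_one_mem N⟩ = 1 := by
    have h1 := hχ ⟨-1, h1c_neg_one_mem N⟩ τ₀
    have h2 : ((-1 : SL(2, ℤ))) • τ₀ = τ₀ := by
      rw [ModularGroup.SL_neg_smul, one_smul]
    simp only [h2] at h1
    apply Units.ext
    have h3 : ((χ ⟨-1, h1c_neg_one_mem N⟩ : ℂˣ) : ℂ) * A τ₀ = 1 * A τ₀ := by
      rw [one_mul]
      exact h1.symm
    exact mul_right_cancel₀ hτ₀ h3
  -- the decomposition of `γ`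
  obtain ⟨r, b, hrb | hrb⟩ := h1c_par_eq (γ : SL(2, ℤ)) hγ
  · have e : γ ^ N
        = (⟨r * ModularGroup.T ^ (N : ℤ) * r⁻¹, h72_conj_T_pow_mem N r⟩ : Gamma0 N) ^ b := by
      apply Subtype.ext
      rw [Subgroup.coe_pow, Subgroup.coe_zpow, hrb]
      show (r * ModularGroup.T ^ b * r⁻¹) ^ N = (r * ModularGroup.T ^ (N : ℤ) * r⁻¹) ^ b
      rw [conj_pow, conj_zpow, ← zpow_natCast, ← zpow_mul, ← zpow_mul, mul_comm]
    rw [← map_pow, e, map_zpow, h1c_kpar_conj hn hf hAn hA hpow hχ hχn r, one_zpow]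
  · have e : γ ^ N = (⟨-1, h1c_neg_one_mem N⟩ : Gamma0 N) ^ N *
        (⟨r * ModularGroup.T ^ (N : ℤ) * r⁻¹, h72_conj_T_pow_mem N r⟩ : Gamma0 N) ^ b := by
      apply Subtype.ext
      rw [Subgroup.coe_mul, Subgroup.coe_pow, Subgroup.coe_pow, Subgroup.coe_zpow, hrb]
      show (-(r * ModularGroup.T ^ b * r⁻¹)) ^ N
        = (-1 : SL(2, ℤ)) ^ N * (r * ModularGroup.T ^ (N : ℤ) * r⁻¹) ^ b
      rw [neg_pow, conj_pow, conj_zpow, ← zpow_natCast (ModularGroup.T ^ b), ← zpow_mul,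
        ← zpow_mul, mul_comm b]
    rw [← map_pow, e, map_mul, map_pow, map_zpow, hneg,
      h1c_kpar_conj hn hf hAn hA hpow hχ hχn r, one_zpow, one_pow, one_mul]

/-- **KPAR**, interface form: the `N`-th power of a Kummer character of `f ∈ Sel_n(F)` is
trivial on the parabolic elements. -/
theorem h1c_kpar (N : ℕ) [NeZero N] (n : ℕ) (hn : 0 < n) (f : FF N) (hf : IsSel N n f)
    (χ : Gamma0 N →* ℂˣ) (hK : KummerChar N n f χ) (hχn : χ ^ n = 1) :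
    ∀ γ : Gamma0 N, IsPar γ → (χ ^ N) γ = 1 := by
  obtain ⟨P, Q, A, hAn, hA, hpow, hχ⟩ := hK
  intro γ hγ
  rw [MonoidHom.pow_apply]
  exact h1c_kpar_of hn hf hAn hA hpow hχ hχn γ hγ

end Fermat.Agent.S35
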