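import Fermat.Agent.S35.H1Lift
import Fermat.Agent.S35.H1KPar

/-!
# S35, block HECKE-C (converse key lemma): Kummer characters are exponential

`h1c_kexp N`: there is `c > 0` such that for every `n > 0` and every Kummer character `χ` of a
function `f ∈ Sel_n(F)`, `F = FF N`, the character `χ ^ c` is the exponential
`exp (2πi φ / n)` of an integral parabolic character `φ` of `Γ₀(N)`
(`c = N * t`, `t` from `h1c_lift`, the factor `N` from `h1c_kpar`).
-/

set_option autoImplicit false

open CongruenceSubgroup ModularCurve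
open scoped MatrixGroups

namespace Fermat.Agent.S35

open Fermat.Agent.S24 (FF)
open Fermat.Agent.Jac

/-- **KEXP.**  A bounded power of every Kummer character is the exponential of an integral
parabolic character. -/
theorem h1c_kexp (N : ℕ) [NeZero N] :
    ∃ c : ℕ, 0 < c ∧ ∀ n : ℕ, 0 < n → ∀ f : FF N, IsSel N n f →
      ∀ χ : Gamma0 N →* ℂˣ, KummerChar N n f χ → χ ^ n = 1 →
      ∃ φ : Additive (Gamma0 N) →+ ℤ, φ ∈ Period.parabolicHoms ℤ (Gamma0 N) ℤ ∧
        IsExpChar N n φ (χ ^ c) := by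
  obtain ⟨t, ht, H⟩ := h1c_lift N
  have hN : 0 < N := Nat.pos_of_ne_zero (NeZero.ne N)
  refine ⟨N * t, Nat.mul_pos hN ht, fun n hn f hf χ hK hχn => ?_⟩
  have hpt : ∀ γ : Gamma0 N, χ γ ^ n = 1 := fun γ => by
    have := congrArg (fun F : Gamma0 N →* ℂˣ => F γ) hχn
    simpa using this
  have h1 : (χ ^ N) ^ n = 1 := by
    refine MonoidHom.ext fun γ => ?_
    rw [MonoidHom.pow_apply, MonoidHom.pow_apply, MonoidHom.one_apply, ← pow_mul, mul_comm,
      pow_mul, hpt, one_pow]
  obtain ⟨φ, hφ, hexp⟩ := H n hn (χ ^ N) h1 (h1c_kpar N n hn f hf χ hK hχn)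
  refine ⟨φ, hφ, fun γ => ?_⟩
  have h2 := hexp γ
  rw [MonoidHom.pow_apply, MonoidHom.pow_apply] at h2
  rw [MonoidHom.pow_apply, pow_mul]
  exact h2

end Fermat.Agent.S35
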