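import Fermat.Agent.Jac.Skeleton

/-!
# S35, block HECKE-C (converse key lemma): the algebraic leaf LIFT

`h1c_lift N`: there is `t > 0` such that for every `n > 0` and every character
`χ : Γ₀(N) → ℂˣ` with `χ ^ n = 1` which is trivial on the parabolic elements, the character
`χ ^ t` is the exponential `exp (2πi φ / n)` of an integral parabolic character `φ`.

Proof: `Γ₀(N)` is finitely generated (Schreier), so `G = Γ₀(N)^ab / ⟨parabolic⟩` is a finitely
generated abelian group; `t` is the order of its torsion subgroup `T`; `t • ψ` factors through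
the free module `G / T`, hence lifts along `ℤ → μ_n`.
-/

set_option autoImplicit false

universe u v

open CongruenceSubgroup ModularCurve
open scoped MatrixGroups

namespace Fermat.Agent.S35

section Abs

variable (Γ : Type u) [Group Γ] [Group.FG Γ] (P : Set Γ)

/-- the abelianisation, additively -/
abbrev h1c_Ab : Type u := Additive (Abelianization Γ)

instance h1c_instFiniteAb : Module.Finite ℤ (h1c_Ab Γ) := by
  have : Group.FG (Abelianization Γ) :=
    Group.fg_of_surjective (f := Abelianization.of (G := Γ))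
      (fun x => Quot.inductionOn x (fun a => ⟨a, rfl⟩))
  exact Module.Finite.iff_addGroup_fg.mpr inferInstance

/-- the canonical map to the additive abelianisation -/
def h1c_toAb : Additive Γ →+ h1c_Ab Γ :=
  MonoidHom.toAdditive (Abelianization.of (G := Γ))

/-- the span of the images of `P` -/
def h1c_K : Submodule ℤ (h1c_Ab Γ) :=
  Submodule.span ℤ ((fun p => h1c_toAb Γ (Additive.ofMul p)) '' P)

/-- **abstract lifting.**  For a finitely generated group `Γ` and a set `P ⊆ Γ` there is `t > 0`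
such that for every character `ψ` of `Γ` with values in the image of `π : ℤ → A`, trivial on `P`,
the character `t • ψ` lifts to an integral character which is trivial on `P`. -/
theorem h1c_lift_abs :
    ∃ t : ℕ, 0 < t ∧ ∀ (A : Type v) [AddCommGroup A] (π : ℤ →+ A) (ψ : Additive Γ →+ A),
      (∀ γ, ∃ k, π k = ψ γ) → (∀ p ∈ P, ψ (Additive.ofMul p) = 0) →
      ∃ φ : Additive Γ →+ ℤ, (∀ p ∈ P, φ (Additive.ofMul p) = 0) ∧ ∀ γ, π (φ γ) = t • ψ γ := by
  classical
  set K := h1c_K Γ P with hK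
  set T : Submodule ℤ (h1c_Ab Γ ⧸ K) := Submodule.torsion ℤ (h1c_Ab Γ ⧸ K) with hT
  have : Finite T := Module.finite_of_fg_torsion T (Submodule.torsion_isTorsion)
  refine ⟨Nat.card T, Nat.card_pos, ?_⟩
  intro A _ π ψ hrange hP
  -- restrict the codomain to the range of `π`
  let R : AddSubgroup A := π.range
  let πR : ℤ →ₗ[ℤ] R := (π.rangeRestrict).toIntLinearMap
  have hπR : Function.Surjective πR := π.rangeRestrict_surjective
  let ψR : Additive Γ →+ R := ψ.codRestrict R (fun γ => by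
    obtain ⟨k, hk⟩ := hrange γ
    exact ⟨k, hk⟩)
  -- descend to the abelianisation
  let ψ₁ : h1c_Ab Γ →ₗ[ℤ] R :=
    (MonoidHom.toAdditiveLeft
      (Abelianization.lift (AddMonoidHom.toMultiplicativeRight ψR))).toIntLinearMap
  have hψ₁ : ∀ γ : Additive Γ, ψ₁ (h1c_toAb Γ γ) = ψR γ := by
    intro γ
    rfl
  have hK₁ : K ≤ LinearMap.ker ψ₁ := by
    rw [hK, h1c_K, Submodule.span_le]
    rintro _ ⟨p, hp, rfl⟩
    rw [SetLike.mem_coe, LinearMap.mem_ker, hψ₁]
    exact Subtype.ext (hP p hp)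
  let ψ₂ : (h1c_Ab Γ ⧸ K) →ₗ[ℤ] R := K.liftQ ψ₁ hK₁
  have hT₂ : T ≤ LinearMap.ker ((Nat.card T : ℤ) • ψ₂) := by
    intro x hx
    rw [LinearMap.mem_ker, LinearMap.smul_apply, ← map_smul]
    have h1 : (Nat.card T) • (⟨x, hx⟩ : T) = 0 := card_nsmul_eq_zero'
    have h2 : (Nat.card T : ℤ) • x = 0 := by
      have := congrArg Subtype.val h1
      simpa using this
    rw [h2, map_zero]
  let ψ₃ : ((h1c_Ab Γ ⧸ K) ⧸ T) →ₗ[ℤ] R := T.liftQ ((Nat.card T : ℤ) • ψ₂) hT₂
  obtain ⟨h, hh⟩ := Module.projective_lifting_property πR ψ₃ hπR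
  refine ⟨(h ∘ₗ T.mkQ ∘ₗ K.mkQ).toAddMonoidHom.comp (h1c_toAb Γ), ?_, ?_⟩
  · intro p hp
    have : K.mkQ (h1c_toAb Γ (Additive.ofMul p)) = 0 := by
      rw [Submodule.mkQ_apply, Submodule.Quotient.mk_eq_zero]
      exact Submodule.subset_span ⟨p, hp, rfl⟩
    show h (T.mkQ (K.mkQ (h1c_toAb Γ (Additive.ofMul p)))) = 0
    rw [this, map_zero, map_zero]
  · intro γ
    have h1 : πR (h (T.mkQ (K.mkQ (h1c_toAb Γ γ)))) = ψ₃ (T.mkQ (K.mkQ (h1c_toAb Γ γ))) :=
      LinearMap.congr_fun hh _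
    have h2 : ψ₃ (T.mkQ (K.mkQ (h1c_toAb Γ γ))) = (Nat.card T : ℤ) • ψR γ := by
      show T.liftQ _ hT₂ (T.mkQ _) = _
      rw [Submodule.mkQ_apply, Submodule.liftQ_apply, LinearMap.smul_apply]
      show _ • K.liftQ ψ₁ hK₁ (K.mkQ _) = _
      rw [Submodule.mkQ_apply, Submodule.liftQ_apply, hψ₁]
    have h3 := congrArg Subtype.val (h1.trans h2)
    show π (h (T.mkQ (K.mkQ (h1c_toAb Γ γ)))) = _
    have h4 : ((πR (h (T.mkQ (K.mkQ (h1c_toAb Γ γ)))) : R) : A)
        = π (h (T.mkQ (K.mkQ (h1c_toAb Γ γ)))) := rfl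
    rw [← h4, h3]
    simp [ψR]

end Abs

/-! ### the modular group -/

instance h1c_instFGSL2Z : Group.FG SL(2, ℤ) :=
  Group.fg_iff.mpr ⟨{ModularGroup.S, ModularGroup.T},
    SpecialLinearGroup.SL2Z_generators, by simp⟩

instance h1c_instFGGamma0 (N : ℕ) [NeZero N] : Group.FG (Gamma0 N) :=
  Subgroup.fg_of_index_ne_zero (Gamma0 N)

/-- the root of unity `exp (2πi / n)` as a unit. -/
noncomputable def h1c_zeta (n : ℕ) : ℂˣ :=
  Units.mk0 (Complex.exp (2 * Real.pi * Complex.I / (n : ℂ))) (Complex.exp_ne_zero _)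

theorem h1c_zeta_zpow (n : ℕ) (k : ℤ) :
    ((h1c_zeta n ^ k : ℂˣ) : ℂ) = Complex.exp (2 * Real.pi * Complex.I * (k : ℂ) / (n : ℂ)) := by
  rw [Units.val_zpow_eq_zpow_val, h1c_zeta, Units.val_mk0, ← Complex.exp_int_mul]
  congr 1
  ring

/-- the homomorphism `k ↦ exp (2πi k / n)`. -/
noncomputable def h1c_pi (n : ℕ) : ℤ →+ Additive ℂˣ :=
  MonoidHom.toAdditiveRight (zpowersHom ℂˣ (h1c_zeta n))

theorem h1c_pi_apply (n : ℕ) (k : ℤ) :
    h1c_pi n k = Additive.ofMul (h1c_zeta n ^ k) := rfl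

/-- **LIFT.**  There is `t > 0` such that for every character `χ` of `Γ₀(N)` of order dividing
`n` which is trivial on the parabolic elements, `χ ^ t = exp (2πi φ / n)` with `φ` an integral
parabolic character. -/
theorem h1c_lift (N : ℕ) [NeZero N] :
    ∃ t : ℕ, 0 < t ∧ ∀ n : ℕ, 0 < n → ∀ χ : Gamma0 N →* ℂˣ, χ ^ n = 1 →
      (∀ γ : Gamma0 N, Fermat.Agent.Jac.IsPar γ → χ γ = 1) →
      ∃ φ : Additive (Gamma0 N) →+ ℤ, φ ∈ Period.parabolicHoms ℤ (Gamma0 N) ℤ ∧
        Fermat.Agent.Jac.IsExpChar N n φ (χ ^ t) := by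
  obtain ⟨t, ht, H⟩ := h1c_lift_abs.{0, 0} (Gamma0 N) {γ | Fermat.Agent.Jac.IsPar γ}
  refine ⟨t, ht, fun n hn χ hχ hpar => ?_⟩
  obtain ⟨φ, hφP, hφ⟩ := H (Additive ℂˣ) (h1c_pi n) (MonoidHom.toAdditive χ) (fun γ => by
      have h1 : (χ (Additive.toMul γ)) ^ n = 1 := by
        have := congrArg (fun f : Gamma0 N →* ℂˣ => f (Additive.toMul γ)) hχ
        simpa using this
      have h2 : ((χ (Additive.toMul γ) : ℂˣ) : ℂ) ^ n = 1 := by
        rw [← Units.val_pow_eq_pow_val, h1, Units.val_one]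
      have : NeZero n := ⟨hn.ne'⟩
      obtain ⟨i, -, hi⟩ := (Complex.mem_rootsOfUnity n _).mp
        ((mem_rootsOfUnity n _).mpr h1)
      refine ⟨(i : ℤ), ?_⟩
      rw [h1c_pi_apply]
      show Additive.ofMul (h1c_zeta n ^ (i : ℤ)) = Additive.ofMul (χ (Additive.toMul γ))
      congr 1
      apply Units.ext
      rw [h1c_zeta_zpow, ← hi]
      congr 1
      push_cast
      ring)
    (fun p hp => by
      show Additive.ofMul (χ p) = 0
      rw [hpar p hp]
      rfl)
  refine ⟨φ, fun γ hγ => hφP γ hγ, fun γ => ?_⟩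
  have h1 := hφ (Additive.ofMul γ)
  rw [h1c_pi_apply] at h1
  have h2 : h1c_zeta n ^ (φ (Additive.ofMul γ)) = (χ γ) ^ t := by
    have := congrArg Additive.toMul h1
    simpa using this
  rw [← h1c_zeta_zpow, h2]
  rfl

end Fermat.Agent.S35
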