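import Fermat.Agent.S35.GeomSkeleton
import Fermat.Agent.Red.HKComm.NormComp
import Fermat.Agent.Red.HKComm.Square
import Fermat.Agent.Red.HKComm.Gen
import Fermat.Agent.Red.GateAll

/-!
# S35, block GEOM, task G-DESC (helper29): the Frobenius gate at all levels

`h29s_frobGateDescent : FrobGateDescent`, i.e. `FrobGate → FrobGateAll`.

For a level `M` with `q ∤ M` let `M' = lcm M (auxLevel q)` (`goodLevel q M`), a good level with
`q ∤ M'`.  With the degeneracy inclusions `d₀ : F_M → F_{M'}`, `d₁ : F_{Mq} → F_{M'q}` the two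
squares

```
F_M  --α, β-->  F_{Mq}
 |d₀             |d₁
 v               v
F_M' --α',β'--> F_{M'q}
```

commute, have equal degrees `q + 1` and are generated (`F_{M'q} = K(j, j(q^{M'q}))` for `β`, and
by transport through the Fricke involution for `α`).  Hence the norms along `α` and `β` are
compatible with `d₀`, `d₁` (`norm_comp`); the gate at the level `M'` applied to `d₁ u` gives an
`m`-th root of `d₁ (fq u) ^ t'`, and its norm along `d₁` is an `m`-th root of
`fq u ^ (t' · [F_{M'q} : F_{Mq}])`.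
-/

set_option autoImplicit false
set_option linter.style.haveILetI false
set_option linter.unusedSectionVars false

open AlgebraicCurve ModularCurve IntermediateField

noncomputable section

namespace Fermat.Agent.S35

open Fermat.Agent.S37 (Kbar GQ FF cst gal CongOne auxLevel goodLevel degen coe_degen)
open Fermat.Agent.Red.KR (normAlong)
open Fermat.Agent.Red.Kron (kFricke)

/-! ### the degeneracy inclusions commute with `α`, `β`, the Fricke involution and Galois -/

section Squares

variable {N N' : ℕ} [NeZero N] [NeZero N'] (q : ℕ) [NeZero q] (h : N ∣ N')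

theorem h29s_alpha_degen (x : FF N) :
    heckeAlphaBar Kbar N' q (degen h x) =
      degen (mul_dvd_mul_right h q) (heckeAlphaBar Kbar N q x) :=
  Subtype.ext (by rw [coe_heckeAlphaBar, coe_degen, coe_degen, coe_heckeAlphaBar])

theorem h29s_beta_degen (x : FF N) :
    heckeBetaBar Kbar N' q (degen h x) =
      degen (mul_dvd_mul_right h q) (heckeBetaBar Kbar N q x) :=
  Subtype.ext (by rw [coe_heckeBetaBar, coe_degen, coe_degen, coe_heckeBetaBar])

theorem h29s_degen_cst {L L' : ℕ} [NeZero L] [NeZero L'] (h : L ∣ L') (a : Kbar) :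
    degen h (cst L a) = cst L' a :=
  (degen h).commutes a

/-- the degeneracy inclusion commutes with the Galois action. -/
theorem h29s_degen_gal {L L' : ℕ} [NeZero L] [NeZero L'] (h : L ∣ L') (σ : GQ) (u : FF L) :
    degen h (gal L σ • u) = gal L' σ • degen h u :=
  Subtype.ext (by
    rw [coe_degen]
    show _ = coeffMap (σ : Kbar →+* Kbar) ((degen h u : FF L') : LaurentSeries Kbar)
    rw [coe_degen]
    rfl)

/-- the degeneracy inclusion commutes with the Fricke involutions. -/
theorem h29s_fricke_degen (hq : q.Prime) (hN : ¬ q ∣ N) (hN' : ¬ q ∣ N') (f : FF (N * q)) :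
    kFricke N' q hq hN' (degen (mul_dvd_mul_right h q) f) =
      degen (mul_dvd_mul_right h q) (kFricke N q hq hN f) := by
  induction f using Fermat.Agent.Red.Kron.kFF_induction_ab N q hq with
  | hc a =>
    rw [Fermat.Agent.Red.Kron.kFricke_cst, h29s_degen_cst, Fermat.Agent.Red.Kron.kFricke_cst]
  | ha x =>
    rw [Fermat.Agent.Red.Kron.kFricke_alpha, ← h29s_alpha_degen q h,
      Fermat.Agent.Red.Kron.kFricke_alpha, h29s_beta_degen q h]
  | hb x =>
    rw [Fermat.Agent.Red.Kron.kFricke_beta, ← h29s_beta_degen q h,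
      Fermat.Agent.Red.Kron.kFricke_beta, h29s_alpha_degen q h]
  | hadd x y hx hy => rw [map_add, map_add, map_add, map_add, hx, hy]
  | hinv x hx => rw [map_inv₀, map_inv₀, map_inv₀, map_inv₀, hx]
  | hmul x y hx hy => rw [map_mul, map_mul, map_mul, map_mul, hx, hy]

end Squares

/-! ### norm compatibility -/

section NormCompat

variable {N N' : ℕ} [NeZero N] [NeZero N'] (q : ℕ) [NeZero q] (h : N ∣ N')

/-- generation of the `β`-square: `F_{N'q} = β'(F_{N'}) · d₁(F_{Nq})`. -/
theorem h29s_gen_beta :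
    (heckeBetaBar Kbar N' q).fieldRange ⊔ (degen (mul_dvd_mul_right h q)).fieldRange = ⊤ := by
  rw [eq_top_iff, ← Fermat.Agent.Red.HKComm.gen (N' * q), IntermediateField.adjoin_le_iff]
  rintro x hx
  rcases hx with rfl | hx
  · refine (le_sup_right : (degen (mul_dvd_mul_right h q)).fieldRange ≤ _) ?_
    refine ⟨Fermat.Agent.S24.jBar (N * q), ?_⟩
    exact Fermat.Agent.Red.GateAll.h99_degen_jB (mul_dvd_mul_right h q)
  · rw [Set.mem_singleton_iff] at hx
    subst hx
    refine (le_sup_left : (heckeBetaBar Kbar N' q).fieldRange ≤ _) ?_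
    refine ⟨Fermat.Agent.S24.jdBar N' N' dvd_rfl, ?_⟩
    show heckeBetaBar Kbar N' q (Fermat.Agent.S24.jdBar N' N' dvd_rfl) = _
    rw [← Fermat.Agent.Red.Kron.jdBar_eq_beta]
    exact Fermat.Agent.Red.HKComm.hksq_jdBar_congr (N' * q) (mul_comm q N') _ dvd_rfl

/-- generation of the `α`-square, by transport through the Fricke involution. -/
theorem h29s_gen_alpha (hq : q.Prime) (hN : ¬ q ∣ N) (hN' : ¬ q ∣ N') :
    (heckeAlphaBar Kbar N' q).fieldRange ⊔ (degen (mul_dvd_mul_right h q)).fieldRange = ⊤ := by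
  rw [eq_top_iff]
  intro z _
  have hz : kFricke N' q hq hN' z ∈
      (heckeBetaBar Kbar N' q).fieldRange ⊔ (degen (mul_dvd_mul_right h q)).fieldRange := by
    rw [h29s_gen_beta q h]
    exact IntermediateField.mem_top
  have key : ∀ y ∈ (heckeBetaBar Kbar N' q).fieldRange ⊔
      (degen (mul_dvd_mul_right h q)).fieldRange,
      kFricke N' q hq hN' y ∈ ((heckeAlphaBar Kbar N' q).fieldRange ⊔
        (degen (mul_dvd_mul_right h q)).fieldRange) := by
    intro y hy
    have hle : (heckeBetaBar Kbar N' q).fieldRange ⊔ (degen (mul_dvd_mul_right h q)).fieldRange ≤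
        ((heckeAlphaBar Kbar N' q).fieldRange ⊔
          (degen (mul_dvd_mul_right h q)).fieldRange).comap
            (kFricke N' q hq hN' : FF (N' * q) →ₐ[Kbar] FF (N' * q)) := by
      refine sup_le ?_ ?_
      · rintro _ ⟨x, rfl⟩
        have h1 : kFricke N' q hq hN' (heckeBetaBar Kbar N' q x) ∈
            ((heckeAlphaBar Kbar N' q).fieldRange ⊔
              (degen (mul_dvd_mul_right h q)).fieldRange) := by
          rw [Fermat.Agent.Red.Kron.kFricke_beta]
          exact (le_sup_left : (heckeAlphaBar Kbar N' q).fieldRange ≤ _) ⟨x, rfl⟩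
        exact h1
      · rintro _ ⟨x, rfl⟩
        have h1 : kFricke N' q hq hN' (degen (mul_dvd_mul_right h q) x) ∈
            ((heckeAlphaBar Kbar N' q).fieldRange ⊔
              (degen (mul_dvd_mul_right h q)).fieldRange) := by
          rw [h29s_fricke_degen q h hq hN hN']
          exact (le_sup_right : (degen (mul_dvd_mul_right h q)).fieldRange ≤ _) ⟨_, rfl⟩
        exact h1
    exact hle hy
  have := key _ hz
  rwa [Fermat.Agent.Red.Kron.kFricke_kFricke] at this

/-- **norm compatibility along `β`**: `Nm_{β'} (d₁ u) = d₀ (Nm_β u)`. -/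
theorem h29s_norm_beta (hq : q.Prime) (hN : ¬ q ∣ N) (hN' : ¬ q ∣ N') (u : FF (N * q)) :
    normAlong (heckeBetaBar Kbar N' q) (degen (mul_dvd_mul_right h q) u) =
      degen h (normAlong (heckeBetaBar Kbar N q) u) :=
  Fermat.Agent.Red.HKComm.norm_comp (heckeBetaBar Kbar N q) (degen h)
    (heckeBetaBar Kbar N' q) (degen (mul_dvd_mul_right h q))
    (AlgHom.ext fun x => h29s_beta_degen q h x)
    (Fermat.Agent.Red.HKMod.finiteAlong_heckeBetaBar N q)
    (Fermat.Agent.Red.HKMod.finiteAlong_heckeBetaBar N' q)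
    ((Fermat.Agent.Red.Kron.finrank_heckeBetaBar N' q hq hN').trans
      (Fermat.Agent.Red.Kron.finrank_heckeBetaBar N q hq hN).symm)
    (h29s_gen_beta q h) u

/-- **norm compatibility along `α`**: `Nm_{α'} (d₁ u) = d₀ (Nm_α u)`. -/
theorem h29s_norm_alpha (hq : q.Prime) (hN : ¬ q ∣ N) (hN' : ¬ q ∣ N') (u : FF (N * q)) :
    normAlong (heckeAlphaBar Kbar N' q) (degen (mul_dvd_mul_right h q) u) =
      degen h (normAlong (heckeAlphaBar Kbar N q) u) :=
  Fermat.Agent.Red.HKComm.norm_comp (heckeAlphaBar Kbar N q) (degen h)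
    (heckeAlphaBar Kbar N' q) (degen (mul_dvd_mul_right h q))
    (AlgHom.ext fun x => h29s_alpha_degen q h x)
    (Fermat.Agent.Red.HKMod.finiteAlong_heckeAlphaBar N q)
    (Fermat.Agent.Red.HKMod.finiteAlong_heckeAlphaBar N' q)
    ((Fermat.Agent.Red.Kron.finrank_heckeAlphaBar N' q hq hN').trans
      (Fermat.Agent.Red.Kron.finrank_heckeAlphaBar N q hq hN).symm)
    (h29s_gen_alpha q h hq hN hN') u

end NormCompat

/-! ### the descent -/

theorem h29s_normAlong_pow {K F F' : Type*} [Field K] [Field F] [Field F'] [Algebra K F]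
    [Algebra K F'] (φ : F →ₐ[K] F') (y : F') (n : ℕ) :
    normAlong φ (y ^ n) = normAlong φ y ^ n := by
  letI := algebraAlong φ
  exact map_pow (Algebra.norm F) y n

/-- the degeneracy inclusion commutes with the quartic of `σ`. -/
theorem h29s_degen_fq {L L' : ℕ} [NeZero L] [NeZero L'] (h : L ∣ L') (q : ℕ) (σ : GQ)
    (u : FF L) : degen h (fq L q σ u) = fq L' q σ (degen h u) := by
  unfold fq
  simp only [map_div₀, map_mul, map_pow, h29s_degen_gal]

/-- **G-DESC.**  The Frobenius gate at all levels from the gate at the good levels. -/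
theorem h29s_frobGateDescent : FrobGateDescent := by
  intro hG q hq M _ hqM
  haveI : NeZero q := ⟨hq.ne_zero⟩
  intro A hA σ hσ
  have hqM' : ¬ q ∣ goodLevel q M := Fermat.Agent.S37.not_dvd_goodLevel hq hqM
  have hdvd : M ∣ goodLevel q M := Fermat.Agent.S37.dvd_goodLevel q M
  obtain ⟨t', ht', hgate⟩ := hG q hq (goodLevel q M) hqM'
    (Fermat.Agent.S37.auxLevel_dvd_goodLevel q M) A hA σ hσ
  have hfin : FiniteAlong Kbar (degen (mul_dvd_mul_right hdvd q)) :=
    Fermat.Agent.Red.GateAll.h99_finiteAlong_degen _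
  have hD : 0 < finrankAlong Kbar (degen (mul_dvd_mul_right hdvd q)) := by
    letI := algebraAlong (degen (mul_dvd_mul_right hdvd q))
    haveI : Module.Finite (FF (M * q)) (FF (goodLevel q M * q)) := hfin
    exact Module.finrank_pos
  refine ⟨t' * finrankAlong Kbar (degen (mul_dvd_mul_right hdvd q)), Nat.mul_pos ht' hD, ?_⟩
  intro m hm u hu hord hα hβ
  obtain ⟨ha, hha⟩ := hα
  obtain ⟨hb, hhb⟩ := hβ
  have hu' : degen (mul_dvd_mul_right hdvd q) u ≠ 0 := by
    intro h0
    exact hu ((degen (mul_dvd_mul_right hdvd q)).toRingHom.injective (by simpa using h0))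
  have hord' : ∀ v : Place Kbar (FF (goodLevel q M * q)),
      (m : ℤ) ∣ v.ord (degen (mul_dvd_mul_right hdvd q) u) := by
    intro v
    rw [Place.ord_restrictAlong (degen (mul_dvd_mul_right hdvd q))
      (Fermat.Agent.Red.GateAll.h99_isIntegral_degen _) v u]
    exact Dvd.dvd.mul_left (hord _) _
  obtain ⟨H, hH⟩ := hgate m hm (degen (mul_dvd_mul_right hdvd q) u) hu' hord'
    ⟨degen hdvd ha, by rw [h29s_norm_alpha q hdvd hq hqM hqM', hha, map_pow]⟩
    ⟨degen hdvd hb, by rw [h29s_norm_beta q hdvd hq hqM hqM', hhb, map_pow]⟩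
  refine ⟨normAlong (degen (mul_dvd_mul_right hdvd q)) H, ?_⟩
  rw [← h29s_normAlong_pow, hH, ← h29s_degen_fq, ← map_pow,
    Fermat.Agent.Red.KR.normAlong_map, ← pow_mul]

end Fermat.Agent.S35
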