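import Fermat.Agent.Jac.CuspRoot
import Fermat.Agent.S24.CuspShift
import Fermat.Agent.S24.CuspEmb
import Fermat.Agent.S24.PlaceOfEmb
import Fermat.Agent.S24.AnRep
import Fermat.Agent.S28.CoeffAlg

/-!
# S35, HECKE-C, leaf C1 (KPAR): Kummer characters are trivial on parabolic elements

`h36x_kpar`: if all orders of `f ∈ F = FF N` at the places of `F` are divisible by `n` and `χ`
is the Kummer character of `f` (automorphy character of a holomorphic `n`-th root `A` of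
`P Q^(n-1)`, `f = P / Q`), then `χ γ = 1` for every `γ ∈ Γ₀(N)` with `trace² = 4`.

Proof.  `γ` acts on `ℍ` as `g⁻¹ T^k g` (`h36x_par_conj`).  `B = A ∘ g⁻¹` satisfies
`B (T^k τ) = χ(γ) B τ` and is `T^(nN)`-periodic, and `B^n = (P Q^(n-1)) ∘ g⁻¹` has an
expansion `s` in `𝕋 = exp (2πiτ/N)`.  Hence `B` has an expansion `s'` in
`exp (2πiτ/(nN))` (`Jac.h72_hasTExp_root`) with `ord s' = ord s`, and comparing the leading
coefficients of the expansions of `B ∘ T^k` gives `χ(γ) = exp (2πi k ord s / (nN))`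
(`h36x_eigen`).  Finally `nN ∣ k ord s`: `ord s = ord (E f) + n ord q` for the cusp embedding
`E` at `g`, `N ∣ k ord q` by the `T^k`-invariance of `Q ∘ g⁻¹`, and `ord (E f) = m v(f)` for a
place `v` (`S24.exists_place_of_emb`) with `n ∣ v(f)` and `N ∣ k m` (uniformiser).
-/

set_option autoImplicit false
set_option linter.unusedSectionVars false

open ModularCurve AlgebraicCurve UpperHalfPlane CongruenceSubgroup
open scoped MatrixGroups Manifold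

noncomputable section

namespace Fermat.Agent.S35

open Fermat.Agent.S24 (Kbar FF embC IsAn cst h58_zeta)
open Fermat.Agent.S28 (HasTExp tParam twist twistDil)
open Fermat.Agent.Jac (IsSel KummerChar HasChar IsPar)

/-! ### matrices -/

/-- an element of trace `± 2` is conjugate to an upper triangular matrix. -/
theorem h36x_exists_conj_upper (γ : SL(2, ℤ))
    (h : (γ : Matrix (Fin 2) (Fin 2) ℤ).trace ^ 2 = 4) :
    ∃ r : SL(2, ℤ), (r⁻¹ * γ * r) 1 0 = 0 := by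
  have hdet : γ 0 0 * γ 1 1 - γ 0 1 * γ 1 0 = 1 := by
    have := γ.det_coe
    rw [Matrix.det_fin_two] at this
    exact this
  have htr : (γ 0 0 + γ 1 1) ^ 2 = 4 := by
    rw [Matrix.trace_fin_two] at h
    exact h
  by_cases hc : γ 1 0 = 0
  · exact ⟨1, by simpa using hc⟩
  · have hg : 0 < Int.gcd (γ 0 0 - γ 1 1) (2 * γ 1 0) := by
      apply Int.gcd_pos_of_ne_zero_right
      intro h0
      apply hc
      omega
    obtain ⟨x, y, hxy, hX, hY⟩ := Int.exists_gcd_one hg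
    have hg0 : ((Int.gcd (γ 0 0 - γ 1 1) (2 * γ 1 0) : ℕ) : ℤ) ≠ 0 := by
      have : (0 : ℤ) < ((Int.gcd (γ 0 0 - γ 1 1) (2 * γ 1 0) : ℕ) : ℤ) := by exact_mod_cast hg
      exact this.ne'
    generalize ((Int.gcd (γ 0 0 - γ 1 1) (2 * γ 1 0) : ℕ) : ℤ) = g at hX hY hg0
    have hF : γ 1 0 * x ^ 2 + (γ 1 1 - γ 0 0) * x * y - γ 0 1 * y ^ 2 = 0 := by
      have h1 : g ^ 2 * (γ 1 0 * x ^ 2 + (γ 1 1 - γ 0 0) * x * y - γ 0 1 * y ^ 2) = 0 := by
        have e : g ^ 2 * (γ 1 0 * x ^ 2 + (γ 1 1 - γ 0 0) * x * y - γ 0 1 * y ^ 2)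
            = γ 1 0 * (x * g) ^ 2 + (γ 1 1 - γ 0 0) * (x * g) * (y * g)
              - γ 0 1 * (y * g) ^ 2 := by ring
        rw [e, ← hX, ← hY]
        have : γ 1 0 * (γ 0 0 - γ 1 1) ^ 2 + (γ 1 1 - γ 0 0) * (γ 0 0 - γ 1 1) * (2 * γ 1 0)
            - γ 0 1 * (2 * γ 1 0) ^ 2
            = -γ 1 0 * ((γ 0 0 + γ 1 1) ^ 2 - 4 * (γ 0 0 * γ 1 1 - γ 0 1 * γ 1 0)) := by ring
        rw [this, htr, hdet]
        ring
      rcases mul_eq_zero.mp h1 with h2 | h2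
      · exact absurd (pow_eq_zero_iff (two_ne_zero)|>.mp h2) hg0
      · exact h2
    have hbez : x * Int.gcdA x y + y * Int.gcdB x y = 1 := by
      have := Int.gcd_eq_gcd_ab x y
      rw [hxy] at this
      exact_mod_cast this.symm
    have hdetr : (!![x, -Int.gcdB x y; y, Int.gcdA x y] : Matrix (Fin 2) (Fin 2) ℤ).det = 1 := by
      rw [Matrix.det_fin_two_of]
      linarith
    obtain ⟨r, hr⟩ : ∃ r : SL(2, ℤ),
        (r : Matrix (Fin 2) (Fin 2) ℤ) = !![x, -Int.gcdB x y; y, Int.gcdA x y] :=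
      ⟨⟨_, hdetr⟩, rfl⟩
    refine ⟨r, ?_⟩
    simp only [Matrix.SpecialLinearGroup.coe_mul, Matrix.SpecialLinearGroup.coe_inv, hr,
        Matrix.adjugate_fin_two, Matrix.mul_apply, Fin.sum_univ_two]
    simp
    linear_combination hF

/-- an element of trace `± 2` acts on `ℍ` as a conjugate of a translation. -/
theorem h36x_par_conj (γ : SL(2, ℤ))
    (h : (γ : Matrix (Fin 2) (Fin 2) ℤ).trace ^ 2 = 4) :
    ∃ (g : SL(2, ℤ)) (k : ℤ), ∀ τ : ℍ, γ • τ = g⁻¹ • (ModularGroup.T ^ k • (g • τ)) := by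
  obtain ⟨r, hr⟩ := h36x_exists_conj_upper γ h
  obtain ⟨k, hk⟩ := ModularGroup.exists_eq_T_zpow_of_c_eq_zero hr
  refine ⟨r⁻¹, k, fun τ => ?_⟩
  rw [inv_inv, ← hk (r⁻¹ • τ), ← mul_smul, ← mul_smul]
  congr 1
  group

/-! ### roots of unity -/

theorem h36x_zeta_pow_eq_one_iff {N : ℕ} (hN : 0 < N) (k e : ℤ) :
    h58_zeta N k ^ e = 1 ↔ (N : ℤ) ∣ k * e := by
  have hN' : (N : ℂ) ≠ 0 := by exact_mod_cast hN.ne'
  have hpi : (2 * Real.pi * Complex.I : ℂ) ≠ 0 := Complex.two_pi_I_ne_zero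
  rw [h58_zeta, ← Complex.exp_int_mul, Complex.exp_eq_one_iff]
  constructor
  · rintro ⟨m, hm⟩
    have h3 : ((e : ℤ) : ℂ) * ((k : ℤ) : ℂ) = (m : ℂ) * (N : ℂ) := by
      have h4 : (2 * Real.pi * Complex.I : ℂ) * (((e : ℤ) : ℂ) * ((k : ℤ) : ℂ)) =
          (2 * Real.pi * Complex.I : ℂ) * ((m : ℂ) * (N : ℂ)) := by
        have hm' : ((e : ℤ) : ℂ) * (2 * Real.pi * Complex.I * ((k : ℤ) : ℂ) /
            (((1 : ℕ) : ℂ) * (N : ℂ))) * (N : ℂ) = (m : ℂ) * (2 * Real.pi * Complex.I) * (N : ℂ) := by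
          rw [hm]
        rw [Nat.cast_one, one_mul, mul_div_assoc', div_mul_cancel₀ _ hN'] at hm'
        linear_combination hm'
      exact mul_left_cancel₀ hpi h4
    have h5 : e * k = m * (N : ℤ) := by exact_mod_cast h3
    exact ⟨m, by rw [mul_comm, h5, mul_comm]⟩
  · rintro ⟨m, hm⟩
    refine ⟨m, ?_⟩
    have h5 : ((k : ℤ) : ℂ) * ((e : ℤ) : ℂ) = (N : ℂ) * (m : ℂ) := by exact_mod_cast hm
    rw [Nat.cast_one, one_mul]
    field_simp
    linear_combination h5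

/-! ### expansions and translations -/

/-- the eigenvalue of a translation on a function with an expansion. -/
theorem h36x_eigen {N : ℕ} (hN : 0 < N) {H : ℍ → ℂ} {s : LaurentSeries ℂ}
    (h : HasTExp N H s) (hs : s ≠ 0) (k : ℤ) (ζ : ℂ)
    (hper : ∀ τ : ℍ, H (ModularGroup.T ^ k • τ) = ζ * H τ) :
    ζ = h58_zeta N k ^ s.order := by
  have h1 := Fermat.Agent.S24.h58_hasTExp_comp_T_zpow hN h k
  have h2 : HasTExp N (fun τ => H (ModularGroup.T ^ k • τ)) (HahnSeries.C ζ * s) :=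
    (HasTExp.const_mul hN ζ h).congr (fun τ => (hper τ).symm)
  have he := HasTExp.unique hN h1 h2
  have hc := congrArg (fun t : LaurentSeries ℂ => t.coeff s.order) he
  simp only [Fermat.Agent.S28.coeff_twist, HahnSeries.C_mul_eq_smul, HahnSeries.coeff_smul,
    smul_eq_mul] at hc
  have hc0 := Fermat.Agent.S24.h58_coeff_order_ne_zero hs
  have h3 : s.coeff s.order * h58_zeta N k ^ s.order = s.coeff s.order * ζ := by
    rw [hc, mul_comm]
  exact (mul_left_cancel₀ hc0 h3).symm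

/-- a `T^k`-invariant function has `N ∣ k * order`. -/
theorem h36x_dvd_of_periodic {N : ℕ} (hN : 0 < N) {H : ℍ → ℂ} {s : LaurentSeries ℂ}
    (h : HasTExp N H s) (hs : s ≠ 0) (k : ℤ)
    (hper : ∀ τ : ℍ, H (ModularGroup.T ^ k • τ) = H τ) :
    (N : ℤ) ∣ k * s.order := by
  have h1 := h36x_eigen hN h hs k 1 (fun τ => by rw [hper τ, one_mul])
  exact (h36x_zeta_pow_eq_one_iff hN k s.order).mp h1.symm

/-! ### orders of the cusp embedding -/

section Cusp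

variable {N : ℕ} [NeZero N]

/-- the expansion at a cusp of a nonzero function is nonzero. -/
theorem h36x_series_ne_zero {G : ℍ → ℂ} (hG : G ≠ 0) (g : SL(2, ℤ)) {s : LaurentSeries ℂ}
    (h : HasTExp N (fun τ => G (g⁻¹ • τ)) s) : s ≠ 0 := by
  rintro rfl
  apply hG
  have h0 := Fermat.Agent.S24.h23_fun_eq_zero h
  funext τ
  have := congrFun h0 (g • τ)
  simpa using this

/-- `N ∣ k * ord (E u)` for the cusp embedding `E` at a cusp whose stabiliser contains (the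
image of) `g⁻¹ T^k g`. -/
theorem h36x_dvd_order_emb (g : SL(2, ℤ)) (k : ℤ)
    (hinv : ∀ (H : ℍ → ℂ), (∀ δ ∈ Gamma0 N, ∀ τ : ℍ, H (δ • τ) = H τ) →
      ∀ τ : ℍ, H (g⁻¹ • (ModularGroup.T ^ k • τ)) = H (g⁻¹ • τ))
    (u : FF N) (hu : u ≠ 0) :
    (N : ℤ) ∣ k * (Fermat.Agent.S24.h19_cuspEmb N g u).order := by
  have hN : 0 < N := Nat.pos_of_ne_zero (NeZero.ne N)
  obtain ⟨P, Q, hPQ⟩ := Fermat.Agent.S24.exists_isAn N u
  obtain ⟨p, hp⟩ := hPQ.expP g⁻¹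
  obtain ⟨q, hq⟩ := hPQ.expQ g⁻¹
  have hrel := Fermat.Agent.S24.h19_cuspEmb_mul_eq N g u P Q p q hPQ hp hq
  have hq0 : q ≠ 0 := h36x_series_ne_zero hPQ.Q_ne g hq
  have hE0 : Fermat.Agent.S24.h19_cuspEmb N g u ≠ 0 := (map_ne_zero _).mpr hu
  have hp0 : p ≠ 0 := by rw [← hrel]; exact mul_ne_zero hE0 hq0
  have hord : p.order = (Fermat.Agent.S24.h19_cuspEmb N g u).order + q.order := by
    rw [← hrel, HahnSeries.order_mul hE0 hq0]
  have h1 := h36x_dvd_of_periodic hN hp hp0 k (hinv P hPQ.invP)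
  have h2 := h36x_dvd_of_periodic hN hq hq0 k (hinv Q hPQ.invQ)
  have e : k * (Fermat.Agent.S24.h19_cuspEmb N g u).order = k * p.order - k * q.order := by
    rw [hord]; ring
  rw [e]
  exact dvd_sub h1 h2

/-- `n N ∣ k * ord (E f)` when all orders of `f` at places are divisible by `n`. -/
theorem h36x_dvd_order_sel (g : SL(2, ℤ)) (k : ℤ)
    (hinv : ∀ (H : ℍ → ℂ), (∀ δ ∈ Gamma0 N, ∀ τ : ℍ, H (δ • τ) = H τ) →
      ∀ τ : ℍ, H (g⁻¹ • (ModularGroup.T ^ k • τ)) = H (g⁻¹ • τ))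
    {n : ℕ} {f : FF N} (hf : IsSel N n f) :
    ((n : ℤ) * (N : ℤ)) ∣ k * (Fermat.Agent.S24.h19_cuspEmb N g f).order := by
  by_cases ht : ∃ t : FF N, 0 < (Fermat.Agent.S24.h19_cuspEmb N g t).order
  · obtain ⟨t, ht⟩ := ht
    obtain ⟨v, m, -, hm⟩ :=
      Fermat.Agent.S24.exists_place_of_emb (K := Kbar) (F := FF N) t embC
        (Fermat.Agent.S24.h19_cuspEmb N g) (Fermat.Agent.S24.h19_cuspEmb_cst N g) ht
    obtain ⟨π, hπ⟩ := IsDiscreteValuationRing.exists_irreducible v.toValuationSubring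
    have hπ1 : v.ord (π : FF N) = 1 := v.ord_coe_irreducible hπ
    have hπ0 : (π : FF N) ≠ 0 := fun h0 => hπ.ne_zero (Subtype.ext h0)
    have h1 := h36x_dvd_order_emb g k hinv (π : FF N) hπ0
    rw [hm _ hπ0, hπ1, mul_one] at h1
    obtain ⟨d, hd⟩ := hf.2 v
    obtain ⟨c, hc⟩ := h1
    rw [hm f hf.1, hd]
    refine ⟨c * d, ?_⟩
    linear_combination ((n : ℤ) * d) * hc
  · have h0 : (Fermat.Agent.S24.h19_cuspEmb N g f).order = 0 := by
      have h1 : (Fermat.Agent.S24.h19_cuspEmb N g f).order ≤ 0 := by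
        by_contra hpos
        exact ht ⟨f, not_le.mp hpos⟩
      have h2 : (Fermat.Agent.S24.h19_cuspEmb N g f⁻¹).order ≤ 0 := by
        by_contra hpos
        exact ht ⟨f⁻¹, not_le.mp hpos⟩
      rw [Fermat.Agent.S24.h87_order_map_inv] at h2
      omega
    rw [h0, mul_zero]
    exact dvd_zero _

end Cusp

/-! ### the theorem -/

/-- **KPAR.**  The Kummer character of a function all of whose orders are divisible by `n` is
trivial on the elements of trace `± 2` of `Γ₀(N)`. -/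
theorem h36x_kpar (N : ℕ) [NeZero N] (n : ℕ) (hn : 0 < n) (f : FF N) (hf : IsSel N n f)
    (χ : Gamma0 N →* ℂˣ) (hχ : KummerChar N n f χ) (γ : Gamma0 N) (hγ : IsPar γ) :
    χ γ = 1 := by
  have hN : 0 < N := Nat.pos_of_ne_zero (NeZero.ne N)
  have : NeZero n := ⟨hn.ne'⟩
  have hN₁ : 0 < n * N := Nat.mul_pos hn hN
  obtain ⟨P, Q, A, hPQ, hA, hpow, hchar⟩ := hχ
  obtain ⟨g, k, hconj⟩ := h36x_par_conj (γ : SL(2, ℤ)) hγ
  -- invariant functions are `T^k`-periodic at the cusp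
  have hinv : ∀ (H : ℍ → ℂ), (∀ δ ∈ Gamma0 N, ∀ τ : ℍ, H (δ • τ) = H τ) →
      ∀ τ : ℍ, H (g⁻¹ • (ModularGroup.T ^ k • τ)) = H (g⁻¹ • τ) := by
    intro H hH τ
    have h1 := hconj (g⁻¹ • τ)
    rw [smul_inv_smul] at h1
    rw [← h1]
    exact hH _ γ.2 _
  -- expansions
  obtain ⟨p, hp⟩ := hPQ.expP g⁻¹
  obtain ⟨q, hq⟩ := hPQ.expQ g⁻¹
  have hrel := Fermat.Agent.S24.h19_cuspEmb_mul_eq N g f P Q p q hPQ hp hq
  have hq0 : q ≠ 0 := h36x_series_ne_zero hPQ.Q_ne g hq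
  have hE0 : Fermat.Agent.S24.h19_cuspEmb N g f ≠ 0 := (map_ne_zero _).mpr hf.1
  have hp0 : p ≠ 0 := by rw [← hrel]; exact mul_ne_zero hE0 hq0
  have hs0 : p * q ^ (n - 1) ≠ 0 := mul_ne_zero hp0 (pow_ne_zero _ hq0)
  have hBmd : MDiff (fun τ : ℍ => A (g⁻¹ • τ)) := Fermat.Agent.Jac.h72_mdiff_comp_smul hA g⁻¹
  have hHexp : HasTExp N (fun τ => A (g⁻¹ • τ) ^ n) (p * q ^ (n - 1)) :=
    (hp.mul hN (hq.pow hN (n - 1))).congr (fun τ => by
      simp only [Pi.mul_apply, Pi.pow_apply]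
      exact (hpow _).symm)
  -- the eigen-relation
  have hBk : ∀ τ : ℍ, A (g⁻¹ • (ModularGroup.T ^ k • τ)) = (χ γ : ℂ) * A (g⁻¹ • τ) := by
    intro τ
    have h1 := hconj (g⁻¹ • τ)
    rw [smul_inv_smul] at h1
    rw [← h1]
    exact hchar γ _
  -- a point where `B ≠ 0`
  obtain ⟨τ₀, hτ₀⟩ : ∃ τ₀ : ℍ, A (g⁻¹ • τ₀) ≠ 0 := by
    by_contra hcon
    have hcon' : ∀ τ : ℍ, A (g⁻¹ • τ) = 0 := fun τ => by
      by_contra h
      exact hcon ⟨τ, h⟩
    apply hs0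
    refine Fermat.Agent.S28.HasTExp.eq_zero hN (hHexp.congr (fun τ => ?_))
    rw [hcon' τ, zero_pow hn.ne']
  -- periodicity
  have hδ := Fermat.Agent.Jac.h72_conj_T_pow_mem N g⁻¹
  have hBN : ∀ τ : ℍ, A (g⁻¹ • (ModularGroup.T ^ (N : ℤ) • τ))
      = (χ ⟨g⁻¹ * ModularGroup.T ^ (N : ℤ) * g⁻¹⁻¹, hδ⟩ : ℂ) * A (g⁻¹ • τ) := by
    intro τ
    have h1 := hchar ⟨g⁻¹ * ModularGroup.T ^ (N : ℤ) * g⁻¹⁻¹, hδ⟩ (g⁻¹ • τ)
    have h2 : (g⁻¹ * ModularGroup.T ^ (N : ℤ) * g⁻¹⁻¹) • (g⁻¹ • τ)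
        = g⁻¹ • (ModularGroup.T ^ (N : ℤ) • τ) := by
      rw [inv_inv, mul_smul, mul_smul, smul_inv_smul]
    rw [← h2]
    exact h1
  have hχδ : (χ ⟨g⁻¹ * ModularGroup.T ^ (N : ℤ) * g⁻¹⁻¹, hδ⟩ : ℂ) ^ n = 1 := by
    have h1 := congrArg (fun z : ℂ => z ^ n) (hBN τ₀)
    simp only [mul_pow] at h1
    rw [hpow, hpow] at h1
    have h2 : P (g⁻¹ • (ModularGroup.T ^ (N : ℤ) • τ₀)) = P (g⁻¹ • τ₀) := by
      have h3 : g⁻¹ • (ModularGroup.T ^ (N : ℤ) • τ₀)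
          = (g⁻¹ * ModularGroup.T ^ (N : ℤ) * g⁻¹⁻¹) • (g⁻¹ • τ₀) := by
        rw [inv_inv, mul_smul, mul_smul, smul_inv_smul]
      rw [h3]
      exact hPQ.invP _ hδ _
    have h2' : Q (g⁻¹ • (ModularGroup.T ^ (N : ℤ) • τ₀)) = Q (g⁻¹ • τ₀) := by
      have h3 : g⁻¹ • (ModularGroup.T ^ (N : ℤ) • τ₀)
          = (g⁻¹ * ModularGroup.T ^ (N : ℤ) * g⁻¹⁻¹) • (g⁻¹ • τ₀) := by
        rw [inv_inv, mul_smul, mul_smul, smul_inv_smul]
      rw [h3]
      exact hPQ.invQ _ hδ _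
    rw [h2, h2'] at h1
    have h4 : P (g⁻¹ • τ₀) * Q (g⁻¹ • τ₀) ^ (n - 1) ≠ 0 := by
      rw [← hpow]
      exact pow_ne_zero _ hτ₀
    have h5 : (1 : ℂ) * (P (g⁻¹ • τ₀) * Q (g⁻¹ • τ₀) ^ (n - 1))
        = (χ ⟨g⁻¹ * ModularGroup.T ^ (N : ℤ) * g⁻¹⁻¹, hδ⟩ : ℂ) ^ n
          * (P (g⁻¹ • τ₀) * Q (g⁻¹ • τ₀) ^ (n - 1)) := by
      rw [one_mul]
      exact h1
    exact (mul_right_cancel₀ h4 h5).symm
  have hiter : ∀ (j : ℕ) (τ : ℍ), A (g⁻¹ • ((ModularGroup.T ^ (N : ℤ)) ^ j • τ))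
      = (χ ⟨g⁻¹ * ModularGroup.T ^ (N : ℤ) * g⁻¹⁻¹, hδ⟩ : ℂ) ^ j * A (g⁻¹ • τ) := by
    intro j
    induction j with
    | zero => intro τ; simp
    | succ j ih =>
      intro τ
      rw [pow_succ', mul_smul, hBN, ih, pow_succ]
      ring
  have hper : ∀ τ : ℍ, (fun τ : ℍ => A (g⁻¹ • τ)) (((n * N : ℕ) : ℝ) +ᵥ τ)
      = (fun τ : ℍ => A (g⁻¹ • τ)) τ := by
    intro τ
    have h1 : (((n * N : ℕ) : ℝ) +ᵥ τ) = (ModularGroup.T ^ (N : ℤ)) ^ n • τ := by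
      rw [← zpow_natCast, ← zpow_mul, UpperHalfPlane.modular_T_zpow_smul]
      congr 1
      push_cast
      ring
    show A (g⁻¹ • (((n * N : ℕ) : ℝ) +ᵥ τ)) = A (g⁻¹ • τ)
    rw [h1, hiter n τ, hχδ, one_mul]
  -- change of level
  have hHexp₁ := hHexp.affine (M := N) (N := n * N) (a := 1) (d := 1) (e := n) (b := 0)
    one_pos hN hN₁ (by ring) id (fun τ => by simp)
  have hω : Complex.exp (2 * Real.pi * Complex.I * ((0 : ℤ) : ℂ) / (((1 : ℕ) : ℂ) * (N : ℂ))) ≠ 0 :=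
    Complex.exp_ne_zero _
  obtain ⟨s', hs'⟩ := Fermat.Agent.Jac.h72_hasTExp_root hN₁ hn hBmd hper (fun τ => rfl) hHexp₁
  have hpow' := Fermat.Agent.S28.HasTExp.unique hN₁ (hs'.pow hN₁ n)
    (hHexp₁.congr (fun τ => by simp))
  have hs₁0 := Fermat.Agent.S28.twistDil_ne_zero hω n hs0
  have hs'0 : s' ≠ 0 := by
    rintro rfl
    rw [zero_pow hn.ne'] at hpow'
    exact hs₁0 hpow'.symm
  have hord : s'.order = (p * q ^ (n - 1)).order := by
    have h1 := congrArg HahnSeries.order hpow'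
    rw [HahnSeries.order_pow, Fermat.Agent.S28.order_twistDil hω, nsmul_eq_mul] at h1
    have hn' : (n : ℤ) ≠ 0 := by exact_mod_cast hn.ne'
    exact mul_left_cancel₀ hn' h1
  -- the eigenvalue
  have heig := h36x_eigen hN₁ hs' hs'0 k (χ γ : ℂ) hBk
  have hdvd : ((n * N : ℕ) : ℤ) ∣ k * s'.order := by
    rw [hord, HahnSeries.order_mul hp0 (pow_ne_zero _ hq0), HahnSeries.order_pow,
      nsmul_eq_mul]
    have hpo : p.order = (Fermat.Agent.S24.h19_cuspEmb N g f).order + q.order := by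
      rw [← hrel, HahnSeries.order_mul hE0 hq0]
    have h1 := h36x_dvd_order_sel g k hinv hf
    have h2 := h36x_dvd_of_periodic hN hq hq0 k (hinv Q hPQ.invQ)
    obtain ⟨a, ha⟩ := h1
    obtain ⟨b, hb⟩ := h2
    refine ⟨a + b, ?_⟩
    have hcast : ((n - 1 : ℕ) : ℤ) = (n : ℤ) - 1 := by
      have : 1 ≤ n := hn
      push_cast [Nat.cast_sub this]
      ring
    rw [hpo, hcast]
    push_cast
    linear_combination ha + (n : ℤ) * hb
  have hone : (χ γ : ℂ) = 1 := by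
    rw [heig]
    exact (h36x_zeta_pow_eq_one_iff hN₁ k s'.order).mpr hdvd
  exact Units.ext hone

end Fermat.Agent.S35
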