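import Fermat.Agent.S35.GeomSkeleton
import Fermat.Agent.LGC.Res44
import Fermat.Agent.Red.GateGoodOf

/-!
# S35, block TOR: the glue APPROX (helper4)

`q ∤ M` prime, `A` over `q`, `w = kFricke M q`, `W_∞ = softV A (M q)`, `W_0 = w W_∞`.

* `h4a_pow_mul` (rank one): for `ε` in the maximal ideal of `W_∞`, `ε ≠ 0`, and any `y`, some
  power `ε ^ n * y` lies in the maximal ideal of `W_∞`.
* `h4a_approx` : if `z` is `TorFun` for `m ≠ 0`, then there are a constant `c ≠ 0` and a function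
  `H ≠ 0` such that `w := c z / H ^ m` is `≡ 1` for BOTH Gauss valuations
  (`CongOne A w` and `CongOne A (kFricke w)`).
* `h4a_approx'` : the same with the hypothesis `¬ q ∣ m` of `TorGate`.
-/

set_option autoImplicit false
set_option linter.style.haveILetI false
set_option linter.unusedSectionVars false
set_option synthInstance.maxHeartbeats 400000

open AlgebraicCurve ModularCurve IsLocalRing

noncomputable section

namespace Fermat.Agent.S35

open Fermat.Agent.S37 Fermat.Agent.Red Fermat.Agent.Red.GV Fermat.Agent.Red.GV.Soft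
  Fermat.Agent.Red.Kron Fermat.Agent.LGC

section Soft

variable (A : ValuationSubring Kbar) (N : ℕ) {ℓ : ℕ}

/-- a unit of the soft Gauss ring: its inverse and the reduction of the inverse. -/
theorem h4a_softR_inv (x : softV A N) (hx : softR A N x ≠ 0) :
    ∃ h : (x : FF N)⁻¹ ∈ softV A N, softR A N ⟨_, h⟩ = (softR A N x)⁻¹ := by
  have hn := (softR_ne_zero_iff A N x).mp hx
  refine ⟨hn.2, ?_⟩
  have e : (⟨_, hn.2⟩ : softV A N) * x = 1 := Subtype.ext (inv_mul_cancel₀ hn.1)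
  have h1 := congrArg (softR A N) e
  rw [map_mul, map_one] at h1
  exact eq_inv_of_mul_eq_one_left h1

/-- a nonzero element of the maximal ideal of the Gauss ring is `d · unit` with
`d ∈ 𝔪_A`, `d ≠ 0`. -/
theorem h4a_nonunit_scale (hℓ : ℓ.Prime) (hA : A.LiesOverPrime ℓ) (ε : FF N) (hε0 : ε ≠ 0)
    (hε : ε ∈ softV A N) (hεr : softR A N ⟨ε, hε⟩ = 0) :
    ∃ d : Kbar, d ≠ 0 ∧ d ∈ A.nonunits ∧ ∃ u : FF N, u ∈ softV A N ∧ ε = cst N d * u := by
  obtain ⟨c, hc, hu, hui⟩ := exists_cst_mul_unit_soft A N hℓ hA ε hε0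
  have hcst : cst N c ≠ 0 := by
    simpa only [cst, ne_eq, map_eq_zero] using hc
  have hd : cst N c⁻¹ = ε * (cst N c * ε)⁻¹ := by
    rw [cst, map_inv₀, mul_inv, mul_comm ε, mul_assoc, inv_mul_cancel₀ hε0, mul_one]
  have hdV : cst N c⁻¹ ∈ softV A N := by
    rw [hd]
    exact mul_mem hε hui
  have hdA : c⁻¹ ∈ A := (cst_mem_softV_iff A N c⁻¹).mp hdV
  have hdr : softR A N ⟨cst N c⁻¹, hdV⟩ = 0 := by
    have e : (⟨cst N c⁻¹, hdV⟩ : softV A N) = ⟨ε, hε⟩ * ⟨_, hui⟩ := Subtype.ext hd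
    rw [e, map_mul, hεr, zero_mul]
  have hdn : c⁻¹ ∈ A.nonunits := by
    by_contra hnot
    have hunit : IsUnit (⟨c⁻¹, hdA⟩ : A) := by
      by_contra hnu
      apply hnot
      rw [ValuationSubring.mem_nonunits_iff_exists_mem_maximalIdeal]
      exact ⟨hdA, (mem_maximalIdeal _).mpr hnu⟩
    have h1 := softR_cst A N ⟨c⁻¹, hdA⟩ hdV
    rw [hdr] at h1
    have h2 : IsLocalRing.residue A ⟨c⁻¹, hdA⟩ = 0 := by
      have := congrArg (fun s : LaurentSeries (IsLocalRing.ResidueField A) => s.coeff 0) h1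
      simpa using this.symm
    rw [IsLocalRing.residue_eq_zero_iff] at h2
    exact ((mem_maximalIdeal _).mp h2) hunit
  refine ⟨c⁻¹, inv_ne_zero hc, hdn, cst N c * ε, hu, ?_⟩
  rw [cst, cst, map_inv₀, ← mul_assoc, inv_mul_cancel₀ hcst, one_mul]

/-- **rank one**: for `ε ≠ 0` in the maximal ideal of the Gauss ring and any `y`, some
`ε ^ n * y` lies in the maximal ideal of the Gauss ring. -/
theorem h4a_pow_mul (hℓ : ℓ.Prime) (hA : A.LiesOverPrime ℓ) (ε : FF N) (hε0 : ε ≠ 0)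
    (hε : ε ∈ softV A N) (hεr : softR A N ⟨ε, hε⟩ = 0) (y : FF N) :
    ∃ (n : ℕ) (h : ε ^ n * y ∈ softV A N), softR A N ⟨_, h⟩ = 0 := by
  by_cases hy : y = 0
  · subst hy
    have h0 : ε ^ 0 * (0 : FF N) ∈ softV A N := by rw [mul_zero]; exact zero_mem _
    refine ⟨0, h0, ?_⟩
    have e : (⟨ε ^ 0 * (0 : FF N), h0⟩ : softV A N) = 0 := Subtype.ext (mul_zero _)
    rw [e, map_zero]
  obtain ⟨d, hd0, hdn, u, hu, hεu⟩ := h4a_nonunit_scale A N hℓ hA ε hε0 hε hεr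
  obtain ⟨c, hc, hv, -⟩ := exists_cst_mul_unit_soft A N hℓ hA y hy
  have hdA : d ∈ A := A.nonunits_subset hdn
  -- a power of `d` absorbs `c⁻¹`
  obtain ⟨n, hn⟩ : ∃ n : ℕ, d ^ n * c⁻¹ ∈ A.nonunits := by
    have hdv : A.valuation d < 1 := (ValuationSubring.mem_nonunits_iff A).mp hdn
    by_cases hcA : c⁻¹ ∈ A
    · refine ⟨1, ?_⟩
      rw [ValuationSubring.mem_nonunits_iff, pow_one, map_mul]
      exact mul_lt_one_of_nonneg_of_lt_one_left zero_le hdv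
        ((ValuationSubring.valuation_le_one_iff A _).mpr hcA)
    · have hcA' : c ∈ A := by
        rcases A.mem_or_inv_mem c with h | h
        · exact h
        · exact absurd h hcA
      have hdm : (⟨d, hdA⟩ : A) ∈ maximalIdeal A := by
        have := (ValuationSubring.mem_nonunits_iff_exists_mem_maximalIdeal).mp hdn
        obtain ⟨h1, h2⟩ := this
        exact h2
      have hd0' : (⟨d, hdA⟩ : A) ≠ 0 := fun h => hd0 (congrArg Subtype.val h)
      have hc0' : (⟨c, hcA'⟩ : A) ≠ 0 := fun h => hc (congrArg Subtype.val h)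
      obtain ⟨k, a', hk⟩ := Fermat.Agent.Red.GG.harch_of_liesOver A hℓ hA _ hdm hd0' _ hc0'
      have hk' : d ^ k = c * (a' : Kbar) := by
        have := congrArg Subtype.val hk
        simpa using this
      refine ⟨k + 1, ?_⟩
      have e : d ^ (k + 1) * c⁻¹ = d * (a' : Kbar) := by
        rw [pow_succ, hk']
        field_simp
      rw [e, ValuationSubring.mem_nonunits_iff, map_mul]
      exact mul_lt_one_of_nonneg_of_lt_one_left zero_le hdv
        ((ValuationSubring.valuation_le_one_iff A _).mpr a'.2)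
  have hnA : d ^ n * c⁻¹ ∈ A := A.nonunits_subset hn
  have hcstV : cst N (d ^ n * c⁻¹) ∈ softV A N := (cst_mem_softV_iff A N _).mpr hnA
  have hcst0 := softR_cst_of_nonunit A N _ hn hcstV
  have hcstc : cst N c ≠ 0 := by
    simpa only [cst, ne_eq, map_eq_zero] using hc
  have key : ε ^ n * y = cst N (d ^ n * c⁻¹) * (u ^ n * (cst N c * y)) := by
    rw [hεu, mul_pow, cst, cst, cst, map_mul, map_pow, map_inv₀]
    field_simp
  have hmem : ε ^ n * y ∈ softV A N := by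
    rw [key]
    exact mul_mem hcstV (mul_mem (pow_mem hu n) hv)
  refine ⟨n, hmem, ?_⟩
  have e : (⟨ε ^ n * y, hmem⟩ : softV A N) =
      ⟨_, hcstV⟩ * (⟨u, hu⟩ ^ n * ⟨_, hv⟩) := Subtype.ext key
  rw [e, map_mul, hcst0, zero_mul]

end Soft

section Approx

variable (A : ValuationSubring Kbar) (M q : ℕ) [NeZero M] [NeZero q]

/-- **APPROX.**  A function `z` in the toric part (`TorFun`, `m ≠ 0`) has a representative
`w = c z / H ^ m` which is `≡ 1` for both Gauss valuations. -/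
theorem h4a_approx (hq : q.Prime) (hqM : ¬ q ∣ M) (hA : A.LiesOverPrime q) (m : ℕ)
    (hm : m ≠ 0) (z : FF (M * q)) (hz : TorFun A M q hq hqM m z) :
    ∃ (c : Kbar) (H : FF (M * q)), c ≠ 0 ∧ H ≠ 0 ∧
      CongOne A (cst (M * q) c * z * (H ^ m)⁻¹) ∧
      CongOne A (kFricke M q hq hqM (cst (M * q) c * z * (H ^ m)⁻¹)) := by
  obtain ⟨⟨c₁, h₁, hc₁, hh₁, hC₁⟩, ⟨c₂, h₂, hc₂, hh₂, hC₂⟩⟩ := hz
  obtain ⟨hw₁, hr₁⟩ := (congOne_iff_softR A (M * q) _).mp hC₁
  obtain ⟨hw₂, hr₂⟩ := (congOne_iff_softR A (M * q) _).mp hC₂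
  -- the constant `b`, `b ^ m = c₁ / c₂`
  obtain ⟨b, hb⟩ := IsAlgClosed.exists_pow_nat_eq (c₁ / c₂) (Nat.pos_of_ne_zero hm)
  have hb0 : b ≠ 0 := by
    intro h
    rw [h, zero_pow hm] at hb
    exact div_ne_zero hc₁ hc₂ hb.symm
  have hcb : cst (M * q) b ≠ 0 := by
    simpa only [cst, ne_eq, map_eq_zero] using hb0
  have hcc₂ : cst (M * q) c₂ ≠ 0 := by
    simpa only [cst, ne_eq, map_eq_zero] using hc₂
  have hcstb : cst (M * q) c₁ = cst (M * q) c₂ * cst (M * q) b ^ m := by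
    rw [cst, cst, cst, ← map_pow, ← map_mul, hb]
    congr 1
    field_simp
  -- the separating element
  obtain ⟨he, hwe, hre, hrwe⟩ := h44r_sep A M q hq hqM hA
  set e := h44r_e M q with hedef
  set W := kFricke M q hq hqM with hWdef
  have hWW : ∀ x, W (W x) = x := fun x => kFricke_kFricke M q hq hqM x
  have hWcst : ∀ a : Kbar, W (cst (M * q) a) = cst (M * q) a := fun a =>
    kFricke_cst M q hq hqM a
  have hWe' : W (1 - e) = 1 - W e := by rw [map_sub, map_one]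
  -- `ε₁ = 1 - e`, `ε₂ = w e`
  have hε₁ : 1 - e ∈ softV A (M * q) := sub_mem (one_mem _) he
  have hrε₁ : softR A (M * q) ⟨1 - e, hε₁⟩ = 0 := by
    have e1 : (⟨1 - e, hε₁⟩ : softV A (M * q)) = 1 - ⟨e, he⟩ := rfl
    rw [e1, map_sub, map_one, hre, sub_self]
  have hWε₁ : 1 - W e ∈ softV A (M * q) := sub_mem (one_mem _) hwe
  have hrWε₁ : softR A (M * q) ⟨1 - W e, hWε₁⟩ = 1 := by
    have e1 : (⟨1 - W e, hWε₁⟩ : softV A (M * q)) = 1 - ⟨W e, hwe⟩ := rfl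
    rw [e1, map_sub, map_one, hrwe, sub_zero]
  have he0 : e ≠ 0 := by
    intro h
    have e1 : (⟨e, he⟩ : softV A (M * q)) = 0 := Subtype.ext h
    rw [e1, map_zero] at hre
    exact zero_ne_one hre
  have hWe0 : W e ≠ 0 := (map_ne_zero W).mpr he0
  have hε₁0 : 1 - e ≠ 0 := by
    intro h
    have h1 : 1 - W e = 0 := by rw [← hWe', h, map_zero]
    have e1 : (⟨1 - W e, hWε₁⟩ : softV A (M * q)) = 0 := Subtype.ext h1
    rw [e1, map_zero] at hrWε₁
    exact zero_ne_one hrWε₁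
  -- the two error terms
  obtain ⟨N', hN', hrN'⟩ := h4a_pow_mul A (M * q) hq hA (1 - e) hε₁0 hε₁ hrε₁
    (cst (M * q) b * W h₂ * h₁⁻¹)
  obtain ⟨N, hN, hrN⟩ := h4a_pow_mul A (M * q) hq hA (W e) hWe0 hwe hrwe
    (W h₁ * (cst (M * q) b * h₂)⁻¹)
  -- the function `H`
  obtain ⟨H, hH⟩ : ∃ H : FF (M * q),
      H = e ^ N * h₁ + (1 - e) ^ N' * (cst (M * q) b * W h₂) := ⟨_, rfl⟩
  have hWh₂0 : W h₂ ≠ 0 := (map_ne_zero W).mpr hh₂
  -- (A) `H / h₁ ≡ 1` on `W_∞`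
  have hA1 : H * h₁⁻¹ = e ^ N + (1 - e) ^ N' * (cst (M * q) b * W h₂ * h₁⁻¹) := by
    rw [hH]
    field_simp
  have hAmem : H * h₁⁻¹ ∈ softV A (M * q) := by
    rw [hA1]
    exact add_mem (pow_mem he N) hN'
  have hAr : softR A (M * q) ⟨H * h₁⁻¹, hAmem⟩ = 1 := by
    have e1 : (⟨H * h₁⁻¹, hAmem⟩ : softV A (M * q)) = ⟨e, he⟩ ^ N + ⟨_, hN'⟩ :=
      Subtype.ext hA1
    rw [e1, map_add, map_pow, hre, one_pow, hrN', add_zero]
  -- (B) `w H / (b h₂) ≡ 1` on `W_∞`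
  have hbh₂0 : cst (M * q) b * h₂ ≠ 0 := mul_ne_zero hcb hh₂
  have hB1 : W H * (cst (M * q) b * h₂)⁻¹ =
      W e ^ N * (W h₁ * (cst (M * q) b * h₂)⁻¹) + (1 - W e) ^ N' := by
    rw [hH, map_add, map_mul, map_mul, map_pow, map_pow, hWe', map_mul, hWcst, hWW]
    field_simp
  have hBmem : W H * (cst (M * q) b * h₂)⁻¹ ∈ softV A (M * q) := by
    rw [hB1]
    exact add_mem hN (pow_mem hWε₁ N')
  have hBr : softR A (M * q) ⟨W H * (cst (M * q) b * h₂)⁻¹, hBmem⟩ = 1 := by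
    have e1 : (⟨W H * (cst (M * q) b * h₂)⁻¹, hBmem⟩ : softV A (M * q)) =
        ⟨_, hN⟩ + ⟨1 - W e, hWε₁⟩ ^ N' := Subtype.ext hB1
    rw [e1, map_add, map_pow, hrN, hrWε₁, one_pow, zero_add]
  have hH0 : H ≠ 0 := by
    intro h
    have h0 : H * h₁⁻¹ = 0 := by rw [h, zero_mul]
    have e1 : (⟨H * h₁⁻¹, hAmem⟩ : softV A (M * q)) = 0 := Subtype.ext h0
    rw [e1, map_zero] at hAr
    exact zero_ne_one hAr
  have hWH0 : W H ≠ 0 := (map_ne_zero W).mpr hH0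
  -- inverses of the `m`-th powers
  obtain ⟨hAi, hAir⟩ := h4a_softR_inv A (M * q) (⟨H * h₁⁻¹, hAmem⟩ ^ m)
    (by rw [map_pow, hAr, one_pow]; exact one_ne_zero)
  obtain ⟨hBi, hBir⟩ := h4a_softR_inv A (M * q) (⟨W H * (cst (M * q) b * h₂)⁻¹, hBmem⟩ ^ m)
    (by rw [map_pow, hBr, one_pow]; exact one_ne_zero)
  rw [map_pow, hAr, one_pow, inv_one] at hAir
  rw [map_pow, hBr, one_pow, inv_one] at hBir
  refine ⟨c₁, H, hc₁, hH0, ?_, ?_⟩
  · rw [congOne_iff_softR]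
    have key : cst (M * q) c₁ * z * (H ^ m)⁻¹ =
        cst (M * q) c₁ * z * (h₁ ^ m)⁻¹ * ((H * h₁⁻¹) ^ m)⁻¹ := by
      have h1 : h₁ ^ m ≠ 0 := pow_ne_zero _ hh₁
      have h2 : H ^ m ≠ 0 := pow_ne_zero _ hH0
      rw [mul_pow, inv_pow]
      field_simp
    have hmem : cst (M * q) c₁ * z * (H ^ m)⁻¹ ∈ softV A (M * q) := by
      rw [key]
      exact mul_mem hw₁ hAi
    refine ⟨hmem, ?_⟩
    have e1 : (⟨_, hmem⟩ : softV A (M * q)) = ⟨_, hw₁⟩ * ⟨_, hAi⟩ := Subtype.ext key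
    rw [e1, map_mul, hr₁, hAir, one_mul]
  · rw [congOne_iff_softR]
    have key : W (cst (M * q) c₁ * z * (H ^ m)⁻¹) =
        cst (M * q) c₂ * W z * (h₂ ^ m)⁻¹ * ((W H * (cst (M * q) b * h₂)⁻¹) ^ m)⁻¹ := by
      have h1 : h₂ ^ m ≠ 0 := pow_ne_zero _ hh₂
      have h2 : W H ^ m ≠ 0 := pow_ne_zero _ hWH0
      have h3 : cst (M * q) b ^ m ≠ 0 := pow_ne_zero _ hcb
      rw [map_mul, map_mul, map_inv₀, map_pow, hWcst, hcstb, mul_pow, inv_pow, mul_pow]
      field_simp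
    have hmem : W (cst (M * q) c₁ * z * (H ^ m)⁻¹) ∈ softV A (M * q) := by
      rw [key]
      exact mul_mem hw₂ hBi
    refine ⟨hmem, ?_⟩
    have e1 : (⟨_, hmem⟩ : softV A (M * q)) = ⟨_, hw₂⟩ * ⟨_, hBi⟩ := Subtype.ext key
    rw [e1, map_mul, hr₂, hBir, one_mul]

/-- **APPROX** with the side condition of `TorGate`. -/
theorem h4a_approx' (hq : q.Prime) (hqM : ¬ q ∣ M) (hA : A.LiesOverPrime q) (m : ℕ)
    (hm : ¬ q ∣ m) (z : FF (M * q)) (hz : TorFun A M q hq hqM m z) :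
    ∃ (c : Kbar) (H : FF (M * q)), c ≠ 0 ∧ H ≠ 0 ∧
      CongOne A (cst (M * q) c * z * (H ^ m)⁻¹) ∧
      CongOne A (kFricke M q hq hqM (cst (M * q) c * z * (H ^ m)⁻¹)) :=
  h4a_approx A M q hq hqM hA m (fun h => hm (h ▸ dvd_zero q)) z hz

end Approx

end Fermat.Agent.S35
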