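import Fermat.Agent.S35.H55NewRed
import Fermat.Agent.S35.GeomSkeleton

/-!
# S35 / G-NEW (helper55): `NewGate`

`ℓ ∤ M` a prime, `A` a valuation subring of `ℚ̄` over `ℓ`, `σ` a Frobenius element at `ℓ`,
`α, β : F_M → F_{Mℓ}`, `w` the Fricke involution, `Φ` the coefficientwise Frobenius of `k((q))`.

For `u ≠ 0` in `F_{Mℓ}` choose constants `s, t` with `x = s u`, `y = t · w u` Gauss units, with
reductions `a`, `b`.  By NORM (helper71) suitable constant multiples `G_a` of `Nm_α u` and `G_b`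
of `Nm_β u` are Gauss units of level `M` with reductions `a · Φ b` and `b · Φ a`; by GAL the
reduction of `σ² x / x` is `Φ² a / a = Φ (b Φ a) / (a Φ b)`, which is the reduction of
`α (σ G_b / G_a)`.  Hence `(σ² x / x) / α (σ G_b / G_a) ≡ 1`, and if `Nm_α u = c₁ h₁ ^ m`,
`Nm_β u = c₂ h₂ ^ m` this reads `c · (σ² u / u) / h ^ m ≡ 1` with `h = α (σ h₂ / h₁)`.
The same for `w u` (the Fricke involution exchanges the two norms and commutes with `σ`).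
-/

set_option autoImplicit false
set_option linter.style.haveILetI false
set_option linter.unusedSectionVars false

open ModularCurve AlgebraicCurve IsLocalRing

noncomputable section

namespace Fermat.Agent.S35

open Fermat.Agent.S37 Fermat.Agent.S37.GalI Fermat.Agent.Red Fermat.Agent.Red.GV
  Fermat.Agent.Red.GV.Soft Fermat.Agent.Red.Kron Fermat.Agent.Red.KR

/-! ### Algebra -/

/-- the algebra in `k((q))`. -/
theorem h55n_field_core {L : Type*} [Field L] (Φ : L →+* L) {a b ga gb : L} (ha : a ≠ 0)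
    (hb : b ≠ 0) (h1 : ga = a * Φ b) (h2 : gb = b * Φ a) :
    Φ (Φ a) / a = Φ gb / ga := by
  subst h1 h2
  have hΦb : Φ b ≠ 0 := (map_ne_zero Φ).mpr hb
  rw [map_mul]
  field_simp

/-- a nonzero `m`-th power is the `m`-th power of a nonzero element. -/
theorem h55n_exists_ne_zero_pow {F : Type*} [Field F] (h : F) (m : ℕ) (hm : h ^ m ≠ 0) :
    ∃ h' : F, h' ≠ 0 ∧ h' ^ m = h ^ m := by
  by_cases h0 : h = 0
  · subst h0
    by_cases hm0 : m = 0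
    · subst hm0
      exact ⟨1, one_ne_zero, by simp⟩
    · exact absurd (zero_pow hm0) hm
  · exact ⟨h, h0, rfl⟩

/-! ### NORM in the `RedTo` vocabulary -/

section Norm

variable (A : ValuationSubring Kbar) (M ℓ : ℕ) [NeZero M] [NeZero ℓ]

theorem h55n_norm_alpha (hℓ : ℓ.Prime) (hM : ¬ ℓ ∣ M) (hA : A.LiesOverPrime ℓ)
    [ExpChar (ResidueField A) ℓ] {x : FF (M * ℓ)} {c : Kbar}
    {a b : LaurentSeries (ResidueField A)} (hx : h55n_RedTo A (M * ℓ) x a)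
    (hy : h55n_RedTo A (M * ℓ) (cst (M * ℓ) c * kFricke M ℓ hℓ hM x) b) :
    h55n_RedTo A M (cst M (c ^ ℓ) * normAlong (heckeAlphaBar Kbar M ℓ) x)
      (a * coeffMap (frobenius (ResidueField A) ℓ) b) := by
  obtain ⟨h1, rfl⟩ := hx
  obtain ⟨h2, rfl⟩ := hy
  exact h71n_norm_alpha_red A M ℓ hℓ hM hA x c h1 h2

theorem h55n_norm_beta (hℓ : ℓ.Prime) (hM : ¬ ℓ ∣ M) (hA : A.LiesOverPrime ℓ)
    [ExpChar (ResidueField A) ℓ] {x : FF (M * ℓ)} {c : Kbar}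
    {a b : LaurentSeries (ResidueField A)}
    (hwx : h55n_RedTo A (M * ℓ) (kFricke M ℓ hℓ hM x) b)
    (hy : h55n_RedTo A (M * ℓ) (cst (M * ℓ) c * x) a) :
    h55n_RedTo A M (cst M (c ^ ℓ) * normAlong (heckeBetaBar Kbar M ℓ) x)
      (b * coeffMap (frobenius (ResidueField A) ℓ) a) := by
  obtain ⟨h1, rfl⟩ := hwx
  obtain ⟨h2, rfl⟩ := hy
  exact h71n_norm_beta_red A M ℓ hℓ hM hA x c h1 h2

/-- the norm of a constant multiple. -/
theorem h55n_normAlong_cst_mul {N N' : ℕ} (φ : FF N →ₐ[Kbar] FF N') (c : Kbar) (u : FF N') :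
    normAlong φ (cst N' c * u) = cst N (c ^ finrankAlong Kbar φ) * normAlong φ u := by
  have h1 : cst N' c = φ (cst N c) := (φ.commutes c).symm
  rw [normAlong_mul, h1, normAlong_map]
  show _ = algebraMap Kbar (FF N) (c ^ finrankAlong Kbar φ) * _
  rw [map_pow]

end Norm

/-! ### The core -/

section Core

variable (A : ValuationSubring Kbar) (M ℓ : ℕ) [NeZero M] [NeZero ℓ]

/-- **the core of NEW**, before the norms are written as `m`-th powers. -/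
theorem h55n_core (hℓ : ℓ.Prime) (hM : ¬ ℓ ∣ M) (hA : A.LiesOverPrime ℓ) {σ : GQ}
    (hσ : A.IsFrobeniusAt σ ℓ) (u : FF (M * ℓ)) (hu : u ≠ 0) :
    ∃ s Ea Eb : Kbar, s ≠ 0 ∧ Ea ≠ 0 ∧ Eb ≠ 0 ∧
      normAlong (heckeAlphaBar Kbar M ℓ) u ≠ 0 ∧ normAlong (heckeBetaBar Kbar M ℓ) u ≠ 0 ∧
      h55n_RedTo A (M * ℓ)
        ((gal (M * ℓ) σ • gal (M * ℓ) σ • (cst (M * ℓ) s * u) / (cst (M * ℓ) s * u)) /
          heckeAlphaBar Kbar M ℓ
            (gal M σ • (cst M Eb * normAlong (heckeBetaBar Kbar M ℓ) u) /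
              (cst M Ea * normAlong (heckeAlphaBar Kbar M ℓ) u))) 1 := by
  have hπ := isResidueMap_residue A ℓ hA
  haveI : Fact ℓ.Prime := ⟨hℓ⟩
  haveI : CharP (ResidueField A) ℓ := Base.h80_charP A _ ℓ hπ
  haveI : ExpChar (ResidueField A) ℓ := ExpChar.prime hℓ
  obtain ⟨s, a, hs, ha, hxa⟩ := h55n_exists_scale hℓ hA u hu
  have hwu : kFricke M ℓ hℓ hM u ≠ 0 := (map_ne_zero _).mpr hu
  obtain ⟨t, b, ht, hb, hyb⟩ := h55n_exists_scale hℓ hA (kFricke M ℓ hℓ hM u) hwu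
  -- NORM along `α`
  have hy1 : cst (M * ℓ) (t / s) * kFricke M ℓ hℓ hM (cst (M * ℓ) s * u) =
      cst (M * ℓ) t * kFricke M ℓ hℓ hM u := by
    rw [map_mul, kFricke_cst, ← mul_assoc, ← map_mul, div_mul_cancel₀ t hs]
  have NA := h55n_norm_alpha A M ℓ hℓ hM hA hxa (by rw [hy1]; exact hyb)
  rw [h55n_normAlong_cst_mul, ← mul_assoc, ← map_mul] at NA
  -- NORM along `β`
  have hy2 : cst (M * ℓ) (s / t) * (cst (M * ℓ) t * u) = cst (M * ℓ) s * u := by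
    rw [← mul_assoc, ← map_mul, div_mul_cancel₀ s ht]
  have hw2 : kFricke M ℓ hℓ hM (cst (M * ℓ) t * u) = cst (M * ℓ) t * kFricke M ℓ hℓ hM u := by
    rw [map_mul, kFricke_cst]
  have NB := h55n_norm_beta A M ℓ hℓ hM hA (x := cst (M * ℓ) t * u) (c := s / t)
    (by rw [hw2]; exact hyb) (by rw [hy2]; exact hxa)
  rw [h55n_normAlong_cst_mul, ← mul_assoc, ← map_mul] at NB
  -- nonvanishing
  set Φ := coeffMap (frobenius (ResidueField A) ℓ) with hΦ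
  have hΦa : Φ a ≠ 0 := (map_ne_zero Φ).mpr ha
  have hΦb : Φ b ≠ 0 := (map_ne_zero Φ).mpr hb
  have hga : a * Φ b ≠ 0 := mul_ne_zero ha hΦb
  have hgb : b * Φ a ≠ 0 := mul_ne_zero hb hΦa
  have hGa := h55n_redTo_ne_zero NA hga
  have hGb := h55n_redTo_ne_zero NB hgb
  have hcst : ∀ (N : ℕ) (c : Kbar), cst N c ≠ 0 → c ≠ 0 := by
    intro N c hc h0
    apply hc
    rw [h0]
    exact map_zero (algebraMap Kbar (FF N))
  refine ⟨s, _, _, hs, hcst M _ (left_ne_zero_of_mul hGa), hcst M _ (left_ne_zero_of_mul hGb),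
    right_ne_zero_of_mul hGa, right_ne_zero_of_mul hGb, ?_⟩
  -- GAL
  have h1 := h55n_redTo_frob hσ (h55n_redTo_frob hσ hxa)
  have h2 := h55n_redTo_div h1 hxa ha
  have h3 := h55n_redTo_alpha ℓ (h55n_redTo_div (h55n_redTo_frob hσ NB) NA hga)
  have h4 : Φ (Φ a) / a = Φ (b * Φ a) / (a * Φ b) := h55n_field_core Φ ha hb rfl rfl
  have h5 : Φ (Φ a) / a ≠ 0 := div_ne_zero ((map_ne_zero Φ).mpr hΦa) ha
  rw [← h4] at h3
  have h6 := h55n_redTo_div h2 h3 h5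
  rw [div_self h5] at h6
  exact h6

/-- **NEW on the component `Z_∞`**: if the norms of `u` along `α` and `β` are `m`-th powers,
then `σ² u / u` reduces on `Z_∞` to a constant times an `m`-th power. -/
theorem h55n_torInf (hℓ : ℓ.Prime) (hM : ¬ ℓ ∣ M) (hA : A.LiesOverPrime ℓ) {σ : GQ}
    (hσ : A.IsFrobeniusAt σ ℓ) (m : ℕ) (u : FF (M * ℓ)) (hu : u ≠ 0) (h₁ h₂ : FF M)
    (hα : normAlong (heckeAlphaBar Kbar M ℓ) u = h₁ ^ m)
    (hβ : normAlong (heckeBetaBar Kbar M ℓ) u = h₂ ^ m) :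
    TorInf A (M * ℓ) m ((gal (M * ℓ) σ • gal (M * ℓ) σ • u) / u) := by
  obtain ⟨s, Ea, Eb, hs, hEa, hEb, hNa, hNb, hred⟩ := h55n_core A M ℓ hℓ hM hA hσ u hu
  rw [hα] at hNa
  rw [hβ] at hNb
  obtain ⟨k₁, hk₁, hk₁'⟩ := h55n_exists_ne_zero_pow h₁ m hNa
  obtain ⟨k₂, hk₂, hk₂'⟩ := h55n_exists_ne_zero_pow h₂ m hNb
  rw [hα, hβ, ← hk₁', ← hk₂'] at hred
  have hσ0 : ∀ c : Kbar, c ≠ 0 → σ c ≠ 0 := fun c hc => (map_ne_zero σ).mpr hc
  have hg0 : gal M σ • k₂ ≠ 0 := (smul_ne_zero_iff_ne _).mpr hk₂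
  refine ⟨σ (σ s) / s * (Ea / σ Eb), heckeAlphaBar Kbar M ℓ (gal M σ • k₂ / k₁), ?_, ?_, ?_⟩
  · exact mul_ne_zero (div_ne_zero (hσ0 _ (hσ0 _ hs)) hs) (div_ne_zero hEa (hσ0 _ hEb))
  · exact (map_ne_zero _).mpr (div_ne_zero hg0 hk₁)
  · rw [← h55n_redTo_iff_congOne]
    have e1 : gal (M * ℓ) σ • gal (M * ℓ) σ • (cst (M * ℓ) s * u) =
        cst (M * ℓ) (σ (σ s)) * (gal (M * ℓ) σ • gal (M * ℓ) σ • u) := by
      rw [smul_mul', smul_mul', gal_smul_cst, gal_smul_cst]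
    have e2 : gal M σ • (cst M Eb * k₂ ^ m) = cst M (σ Eb) * (gal M σ • k₂) ^ m := by
      rw [smul_mul', gal_smul_cst, smul_pow']
    have e3 : ∀ (c : Kbar) (z : FF M), heckeAlphaBar Kbar M ℓ (cst M c * z) =
        cst (M * ℓ) c * heckeAlphaBar Kbar M ℓ z := by
      intro c z
      rw [map_mul, show heckeAlphaBar Kbar M ℓ (cst M c) = cst (M * ℓ) c from
        (heckeAlphaBar Kbar M ℓ).commutes c]
    have key : cst (M * ℓ) (σ (σ s) / s * (Ea / σ Eb)) *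
          ((gal (M * ℓ) σ • gal (M * ℓ) σ • u) / u) *
          (heckeAlphaBar Kbar M ℓ (gal M σ • k₂ / k₁) ^ m)⁻¹ =
        (gal (M * ℓ) σ • gal (M * ℓ) σ • (cst (M * ℓ) s * u) / (cst (M * ℓ) s * u)) /
          heckeAlphaBar Kbar M ℓ (gal M σ • (cst M Eb * k₂ ^ m) / (cst M Ea * k₁ ^ m)) := by
      rw [e1, e2, map_div₀, map_div₀, e3, e3, map_pow, map_pow]
      have c1 : cst (M * ℓ) (σ (σ s) / s * (Ea / σ Eb)) =
          cst (M * ℓ) (σ (σ s)) / cst (M * ℓ) s * (cst (M * ℓ) Ea / cst (M * ℓ) (σ Eb)) := by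
        show algebraMap Kbar (FF (M * ℓ)) _ = _
        rw [map_mul, map_div₀, map_div₀]
      rw [c1]
      simp only [div_eq_mul_inv, mul_inv, inv_inv, inv_pow, mul_pow]
      ring
    rw [key]
    exact hred

/-- **NEW**: if the norms of `u` along `α` and `β` are `m`-th powers, then `σ² u / u` is in the
toric part. -/
theorem h55n_torFun (hℓ : ℓ.Prime) (hM : ¬ ℓ ∣ M) (hA : A.LiesOverPrime ℓ) {σ : GQ}
    (hσ : A.IsFrobeniusAt σ ℓ) (m : ℕ) (u : FF (M * ℓ)) (hu : u ≠ 0) (h₁ h₂ : FF M)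
    (hα : normAlong (heckeAlphaBar Kbar M ℓ) u = h₁ ^ m)
    (hβ : normAlong (heckeBetaBar Kbar M ℓ) u = h₂ ^ m) :
    TorFun A M ℓ hℓ hM m ((gal (M * ℓ) σ • gal (M * ℓ) σ • u) / u) := by
  refine ⟨h55n_torInf A M ℓ hℓ hM hA hσ m u hu h₁ h₂ hα hβ, ?_⟩
  have hwu : kFricke M ℓ hℓ hM u ≠ 0 := (map_ne_zero _).mpr hu
  have hαw : normAlong (heckeAlphaBar Kbar M ℓ) (kFricke M ℓ hℓ hM u) = h₂ ^ m := by
    rw [← hβ]
    exact (h71n_norm_beta_eq M ℓ hℓ hM u).symm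
  have hβw : normAlong (heckeBetaBar Kbar M ℓ) (kFricke M ℓ hℓ hM u) = h₁ ^ m := by
    rw [← hα]
    have h := h71n_norm_beta_eq M ℓ hℓ hM (kFricke M ℓ hℓ hM u)
    rw [kFricke_kFricke] at h
    exact h
  have h := h55n_torInf A M ℓ hℓ hM hA hσ m (kFricke M ℓ hℓ hM u) hwu h₂ h₁ hαw hβw
  have e : kFricke M ℓ hℓ hM ((gal (M * ℓ) σ • gal (M * ℓ) σ • u) / u) =
      (gal (M * ℓ) σ • gal (M * ℓ) σ • kFricke M ℓ hℓ hM u) / kFricke M ℓ hℓ hM u := by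
    rw [map_div₀]
    congr 1
    exact (kFricke_gal M ℓ hℓ hM σ _).trans (congrArg _ (kFricke_gal M ℓ hℓ hM σ u))
  rw [e]
  exact h

end Core

/-- **G-NEW.** -/
theorem h55n_newGate : NewGate := by
  intro q hq M _ hqM _ A hA σ hσ m _ u hu _ hα hβ
  obtain ⟨h₁, hα⟩ := hα
  obtain ⟨h₂, hβ⟩ := hβ
  haveI : NeZero q := ⟨hq.ne_zero⟩
  exact h55n_torFun A M q hq hqM hA hσ m u hu h₁ h₂ hα hβ

end Fermat.Agent.S35
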