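import Fermat.Agent.S35.H71Norm
import Fermat.Agent.Red.GV.SoftGal
import Fermat.Agent.Red.Kron.FrickeGal
import Fermat.Agent.Red.KR.Basic

/-!
# S35 / G-NEW (helper55): the relation "`x` is Gauss-integral with reduction `r`"

`A` a valuation subring of `ℚ̄`, `N` any level.  `h55n_RedTo A N x r` says that `x ∈ F_N` lies
in the soft Gauss ring `softV A N` and has reduction `r ∈ k((q))`.  The relation is
multiplicative, compatible with inverses (of units), with the inclusion `α`, with the Frobenius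
elements, and every nonzero function is a constant times a function with nonzero reduction.
-/

set_option autoImplicit false
set_option linter.style.haveILetI false
set_option linter.unusedSectionVars false

open ModularCurve AlgebraicCurve IsLocalRing

noncomputable section

namespace Fermat.Agent.S35

open Fermat.Agent.S37 Fermat.Agent.Red Fermat.Agent.Red.GV Fermat.Agent.Red.GV.Soft

section RedTo

variable (A : ValuationSubring Kbar) (N : ℕ)

/-- `x` is Gauss-integral of level `N` with reduction `r`. -/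
def h55n_RedTo (x : FF N) (r : LaurentSeries (ResidueField A)) : Prop :=
  ∃ h : x ∈ softV A N, softR A N ⟨x, h⟩ = r

variable {A N}

theorem h55n_redTo_iff_congOne (x : FF N) : h55n_RedTo A N x 1 ↔ CongOne A x :=
  (congOne_iff_softR A N x).symm

theorem h55n_redTo_unique {x : FF N} {r s : LaurentSeries (ResidueField A)}
    (hr : h55n_RedTo A N x r) (hs : h55n_RedTo A N x s) : r = s := by
  obtain ⟨h1, rfl⟩ := hr
  obtain ⟨h2, rfl⟩ := hs
  rfl

theorem h55n_redTo_one : h55n_RedTo A N (1 : FF N) 1 :=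
  ⟨one_mem _, map_one (softR A N)⟩

theorem h55n_redTo_mul {x y : FF N} {r s : LaurentSeries (ResidueField A)}
    (hx : h55n_RedTo A N x r) (hy : h55n_RedTo A N y s) : h55n_RedTo A N (x * y) (r * s) := by
  obtain ⟨h1, rfl⟩ := hx
  obtain ⟨h2, rfl⟩ := hy
  refine ⟨mul_mem h1 h2, ?_⟩
  have e : (⟨x * y, mul_mem h1 h2⟩ : softV A N) = ⟨x, h1⟩ * ⟨y, h2⟩ := rfl
  rw [e, map_mul]

theorem h55n_redTo_pow {x : FF N} {r : LaurentSeries (ResidueField A)}
    (hx : h55n_RedTo A N x r) (m : ℕ) : h55n_RedTo A N (x ^ m) (r ^ m) := by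
  obtain ⟨h1, rfl⟩ := hx
  refine ⟨pow_mem h1 m, ?_⟩
  have e : (⟨x ^ m, pow_mem h1 m⟩ : softV A N) = ⟨x, h1⟩ ^ m := rfl
  rw [e, map_pow]

theorem h55n_redTo_inv {x : FF N} {r : LaurentSeries (ResidueField A)}
    (hx : h55n_RedTo A N x r) (hr : r ≠ 0) : h55n_RedTo A N x⁻¹ r⁻¹ := by
  obtain ⟨h1, rfl⟩ := hx
  obtain ⟨hx0, hinv⟩ := (softR_ne_zero_iff A N ⟨x, h1⟩).mp hr
  refine ⟨hinv, ?_⟩
  have h2 : (⟨x⁻¹, hinv⟩ : softV A N) * ⟨x, h1⟩ = 1 := by
    apply Subtype.ext
    show x⁻¹ * x = 1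
    exact inv_mul_cancel₀ hx0
  have h3 := congrArg (softR A N) h2
  rw [map_mul, map_one] at h3
  exact eq_inv_of_mul_eq_one_left h3

theorem h55n_redTo_div {x y : FF N} {r s : LaurentSeries (ResidueField A)}
    (hx : h55n_RedTo A N x r) (hy : h55n_RedTo A N y s) (hs : s ≠ 0) :
    h55n_RedTo A N (x / y) (r / s) := by
  rw [div_eq_mul_inv, div_eq_mul_inv]
  exact h55n_redTo_mul hx (h55n_redTo_inv hy hs)

/-- a function with nonzero reduction is nonzero. -/
theorem h55n_redTo_ne_zero {x : FF N} {r : LaurentSeries (ResidueField A)}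
    (hx : h55n_RedTo A N x r) (hr : r ≠ 0) : x ≠ 0 := by
  obtain ⟨h1, rfl⟩ := hx
  exact ((softR_ne_zero_iff A N ⟨x, h1⟩).mp hr).1

theorem h55n_redTo_alpha {N : ℕ} [NeZero N] (d : ℕ) [NeZero d] {x : FF N}
    {r : LaurentSeries (ResidueField A)} (hx : h55n_RedTo A N x r) :
    h55n_RedTo A (N * d) (heckeAlphaBar Kbar N d x) r := by
  obtain ⟨h1, rfl⟩ := hx
  have h2 : heckeAlphaBar Kbar N d x ∈ softV A (N * d) := (alpha_mem_softV_iff A d x).mpr h1
  exact ⟨h2, softR_alpha A d ⟨x, h1⟩ h2⟩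

/-- **GAL**: the reduction of `σ • x`, `σ` a Frobenius element at `ℓ`, is the coefficientwise
Frobenius of the reduction of `x`. -/
theorem h55n_redTo_frob {ℓ : ℕ} [ExpChar (ResidueField A) ℓ] {σ : GQ}
    (hσ : A.IsFrobeniusAt σ ℓ) {x : FF N} {r : LaurentSeries (ResidueField A)}
    (hx : h55n_RedTo A N x r) :
    h55n_RedTo A N (gal N σ • x) (coeffMap (frobenius (ResidueField A) ℓ) r) := by
  obtain ⟨h1, rfl⟩ := hx
  obtain ⟨h2, hc⟩ := softR_gal_of_frobenius A N hσ ⟨x, h1⟩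
  refine ⟨h2, ?_⟩
  ext n
  rw [hc n, coeffMap_coeff, frobenius_def]

/-- **scaling**: every nonzero function is a constant times a function with nonzero
reduction. -/
theorem h55n_exists_scale {ℓ : ℕ} (hℓ : ℓ.Prime) (hA : A.LiesOverPrime ℓ) (x : FF N)
    (hx : x ≠ 0) :
    ∃ (c : Kbar) (r : LaurentSeries (ResidueField A)), c ≠ 0 ∧ r ≠ 0 ∧
      h55n_RedTo A N (cst N c * x) r := by
  obtain ⟨c, hc, hu, hui⟩ := exists_cst_mul_unit_soft A N hℓ hA x hx
  refine ⟨c, softR A N ⟨cst N c * x, hu⟩, hc, ?_, hu, rfl⟩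
  rw [softR_ne_zero_iff]
  refine ⟨?_, hui⟩
  show cst N c * x ≠ 0
  refine mul_ne_zero ?_ hx
  rw [Ne, map_eq_zero_iff _ (algebraMap Kbar (FF N)).injective]
  exact hc

end RedTo

end Fermat.Agent.S35
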