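import Mathlib
import Fermat.Agent.Red.LocalAll

/-!
# S35, block TOR (helper59, second seat): Gauss rings over a valuation ring (abstract)

`A` a valuation ring (a domain), `F` a field which is an `A`-algebra, `W ⊆ F` a subring.

* `H59Gauss A W` : `W` contains `A`, `1 ∉ 𝔪_A W`, and every nonzero element of `F` is a
  constant (a quotient of two nonzero elements of `A`) times a unit of `W`.  So `W` is a
  valuation ring of `F` with the value group of `A` (a "Gauss valuation").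
* `h59tM A W` : the set `𝔪_A W = ⋃_{d ∈ 𝔪_A} d W` (the maximal ideal of `W`).
* `h59tIsConst A κ` : `κ` is a quotient of two nonzero elements of `A`.
* `h59tUnitAt B 𝔫 η` : `η` is a unit of the local ring `B_𝔫` of a chart `B ⊆ F`.
-/

set_option autoImplicit false
set_option linter.unusedSectionVars false
set_option linter.unusedVariables false

open IsLocalRing

namespace Fermat.Agent.S35

open Fermat.Agent.Red

section Gauss

variable (A : Type*) [CommRing A] [IsDomain A] [ValuationRing A]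
  {F : Type*} [Field F] [Algebra A F]

/-- the set `𝔪_A W`. -/
def h59tM (W : Subring F) : Set F :=
  {f | ∃ d ∈ maximalIdeal A, ∃ z ∈ W, f = algebraMap A F d * z}

/-- `W` is a valuation ring of `F` with the value group of `A`. -/
structure H59Gauss (W : Subring F) : Prop where
  /-- the constants of `A` are in `W` -/
  hA : ∀ a : A, algebraMap A F a ∈ W
  /-- `1 ∉ 𝔪_A W` -/
  hnt : ∀ m ∈ maximalIdeal A, ∀ x ∈ W, algebraMap A F m * x ≠ 1
  /-- every nonzero function is a constant times a unit of `W` -/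
  hscale : ∀ f : F, f ≠ 0 → ∃ a b : A, a ≠ 0 ∧ b ≠ 0 ∧ ∃ u ∈ W, u⁻¹ ∈ W ∧
    algebraMap A F a * f = algebraMap A F b * u

/-- `κ` is a quotient of two nonzero elements of `A`. -/
def h59tIsConst (κ : F) : Prop :=
  ∃ a b : A, a ≠ 0 ∧ b ≠ 0 ∧ algebraMap A F a = κ * algebraMap A F b

variable {A} {W : Subring F}

theorem h59tM_zero : (0 : F) ∈ h59tM A W :=
  ⟨0, (maximalIdeal A).zero_mem, 0, W.zero_mem, by simp⟩

theorem h59tM_of_mem (a : A) (ha : a ∈ maximalIdeal A) : algebraMap A F a ∈ h59tM A W :=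
  ⟨a, ha, 1, W.one_mem, by simp⟩

theorem h59tM_mul_left {f z : F} (hf : f ∈ h59tM A W) (hz : z ∈ W) : z * f ∈ h59tM A W := by
  obtain ⟨d, hd, y, hy, rfl⟩ := hf
  exact ⟨d, hd, z * y, W.mul_mem hz hy, by ring⟩

theorem h59tM_mul_right {f z : F} (hf : f ∈ h59tM A W) (hz : z ∈ W) : f * z ∈ h59tM A W := by
  rw [mul_comm]; exact h59tM_mul_left hf hz

theorem h59tM_neg {f : F} (hf : f ∈ h59tM A W) : -f ∈ h59tM A W := by
  obtain ⟨d, hd, y, hy, rfl⟩ := hf
  exact ⟨d, hd, -y, W.neg_mem hy, by ring⟩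

theorem h59tM_add (hG : H59Gauss A W) {f g : F} (hf : f ∈ h59tM A W) (hg : g ∈ h59tM A W) :
    f + g ∈ h59tM A W := by
  obtain ⟨d₁, hd₁, z₁, hz₁, rfl⟩ := hf
  obtain ⟨d₂, hd₂, z₂, hz₂, rfl⟩ := hg
  rcases ValuationRing.dvd_total d₁ d₂ with ⟨e, rfl⟩ | ⟨e, rfl⟩
  · exact ⟨d₁, hd₁, z₁ + algebraMap A F e * z₂,
      W.add_mem hz₁ (W.mul_mem (hG.hA e) hz₂), by rw [map_mul]; ring⟩
  · exact ⟨d₂, hd₂, algebraMap A F e * z₁ + z₂,
      W.add_mem (W.mul_mem (hG.hA e) hz₁) hz₂, by rw [map_mul]; ring⟩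

theorem h59tM_sub (hG : H59Gauss A W) {f g : F} (hf : f ∈ h59tM A W) (hg : g ∈ h59tM A W) :
    f - g ∈ h59tM A W := by
  rw [sub_eq_add_neg]; exact h59tM_add hG hf (h59tM_neg hg)

theorem h59tM_mem_W (hG : H59Gauss A W) {f : F} (hf : f ∈ h59tM A W) : f ∈ W := by
  obtain ⟨d, -, y, hy, rfl⟩ := hf
  exact W.mul_mem (hG.hA d) hy

/-- a nonzero element of `𝔪_A W` is not a unit of `W`. -/
theorem h59tM_inv_notMem (hG : H59Gauss A W) {f : F} (hf : f ∈ h59tM A W) (hf0 : f ≠ 0) :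
    f⁻¹ ∉ W := by
  obtain ⟨d, hd, y, hy, rfl⟩ := hf
  intro h
  refine hG.hnt d hd (y * (algebraMap A F d * y)⁻¹) (W.mul_mem hy h) ?_
  rw [← mul_assoc]
  exact mul_inv_cancel₀ hf0

/-- `1 ∉ 𝔪_A W`. -/
theorem h59tM_one_notMem (hG : H59Gauss A W) : (1 : F) ∉ h59tM A W := by
  intro h
  exact h59tM_inv_notMem hG h one_ne_zero (by rw [inv_one]; exact W.one_mem)

/-- a unit of `W` is not in `𝔪_A W`. -/
theorem h59tM_notMem_of_unit (hG : H59Gauss A W) {f : F} (hf' : f⁻¹ ∈ W) (hf0 : f ≠ 0) :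
    f ∉ h59tM A W :=
  fun h => h59tM_inv_notMem hG h hf0 hf'

/-- the elements of `F` outside `W` have their inverse in `𝔪_A W`. -/
theorem h59t_inv_mem_M (hAF : Function.Injective (algebraMap A F)) (hG : H59Gauss A W)
    {f : F} (hf : f ∉ W) : f⁻¹ ∈ h59tM A W := by
  have hf0 : f ≠ 0 := fun h => hf (h ▸ W.zero_mem)
  obtain ⟨a, b, ha, hb, u, hu, hu', h⟩ := hG.hscale f hf0
  have haF : algebraMap A F a ≠ 0 := fun h0 => ha (hAF (by rw [h0, map_zero]))
  have hbF : algebraMap A F b ≠ 0 := fun h0 => hb (hAF (by rw [h0, map_zero]))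
  rcases ValuationRing.dvd_total a b with ⟨e, rfl⟩ | ⟨e, rfl⟩
  · exfalso
    apply hf
    have : f = algebraMap A F e * u := by
      rw [map_mul, mul_assoc] at h
      exact mul_left_cancel₀ haF h
    rw [this]
    exact W.mul_mem (hG.hA e) hu
  · have h1 : algebraMap A F e * f = u := by
      rw [map_mul, mul_assoc] at h
      exact mul_left_cancel₀ hbF h
    have hu0 : u ≠ 0 := by
      rintro rfl
      have he0 : e ≠ 0 := fun h0 => ha (by rw [h0, mul_zero])
      have heF : algebraMap A F e ≠ 0 := fun h0 => he0 (hAF (by rw [h0, map_zero]))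
      exact (mul_ne_zero heF hf0) h1
    have he : e ∈ maximalIdeal A := by
      by_contra hne
      have hue : IsUnit e := IsLocalRing.notMem_maximalIdeal.mp hne
      obtain ⟨e', he'⟩ := hue.exists_right_inv
      apply hf
      have : f = algebraMap A F e' * u := by
        rw [← h1, ← mul_assoc, ← map_mul, mul_comm e' e, he', map_one, one_mul]
      rw [this]
      exact W.mul_mem (hG.hA e') hu
    refine ⟨e, he, u⁻¹, hu', ?_⟩
    rw [← h1, mul_inv, ← mul_assoc, mul_inv_cancel₀, one_mul]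
    intro h0
    rw [h0, zero_mul] at h1
    exact hu0 h1.symm

/-- the non-units of `W` are in `𝔪_A W`. -/
theorem h59tM_of_nonunit (hAF : Function.Injective (algebraMap A F)) (hG : H59Gauss A W)
    {f : F} (hf' : f⁻¹ ∉ W) : f ∈ h59tM A W := by
  have := h59t_inv_mem_M hAF hG hf'
  rwa [inv_inv] at this

/-- a constant which is a unit of `W` is a unit of `A`. -/
theorem h59t_const_unit (hAF : Function.Injective (algebraMap A F)) (hG : H59Gauss A W)
    {κ : F} (hκ : h59tIsConst A κ) (h1 : κ ∈ W) (h2 : κ⁻¹ ∈ W) :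
    ∃ e : A, IsUnit e ∧ κ = algebraMap A F e := by
  obtain ⟨a, b, ha, hb, h⟩ := hκ
  have haF : algebraMap A F a ≠ 0 := fun h0 => ha (hAF (by rw [h0, map_zero]))
  have hbF : algebraMap A F b ≠ 0 := fun h0 => hb (hAF (by rw [h0, map_zero]))
  have hκ0 : κ ≠ 0 := by
    rintro rfl
    rw [zero_mul] at h
    exact haF h
  rcases ValuationRing.dvd_total a b with ⟨e, rfl⟩ | ⟨e, rfl⟩
  · -- `κ⁻¹ = e`
    have h5 : κ * algebraMap A F e = 1 := by
      rw [map_mul] at h
      have h4 : algebraMap A F a * 1 = algebraMap A F a * (κ * algebraMap A F e) := by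
        rw [mul_one]; nth_rewrite 1 [h]; ring
      exact (mul_left_cancel₀ haF h4).symm
    have he : IsUnit e := by
      by_contra hne
      have hem : e ∈ maximalIdeal A := hne
      exact hG.hnt e hem κ h1 (by rw [mul_comm]; exact h5)
    obtain ⟨e', he'⟩ := he.exists_right_inv
    refine ⟨e', IsUnit.of_mul_eq_one e (by rw [mul_comm]; exact he'), ?_⟩
    have h6 : algebraMap A F e * algebraMap A F e' = 1 := by
      rw [← map_mul, he', map_one]
    calc κ = κ * (algebraMap A F e * algebraMap A F e') := by rw [h6, mul_one]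
      _ = (κ * algebraMap A F e) * algebraMap A F e' := by ring
      _ = algebraMap A F e' := by rw [h5, one_mul]
  · have h3 : κ = algebraMap A F e := by
      rw [map_mul, mul_comm (algebraMap A F b)] at h
      exact (mul_right_cancel₀ hbF h).symm
    have he : IsUnit e := by
      by_contra hne
      have hem : e ∈ maximalIdeal A := hne
      refine hG.hnt e hem κ⁻¹ h2 ?_
      rw [← h3]
      exact mul_inv_cancel₀ hκ0
    exact ⟨e, he, h3⟩

theorem h59tIsConst_one : h59tIsConst A (1 : F) :=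
  ⟨1, 1, one_ne_zero, one_ne_zero, by simp⟩

theorem h59tIsConst_of (a : A) (ha : a ≠ 0) : h59tIsConst A (algebraMap A F a) :=
  ⟨a, 1, ha, one_ne_zero, by simp⟩

theorem h59tIsConst_ne_zero (hAF : Function.Injective (algebraMap A F)) {κ : F}
    (hκ : h59tIsConst A κ) : κ ≠ 0 := by
  obtain ⟨a, b, ha, -, h⟩ := hκ
  rintro rfl
  rw [zero_mul] at h
  exact ha (hAF (by rw [h, map_zero]))

theorem h59tIsConst_mul {κ μ : F} (hκ : h59tIsConst A κ) (hμ : h59tIsConst A μ) :
    h59tIsConst A (κ * μ) := by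
  obtain ⟨a, b, ha, hb, h⟩ := hκ
  obtain ⟨a', b', ha', hb', h'⟩ := hμ
  exact ⟨a * a', b * b', mul_ne_zero ha ha', mul_ne_zero hb hb', by
    rw [map_mul, map_mul, h, h']; ring⟩

theorem h59tIsConst_inv (hAF : Function.Injective (algebraMap A F)) {κ : F}
    (hκ : h59tIsConst A κ) : h59tIsConst A κ⁻¹ := by
  have hκ0 := h59tIsConst_ne_zero hAF hκ
  obtain ⟨a, b, ha, hb, h⟩ := hκ
  refine ⟨b, a, hb, ha, ?_⟩
  rw [h]
  field_simp

theorem h59tIsConst_pow {κ : F} (hκ : h59tIsConst A κ) (n : ℕ) : h59tIsConst A (κ ^ n) := by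
  induction n with
  | zero => rw [pow_zero]; exact h59tIsConst_one
  | succ n ih => rw [pow_succ]; exact h59tIsConst_mul ih hκ

theorem h59tIsConst_zpow (hAF : Function.Injective (algebraMap A F)) {κ : F}
    (hκ : h59tIsConst A κ) (n : ℤ) : h59tIsConst A (κ ^ n) := by
  obtain ⟨k, rfl | rfl⟩ := n.eq_nat_or_neg
  · rw [zpow_natCast]; exact h59tIsConst_pow hκ k
  · rw [zpow_neg, zpow_natCast]; exact h59tIsConst_inv hAF (h59tIsConst_pow hκ k)

theorem h59tIsConst_prod (hAF : Function.Injective (algebraMap A F)) {α : Type*}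
    (T : Finset α) (f : α → F) (hf : ∀ i ∈ T, h59tIsConst A (f i)) :
    h59tIsConst A (∏ i ∈ T, f i) :=
  Finset.prod_induction f (fun x => h59tIsConst A x) (fun _ _ ha hb => h59tIsConst_mul ha hb)
    h59tIsConst_one hf

/-- a power of an element outside `W` is outside `W`; hence roots of units are units. -/
theorem h59t_mem_of_pow (hAF : Function.Injective (algebraMap A F)) (hG : H59Gauss A W)
    {g : F} (hg0 : g ≠ 0) (r : ℕ) (hr : 0 < r) (hg : g ^ r ∈ W) : g ∈ W := by
  by_contra hgW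
  have h3 : g⁻¹ ∈ h59tM A W := h59t_inv_mem_M hAF hG hgW
  have h4 : (g⁻¹) ^ r ∈ h59tM A W := by
    obtain ⟨k, rfl⟩ : ∃ k, r = k + 1 := ⟨r - 1, by omega⟩
    rw [pow_succ]
    exact h59tM_mul_left h3 (W.pow_mem (h59tM_mem_W hG h3) k)
  refine h59tM_inv_notMem hG h4 (pow_ne_zero r (inv_ne_zero hg0)) ?_
  rw [inv_pow, inv_inv]
  exact hg

theorem h59t_unit_of_pow (hAF : Function.Injective (algebraMap A F)) (hG : H59Gauss A W)
    {f : F} (hf0 : f ≠ 0) (r : ℕ) (hr : 0 < r) (h1 : f ^ r ∈ W) (h2 : (f ^ r)⁻¹ ∈ W) :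
    f ∈ W ∧ f⁻¹ ∈ W := by
  refine ⟨h59t_mem_of_pow hAF hG hf0 r hr h1, h59t_mem_of_pow hAF hG (inv_ne_zero hf0) r hr ?_⟩
  rw [inv_pow]
  exact h2

end Gauss

end Fermat.Agent.S35
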