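import Mathlib
import Fermat.Agent.S35.H59Gauss

/-!
# S35, block TOR (helper59): `1 + 𝔪_A W` and units of the local rings of a chart (abstract)

* `h59tU1 A W` : the set `1 + 𝔪_A W` of a Gauss ring `W` (a subgroup of `W^×`).
* `h59tUnitAt B 𝔫 η` : `η ≠ 0` is a unit of the local ring `B_𝔫`.
* `h59t_zpow_unit_congr` : if `x ∈ 𝔫`, `η` is a unit of `B_𝔫`, the non-units of `W` in `B` are
  in `𝔫` and `x ^ k * η ∈ 1 + 𝔪_A W`, then `k = 0`.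
-/

set_option autoImplicit false
set_option linter.unusedSectionVars false
set_option linter.unusedVariables false

open IsLocalRing

namespace Fermat.Agent.S35

open Fermat.Agent.Red

section U1

variable (A : Type*) [CommRing A] [IsDomain A] [ValuationRing A]
  {F : Type*} [Field F] [Algebra A F]

/-- the set `1 + 𝔪_A W`. -/
def h59tU1 (W : Subring F) : Set F := {f | f - 1 ∈ h59tM A W}

variable {A} {W : Subring F}

theorem h59tU1_one : (1 : F) ∈ h59tU1 A W := by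
  show (1 : F) - 1 ∈ h59tM A W
  rw [sub_self]; exact h59tM_zero

theorem h59tU1_of_h26U {π : A} (hπ : π ∈ maximalIdeal A) {f : F} (hf : f ∈ h26U π W) :
    f ∈ h59tU1 A W := by
  obtain ⟨z, hz, rfl⟩ := hf
  exact ⟨π, hπ, z, hz, by ring⟩

theorem h59tU1_of_h26U_le {π : A} (hπ : π ∈ maximalIdeal A) {V : Subring F}
    (hVW : ∀ x ∈ V, x ∈ W) {f : F} (hf : f ∈ h26U π V) : f ∈ h59tU1 A W := by
  obtain ⟨z, hz, rfl⟩ := hf
  exact ⟨π, hπ, z, hVW z hz, by ring⟩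

theorem h59tU1_mem_W (hG : H59Gauss A W) {f : F} (hf : f ∈ h59tU1 A W) : f ∈ W := by
  have h := W.add_mem (h59tM_mem_W hG hf) W.one_mem
  simpa using h

theorem h59tU1_ne_zero (hG : H59Gauss A W) {f : F} (hf : f ∈ h59tU1 A W) : f ≠ 0 := by
  rintro rfl
  have h : (0 : F) - 1 ∈ h59tM A W := hf
  have h2 := h59tM_neg h
  rw [zero_sub, neg_neg] at h2
  exact h59tM_one_notMem hG h2

theorem h59tU1_inv_mem_W (hAF : Function.Injective (algebraMap A F)) (hG : H59Gauss A W)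
    {f : F} (hf : f ∈ h59tU1 A W) : f⁻¹ ∈ W := by
  by_contra h
  have h1 : f ∈ h59tM A W := h59tM_of_nonunit hAF hG h
  have h2 : f - (f - 1) ∈ h59tM A W := h59tM_sub hG h1 hf
  rw [sub_sub_cancel] at h2
  exact h59tM_one_notMem hG h2

theorem h59tU1_mul (hG : H59Gauss A W) {f g : F} (hf : f ∈ h59tU1 A W) (hg : g ∈ h59tU1 A W) :
    f * g ∈ h59tU1 A W := by
  show f * g - 1 ∈ h59tM A W
  have h1 : f * g - 1 = f * (g - 1) + (f - 1) := by ring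
  rw [h1]
  exact h59tM_add hG (h59tM_mul_left hg (h59tU1_mem_W hG hf)) hf

theorem h59tU1_inv (hAF : Function.Injective (algebraMap A F)) (hG : H59Gauss A W)
    {f : F} (hf : f ∈ h59tU1 A W) : f⁻¹ ∈ h59tU1 A W := by
  show f⁻¹ - 1 ∈ h59tM A W
  have hf0 := h59tU1_ne_zero hG hf
  have h1 : f⁻¹ - 1 = f⁻¹ * (-(f - 1)) := by
    field_simp
    ring
  rw [h1]
  exact h59tM_mul_left (h59tM_neg hf) (h59tU1_inv_mem_W hAF hG hf)

theorem h59tU1_pow (hG : H59Gauss A W) {f : F} (hf : f ∈ h59tU1 A W) (n : ℕ) :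
    f ^ n ∈ h59tU1 A W := by
  induction n with
  | zero => rw [pow_zero]; exact h59tU1_one
  | succ n ih => rw [pow_succ]; exact h59tU1_mul hG ih hf

theorem h59tU1_zpow (hAF : Function.Injective (algebraMap A F)) (hG : H59Gauss A W)
    {f : F} (hf : f ∈ h59tU1 A W) (n : ℤ) : f ^ n ∈ h59tU1 A W := by
  obtain ⟨k, rfl | rfl⟩ := n.eq_nat_or_neg
  · rw [zpow_natCast]; exact h59tU1_pow hG hf k
  · rw [zpow_neg, zpow_natCast]; exact h59tU1_inv hAF hG (h59tU1_pow hG hf k)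

theorem h59tU1_prod (hG : H59Gauss A W) {α : Type*} (T : Finset α) (f : α → F)
    (hf : ∀ i ∈ T, f i ∈ h59tU1 A W) : ∏ i ∈ T, f i ∈ h59tU1 A W :=
  Finset.prod_induction f (fun x => x ∈ h59tU1 A W) (fun _ _ ha hb => h59tU1_mul hG ha hb)
    h59tU1_one hf

theorem h59tU1_div (hAF : Function.Injective (algebraMap A F)) (hG : H59Gauss A W)
    {f g : F} (hf : f ∈ h59tU1 A W) (hg : g ∈ h59tU1 A W) : f / g ∈ h59tU1 A W := by
  rw [div_eq_mul_inv]; exact h59tU1_mul hG hf (h59tU1_inv hAF hG hg)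

/-- `1 + 𝔪_A W` is stable under a ring endomorphism of `F` which preserves `W` and maps the
constants of `𝔪_A` into `𝔪_A`. -/
theorem h59tU1_map (τ : F →+* F) (τA : A →+* A)
    (hτA : ∀ a : A, τ (algebraMap A F a) = algebraMap A F (τA a))
    (hτ𝔪 : ∀ a ∈ maximalIdeal A, τA a ∈ maximalIdeal A)
    (hτW : ∀ f ∈ W, τ f ∈ W) {f : F} (hf : f ∈ h59tU1 A W) : τ f ∈ h59tU1 A W := by
  obtain ⟨d, hd, z, hz, h⟩ := hf
  refine ⟨τA d, hτ𝔪 d hd, τ z, hτW z hz, ?_⟩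
  rw [← hτA, ← map_mul, ← h, map_sub, map_one]

/-- an element which is `≡ 1` modulo `𝔪_A W₁` and modulo `𝔪_A W₂` is `≡ 1` modulo
`π (W₁ ∩ W₂)` for some nonzero `π ∈ 𝔪_A` dividing a given `π₁`. -/
theorem h59tU1_inter (hAF : Function.Injective (algebraMap A F)) {W₁ W₂ V : Subring F}
    (hG₁ : H59Gauss A W₁) (hG₂ : H59Gauss A W₂)
    (hV : ∀ x : F, x ∈ V ↔ x ∈ W₁ ∧ x ∈ W₂)
    (π₁ : A) (hπ₁ : π₁ ∈ maximalIdeal A) (hπ₁0 : π₁ ≠ 0)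
    {g : F} (h1 : g ∈ h59tU1 A W₁) (h2 : g ∈ h59tU1 A W₂) :
    ∃ π ∈ maximalIdeal A, π ≠ 0 ∧ π ∣ π₁ ∧ g ∈ h26U π V := by
  by_cases hg : g = 1
  · exact ⟨π₁, hπ₁, hπ₁0, dvd_rfl, hg ▸ h26U_one⟩
  obtain ⟨d₁, hd₁, z₁, hz₁, e₁⟩ := h1
  obtain ⟨d₂, hd₂, z₂, hz₂, e₂⟩ := h2
  have hg0 : g - 1 ≠ 0 := sub_ne_zero.mpr hg
  have hd₁0 : d₁ ≠ 0 := by
    rintro rfl
    rw [map_zero, zero_mul] at e₁
    exact hg0 e₁
  have hd₂0 : d₂ ≠ 0 := by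
    rintro rfl
    rw [map_zero, zero_mul] at e₂
    exact hg0 e₂
  -- a common divisor of `d₁`, `d₂`, `π₁`
  obtain ⟨d, hd, hd0, hdπ, hdd⟩ := h26_common_divisor (A := A) (Finset.univ : Finset (Fin 2))
    (fun i => if i = 0 then d₁ else d₂)
    (fun i _ => by by_cases h : i = 0 <;> simp [h, hd₁, hd₂]) π₁ hπ₁ hπ₁0
  have hdd₁ : d ∣ d₁ := by simpa using hdd 0 (Finset.mem_univ _)
  have hdd₂ : d ∣ d₂ := by simpa using hdd 1 (Finset.mem_univ _)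
  obtain ⟨c₁, rfl⟩ := hdd₁
  obtain ⟨c₂, rfl⟩ := hdd₂
  have hdF : algebraMap A F d ≠ 0 := fun h0 => hd0 (hAF (by rw [h0, map_zero]))
  refine ⟨d, hd, hd0, hdπ, algebraMap A F c₁ * z₁, ?_, ?_⟩
  · rw [hV]
    refine ⟨W₁.mul_mem (hG₁.hA c₁) hz₁, ?_⟩
    have h3 : algebraMap A F c₁ * z₁ = algebraMap A F c₂ * z₂ := by
      apply mul_left_cancel₀ hdF
      rw [← mul_assoc, ← map_mul, ← e₁, ← mul_assoc, ← map_mul, ← e₂]
    rw [h3]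
    exact W₂.mul_mem (hG₂.hA c₂) hz₂
  · rw [← mul_assoc, ← map_mul, ← e₁]
    ring

end U1

section UnitAt

variable {A : Type*} [CommRing A] [IsDomain A] [ValuationRing A]
  {F : Type*} [Field F] [Algebra A F]

/-- `η` is a unit of the local ring `B_𝔫`. -/
def h59tUnitAt (B : Subalgebra A F) (𝔫 : Ideal B) (η : F) : Prop :=
  η ≠ 0 ∧ ∃ s : B, s ∉ 𝔫 ∧ (s : F) * η ∈ B ∧ (s : F) * η⁻¹ ∈ B

variable {B : Subalgebra A F} {𝔫 : Ideal B}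

theorem h59tUnitAt_ne_zero {η : F} (h : h59tUnitAt B 𝔫 η) : η ≠ 0 := h.1

theorem h59t_coe_ne_zero [h𝔫 : 𝔫.IsPrime] {s : B} (hs : s ∉ 𝔫) : (s : F) ≠ 0 := by
  intro h
  apply hs
  have : s = 0 := Subtype.ext h
  rw [this]
  exact 𝔫.zero_mem

theorem h59tUnitAt_of_notMem [h𝔫 : 𝔫.IsPrime] {b : B} (hb : b ∉ 𝔫) :
    h59tUnitAt B 𝔫 (b : F) := by
  have hb0 := h59t_coe_ne_zero hb
  refine ⟨hb0, b, hb, B.mul_mem b.2 b.2, ?_⟩
  rw [mul_inv_cancel₀ hb0]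
  exact B.one_mem

theorem h59tUnitAt_one [h𝔫 : 𝔫.IsPrime] : h59tUnitAt B 𝔫 (1 : F) := by
  have h1 : (1 : B) ∉ 𝔫 := (Ideal.ne_top_iff_one 𝔫).mp h𝔫.ne_top
  simpa using h59tUnitAt_of_notMem (F := F) h1

theorem h59tUnitAt_inv {η : F} (h : h59tUnitAt B 𝔫 η) : h59tUnitAt B 𝔫 η⁻¹ := by
  obtain ⟨h0, s, hs, h1, h2⟩ := h
  exact ⟨inv_ne_zero h0, s, hs, h2, by rwa [inv_inv]⟩

theorem h59tUnitAt_mul [h𝔫 : 𝔫.IsPrime] {η θ : F} (h : h59tUnitAt B 𝔫 η)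
    (h' : h59tUnitAt B 𝔫 θ) : h59tUnitAt B 𝔫 (η * θ) := by
  obtain ⟨h0, s, hs, h1, h2⟩ := h
  obtain ⟨h0', s', hs', h1', h2'⟩ := h'
  refine ⟨mul_ne_zero h0 h0', s * s', fun h => (h𝔫.mem_or_mem h).elim hs hs', ?_, ?_⟩
  · have : ((s * s' : B) : F) * (η * θ) = ((s : F) * η) * ((s' : F) * θ) := by
      push_cast; ring
    rw [this]
    exact B.mul_mem h1 h1'
  · have : ((s * s' : B) : F) * (η * θ)⁻¹ = ((s : F) * η⁻¹) * ((s' : F) * θ⁻¹) := by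
      push_cast; rw [mul_inv]; ring
    rw [this]
    exact B.mul_mem h2 h2'

theorem h59tUnitAt_div [h𝔫 : 𝔫.IsPrime] {η θ : F} (h : h59tUnitAt B 𝔫 η)
    (h' : h59tUnitAt B 𝔫 θ) : h59tUnitAt B 𝔫 (η / θ) := by
  rw [div_eq_mul_inv]; exact h59tUnitAt_mul h (h59tUnitAt_inv h')

theorem h59tUnitAt_pow [h𝔫 : 𝔫.IsPrime] {η : F} (h : h59tUnitAt B 𝔫 η) (n : ℕ) :
    h59tUnitAt B 𝔫 (η ^ n) := by
  induction n with
  | zero => rw [pow_zero]; exact h59tUnitAt_one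
  | succ n ih => rw [pow_succ]; exact h59tUnitAt_mul ih h

theorem h59tUnitAt_zpow [h𝔫 : 𝔫.IsPrime] {η : F} (h : h59tUnitAt B 𝔫 η) (n : ℤ) :
    h59tUnitAt B 𝔫 (η ^ n) := by
  obtain ⟨k, rfl | rfl⟩ := n.eq_nat_or_neg
  · rw [zpow_natCast]; exact h59tUnitAt_pow h k
  · rw [zpow_neg, zpow_natCast]; exact h59tUnitAt_inv (h59tUnitAt_pow h k)

/-- the image of a unit of `A` is a unit of `B_𝔫`. -/
theorem h59tUnitAt_const [h𝔫 : 𝔫.IsPrime] {e : A} (he : IsUnit e) :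
    h59tUnitAt B 𝔫 (algebraMap A F e) := by
  have h1 : algebraMap A B e ∉ 𝔫 := fun h =>
    h𝔫.ne_top (Ideal.eq_top_of_isUnit_mem _ h (he.map _))
  exact h59tUnitAt_of_notMem (F := F) h1

/-- a unit of `B_𝔫` is a unit of `W` if `B ⊆ W` and the non-units of `W` in `B` are in `𝔫`. -/
theorem h59tUnitAt_mem_W [h𝔫 : 𝔫.IsPrime] {W : Subring F} (hBW : ∀ x ∈ B, x ∈ W)
    (hP : ∀ b : B, b ∉ 𝔫 → (b : F)⁻¹ ∈ W) {η : F} (h : h59tUnitAt B 𝔫 η) :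
    η ∈ W ∧ η⁻¹ ∈ W := by
  obtain ⟨h0, s, hs, h1, h2⟩ := h
  have hs0 := h59t_coe_ne_zero hs
  constructor
  · have : η = (s : F)⁻¹ * ((s : F) * η) := by
      rw [← mul_assoc, inv_mul_cancel₀ hs0, one_mul]
    rw [this]
    exact W.mul_mem (hP s hs) (hBW _ h1)
  · have : η⁻¹ = (s : F)⁻¹ * ((s : F) * η⁻¹) := by
      rw [← mul_assoc, inv_mul_cancel₀ hs0, one_mul]
    rw [this]
    exact W.mul_mem (hP s hs) (hBW _ h2)

/-- units of `B_𝔫` are mapped to units of `B_𝔫` by a ring endomorphism of `F` which preserves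
`B` and the complement of `𝔫`. -/
theorem h59tUnitAt_map (τ : F →+* F) (hτB : ∀ b ∈ B, τ b ∈ B)
    (hτ𝔫 : ∀ b : B, b ∉ 𝔫 → ∀ h : τ (b : F) ∈ B, (⟨τ (b : F), h⟩ : B) ∉ 𝔫)
    {η : F} (h : h59tUnitAt B 𝔫 η) : h59tUnitAt B 𝔫 (τ η) := by
  obtain ⟨h0, s, hs, h1, h2⟩ := h
  refine ⟨(map_ne_zero τ).mpr h0, ⟨τ (s : F), hτB _ s.2⟩, hτ𝔫 s hs _, ?_, ?_⟩
  · show τ (s : F) * τ η ∈ B
    rw [← map_mul]
    exact hτB _ h1
  · show τ (s : F) * (τ η)⁻¹ ∈ B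
    rw [← map_inv₀, ← map_mul]
    exact hτB _ h2

/-- **the exponent lemma.**  If `x ∈ 𝔫`, `η` is a unit of `B_𝔫` and `x ^ k η ≡ 1` modulo
`𝔪_A W`, where the non-units of `W` in `B` are in `𝔫`, then `k = 0`. -/
theorem h59t_zpow_unit_congr [h𝔫 : 𝔫.IsPrime] (hAF : Function.Injective (algebraMap A F))
    {W : Subring F} (hG : H59Gauss A W) (hBW : ∀ x ∈ B, x ∈ W)
    (hP : ∀ b : B, b ∉ 𝔫 → (b : F)⁻¹ ∈ W)
    (x : B) (hx : x ∈ 𝔫) {η : F} (hη : h59tUnitAt B 𝔫 η) (k : ℤ)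
    (h : (x : F) ^ k * η ∈ h59tU1 A W) : k = 0 := by
  -- the case of a positive exponent
  have pos : ∀ (n : ℕ) (θ : F), h59tUnitAt B 𝔫 θ → (x : F) ^ (n + 1) * θ ∉ h59tU1 A W := by
    intro n θ hθ hmem
    obtain ⟨h0, s, hs, h1, -⟩ := hθ
    set b : B := ⟨(s : F) * θ, h1⟩ * x ^ (n + 1) with hb
    have hb𝔫 : b ∈ 𝔫 := 𝔫.mul_mem_left _ (𝔫.pow_mem_of_mem hx (n + 1) (Nat.succ_pos n))
    have hbs : b - s ∉ 𝔫 := fun h2 => hs (by
      have := 𝔫.sub_mem hb𝔫 h2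
      simpa using this)
    have h3 : ((b - s : B) : F) = (s : F) * ((x : F) ^ (n + 1) * θ - 1) := by
      rw [hb]; push_cast; ring
    have h4 : ((b - s : B) : F) ∈ h59tM A W := by
      rw [h3]
      exact h59tM_mul_left hmem (hBW _ s.2)
    exact h59tM_inv_notMem hG h4 (h59t_coe_ne_zero hbs) (hP _ hbs)
  obtain ⟨n, rfl | rfl⟩ := k.eq_nat_or_neg
  · rcases Nat.eq_zero_or_pos n with rfl | hn
    · rfl
    · exfalso
      obtain ⟨m, rfl⟩ : ∃ m, n = m + 1 := ⟨n - 1, by omega⟩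
      rw [zpow_natCast] at h
      exact pos m η hη h
  · rcases Nat.eq_zero_or_pos n with rfl | hn
    · simp
    · exfalso
      obtain ⟨m, rfl⟩ : ∃ m, n = m + 1 := ⟨n - 1, by omega⟩
      have h5 := h59tU1_inv hAF hG h
      rw [mul_inv, zpow_neg, inv_inv, zpow_natCast] at h5
      exact pos m η⁻¹ (h59tUnitAt_inv hη) h5

end UnitAt

end Fermat.Agent.S35
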