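import Mathlib
import Fermat.Agent.S35.H59Unit

/-!
# S35, block TOR (helper59): weak approximation for two Gauss rings (abstract)

`W₁`, `W₂` two Gauss rings of `F` over the valuation ring `A` (`H59Gauss`) with a separating
element `e` (`e ≡ 1` modulo `𝔪_A W₁`, `e ∈ 𝔪_A W₂`).

* `h59a_arch` : for `g ∈ 𝔪_A W` and `f ∈ F`, `g ^ n f ∈ 𝔪_A W` for all large `n`.
* `h59a_approx` : for nonzero `f₁, f₂` there is `H ≠ 0` with `H / f₁ ≡ 1` modulo `𝔪_A W₁` and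
  `H / f₂ ≡ 1` modulo `𝔪_A W₂`.
* `h59a_glue` : if `c₁ z / h₁ ^ m ≡ 1` modulo `𝔪_A W₁` and `c₂ z / h₂ ^ m ≡ 1` modulo `𝔪_A W₂`
  with constants `c₁, c₂` such that `c₂ / c₁` is an `m`-th power of a constant, then there is
  `H ≠ 0` such that `c₁ z / H ^ m ≡ 1` modulo both.
-/

set_option autoImplicit false
set_option linter.unusedSectionVars false
set_option linter.unusedVariables false

open IsLocalRing

namespace Fermat.Agent.S35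

open Fermat.Agent.Red

section Approx

variable {A : Type*} [CommRing A] [IsDomain A] [ValuationRing A]
  {F : Type*} [Field F] [Algebra A F] {W W₁ W₂ : Subring F}

theorem h59tM_pow_succ (hG : H59Gauss A W) {g : F} (hg : g ∈ h59tM A W) (n : ℕ) :
    g ^ (n + 1) ∈ h59tM A W := by
  rw [pow_succ]
  exact h59tM_mul_left hg (W.pow_mem (h59tM_mem_W hG hg) n)

/-- **Archimedean property.**  For `g ∈ 𝔪_A W` and any `f`, the products `g ^ n f` are in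
`𝔪_A W` for all large `n`. -/
theorem h59a_arch (hAF : Function.Injective (algebraMap A F))
    (harch : ∀ c ∈ maximalIdeal A, c ≠ 0 → ∀ a : A, a ≠ 0 → ∃ k : ℕ, a ∣ c ^ k)
    (hG : H59Gauss A W) {g : F} (hg : g ∈ h59tM A W) (f : F) :
    ∃ N : ℕ, ∀ n, N ≤ n → g ^ n * f ∈ h59tM A W := by
  have hgW : g ∈ W := h59tM_mem_W hG hg
  -- it is enough to find one exponent
  suffices h : ∃ N : ℕ, g ^ N * f ∈ h59tM A W by
    obtain ⟨N, hN⟩ := h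
    refine ⟨N, fun n hn => ?_⟩
    obtain ⟨k, rfl⟩ := Nat.exists_eq_add_of_le hn
    rw [pow_add, mul_assoc, mul_comm (g ^ k), ← mul_assoc]
    exact h59tM_mul_right hN (W.pow_mem hgW k)
  by_cases hf0 : f = 0
  · exact ⟨0, by rw [hf0, mul_zero]; exact h59tM_zero⟩
  obtain ⟨d, hd, z, hz, rfl⟩ := hg
  by_cases hd0 : d = 0
  · exact ⟨1, by rw [hd0, map_zero, zero_mul, pow_one, zero_mul]; exact h59tM_zero⟩
  obtain ⟨a, b, ha, hb, u, hu, -, e⟩ := hG.hscale f hf0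
  have haF : algebraMap A F a ≠ 0 := fun h0 => ha (hAF (by rw [h0, map_zero]))
  obtain ⟨k, a', ha'⟩ := harch d hd hd0 a ha
  refine ⟨k + 1, d, hd, algebraMap A F a' * algebraMap A F b * z ^ (k + 1) * u,
    W.mul_mem (W.mul_mem (W.mul_mem (hG.hA _) (hG.hA _)) (W.pow_mem hz _)) hu, ?_⟩
  have h1 : f = algebraMap A F b * u / algebraMap A F a := by
    rw [← e, mul_div_assoc, mul_comm, div_mul_cancel₀ _ haF]
  have h2 : algebraMap A F d ^ k = algebraMap A F a * algebraMap A F a' := by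
    rw [← map_pow, ha', map_mul]
  rw [h1, mul_pow, pow_succ, h2]
  field_simp

theorem h59tU1_add_M (hG : H59Gauss A W) {u m : F} (hu : u ∈ h59tU1 A W)
    (hm : m ∈ h59tM A W) : u + m ∈ h59tU1 A W := by
  show u + m - 1 ∈ h59tM A W
  have : u + m - 1 = (u - 1) + m := by ring
  rw [this]
  exact h59tM_add hG hu hm

/-- **Weak approximation.** -/
theorem h59a_approx (hAF : Function.Injective (algebraMap A F))
    (harch : ∀ c ∈ maximalIdeal A, c ≠ 0 → ∀ a : A, a ≠ 0 → ∃ k : ℕ, a ∣ c ^ k)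
    (hG₁ : H59Gauss A W₁) (hG₂ : H59Gauss A W₂)
    (e : F) (he₁ : e ∈ h59tU1 A W₁) (he₂ : e ∈ h59tM A W₂)
    (f₁ f₂ : F) (hf₁ : f₁ ≠ 0) (hf₂ : f₂ ≠ 0) :
    ∃ H : F, H ≠ 0 ∧ H / f₁ ∈ h59tU1 A W₁ ∧ H / f₂ ∈ h59tU1 A W₂ := by
  -- `e' = 1 - e`
  have he'₁ : 1 - e ∈ h59tM A W₁ := by
    have := h59tM_neg he₁
    rwa [neg_sub] at this
  have he'₂ : 1 - e ∈ h59tU1 A W₂ := by
    show 1 - e - 1 ∈ h59tM A W₂
    have : 1 - e - 1 = -e := by ring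
    rw [this]
    exact h59tM_neg he₂
  obtain ⟨N₁, hN₁⟩ := h59a_arch hAF harch hG₁ he'₁ (f₂ / f₁)
  obtain ⟨N₂, hN₂⟩ := h59a_arch hAF harch hG₂ he₂ (f₁ / f₂)
  set N : ℕ := max N₁ N₂ with hN
  set H : F := e ^ N * f₁ + (1 - e) ^ N * f₂ with hH
  have h1 : H / f₁ = e ^ N + (1 - e) ^ N * (f₂ / f₁) := by
    rw [hH]; field_simp
  have h2 : H / f₂ = (1 - e) ^ N + e ^ N * (f₁ / f₂) := by
    rw [hH]; field_simp; ring
  have hU₁ : H / f₁ ∈ h59tU1 A W₁ := by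
    rw [h1]
    exact h59tU1_add_M hG₁ (h59tU1_pow hG₁ he₁ N) (hN₁ N (le_max_left _ _))
  have hU₂ : H / f₂ ∈ h59tU1 A W₂ := by
    rw [h2]
    exact h59tU1_add_M hG₂ (h59tU1_pow hG₂ he'₂ N) (hN₂ N (le_max_right _ _))
  refine ⟨H, ?_, hU₁, hU₂⟩
  intro h0
  have := h59tU1_ne_zero hG₁ hU₁
  rw [h0, zero_div] at this
  exact this rfl

/-- **Gluing of the two reductions.**  If `c₁ z / h₁ ^ m ≡ 1` on the first component and
`c₂ z / h₂ ^ m ≡ 1` on the second component, and `c₂ = c₁ κ ^ m`, then there is `H ≠ 0` with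
`c₁ z / H ^ m ≡ 1` on both components. -/
theorem h59a_glue (hAF : Function.Injective (algebraMap A F))
    (harch : ∀ c ∈ maximalIdeal A, c ≠ 0 → ∀ a : A, a ≠ 0 → ∃ k : ℕ, a ∣ c ^ k)
    (hG₁ : H59Gauss A W₁) (hG₂ : H59Gauss A W₂)
    (e : F) (he₁ : e ∈ h59tU1 A W₁) (he₂ : e ∈ h59tM A W₂)
    (m : ℕ) (z c₁ c₂ κ h₁ h₂ : F) (hc₁ : c₁ ≠ 0) (hκ : κ ≠ 0) (hc : c₂ = c₁ * κ ^ m)
    (hh₁ : h₁ ≠ 0) (hh₂ : h₂ ≠ 0)
    (hz₁ : c₁ * z * (h₁ ^ m)⁻¹ ∈ h59tU1 A W₁) (hz₂ : c₂ * z * (h₂ ^ m)⁻¹ ∈ h59tU1 A W₂) :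
    ∃ H : F, H ≠ 0 ∧ c₁ * z * (H ^ m)⁻¹ ∈ h59tU1 A W₁ ∧ c₁ * z * (H ^ m)⁻¹ ∈ h59tU1 A W₂ := by
  have hf₂ : h₂ * κ⁻¹ ≠ 0 := mul_ne_zero hh₂ (inv_ne_zero hκ)
  obtain ⟨H, hH0, hH₁, hH₂⟩ := h59a_approx hAF harch hG₁ hG₂ e he₁ he₂ h₁ (h₂ * κ⁻¹) hh₁ hf₂
  refine ⟨H, hH0, ?_, ?_⟩
  · have h1 : c₁ * z * (H ^ m)⁻¹ = c₁ * z * (h₁ ^ m)⁻¹ * ((H / h₁) ^ m)⁻¹ := by
      rw [div_pow]
      have := pow_ne_zero m hH0
      have := pow_ne_zero m hh₁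
      field_simp
    rw [h1]
    exact h59tU1_mul hG₁ hz₁ (h59tU1_inv hAF hG₁ (h59tU1_pow hG₁ hH₁ m))
  · have h1 : c₁ * z * (H ^ m)⁻¹ = c₂ * z * (h₂ ^ m)⁻¹ * ((H / (h₂ * κ⁻¹)) ^ m)⁻¹ := by
      rw [hc, div_pow, mul_pow, inv_pow]
      have := pow_ne_zero m hH0
      have := pow_ne_zero m hh₂
      have := pow_ne_zero m hκ
      field_simp
    rw [h1]
    exact h59tU1_mul hG₂ hz₂ (h59tU1_inv hAF hG₂ (h59tU1_pow hG₂ hH₂ m))

end Approx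

end Fermat.Agent.S35
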