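import Mathlib
import Fermat.Agent.S35.H59Unit
import Fermat.Agent.LGC.NodeLP

/-!
# S35, block TOR (helper59): the normal form of a function at a node (abstract)

Setting: `A` a valuation ring, `B ⊆ F` a chart, `V = W₁ ∩ W₂` the intersection of two Gauss
rings (the two components of the special fibre), `𝔫 ⊇ 𝔪_A B` a prime of `B` with a node datum
`x y = a c` such that `x` is a unit of `W₁` and `y` is a unit of `W₂`, and the non-units of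
`W₁` and of `W₂` in `B` are in `𝔫` (both components pass through the node).

* `h59t_inter_le` : `B ∩ 𝔪_A W₁ ∩ 𝔪_A W₂ ⊆ 𝔪_A B` (the special fibre is reduced).
* `h59t_P2_principal` : `B ∩ 𝔪_A W₂ ⊆ x B + 𝔪_A B` locally at `𝔫`.
* `h59t_node_nf` : **normal form.**  A function without zeros and poles among the places
  centered at `𝔫` is `κ x ^ t η` with `κ` a constant, `t ∈ ℤ` and `η` a unit of `B_𝔫`.
-/

set_option autoImplicit false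
set_option linter.unusedSectionVars false
set_option linter.unusedVariables false

open WithZero IsLocalRing

namespace Fermat.Agent.S35

open Fermat.Agent.Red Fermat.Agent.LGC

section Node

variable {A : Type*} [CommRing A] [IsDomain A] [ValuationRing A]
  {F : Type*} [Field F] [Algebra A F] {ι : Type*}

/-- the ambient data: a chart `B`, two Gauss rings `W₁`, `W₂`, their intersection `V` and the
places `v` of the generic fibre which are finite on the chart. -/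
structure H59Amb (B : Subalgebra A F) (V W₁ W₂ : Subring F)
    (v : ι → Valuation F ℤᵐ⁰) : Prop where
  hC : H26Chart B V v
  hAF : Function.Injective (algebraMap A F)
  harch : ∀ c ∈ maximalIdeal A, c ≠ 0 → ∀ a : A, a ≠ 0 → ∃ k : ℕ, a ∣ c ^ k
  hG₁ : H59Gauss A W₁
  hG₂ : H59Gauss A W₂
  hV : ∀ x : F, x ∈ V ↔ x ∈ W₁ ∧ x ∈ W₂

/-- a node datum at the prime `𝔫` of the chart `B`: `x y = a c`, `𝔫 = (x, y) + 𝔪_A B` locally,
`x` is a unit on the first component, `y` is a unit on the second component, and both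
components pass through `𝔫`. -/
structure H59Node (B : Subalgebra A F) (W₁ W₂ : Subring F) (𝔫 : Ideal B) (x y c : B)
    (a : A) : Prop where
  hle : (maximalIdeal A).map (algebraMap A B) ≤ 𝔫
  hx : x ∈ 𝔫
  hy : y ∈ 𝔫
  hc : c ∉ 𝔫
  ha : a ≠ 0
  hxy : x * y = algebraMap A B a * c
  hprin : ∀ z ∈ 𝔫, ∃ s, s ∉ 𝔫 ∧
    s * z ∈ Ideal.span {x, y} ⊔ (maximalIdeal A).map (algebraMap A B)
  hxW : (x : F)⁻¹ ∈ W₁
  hyW : (y : F)⁻¹ ∈ W₂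
  hP₁ : ∀ b : B, b ∉ 𝔫 → (b : F)⁻¹ ∈ W₁
  hP₂ : ∀ b : B, b ∉ 𝔫 → (b : F)⁻¹ ∈ W₂

variable {B : Subalgebra A F} {V W₁ W₂ : Subring F} {v : ι → Valuation F ℤᵐ⁰}

theorem H59Amb.hBW₁ (hAmb : H59Amb B V W₁ W₂ v) : ∀ x ∈ B, x ∈ W₁ :=
  fun x hx => ((hAmb.hV x).mp (hAmb.hC.hBV x hx)).1

theorem H59Amb.hBW₂ (hAmb : H59Amb B V W₁ W₂ v) : ∀ x ∈ B, x ∈ W₂ :=
  fun x hx => ((hAmb.hV x).mp (hAmb.hC.hBV x hx)).2

theorem H59Amb.symm (hAmb : H59Amb B V W₁ W₂ v) : H59Amb B V W₂ W₁ v :=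
  ⟨hAmb.hC, hAmb.hAF, hAmb.harch, hAmb.hG₂, hAmb.hG₁, fun x => by rw [hAmb.hV x, and_comm]⟩

theorem H59Node.symm {𝔫 : Ideal B} {x y c : B} {a : A} (hN : H59Node B W₁ W₂ 𝔫 x y c a) :
    H59Node B W₂ W₁ 𝔫 y x c a :=
  ⟨hN.hle, hN.hy, hN.hx, hN.hc, hN.ha, by rw [mul_comm]; exact hN.hxy,
    fun z hz => by
      obtain ⟨s, hs, h⟩ := hN.hprin z hz
      exact ⟨s, hs, by rwa [Set.pair_comm]⟩,
    hN.hyW, hN.hxW, hN.hP₂, hN.hP₁⟩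

/-- the elements of `𝔪_A B` are in `𝔪_A W`. -/
theorem h59t_mExt_mem_M {W : Subring F} (hG : H59Gauss A W) (hBW : ∀ x ∈ B, x ∈ W)
    (m : B) (hm : m ∈ (maximalIdeal A).map (algebraMap A B)) : (m : F) ∈ h59tM A W := by
  let P : Ideal B :=
    { carrier := {b | (b : F) ∈ h59tM A W}
      add_mem' := fun {b b'} hb hb' => by
        show ((b + b' : B) : F) ∈ h59tM A W
        push_cast
        exact h59tM_add hG hb hb'
      zero_mem' := by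
        show ((0 : B) : F) ∈ h59tM A W
        push_cast
        exact h59tM_zero
      smul_mem' := fun c b hb => by
        show ((c • b : B) : F) ∈ h59tM A W
        rw [smul_eq_mul]
        push_cast
        exact h59tM_mul_left hb (hBW _ c.2) }
  have hle : (maximalIdeal A).map (algebraMap A B) ≤ P := by
    rw [Ideal.map_le_iff_le_comap]
    intro d hd
    show ((algebraMap A B d : B) : F) ∈ h59tM A W
    exact h59tM_of_mem d hd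
  exact hle hm

section WithNode

variable {𝔫 : Ideal B} [h𝔫 : 𝔫.IsPrime] {x y c : B} {a : A}

theorem H59Node.a_mem (hN : H59Node B W₁ W₂ 𝔫 x y c a) : a ∈ maximalIdeal A := by
  by_contra hne
  have hu : IsUnit a := IsLocalRing.notMem_maximalIdeal.mp hne
  have h1 : algebraMap A B a * c ∈ 𝔫 := by
    rw [← hN.hxy]; exact 𝔫.mul_mem_right _ hN.hx
  rcases h𝔫.mem_or_mem h1 with h2 | h2
  · exact h𝔫.ne_top (Ideal.eq_top_of_isUnit_mem _ h2 (hu.map _))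
  · exact hN.hc h2

theorem H59Node.hxyF (hN : H59Node B W₁ W₂ 𝔫 x y c a) :
    (x : F) * (y : F) = algebraMap A F a * (c : F) := by
  have := congrArg (fun b : B => (b : F)) hN.hxy
  simpa using this

theorem H59Node.aF_ne (hAmb : H59Amb B V W₁ W₂ v) (hN : H59Node B W₁ W₂ 𝔫 x y c a) :
    algebraMap A F a ≠ 0 :=
  fun h0 => hN.ha (hAmb.hAF (by rw [h0, map_zero]))

theorem H59Node.x_ne (hAmb : H59Amb B V W₁ W₂ v) (hN : H59Node B W₁ W₂ 𝔫 x y c a) :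
    (x : F) ≠ 0 := by
  intro h
  have h1 := hN.hxyF
  rw [h, zero_mul] at h1
  exact mul_ne_zero (hN.aF_ne hAmb) (h59t_coe_ne_zero hN.hc) h1.symm

theorem H59Node.y_ne (hAmb : H59Amb B V W₁ W₂ v) (hN : H59Node B W₁ W₂ 𝔫 x y c a) :
    (y : F) ≠ 0 :=
  hN.symm.x_ne hAmb.symm

/-- `x = a (c / y)` in `F`. -/
theorem H59Node.x_eq (hAmb : H59Amb B V W₁ W₂ v) (hN : H59Node B W₁ W₂ 𝔫 x y c a) :
    (x : F) = algebraMap A F a * ((c : F) * (y : F)⁻¹) := by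
  have hy0 := hN.y_ne hAmb
  rw [← mul_assoc, ← hN.hxyF, mul_assoc, mul_inv_cancel₀ hy0, mul_one]

/-- `x ∈ 𝔪_A W₂`. -/
theorem H59Node.x_mem_M (hAmb : H59Amb B V W₁ W₂ v) (hN : H59Node B W₁ W₂ 𝔫 x y c a) :
    (x : F) ∈ h59tM A W₂ :=
  ⟨a, hN.a_mem, (c : F) * (y : F)⁻¹, W₂.mul_mem (hAmb.hBW₂ _ c.2) hN.hyW, hN.x_eq hAmb⟩

/-- `c / y` is a unit of `W₂`. -/
theorem H59Node.cy_inv_mem (hAmb : H59Amb B V W₁ W₂ v) (hN : H59Node B W₁ W₂ 𝔫 x y c a) :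
    ((c : F) * (y : F)⁻¹)⁻¹ ∈ W₂ := by
  rw [mul_inv, inv_inv]
  exact W₂.mul_mem (hN.hP₂ c hN.hc) (hAmb.hBW₂ _ y.2)

/-- the elements of `B` which are in `𝔪_A W₂` are in `𝔫`. -/
theorem H59Node.mem_of_M₂ (hAmb : H59Amb B V W₁ W₂ v) (hN : H59Node B W₁ W₂ 𝔫 x y c a)
    (z : B) (hz : (z : F) ∈ h59tM A W₂) : z ∈ 𝔫 := by
  by_contra h
  exact h59tM_inv_notMem hAmb.hG₂ hz (h59t_coe_ne_zero h) (hN.hP₂ z h)

/-- **the special fibre is reduced**: `B ∩ 𝔪_A W₁ ∩ 𝔪_A W₂ ⊆ 𝔪_A B`. -/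
theorem h59t_inter_le (hAmb : H59Amb B V W₁ W₂ v) (π₁ : A) (hπ₁ : π₁ ∈ maximalIdeal A)
    (hπ₁0 : π₁ ≠ 0) (b : B) (h1 : (b : F) ∈ h59tM A W₁) (h2 : (b : F) ∈ h59tM A W₂) :
    b ∈ (maximalIdeal A).map (algebraMap A B) := by
  have h3 : (1 + (b : F)) ∈ h59tU1 A W₁ := by
    show 1 + (b : F) - 1 ∈ h59tM A W₁
    rwa [add_sub_cancel_left]
  have h4 : (1 + (b : F)) ∈ h59tU1 A W₂ := by
    show 1 + (b : F) - 1 ∈ h59tM A W₂
    rwa [add_sub_cancel_left]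
  obtain ⟨π, hπ, hπ0, -, z, hz, h5⟩ :=
    h59tU1_inter hAmb.hAF hAmb.hG₁ hAmb.hG₂ hAmb.hV π₁ hπ₁ hπ₁0 h3 h4
  have h6 : (b : F) = algebraMap A F π * z := by
    have := congrArg (fun t => t - 1) h5
    simpa using this
  have hπF : algebraMap A F π ≠ 0 := fun h0 => hπ0 (hAmb.hAF (by rw [h0, map_zero]))
  have hzB : z ∈ B := by
    refine hAmb.hC.hQEP π hπF z hz ?_
    rw [Algebra.smul_def, ← h6]
    exact b.2
  have h7 : b = algebraMap A B π * ⟨z, hzB⟩ := by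
    apply Subtype.ext
    push_cast
    exact h6
  rw [h7]
  exact Ideal.mul_mem_right _ _ (Ideal.mem_map_of_mem _ hπ)

/-- `B ∩ 𝔪_A W₂ ⊆ x B + 𝔪_A B` locally at `𝔫`. -/
theorem h59t_P2_principal (hAmb : H59Amb B V W₁ W₂ v) (hN : H59Node B W₁ W₂ 𝔫 x y c a)
    (z : B) (hz : (z : F) ∈ h59tM A W₂) :
    ∃ s : B, s ∉ 𝔫 ∧ ∃ β : B, ∃ m ∈ (maximalIdeal A).map (algebraMap A B),
      s * z = β * x + m := by
  obtain ⟨s, hs, h⟩ := hN.hprin z (hN.mem_of_M₂ hAmb z hz)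
  obtain ⟨p, hp, m, hm, hpm⟩ := Submodule.mem_sup.mp h
  obtain ⟨βx, βy, rfl⟩ := Ideal.mem_span_pair.mp hp
  refine ⟨s, hs, βx, βy * y + m, ?_, ?_⟩
  · refine Ideal.add_mem _ ?_ hm
    refine h59t_inter_le hAmb a hN.a_mem hN.ha _ ?_ ?_
    · -- in `𝔪_A W₁` because `y` is
      have hy1 : (y : F) ∈ h59tM A W₁ := hN.symm.x_mem_M hAmb.symm
      have : ((βy * y : B) : F) = (βy : F) * (y : F) := by push_cast; rfl
      rw [this]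
      exact h59tM_mul_left hy1 (hAmb.hBW₁ _ βy.2)
    · -- in `𝔪_A W₂` as a difference
      have h1 : ((βy * y : B) : F) = ((s * z : B) : F) - ((βx * x : B) : F) - (m : F) := by
        rw [← hpm]; push_cast; ring
      rw [h1]
      refine h59tM_sub hAmb.hG₂ (h59tM_sub hAmb.hG₂ ?_ ?_) ?_
      · have : ((s * z : B) : F) = (s : F) * (z : F) := by push_cast; rfl
        rw [this]
        exact h59tM_mul_left hz (hAmb.hBW₂ _ s.2)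
      · have : ((βx * x : B) : F) = (βx : F) * (x : F) := by push_cast; rfl
        rw [this]
        exact h59tM_mul_left (hN.x_mem_M hAmb) (hAmb.hBW₂ _ βx.2)
      · exact h59t_mExt_mem_M hAmb.hG₂ hAmb.hBW₂ m hm
  · rw [← hpm]; ring

/-- a function of `V` which is regular at the places centered at `𝔫` is in `B_𝔫`. -/
theorem h59t_reg_of_V (hAmb : H59Amb B V W₁ W₂ v) (f : F) (hfV : f ∈ V)
    (hf : ∀ k, h26Centered B v 𝔫 k → v k f ≤ 1) : ∃ s : B, s ∉ 𝔫 ∧ (s : F) * f ∈ B := by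
  obtain ⟨a₁, ha₁, s₁, hs₁, h1⟩ := h26_stepC hAmb.hC.hfin hAmb.hC.hint hAmb.hC.hB 𝔫 f hf
  exact ⟨s₁, hs₁, hAmb.hC.hQEP a₁ ha₁ _ (V.mul_mem (hAmb.hC.hBV _ s₁.2) hfV) h1⟩

/-- **the core of the normal form**: there is no factorisation `x = f₀ h` with `f₀, h` in
`B_𝔫`, units of `W₁` and non-units of `W₂`. -/
theorem h59t_nf_core (hAmb : H59Amb B V W₁ W₂ v) (hN : H59Node B W₁ W₂ 𝔫 x y c a)
    (f₀ h : F) (hfh : f₀ * h = (x : F))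
    (hf₀ : f₀ ∈ h59tM A W₂) (hh : h ∈ h59tM A W₂)
    (hf₀r : ∃ s : B, s ∉ 𝔫 ∧ (s : F) * f₀ ∈ B) (hhr : ∃ s : B, s ∉ 𝔫 ∧ (s : F) * h ∈ B) :
    False := by
  obtain ⟨s₁, hs₁, hb₁⟩ := hf₀r
  obtain ⟨s₂, hs₂, hb₂⟩ := hhr
  set b₁ : B := ⟨(s₁ : F) * f₀, hb₁⟩ with hb₁def
  set b₂ : B := ⟨(s₂ : F) * h, hb₂⟩ with hb₂def
  have hb₁M : (b₁ : F) ∈ h59tM A W₂ := h59tM_mul_left hf₀ (hAmb.hBW₂ _ s₁.2)
  have hb₂M : (b₂ : F) ∈ h59tM A W₂ := h59tM_mul_left hh (hAmb.hBW₂ _ s₂.2)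
  obtain ⟨t₁, ht₁, β₁, m₁, hm₁, e₁⟩ := h59t_P2_principal hAmb hN b₁ hb₁M
  obtain ⟨t₂, ht₂, β₂, m₂, hm₂, e₂⟩ := h59t_P2_principal hAmb hN b₂ hb₂M
  -- `b₁ b₂ = s₁ s₂ x`
  have hprod : b₁ * b₂ = s₁ * s₂ * x := by
    apply Subtype.ext
    push_cast
    show (s₁ : F) * f₀ * ((s₂ : F) * h) = (s₁ : F) * (s₂ : F) * (x : F)
    rw [← hfh]; ring
  set S : B := t₁ * t₂ * s₁ * s₂ with hS
  have hS𝔫 : S ∉ 𝔫 := by
    intro h1
    rcases h𝔫.mem_or_mem h1 with h2 | h2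
    · rcases h𝔫.mem_or_mem h2 with h3 | h3
      · rcases h𝔫.mem_or_mem h3 with h4 | h4
        · exact ht₁ h4
        · exact ht₂ h4
      · exact hs₁ h3
    · exact hs₂ h2
  set S' : B := S - β₁ * β₂ * x - β₁ * m₂ - β₂ * m₁ with hS'
  have hm₁𝔫 : m₁ ∈ 𝔫 := hN.hle hm₁
  have hm₂𝔫 : m₂ ∈ 𝔫 := hN.hle hm₂
  have hS'𝔫 : S' ∉ 𝔫 := by
    intro h1
    apply hS𝔫
    have h2 : S = S' + (β₁ * β₂ * x + β₁ * m₂ + β₂ * m₁) := by rw [hS']; ring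
    rw [h2]
    refine 𝔫.add_mem h1 (𝔫.add_mem (𝔫.add_mem ?_ ?_) ?_)
    · exact 𝔫.mul_mem_left _ hN.hx
    · exact 𝔫.mul_mem_left _ hm₂𝔫
    · exact 𝔫.mul_mem_left _ hm₁𝔫
  have hkey : x * S' = m₁ * m₂ := by
    have h1 : (t₁ * b₁) * (t₂ * b₂) = (β₁ * x + m₁) * (β₂ * x + m₂) := by rw [e₁, e₂]
    have h2 : (t₁ * b₁) * (t₂ * b₂) = S * x := by
      rw [hS]
      calc (t₁ * b₁) * (t₂ * b₂) = t₁ * t₂ * (b₁ * b₂) := by ring
        _ = t₁ * t₂ * (s₁ * s₂ * x) := by rw [hprod]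
        _ = t₁ * t₂ * s₁ * s₂ * x := by ring
    rw [hS']
    have h3 : S * x = (β₁ * x + m₁) * (β₂ * x + m₂) := by rw [← h2, h1]
    calc x * (S - β₁ * β₂ * x - β₁ * m₂ - β₂ * m₁)
        = S * x - (β₁ * β₂ * x * x + β₁ * m₂ * x + β₂ * m₁ * x) := by ring
      _ = (β₁ * x + m₁) * (β₂ * x + m₂) - (β₁ * β₂ * x * x + β₁ * m₂ * x + β₂ * m₁ * x) := by
          rw [h3]
      _ = m₁ * m₂ := by ring
  -- `x S'` is a unit of `W₁` in `𝔪_A W₁`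
  have h1 : ((x * S' : B) : F) ∈ h59tM A W₁ := by
    rw [hkey]
    exact h59t_mExt_mem_M hAmb.hG₁ hAmb.hBW₁ _ (Ideal.mul_mem_right _ _ hm₁)
  have h2 : ((x * S' : B) : F)⁻¹ ∈ W₁ := by
    have : ((x * S' : B) : F) = (x : F) * (S' : F) := by push_cast; rfl
    rw [this, mul_inv]
    exact W₁.mul_mem hN.hxW (hN.hP₁ S' hS'𝔫)
  have h3 : ((x * S' : B) : F) ≠ 0 := by
    have : ((x * S' : B) : F) = (x : F) * (S' : F) := by push_cast; rfl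
    rw [this]
    exact mul_ne_zero (hN.x_ne hAmb) (h59t_coe_ne_zero hS'𝔫)
  exact h59tM_inv_notMem hAmb.hG₁ h1 h3 h2

/-- `x` has no zero among the places centered at `𝔫`. -/
theorem h59t_val_x (hAmb : H59Amb B V W₁ W₂ v) (hN : H59Node B W₁ W₂ 𝔫 x y c a)
    (hconst : ∀ k, h26Centered B v 𝔫 k → ∀ a' : A, a' ≠ 0 → v k (algebraMap A F a') = 1)
    (k : ι) (hk : h26Centered B v 𝔫 k) : v k (x : F) = 1 := by
  have hx1 : v k (x : F) ≤ 1 := hAmb.hC.hB _ x.2 k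
  have hy1 : v k (y : F) ≤ 1 := hAmb.hC.hB _ y.2 k
  have hc1 : v k (c : F) = 1 :=
    le_antisymm (hAmb.hC.hB _ c.2 k) (not_lt.mp fun hlt => hN.hc (hk c hlt))
  have h1 : v k (x : F) * v k (y : F) = 1 := by
    rw [← map_mul, hN.hxyF, map_mul, hconst k hk a hN.ha, hc1, one_mul]
  refine le_antisymm hx1 ?_
  calc (1 : ℤᵐ⁰) = v k (x : F) * v k (y : F) := h1.symm
    _ ≤ v k (x : F) * 1 := by gcongr
    _ = v k (x : F) := mul_one _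

/-- **Normal form at a node.**  A nonzero function without zeros and poles among the places
centered at the node `𝔫` is of the form `κ⁻¹ x ^ (-t) η` with `κ` a constant, `t ∈ ℤ` and `η` a
unit of `B_𝔫`. -/
theorem h59t_node_nf (hAmb : H59Amb B V W₁ W₂ v) (hN : H59Node B W₁ W₂ 𝔫 x y c a)
    (hconst : ∀ k, h26Centered B v 𝔫 k → ∀ a' : A, a' ≠ 0 → v k (algebraMap A F a') = 1)
    (f : F) (hf0 : f ≠ 0) (hf : ∀ k, h26Centered B v 𝔫 k → v k f = 1) :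
    ∃ (κ : F) (t : ℤ), h59tIsConst A κ ∧ h59tUnitAt B 𝔫 (κ * f * (x : F) ^ t) := by
  classical
  have hx0 : (x : F) ≠ 0 := hN.x_ne hAmb
  have haF : algebraMap A F a ≠ 0 := hN.aF_ne hAmb
  have hxW₁ : (x : F) ∈ W₁ := hAmb.hBW₁ _ x.2
  have hxW₂ : (x : F) ∈ W₂ := hAmb.hBW₂ _ x.2
  -- Step 1: scale into `W₁^×`
  obtain ⟨a₁, b₁, ha₁, hb₁, u₁, hu₁, hu₁', e₁⟩ := hAmb.hG₁.hscale f hf0
  have ha₁F : algebraMap A F a₁ ≠ 0 := fun h0 => ha₁ (hAmb.hAF (by rw [h0, map_zero]))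
  have hb₁F : algebraMap A F b₁ ≠ 0 := fun h0 => hb₁ (hAmb.hAF (by rw [h0, map_zero]))
  set κ : F := algebraMap A F a₁ / algebraMap A F b₁ with hκ
  have hκc : h59tIsConst A κ := ⟨a₁, b₁, ha₁, hb₁, by rw [hκ]; field_simp⟩
  have hκ0 : κ ≠ 0 := div_ne_zero ha₁F hb₁F
  have hf₁ : κ * f = u₁ := by
    rw [hκ, div_mul_eq_mul_div, e₁, mul_div_assoc, mul_comm, div_mul_cancel₀ _ hb₁F]
  have hu₁0 : u₁ ≠ 0 := by rw [← hf₁]; exact mul_ne_zero hκ0 hf0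
  have hκval : ∀ k, h26Centered B v 𝔫 k → v k κ = 1 := by
    intro k hk
    rw [hκ, map_div₀, hconst k hk a₁ ha₁, hconst k hk b₁ hb₁, div_one]
  -- Step 2: multiply by a power of `x` to get into `W₂`
  obtain ⟨k₀, hk₀⟩ : ∃ k₀ : ℕ, u₁ * (x : F) ^ k₀ ∈ W₂ := by
    obtain ⟨a₂, b₂, ha₂, hb₂, u₂, hu₂, hu₂', e₂⟩ := hAmb.hG₂.hscale u₁ hu₁0
    obtain ⟨k₀, e, he⟩ := hAmb.harch a hN.a_mem hN.ha a₂ ha₂
    refine ⟨k₀, ?_⟩
    have h1 : u₁ * (x : F) ^ k₀ = algebraMap A F b₂ * u₂ * algebraMap A F e *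
        ((c : F) * (y : F)⁻¹) ^ k₀ := by
      rw [hN.x_eq hAmb, mul_pow, ← map_pow, he, map_mul, ← e₂]
      ring
    rw [h1]
    exact W₂.mul_mem (W₂.mul_mem (W₂.mul_mem (hAmb.hG₂.hA b₂) hu₂) (hAmb.hG₂.hA e))
      (W₂.pow_mem (W₂.mul_mem (hAmb.hBW₂ _ c.2) hN.hyW) k₀)
  set f₂ : F := u₁ * (x : F) ^ k₀ with hf₂
  have hf₂0 : f₂ ≠ 0 := mul_ne_zero hu₁0 (pow_ne_zero _ hx0)
  -- Step 3: dividing by a high power of `x` leaves `W₂`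
  have hex : ∃ k₁ : ℕ, f₂ * ((x : F)⁻¹) ^ k₁ ∉ W₂ := by
    obtain ⟨a₃, b₃, ha₃, hb₃, u₃, hu₃, hu₃', e₃⟩ := hAmb.hG₂.hscale f₂ hf₂0
    obtain ⟨k, e', he'⟩ := hAmb.harch a hN.a_mem hN.ha b₃ hb₃
    have hb₃F : algebraMap A F b₃ ≠ 0 := fun h0 => hb₃ (hAmb.hAF (by rw [h0, map_zero]))
    have ha₃F : algebraMap A F a₃ ≠ 0 := fun h0 => ha₃ (hAmb.hAF (by rw [h0, map_zero]))
    have hu₃0 : u₃ ≠ 0 := by
      rintro rfl
      rw [mul_zero] at e₃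
      exact mul_ne_zero ha₃F hf₂0 e₃
    refine ⟨k + 1, fun hmem => ?_⟩
    -- the inverse is in `𝔪_A W₂`
    have h1 : (f₂ * ((x : F)⁻¹) ^ (k + 1))⁻¹ = algebraMap A F a *
        (algebraMap A F e' * algebraMap A F a₃ * ((c : F) * (y : F)⁻¹) ^ (k + 1) * u₃⁻¹) := by
      have h2 : f₂ = algebraMap A F b₃ * u₃ / algebraMap A F a₃ := by
        rw [← e₃, mul_div_assoc, mul_comm, div_mul_cancel₀ _ ha₃F]
      have h3 : (x : F) ^ (k + 1) = algebraMap A F a * (algebraMap A F b₃ * algebraMap A F e') *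
          ((c : F) * (y : F)⁻¹) ^ (k + 1) := by
        nth_rewrite 1 [hN.x_eq hAmb]
        rw [mul_pow, pow_succ, ← map_pow, he', map_mul]
        ring
      rw [mul_inv, inv_pow, inv_inv, h3, h2]
      field_simp
    have h4 : (f₂ * ((x : F)⁻¹) ^ (k + 1))⁻¹ ∈ h59tM A W₂ :=
      ⟨a, hN.a_mem, _, W₂.mul_mem (W₂.mul_mem (W₂.mul_mem (hAmb.hG₂.hA e') (hAmb.hG₂.hA a₃))
        (W₂.pow_mem (W₂.mul_mem (hAmb.hBW₂ _ c.2) hN.hyW) (k + 1))) hu₃', h1⟩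
    have h5 : (f₂ * ((x : F)⁻¹) ^ (k + 1))⁻¹ ≠ 0 :=
      inv_ne_zero (mul_ne_zero hf₂0 (pow_ne_zero _ (inv_ne_zero hx0)))
    exact h59tM_inv_notMem hAmb.hG₂ h4 h5 (by rwa [inv_inv])
  -- Step 4: the last exponent which stays in `W₂`
  set t₁ : ℕ := Nat.find hex with ht₁
  have ht₁spec : f₂ * ((x : F)⁻¹) ^ t₁ ∉ W₂ := Nat.find_spec hex
  have ht₁pos : 0 < t₁ := by
    rcases Nat.eq_zero_or_pos t₁ with h0 | h0
    · exfalso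
      rw [h0, pow_zero, mul_one] at ht₁spec
      exact ht₁spec hk₀
    · exact h0
  obtain ⟨t₀, ht₀⟩ : ∃ t₀, t₁ = t₀ + 1 := ⟨t₁ - 1, by omega⟩
  have ht₀mem : f₂ * ((x : F)⁻¹) ^ t₀ ∈ W₂ := by
    by_contra h
    have := Nat.find_min' hex h
    omega
  set f₀ : F := f₂ * ((x : F)⁻¹) ^ t₀ with hf₀
  have hf₀0 : f₀ ≠ 0 := mul_ne_zero hf₂0 (pow_ne_zero _ (inv_ne_zero hx0))
  have hf₀x : f₀ * (x : F)⁻¹ ∉ W₂ := by
    have : f₀ * (x : F)⁻¹ = f₂ * ((x : F)⁻¹) ^ t₁ := by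
      rw [hf₀, ht₀, pow_succ]; ring
    rw [this]
    exact ht₁spec
  -- Step 5: `f₀` is a unit of `W₁`
  have hf₀W₁ : f₀ ∈ W₁ :=
    W₁.mul_mem (W₁.mul_mem hu₁ (W₁.pow_mem hxW₁ _)) (W₁.pow_mem hN.hxW _)
  have hf₀W₁' : f₀⁻¹ ∈ W₁ := by
    rw [hf₀, hf₂, mul_inv, mul_inv, ← inv_pow, ← inv_pow, inv_inv]
    exact W₁.mul_mem (W₁.mul_mem hu₁' (W₁.pow_mem hN.hxW _)) (W₁.pow_mem hxW₁ _)
  have hxval := h59t_val_x hAmb hN hconst
  have hf₀val : ∀ k, h26Centered B v 𝔫 k → v k f₀ = 1 := by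
    intro k hk
    rw [hf₀, hf₂, ← hf₁]
    simp only [map_mul, map_pow, map_inv₀]
    rw [hκval k hk, hf k hk, hxval k hk]
    simp
  have hf₀eq : f₀ = κ * f * (x : F) ^ ((k₀ : ℤ) - (t₀ : ℤ)) := by
    rw [hf₀, hf₂, ← hf₁, zpow_sub₀ hx0, zpow_natCast, zpow_natCast, inv_pow]
    ring
  by_cases hcase : f₀⁻¹ ∈ W₂
  · -- `f₀` is a unit of `V`, hence of `B_𝔫`
    have hV1 : f₀ ∈ V := (hAmb.hV f₀).mpr ⟨hf₀W₁, ht₀mem⟩
    have hV2 : f₀⁻¹ ∈ V := (hAmb.hV f₀⁻¹).mpr ⟨hf₀W₁', hcase⟩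
    obtain ⟨s, hs, h1, h2⟩ := h26_local_unit hAmb.hC 𝔫 f₀ hV1 hV2 hf₀val
    exact ⟨κ, (k₀ : ℤ) - (t₀ : ℤ), hκc, by rw [← hf₀eq]; exact ⟨hf₀0, s, hs, h1, h2⟩⟩
  · -- impossible
    exfalso
    have hf₀M : f₀ ∈ h59tM A W₂ := h59tM_of_nonunit hAmb.hAF hAmb.hG₂ hcase
    set h : F := (x : F) * f₀⁻¹ with hh
    have hhM : h ∈ h59tM A W₂ := by
      have := h59t_inv_mem_M hAmb.hAF hAmb.hG₂ hf₀x
      rwa [mul_inv, inv_inv, mul_comm] at this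
    have hhV : h ∈ V :=
      (hAmb.hV h).mpr ⟨W₁.mul_mem hxW₁ hf₀W₁', h59tM_mem_W hAmb.hG₂ hhM⟩
    have hf₀V : f₀ ∈ V := (hAmb.hV f₀).mpr ⟨hf₀W₁, ht₀mem⟩
    have hhval : ∀ k, h26Centered B v 𝔫 k → v k h ≤ 1 := by
      intro k hk
      rw [hh, map_mul, map_inv₀, hxval k hk, hf₀val k hk]
      simp
    refine h59t_nf_core hAmb hN f₀ h ?_ hf₀M hhM
      (h59t_reg_of_V hAmb f₀ hf₀V (fun k hk => (hf₀val k hk).le))
      (h59t_reg_of_V hAmb h hhV hhval)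
    rw [hh, mul_comm (x : F), ← mul_assoc, mul_inv_cancel₀ hf₀0, one_mul]

end WithNode

end Node

end Fermat.Agent.S35
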