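import Mathlib
import Fermat.Agent.S35.H59Node

/-!
# S35, block TOR (helper59): the local datum of the gate at a node for `τ(w) / w ^ Q`

Setting of `H59Node.lean`, plus a ring endomorphism `τ` of `F` (the square of a Frobenius
element) which is semilinear over an endomorphism `τA` of `A` with `τA a ≡ a ^ Q` modulo `𝔪_A`,
preserves the two Gauss rings, the chart `B` and the complement of the node `𝔫`.

* `h59t_node_datum` : if `w ≡ 1` on both components and all orders of `w` are divisible by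
  `r`, then there is `g ≡ 1` modulo `π V` such that `(τ w / w ^ Q) / g ^ r` is a unit of `B_𝔫`.

No moving lemma is used: with the local parameters `G_i = x - φ_i(x)` at the zeros and poles
of `w` centered at `𝔫` and `G₀ = ∏ G_i ^ n_i`, the normal form of `w / G₀ ^ r` shows that
`∑ n_i = 0` and that `λ = ∏ (- φ_i(x)) ^ n_i` is a unit of `A`; so `G₀ ≡ 1` on the first
component and `G₀ ≡ λ` on the second one, and `g = τ G₀ / G₀ ^ Q` is `≡ 1` on both.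
-/

set_option autoImplicit false
set_option linter.unusedSectionVars false
set_option linter.unusedVariables false

open WithZero IsLocalRing

namespace Fermat.Agent.S35

open Fermat.Agent.Red Fermat.Agent.LGC

section Datum

variable {A : Type*} [CommRing A] [IsDomain A] [ValuationRing A]
  {F : Type*} [Field F] [Algebra A F] {ι : Type*}
  {B : Subalgebra A F} {V W₁ W₂ : Subring F} {v : ι → Valuation F ℤᵐ⁰}

open scoped Classical in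
/-- the valuation of a product of powers of local parameters. -/
theorem h59t_val_prod {T : Finset ι} (G : {i // i ∈ T} → F) (n : ι → ℤ) (k : ι)
    (h1 : ∀ i : {i // i ∈ T}, (i : ι) = k → v k (G i) = exp (-1 : ℤ))
    (h2 : ∀ i : {i // i ∈ T}, (i : ι) ≠ k → v k (G i) = 1) :
    v k (∏ i ∈ T.attach, G i ^ n i) = if k ∈ T then exp (-(n k)) else 1 := by
  classical
  rw [map_prod]
  simp only [map_zpow₀]
  by_cases hk : k ∈ T
  · rw [if_pos hk, Finset.prod_eq_single (⟨k, hk⟩ : {i // i ∈ T})]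
    · rw [h1 ⟨k, hk⟩ rfl, ← exp_zsmul]
      simp
    · intro i _ hi
      have : (i : ι) ≠ k := fun h => hi (Subtype.ext h)
      rw [h2 i this, one_zpow]
    · intro h
      exact (h (Finset.mem_attach _ _)).elim
  · rw [if_neg hk]
    refine Finset.prod_eq_one fun i _ => ?_
    have : (i : ι) ≠ k := fun h => hk (h ▸ i.2)
    rw [h2 i this, one_zpow]

theorem h59t_prod_zpow_const {α : Type*} (T : Finset α) (t : F) (ht : t ≠ 0) (e : α → ℤ) :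
    ∏ i ∈ T, t ^ (e i) = t ^ (∑ i ∈ T, e i) := by
  classical
  induction T using Finset.induction_on with
  | empty => simp
  | insert a T ha ih =>
    rw [Finset.prod_insert ha, Finset.sum_insert ha, ih, zpow_add₀ ht]

/-- `τA` maps `𝔪_A` into `𝔪_A`. -/
theorem h59t_frob_max (τA : A →+* A) (Q : ℕ) (hQ : 0 < Q)
    (hFrob : ∀ a : A, τA a - a ^ Q ∈ maximalIdeal A) (a : A) (ha : a ∈ maximalIdeal A) :
    τA a ∈ maximalIdeal A := by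
  have h1 : a ^ Q ∈ maximalIdeal A := Ideal.pow_mem_of_mem _ ha Q hQ
  have h2 := (maximalIdeal A).add_mem (hFrob a) h1
  simpa using h2

/-- `τ(e) / e ^ Q ≡ 1` for a unit `e` of `A`. -/
theorem h59t_frob_unit {W : Subring F} (hG : H59Gauss A W) (τ : F →+* F) (τA : A →+* A)
    (hτA : ∀ a : A, τ (algebraMap A F a) = algebraMap A F (τA a))
    (Q : ℕ) (hFrob : ∀ a : A, τA a - a ^ Q ∈ maximalIdeal A) (e : A) (he : IsUnit e) :
    τ (algebraMap A F e) / (algebraMap A F e) ^ Q ∈ h59tU1 A W := by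
  obtain ⟨e', he'⟩ := he.exists_right_inv
  have h1 : algebraMap A F e * algebraMap A F e' = 1 := by rw [← map_mul, he', map_one]
  have he0 : algebraMap A F e ≠ 0 := left_ne_zero_of_mul_eq_one h1
  refine ⟨τA e - e ^ Q, hFrob e, algebraMap A F (e' ^ Q), hG.hA _, ?_⟩
  have h2 : algebraMap A F (e' ^ Q) = ((algebraMap A F e) ^ Q)⁻¹ := by
    rw [map_pow, ← inv_pow]
    congr 1
    exact eq_inv_of_mul_eq_one_right h1
  rw [h2, hτA, map_sub, map_pow]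
  field_simp

variable {𝔫 : Ideal B} {x y c : B} {a : A}

/-- **the local datum of the gate at a node for `τ w / w ^ Q`.** -/
theorem h59t_node_datum (hAmb : H59Amb B V W₁ W₂ v) (h𝔫 : 𝔫.IsMaximal)
    (hN : H59Node B W₁ W₂ 𝔫 x y c a)
    (hsec : ∀ i, h26Centered B v 𝔫 i → ∃ φ : B →ₐ[A] A,
      (∀ b : B, φ b = 0 ↔ v i (b : F) < 1) ∧ (RingHom.ker (φ : B →+* A)).FG)
    (τ : F →+* F) (τA : A →+* A)
    (hτA : ∀ a : A, τ (algebraMap A F a) = algebraMap A F (τA a))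
    (Q : ℕ) (hQ : 0 < Q) (hFrob : ∀ a : A, τA a - a ^ Q ∈ maximalIdeal A)
    (hτW₁ : ∀ f ∈ W₁, τ f ∈ W₁) (hτW₂ : ∀ f ∈ W₂, τ f ∈ W₂)
    (hτB : ∀ b ∈ B, τ b ∈ B)
    (hτ𝔫 : ∀ b : B, b ∉ 𝔫 → ∀ h : τ (b : F) ∈ B, (⟨τ (b : F), h⟩ : B) ∉ 𝔫)
    (w : F) (r : ℕ) (hr : 0 < r) (hrw : ∀ i, ∃ n : ℤ, v i w = exp (-((r : ℤ) * n)))
    (hw₁ : w ∈ h59tU1 A W₁) (hw₂ : w ∈ h59tU1 A W₂)
    (π₁ : A) (hπ₁ : π₁ ∈ maximalIdeal A) (hπ₁0 : π₁ ≠ 0) :
    ∃ π ∈ maximalIdeal A, π ≠ 0 ∧ π ∣ π₁ ∧ ∃ g ∈ h26U π V, ∃ s : B, s ∉ 𝔫 ∧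
      (s : F) * (τ w / w ^ Q * (g ^ r)⁻¹) ∈ B ∧ (s : F) * (g ^ r * (τ w / w ^ Q)⁻¹) ∈ B := by
  classical
  have h𝔫p : 𝔫.IsPrime := h𝔫.isPrime
  have hAF := hAmb.hAF
  have hC := hAmb.hC
  have hw0 : w ≠ 0 := h59tU1_ne_zero hAmb.hG₁ hw₁
  have hx0 : (x : F) ≠ 0 := hN.x_ne hAmb
  have hy0 : (y : F) ≠ 0 := hN.y_ne hAmb
  have haF : algebraMap A F a ≠ 0 := hN.aF_ne hAmb
  have hτ𝔪 := h59t_frob_max τA Q hQ hFrob
  -- constants at the centered places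
  have hconst : ∀ k, h26Centered B v 𝔫 k → ∀ a' : A, a' ≠ 0 → v k (algebraMap A F a') = 1 := by
    intro k hk a' ha'
    obtain ⟨φ, hφ, -⟩ := hsec k hk
    exact h75p_const_of_section hC.hB k φ hφ a' ha'
  -- the zeros and poles of `w` centered at `𝔫`
  choose n hn using hrw
  set Z : Finset ι := (h26_finite_support hC w hw0).toFinset with hZ
  set T : Finset ι := Z.filter (fun i => h26Centered B v 𝔫 i) with hT
  have hTc : ∀ i : {i // i ∈ T}, h26Centered B v 𝔫 i := fun i => (Finset.mem_filter.mp i.2).2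
  have hw1 : ∀ k, h26Centered B v 𝔫 k → k ∉ T → v k w = 1 := by
    intro k hk hkT
    by_contra hne
    apply hkT
    rw [hT, Finset.mem_filter, hZ, Set.Finite.mem_toFinset]
    exact ⟨hne, hk⟩
  -- the sections
  choose φ hφker hφfg using fun i : {i // i ∈ T} => hsec i (hTc i)
  have hkerle : ∀ i, RingHom.ker (φ i : B →+* A) ≤ 𝔫 := by
    intro i b hb
    exact hTc i b ((hφker i b).mp hb)
  have hφ𝔫 : ∀ i, ∀ z ∈ 𝔫, φ i z ∈ maximalIdeal A := fun i =>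
    h26_section_local 𝔫 (φ i) (hkerle i)
  have hφnot : ∀ i, ∀ z : B, z ∉ 𝔫 → IsUnit (φ i z) := by
    intro i z hz
    by_contra hne
    have hzm : φ i z ∈ maximalIdeal A := hne
    have h1 : 𝔫 ≤ (maximalIdeal A).comap (φ i : B →+* A) := fun t ht => hφ𝔫 i t ht
    have h2 : (maximalIdeal A).comap (φ i : B →+* A) ≠ ⊤ := by
      rw [Ne, Ideal.eq_top_iff_one, Ideal.mem_comap, map_one]
      exact fun h => (Ideal.ne_top_iff_one _).mp (IsLocalRing.maximalIdeal.isMaximal A).ne_top h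
    have h3 := h𝔫.eq_of_le h2 h1
    apply hz
    rw [h3]
    exact hzm
  -- the values of `x`, `y`, `c`
  set α : {i // i ∈ T} → A := fun i => φ i x with hα
  set β : {i // i ∈ T} → A := fun i => φ i y with hβ
  set γ : {i // i ∈ T} → A := fun i => φ i c with hγ
  have hαm : ∀ i, α i ∈ maximalIdeal A := fun i => hφ𝔫 i x hN.hx
  have hβm : ∀ i, β i ∈ maximalIdeal A := fun i => hφ𝔫 i y hN.hy
  have hγu : ∀ i, IsUnit (γ i) := fun i => hφnot i c hN.hc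
  have hαβ : ∀ i, α i * β i = a * γ i := by
    intro i
    have := congrArg (φ i) hN.hxy
    rw [map_mul, map_mul, AlgHom.commutes] at this
    simpa using this
  have hγ0 : ∀ i, γ i ≠ 0 := fun i => (hγu i).ne_zero
  have hα0 : ∀ i, α i ≠ 0 := by
    intro i h0
    have := hαβ i
    rw [h0, zero_mul] at this
    exact mul_ne_zero hN.ha (hγ0 i) this.symm
  have hαF : ∀ i, algebraMap A F (α i) ≠ 0 := fun i h0 =>
    hα0 i (hAF (by rw [h0, map_zero]))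
  -- the local parameters
  set G : {i // i ∈ T} → F := fun i => (x : F) - algebraMap A F (α i) with hG
  have hLP : ∀ i : {i // i ∈ T}, v i (G i) = exp (-1 : ℤ) ∧
      ∀ k, h26Centered B v 𝔫 k → k ≠ i → v k (G i) = 1 := fun i =>
    h75p_lp_node hC 𝔫 hN.hle x y c hN.hx hN.hy hN.hc a hN.hxy
      (fun k hk => hconst k hk a hN.ha) hN.hprin i (hTc i) (φ i) (hφker i) (hφfg i)
  have hG0 : ∀ i, G i ≠ 0 := by
    intro i h0
    have := (hLP i).1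
    rw [h0, map_zero] at this
    exact absurd this.symm (by simp)
  set G₀ : F := ∏ i ∈ T.attach, G i ^ n i with hG₀
  have hG₀0 : G₀ ≠ 0 := Finset.prod_ne_zero_iff.mpr fun i _ => zpow_ne_zero _ (hG0 i)
  -- the function `f = w / G₀ ^ r` has no zeros and poles at the centered places
  set f : F := w / G₀ ^ r with hf
  have hf0 : f ≠ 0 := div_ne_zero hw0 (pow_ne_zero _ hG₀0)
  have hfval : ∀ k, h26Centered B v 𝔫 k → v k f = 1 := by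
    intro k hk
    have h1 := h59t_val_prod (v := v) G n k
      (fun i hi => by have := (hLP i).1; rwa [hi] at this)
      (fun i hi => (hLP i).2 k hk (fun h => hi h.symm))
    rw [hf, map_div₀, map_pow, h1]
    by_cases hkT : k ∈ T
    · rw [if_pos hkT, hn k, ← exp_nsmul, div_eq_one_iff_eq (by simp)]
      congr 1
      simp
    · rw [if_neg hkT, one_pow, div_one, hw1 k hk hkT]
  -- the normal form
  obtain ⟨κ, t, hκc, hη⟩ := h59t_node_nf hAmb hN hconst f hf0 hfval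
  have hκ0 : κ ≠ 0 := h59tIsConst_ne_zero hAF hκc
  set η : F := κ * f * (x : F) ^ t with hηdef
  -- the Gauss factorisations of the local parameters
  set U₁ : {i // i ∈ T} → F := fun i => G i * (x : F)⁻¹ with hU₁
  set U₂ : {i // i ∈ T} → F := fun i => G i * (-algebraMap A F (α i))⁻¹ with hU₂
  have hU₁mem : ∀ i, U₁ i ∈ h59tU1 A W₁ := by
    intro i
    refine ⟨α i, hαm i, -(x : F)⁻¹, W₁.neg_mem hN.hxW, ?_⟩
    show ((x : F) - algebraMap A F (α i)) * (x : F)⁻¹ - 1 = _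
    field_simp
    ring
  have hU₂mem : ∀ i, U₂ i ∈ h59tU1 A W₂ := by
    intro i
    obtain ⟨γ', hγ'⟩ := (hγu i).exists_right_inv
    have h1 : algebraMap A F (γ i) * algebraMap A F γ' = 1 := by
      rw [← map_mul, hγ', map_one]
    refine ⟨β i, hβm i, -(algebraMap A F γ' * ((c : F) * (y : F)⁻¹)),
      W₂.neg_mem (W₂.mul_mem (hAmb.hG₂.hA _) (W₂.mul_mem (hAmb.hBW₂ _ c.2) hN.hyW)), ?_⟩
    have h2 : algebraMap A F (α i) * algebraMap A F (β i) =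
        algebraMap A F a * algebraMap A F (γ i) := by
      have h2' := congrArg (algebraMap A F) (hαβ i)
      rwa [map_mul, map_mul] at h2'
    have h3 : (x : F) = algebraMap A F (α i) * algebraMap A F (β i) * algebraMap A F γ' *
        ((c : F) * (y : F)⁻¹) := by
      rw [h2, mul_assoc (algebraMap A F a), h1, mul_one]
      exact hN.x_eq hAmb
    have hαi := hαF i
    show ((x : F) - algebraMap A F (α i)) * (-algebraMap A F (α i))⁻¹ - 1 = _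
    have h4 : ((x : F) - algebraMap A F (α i)) * (-algebraMap A F (α i))⁻¹ - 1 =
        -((x : F) * (algebraMap A F (α i))⁻¹) := by
      field_simp
      ring
    rw [h4]
    nth_rewrite 1 [h3]
    field_simp
  set N : ℤ := ∑ i ∈ T.attach, n i with hNdef
  set 𝒰₁ : F := ∏ i ∈ T.attach, U₁ i ^ n i with h𝒰₁
  set 𝒰₂ : F := ∏ i ∈ T.attach, U₂ i ^ n i with h𝒰₂
  set lam : F := ∏ i ∈ T.attach, (-algebraMap A F (α i)) ^ n i with hlam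
  have h𝒰₁mem : 𝒰₁ ∈ h59tU1 A W₁ :=
    h59tU1_prod hAmb.hG₁ _ _ fun i _ => h59tU1_zpow hAF hAmb.hG₁ (hU₁mem i) _
  have h𝒰₂mem : 𝒰₂ ∈ h59tU1 A W₂ :=
    h59tU1_prod hAmb.hG₂ _ _ fun i _ => h59tU1_zpow hAF hAmb.hG₂ (hU₂mem i) _
  have hlamc : h59tIsConst A lam := by
    refine h59tIsConst_prod hAF _ _ fun i _ => h59tIsConst_zpow hAF ?_ _
    have := h59tIsConst_of (F := F) (-(α i)) (neg_ne_zero.mpr (hα0 i))
    rwa [map_neg] at this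
  have hlam0 : lam ≠ 0 := h59tIsConst_ne_zero hAF hlamc
  have hG₀1 : G₀ = (x : F) ^ N * 𝒰₁ := by
    rw [hG₀, h𝒰₁, hNdef, ← h59t_prod_zpow_const _ _ hx0, ← Finset.prod_mul_distrib]
    refine Finset.prod_congr rfl fun i _ => ?_
    rw [← mul_zpow, hU₁]
    congr 1
    field_simp
  have hG₀2 : G₀ = lam * 𝒰₂ := by
    rw [hG₀, h𝒰₂, hlam, ← Finset.prod_mul_distrib]
    refine Finset.prod_congr rfl fun i _ => ?_
    rw [← mul_zpow, hU₂]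
    congr 1
    have := hαF i
    field_simp
  have h𝒰₁0 : 𝒰₁ ≠ 0 := h59tU1_ne_zero hAmb.hG₁ h𝒰₁mem
  have h𝒰₂0 : 𝒰₂ ≠ 0 := h59tU1_ne_zero hAmb.hG₂ h𝒰₂mem
  -- units of `W₁`, `W₂`
  have hηW₁ := h59tUnitAt_mem_W hAmb.hBW₁ hN.hP₁ hη
  have hηW₂ := h59tUnitAt_mem_W hAmb.hBW₂ hN.hP₂ hη
  have hxW₁ : (x : F) ∈ W₁ := hAmb.hBW₁ _ x.2
  have hyW₂ : (y : F) ∈ W₂ := hAmb.hBW₂ _ y.2
  have hzpowW : ∀ (W : Subring F) (z : F), z ∈ W → z⁻¹ ∈ W → ∀ k : ℤ, z ^ k ∈ W :=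
    fun W z hz hz' k => h26_zpow_mem W hz hz' k
  -- the `W₁`-side: `κ` is a unit of `A` and `t = r N`
  have hw𝒰₁ : w * (𝒰₁ ^ r)⁻¹ ∈ h59tU1 A W₁ :=
    h59tU1_mul hAmb.hG₁ hw₁ (h59tU1_inv hAF hAmb.hG₁ (h59tU1_pow hAmb.hG₁ h𝒰₁mem r))
  have hη1 : η = κ * (w * (𝒰₁ ^ r)⁻¹) * (x : F) ^ (t - r * N) := by
    rw [hηdef, hf, hG₀1, zpow_sub₀ hx0, mul_pow, ← zpow_natCast ((x : F) ^ N) r, ← zpow_mul,
      mul_comm N (r : ℤ)]
    field_simp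
  have hκW₁ : κ ∈ W₁ ∧ κ⁻¹ ∈ W₁ := by
    have h1 : κ = η * (w * (𝒰₁ ^ r)⁻¹)⁻¹ * (x : F) ^ (-(t - r * N)) := by
      rw [hη1, zpow_neg]
      have h2 : w * (𝒰₁ ^ r)⁻¹ ≠ 0 := h59tU1_ne_zero hAmb.hG₁ hw𝒰₁
      have h3 : (x : F) ^ (t - r * N) ≠ 0 := zpow_ne_zero _ hx0
      field_simp
    have h1' : κ⁻¹ = η⁻¹ * (w * (𝒰₁ ^ r)⁻¹) * (x : F) ^ (t - r * N) := by
      rw [h1, mul_inv, mul_inv, inv_inv, zpow_neg, inv_inv]
    constructor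
    · rw [h1]
      exact W₁.mul_mem (W₁.mul_mem hηW₁.1 (h59tU1_inv_mem_W hAF hAmb.hG₁ hw𝒰₁))
        (hzpowW W₁ _ hxW₁ hN.hxW _)
    · rw [h1']
      exact W₁.mul_mem (W₁.mul_mem hηW₁.2 (h59tU1_mem_W hAmb.hG₁ hw𝒰₁))
        (hzpowW W₁ _ hxW₁ hN.hxW _)
  obtain ⟨e₁, he₁, hκe⟩ := h59t_const_unit hAF hAmb.hG₁ hκc hκW₁.1 hκW₁.2
  have hκu : h59tUnitAt B 𝔫 κ := hκe ▸ h59tUnitAt_const he₁
  have hfu' : h59tUnitAt B 𝔫 (η * κ⁻¹) := h59tUnitAt_mul hη (h59tUnitAt_inv hκu)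
  have htN : (r : ℤ) * N - t = 0 := by
    refine h59t_zpow_unit_congr hAF hAmb.hG₁ hAmb.hBW₁ hN.hP₁ x hN.hx hfu' _ ?_
    have h1 : (x : F) ^ ((r : ℤ) * N - t) * (η * κ⁻¹) = w * (𝒰₁ ^ r)⁻¹ := by
      rw [hη1, zpow_sub₀ hx0, zpow_sub₀ hx0]
      have h3 : (x : F) ^ t ≠ 0 := zpow_ne_zero _ hx0
      have h4 : (x : F) ^ ((r : ℤ) * N) ≠ 0 := zpow_ne_zero _ hx0
      field_simp
    rw [h1]
    exact hw𝒰₁
  -- the `W₂`-side: `t = 0` and `lam` is a unit of `A`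
  have hw𝒰₂ : w * (𝒰₂ ^ r)⁻¹ ∈ h59tU1 A W₂ :=
    h59tU1_mul hAmb.hG₂ hw₂ (h59tU1_inv hAF hAmb.hG₂ (h59tU1_pow hAmb.hG₂ h𝒰₂mem r))
  have hc0 : (c : F) ≠ 0 := h59t_coe_ne_zero hN.hc
  have hcu : h59tUnitAt B 𝔫 (c : F) := h59tUnitAt_of_notMem hN.hc
  set κ₂ : F := (lam ^ r)⁻¹ * (algebraMap A F a) ^ t with hκ₂
  have hκ₂c : h59tIsConst A κ₂ :=
    h59tIsConst_mul (h59tIsConst_inv hAF (h59tIsConst_pow hlamc r))
      (h59tIsConst_zpow hAF (h59tIsConst_of a hN.ha) t)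
  have hκ₂0 : κ₂ ≠ 0 := h59tIsConst_ne_zero hAF hκ₂c
  set θ : F := η * κ⁻¹ * ((c : F) ^ t)⁻¹ with hθ
  have hθu : h59tUnitAt B 𝔫 θ := h59tUnitAt_mul hfu' (h59tUnitAt_inv (h59tUnitAt_zpow hcu t))
  have hθ2 : θ = κ₂ * (w * (𝒰₂ ^ r)⁻¹) * ((y : F) ^ t)⁻¹ := by
    rw [hθ, hηdef, hf, hG₀2, hκ₂]
    nth_rewrite 1 [hN.x_eq hAmb]
    rw [mul_zpow, mul_zpow, inv_zpow', mul_pow]
    have h1 : (c : F) ^ t ≠ 0 := zpow_ne_zero _ hc0
    have h2 : (y : F) ^ t ≠ 0 := zpow_ne_zero _ hy0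
    have h3 : (y : F) ^ (-t) = ((y : F) ^ t)⁻¹ := zpow_neg _ _
    rw [h3]
    field_simp
  have hθW₂ := h59tUnitAt_mem_W hAmb.hBW₂ hN.hP₂ hθu
  have hκ₂W₂ : κ₂ ∈ W₂ ∧ κ₂⁻¹ ∈ W₂ := by
    have h2 : w * (𝒰₂ ^ r)⁻¹ ≠ 0 := h59tU1_ne_zero hAmb.hG₂ hw𝒰₂
    have h3 : (y : F) ^ t ≠ 0 := zpow_ne_zero _ hy0
    have h1 : κ₂ = θ * (w * (𝒰₂ ^ r)⁻¹)⁻¹ * (y : F) ^ t := by
      rw [hθ2]
      field_simp
    have h1' : κ₂⁻¹ = θ⁻¹ * (w * (𝒰₂ ^ r)⁻¹) * (y : F) ^ (-t) := by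
      rw [h1, mul_inv, mul_inv, inv_inv, zpow_neg]
    constructor
    · rw [h1]
      exact W₂.mul_mem (W₂.mul_mem hθW₂.1 (h59tU1_inv_mem_W hAF hAmb.hG₂ hw𝒰₂))
        (hzpowW W₂ _ hyW₂ hN.hyW _)
    · rw [h1']
      exact W₂.mul_mem (W₂.mul_mem hθW₂.2 (h59tU1_mem_W hAmb.hG₂ hw𝒰₂))
        (hzpowW W₂ _ hyW₂ hN.hyW _)
  obtain ⟨e₂, he₂, hκ₂e⟩ := h59t_const_unit hAF hAmb.hG₂ hκ₂c hκ₂W₂.1 hκ₂W₂.2
  have hκ₂u : h59tUnitAt B 𝔫 κ₂ := hκ₂e ▸ h59tUnitAt_const he₂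
  have ht0 : t = 0 := by
    refine h59t_zpow_unit_congr hAF hAmb.hG₂ hAmb.hBW₂ hN.hP₂ y hN.hy
      (h59tUnitAt_mul hθu (h59tUnitAt_inv hκ₂u)) t ?_
    have h1 : (y : F) ^ t * (θ * κ₂⁻¹) = w * (𝒰₂ ^ r)⁻¹ := by
      rw [hθ2]
      have h3 : (y : F) ^ t ≠ 0 := zpow_ne_zero _ hy0
      field_simp
    rw [h1]
    exact hw𝒰₂
  have hN0 : N = 0 := by
    rw [ht0, sub_zero] at htN
    rcases mul_eq_zero.mp htN with h | h
    · exfalso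
      have : (r : ℤ) ≠ 0 := by exact_mod_cast hr.ne'
      exact this h
    · exact h
  have hlamW₂ : lam ∈ W₂ ∧ lam⁻¹ ∈ W₂ := by
    have h1 : κ₂ = (lam ^ r)⁻¹ := by rw [hκ₂, ht0, zpow_zero, mul_one]
    refine h59t_unit_of_pow hAF hAmb.hG₂ hlam0 r hr ?_ ?_
    · have : lam ^ r = κ₂⁻¹ := by rw [h1, inv_inv]
      rw [this]
      exact hκ₂W₂.2
    · rw [← h1]
      exact hκ₂W₂.1
  obtain ⟨el, hel, hlame⟩ := h59t_const_unit hAF hAmb.hG₂ hlamc hlamW₂.1 hlamW₂.2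
  -- the datum
  set g : F := τ G₀ / G₀ ^ Q with hg
  have hg₁ : g ∈ h59tU1 A W₁ := by
    have h1 : G₀ ∈ h59tU1 A W₁ := by
      rw [hG₀1, hN0, zpow_zero, one_mul]
      exact h𝒰₁mem
    exact h59tU1_div hAF hAmb.hG₁ (h59tU1_map τ τA hτA hτ𝔪 hτW₁ h1) (h59tU1_pow hAmb.hG₁ h1 Q)
  have hg₂ : g ∈ h59tU1 A W₂ := by
    have h1 : g = (τ lam / lam ^ Q) * (τ 𝒰₂ / 𝒰₂ ^ Q) := by
      rw [hg, hG₀2, map_mul, mul_pow]
      field_simp
    rw [h1]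
    refine h59tU1_mul hAmb.hG₂ ?_
      (h59tU1_div hAF hAmb.hG₂ (h59tU1_map τ τA hτA hτ𝔪 hτW₂ h𝒰₂mem)
        (h59tU1_pow hAmb.hG₂ h𝒰₂mem Q))
    rw [hlame]
    exact h59t_frob_unit hAmb.hG₂ τ τA hτA Q hFrob el hel
  obtain ⟨π, hπ, hπ0, hππ₁, hgU⟩ :=
    h59tU1_inter hAF hAmb.hG₁ hAmb.hG₂ hAmb.hV π₁ hπ₁ hπ₁0 hg₁ hg₂
  refine ⟨π, hπ, hπ0, hππ₁, g, hgU, ?_⟩
  -- `f` is a unit of `B_𝔫`
  have hfu : h59tUnitAt B 𝔫 f := by
    have h1 : f = η * κ⁻¹ := by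
      rw [hηdef, ht0, zpow_zero, mul_one]
      field_simp
    rw [h1]
    exact hfu'
  have hΘ : h59tUnitAt B 𝔫 (τ f / f ^ Q) :=
    h59tUnitAt_div (h59tUnitAt_map τ hτB hτ𝔫 hfu) (h59tUnitAt_pow hfu Q)
  have hτG₀ : τ G₀ ≠ 0 := (map_ne_zero τ).mpr hG₀0
  have hτw : τ w ≠ 0 := (map_ne_zero τ).mpr hw0
  have hΘeq : τ f / f ^ Q = τ w / w ^ Q * (g ^ r)⁻¹ := by
    rw [hf, hg, map_div₀, map_pow, div_pow, div_pow, ← pow_mul, ← pow_mul, mul_comm Q r]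
    have h5 : G₀ ^ (r * Q) ≠ 0 := pow_ne_zero _ hG₀0
    have h6 : τ G₀ ^ r ≠ 0 := pow_ne_zero _ hτG₀
    have h7 : w ^ Q ≠ 0 := pow_ne_zero _ hw0
    field_simp
  obtain ⟨-, s, hs, h1, h2⟩ := hΘ
  refine ⟨s, hs, ?_, ?_⟩
  · rw [← hΘeq]; exact h1
  · have : g ^ r * (τ w / w ^ Q)⁻¹ = (τ f / f ^ Q)⁻¹ := by
      rw [hΘeq, mul_inv, inv_inv, mul_comm]
    rw [this]; exact h2

end Datum

end Fermat.Agent.S35
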