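import Mathlib

/-!
# S35, block ALG (1): the trace of a Frobenius lift at `q ∥ M` from a quadratic and a quartic

helper5.  Mathlib only.  Let `Λ` be a nonzero free module over a domain `𝒪` of characteristic
zero and `T` an endomorphism of `Λ` with `T² - b T + q = 0` and `(T² - 1)(T² - q²) = 0`, where
`q` is a nonzero natural number.  Then `b = q + 1` or `b = -(q + 1)`.

Reason: `(X² - 1)(X² - q²) = (X² - b X + q) A(X) + (b² - (q + 1)²)(b X - q)`, so
`(b² - (q+1)²)(b T - q) = 0`; if `b² ≠ (q+1)²` then `b T = q`, `T² = 0`, `q T = 0`, `T = 0`,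
`q = 0`.
-/

set_option autoImplicit false

open Polynomial

namespace Fermat.Agent.S35

/-- The polynomial identity behind `h5r_trace_of_quartic`. -/
theorem h5r_poly_identity {𝒪 : Type*} [CommRing 𝒪] (b q : 𝒪) :
    ((X : 𝒪[X]) * X - 1) * (X * X - C (q ^ 2)) =
      (X * X - C b * X + C q) * (X * X + C b * X + C (b ^ 2 - q - q ^ 2 - 1)) +
        C (b ^ 2 - (q + 1) ^ 2) * (C b * X - C q) := by
  simp only [map_sub, map_add, map_pow, map_one]
  ring

/-- In a torsion-free module, a nonzero scalar multiple of a nonzero endomorphism is nonzero. -/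
theorem h5r_end_eq_zero_of_smul {𝒪 : Type*} [CommRing 𝒪] [IsDomain 𝒪]
    {Λ : Type*} [AddCommGroup Λ] [Module 𝒪 Λ] [Module.Free 𝒪 Λ]
    {c : 𝒪} (hc : c ≠ 0) {φ : Module.End 𝒪 Λ} (h : c • φ = 0) : φ = 0 := by
  refine LinearMap.ext fun v => ?_
  have h1 : c • φ v = 0 := by
    have := congrArg (fun ψ : Module.End 𝒪 Λ => ψ v) h
    simpa using this
  rcases smul_eq_zero.mp h1 with h2 | h2
  · exact absurd h2 hc
  · simpa using h2

/-- **ALG (1).**  A quadratic `T² - b T + q = 0` and the quartic `(T² - 1)(T² - q²) = 0` force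
`b = ± (q + 1)`. -/
theorem h5r_trace_of_quartic {𝒪 : Type*} [CommRing 𝒪] [IsDomain 𝒪] [CharZero 𝒪]
    {Λ : Type*} [AddCommGroup Λ] [Module 𝒪 Λ] [Module.Free 𝒪 Λ] [Nontrivial Λ]
    (T : Module.End 𝒪 Λ) (b : 𝒪) (q : ℕ) (hq : q ≠ 0)
    (h2 : T * T - b • T + (q : 𝒪) • (1 : Module.End 𝒪 Λ) = 0)
    (h4 : (T * T - 1) * (T * T - ((q : 𝒪) ^ 2) • (1 : Module.End 𝒪 Λ)) = 0) :
    b = (q : 𝒪) + 1 ∨ b = -((q : 𝒪) + 1) := by
  have hq0 : (q : 𝒪) ≠ 0 := Nat.cast_ne_zero.mpr hq
  -- evaluate the polynomial identity at `T`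
  have hid := congrArg (aeval T) (h5r_poly_identity b (q : 𝒪))
  have e2 : aeval T ((X : 𝒪[X]) * X - C b * X + C (q : 𝒪)) = 0 := by
    simp only [map_sub, map_add, map_mul, aeval_X, aeval_C, Algebra.algebraMap_eq_smul_one,
      smul_mul_assoc, one_mul]
    exact h2
  have e4 : aeval T (((X : 𝒪[X]) * X - 1) * (X * X - C ((q : 𝒪) ^ 2))) = 0 := by
    simp only [map_sub, map_mul, map_one, aeval_X, aeval_C, Algebra.algebraMap_eq_smul_one]
    exact h4
  rw [e4, map_add, map_mul, e2, zero_mul, zero_add] at hid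
  have hD : (b ^ 2 - ((q : 𝒪) + 1) ^ 2) • (b • T - (q : 𝒪) • (1 : Module.End 𝒪 Λ)) = 0 := by
    have := hid.symm
    simp only [map_sub, map_mul, aeval_X, aeval_C, Algebra.algebraMap_eq_smul_one,
      smul_mul_assoc, one_mul] at this
    rw [← sub_smul, smul_mul_assoc, one_mul] at this
    exact this
  by_cases hb : b ^ 2 - ((q : 𝒪) + 1) ^ 2 = 0
  · have hfac : (b - ((q : 𝒪) + 1)) * (b + ((q : 𝒪) + 1)) = 0 := by
      linear_combination hb
    rcases mul_eq_zero.mp hfac with h | h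
    · exact Or.inl (sub_eq_zero.mp h)
    · exact Or.inr (eq_neg_of_add_eq_zero_left h)
  · exfalso
    have hbT : b • T = (q : 𝒪) • (1 : Module.End 𝒪 Λ) :=
      sub_eq_zero.mp (h5r_end_eq_zero_of_smul hb hD)
    have hTT : T * T = 0 := by
      have h := h2
      rw [hbT, sub_add_cancel] at h
      exact h
    have hqT : (q : 𝒪) • T = 0 := by
      have h := congrArg (fun ψ : Module.End 𝒪 Λ => ψ * T) hbT
      simp only [smul_mul_assoc, one_mul] at h
      rw [hTT, smul_zero] at h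
      exact h.symm
    have hT0 : T = 0 := h5r_end_eq_zero_of_smul hq0 hqT
    rw [hT0, smul_zero] at hbT
    have h1 : (1 : Module.End 𝒪 Λ) = 0 := h5r_end_eq_zero_of_smul hq0 hbT.symm
    obtain ⟨v, hv⟩ := exists_ne (0 : Λ)
    apply hv
    have := congrArg (fun ψ : Module.End 𝒪 Λ => ψ v) h1
    simpa using this

end Fermat.Agent.S35
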