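import Fermat.Agent.S35.H5CoreNew
import Fermat.Agent.S22

/-!
# S35, ALG-ASM: `S35Assembly`

helper5.

* `h5r_iota_ne_zero` : `iota : chig.range →+* O'` does not kill `chig h ≠ 0` (the Hecke algebra is
  finite over `ℤ` by S22, so `chig.range` is integral over `ℤ`, and `O'` has characteristic
  zero).
* `h5r_s35Assembly_of` : `S35Assembly` from the geometric inputs of P-GALREP and
  `PackageNewStatement`.
* `h5r_s35_of_conclusion` : the frozen statement of S35 from `GalRepNewConclusion` (`𝒪'' = 𝒪'`).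
-/

set_option autoImplicit false

open Polynomial

namespace Fermat.Agent.S35

open Fermat.Agent.S29 (GQ)
open Fermat.Agent.S30 (GeometricInputsFull)
open Fermat.Agent.S30.PackageAdic (GoodPrime evS)

/-- `iota` does not kill a nonzero value of `chig`. -/
theorem h5r_iota_ne_zero {N : ℕ} [NeZero N] (S : Finset ℕ)
    (O' : Type) [CommRing O'] [IsDomain O'] [CharZero O']
    (chig : CuspForm.heckeAlgebra N 2 (↑S : Set ℕ) →+* ℂ) (iota : chig.range →+* O')
    (h : CuspForm.heckeAlgebra N 2 (↑S : Set ℕ)) (hh : chig h ≠ 0) :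
    (iota.comp chig.rangeRestrict) h ≠ 0 := by
  have hfin : Module.Finite ℤ (CuspForm.heckeAlgebra N 2 (↑S : Set ℕ)) :=
    Fermat.Agent.S22.result N 2 (↑S : Set ℕ)
  have hint : IsIntegral ℤ (chig.rangeRestrict h) :=
    map_isIntegral_int chig.rangeRestrict (IsIntegral.of_finite ℤ h)
  have hne : chig.rangeRestrict h ≠ 0 := fun h0 => hh (by
    have := congrArg Subtype.val h0
    simpa using this)
  intro hzero
  have hmem : chig.rangeRestrict h ∈ RingHom.ker iota := hzero
  refine Ideal.comap_ne_bot_of_integral_mem hne hmem hint ?_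
  rw [eq_bot_iff]
  intro n hn
  have h1 : iota (algebraMap ℤ chig.range n) = 0 := hn
  rw [eq_intCast, map_intCast] at h1
  rw [Ideal.mem_bot]
  exact Int.cast_eq_zero.mp h1

/-- **ALG-ASM**, relative to the geometric inputs of P-GALREP and to `PackageNewStatement`. -/
theorem h5r_s35Assembly_of (hGeo : GeometricInputsFull)
    (hPkg : ∀ (N p : ℕ) [NeZero N], PackageNewStatement N p) : S35Assembly := by
  intro hNQ hOK M _ g hg lam _ S O' _ _ _ _ _ _ hlamO' chig hchig iota hlamS hMS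
  have hp : lam.Prime := Fact.out
  have hLat : ESLatticeNew lam M S O' (iota.comp chig.rangeRestrict) :=
    hPkg M lam hp (hGeo.1 M) (hGeo.2.1 M lam hp)
      (fun k => hGeo.2.2.1 M (lam ^ k) (pow_pos hp.pos k))
      (fun k => Fermat.Agent.S31.heckeKeyInt_of_lattice M (hGeo.2.2.2 M) (lam ^ k))
      (hNQ M lam hp) S hlamS hMS O' hlamO' _ (fun q hq _ hqM hq2 => by
        obtain ⟨e, he, hk⟩ := hOK M g hg S chig hchig hMS q hq hqM hq2
        exact ⟨e, h5r_iota_ne_zero S O' chig iota _ he, hk⟩)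
  exact h5r_coreNew Fermat.Agent.Cheb.weakChebotarev lam hp M S hlamS hMS O' hlamO' _ hLat

/-- The frozen statement of S35 from `GalRepNewConclusion`, with `𝒪'' = 𝒪'`. -/
theorem h5r_s35_of_conclusion
    {M : ℕ} [NeZero M]
    (lam : ℕ)
    (S : Finset ℕ)
    (O' : Type) [CommRing O'] [IsDomain O'] [IsDiscreteValuationRing O']
    [IsAdicComplete (IsLocalRing.maximalIdeal O') O'] [Finite (IsLocalRing.ResidueField O')]
    [CharZero O']
    (chig : CuspForm.heckeAlgebra M 2 (↑S : Set ℕ) →+* ℂ)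
    (iota : chig.range →+* O')
    (hC : GalRepNewConclusion lam M S O' (iota.comp chig.rangeRestrict)) :
    ∃ (O'' : Type) (_ : CommRing O'') (_ : IsDomain O'') (_ : IsDiscreteValuationRing O'')
      (_ : IsAdicComplete (IsLocalRing.maximalIdeal O'') O'') (_ : Finite (IsLocalRing.ResidueField O''))
      (_ : CharZero O'') (_ : Algebra O' O'') (_ : Module.Finite O' O'') (_ : IsLocalHom (algebraMap O' O'')),
      Function.Injective (algebraMap O' O'') ∧
      ∃ ρ : GaloisRepAdic O'',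
        (∀ (ℓ : ℕ) (hℓ : ℓ.Prime) (hℓM : ¬ ℓ ∣ M) (hℓS : ℓ ∉ (↑S : Set ℕ)),
          ∀ A : ValuationSubring (AlgebraicClosure ℚ), A.LiesOverPrime ℓ →
            ∀ σ : AlgebraicClosure ℚ ≃ₐ[ℚ] AlgebraicClosure ℚ, A.IsFrobeniusAt σ ℓ →
              LinearMap.charpoly (ρ.ρ σ) =
                X ^ 2 - C (algebraMap O' O'' ((iota.comp chig.rangeRestrict) (CuspForm.heckeAlgebra.T hℓ hℓM hℓS))) * X
                  + C ((ℓ : O''))) ∧
        (∀ q : ℕ, q.Prime → q ≠ lam → q ∣ M → ¬ q ^ 2 ∣ M →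
          ∀ A : ValuationSubring (AlgebraicClosure ℚ), A.LiesOverPrime q →
            ∀ σ : AlgebraicClosure ℚ ≃ₐ[ℚ] AlgebraicClosure ℚ, A.IsFrobeniusAt σ q →
              LinearMap.charpoly (ρ.ρ σ) = X ^ 2 - C ((q : O'') + 1) * X + C ((q : O'')) ∨
              LinearMap.charpoly (ρ.ρ σ) = X ^ 2 + C ((q : O'') + 1) * X + C ((q : O''))) := by
  obtain ⟨ρ, hfrob, hbad⟩ := hC
  refine ⟨O', inferInstance, inferInstance, inferInstance, inferInstance, inferInstance,
    inferInstance, Algebra.id O', ?_, ?_, ?_, ρ, ?_, hbad⟩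
  · exact Module.Finite.self O'
  · exact ⟨fun a ha => ha⟩
  · exact Function.injective_id
  · intro ℓ hℓ hℓN hℓS A hA σ hσ
    exact hfrob ℓ hℓ hℓN hℓS A hA σ hσ

end Fermat.Agent.S35
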