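import Fermat.Agent.S30.EigenLattice
import Fermat.Agent.S35.H5Alg

/-!
# S35, block ALG (3): the eigenlattice with transfer of the quartic

helper5.  Mathlib only (through `S30/EigenLattice.lean`).  The eigenlattice `Λ` of
`Fermat.Agent.S30.EigenLattice.exists_eigenlattice` is the `𝒪`-dual of the module of
`χ`-eigenfunctionals on `M`, with `G` acting through the double transpose, so that EVERY relation
between the `ρ g` and the `Θ P` on `M` transfers to `Λ` with `Θ P` replaced by `χ P`.  Here: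

* `h5r_eigenRho_quartic` : `Θ E * ((ρ g² - 1) * (ρ g² - c)) = 0` on `M` gives
  `χ E • ((ρΛ g² - 1) * (ρΛ g² - c)) = 0` on `Λ`;
* `h5r_exists_eigenlattice` : the eigenlattice theorem with this fourth transfer property, in
  the form `χ E ≠ 0 → (ρΛ g² - 1) * (ρΛ g² - c) = 0` (`Λ` is torsion free).
-/

set_option autoImplicit false

namespace Fermat.Agent.S35

open Fermat.Agent.S30.EigenLattice

section Transfer

variable {p : ℕ} [Fact p.Prime] {M : Type} [AddCommGroup M] [Module ℤ_[p] M] {σ : Type*}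
  {Θ : MvPolynomial σ ℤ →+* Module.End ℤ_[p] M}
  {𝒪 : Type} [CommRing 𝒪] [Algebra ℤ_[p] 𝒪] (χ : MvPolynomial σ ℤ →+* 𝒪)
  {G : Type*} [Group G] {ρ : G →* Module.End ℤ_[p] M}

/-- the quartic relation (times a Hecke operator) transfers from `M` to the eigenlattice -/
theorem h5r_eigenRho_quartic (hcomm : ∀ (P : MvPolynomial σ ℤ) (g : G), Commute (Θ P) (ρ g))
    (g : G) (E : MvPolynomial σ ℤ) (c : ℤ_[p])
    (h : Θ E * ((ρ g * ρ g - 1) * (ρ g * ρ g - c • (1 : Module.End ℤ_[p] M))) = 0) :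
    χ E • ((eigenRho χ hcomm g * eigenRho χ hcomm g - 1) *
      (eigenRho χ hcomm g * eigenRho χ hcomm g
        - (algebraMap ℤ_[p] 𝒪 c) • (1 : Module.End 𝒪 (Module.Dual 𝒪 (eigenFun Θ χ))))) = 0 := by
  refine LinearMap.ext fun w => LinearMap.ext fun f => ?_
  set T := eigenTrans χ hcomm g with hT
  show χ E * ((w (T (T (T (T f)))) - (algebraMap ℤ_[p] 𝒪 c) * w (T (T f)))
      - (w (T (T f)) - (algebraMap ℤ_[p] 𝒪 c) * w f)) = 0
  have key2 : χ E • ((T (T (T (T f))) - (algebraMap ℤ_[p] 𝒪 c) • T (T f))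
      - (T (T f) - (algebraMap ℤ_[p] 𝒪 c) • f)) = 0 := by
    refine Subtype.ext (LinearMap.ext fun m => ?_)
    show χ E * ((f.1 (ρ g (ρ g (ρ g (ρ g m)))) - (algebraMap ℤ_[p] 𝒪 c) * f.1 (ρ g (ρ g m)))
      - (f.1 (ρ g (ρ g m)) - (algebraMap ℤ_[p] 𝒪 c) * f.1 m)) = 0
    have h3 := LinearMap.congr_fun h m
    simp only [LinearMap.sub_apply, Module.End.mul_apply, LinearMap.smul_apply,
      Module.End.one_apply, LinearMap.zero_apply, map_sub, map_smul] at h3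
    have h4 := congrArg (fun x : M => f.1 x) h3
    simp only [map_sub, map_smul, map_zero, f.2 E, Algebra.smul_def] at h4
    linear_combination h4
  have key3 := congrArg w key2
  rw [map_smul, map_sub w, map_sub w, map_sub w, map_smul, map_smul, map_zero, smul_eq_mul,
    smul_eq_mul, smul_eq_mul] at key3
  exact key3

end Transfer

/-- **The eigenlattice theorem with transfer of the quartic.**  As
`Fermat.Agent.S30.EigenLattice.exists_eigenlattice`, with a fourth transfer property: if a Hecke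
operator `Θ E` with `χ E ≠ 0` kills `(ρ g² - 1)(ρ g² - c)` on `M`, then
`(ρΛ g² - 1)(ρΛ g² - c) = 0` on `Λ`. -/
theorem h5r_exists_eigenlattice {p : ℕ} [Fact p.Prime]
    {M : Type} [AddCommGroup M] [Module ℤ_[p] M] [Module.Free ℤ_[p] M] [Module.Finite ℤ_[p] M]
    {σ : Type*} (Θ : MvPolynomial σ ℤ →+* Module.End ℤ_[p] M)
    {G : Type*} [Group G] (ρ : G →* Module.End ℤ_[p] M)
    (hcomm : ∀ (P : MvPolynomial σ ℤ) (g : G), Commute (Θ P) (ρ g))
    {𝒪 : Type} [CommRing 𝒪] [IsDomain 𝒪] [IsDiscreteValuationRing 𝒪] [Algebra ℤ_[p] 𝒪]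
    (hp : (p : 𝒪) ∈ IsLocalRing.maximalIdeal 𝒪) (hp0 : (p : 𝒪) ≠ 0)
    (χ : MvPolynomial σ ℤ →+* 𝒪)
    (key : ∀ (P : MvPolynomial σ ℤ) (k : ℕ),
      (∀ v : M, ∃ w : M, Θ P v = ((p : ℤ_[p]) ^ k) • w) → ∃ y : 𝒪, χ P = (p : 𝒪) ^ k * y) :
    ∃ (Λ : Type) (_ : AddCommGroup Λ) (_ : Module 𝒪 Λ) (_ : Module.Free 𝒪 Λ)
      (_ : Module.Finite 𝒪 Λ) (_ : Nontrivial Λ) (ρΛ : G →* Module.End 𝒪 Λ),
      (∀ g : G, ρ g = 1 → ρΛ g = 1) ∧
      (∀ (g : G) (n : ℕ), (∀ v : M, ∃ v' : M, ρ g v - v = ((p : ℤ_[p]) ^ n) • v') →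
        ∀ w : Λ, ρΛ g w - w ∈ (IsLocalRing.maximalIdeal 𝒪 ^ n) • (⊤ : Submodule 𝒪 Λ)) ∧
      (∀ (g : G) (P : MvPolynomial σ ℤ) (c : ℤ_[p]),
        ρ g * ρ g - Θ P * ρ g + c • (1 : Module.End ℤ_[p] M) = 0 →
        ρΛ g * ρΛ g - χ P • ρΛ g + (algebraMap ℤ_[p] 𝒪 c) • (1 : Module.End 𝒪 Λ) = 0) ∧
      (∀ (g : G) (E : MvPolynomial σ ℤ) (c : ℤ_[p]), χ E ≠ 0 →
        Θ E * ((ρ g * ρ g - 1) * (ρ g * ρ g - c • (1 : Module.End ℤ_[p] M))) = 0 →
        (ρΛ g * ρΛ g - 1) * (ρΛ g * ρΛ g - (algebraMap ℤ_[p] 𝒪 c) • (1 : Module.End 𝒪 Λ)) = 0) := by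
  classical
  obtain ⟨f₀, hf₀, hf₀'⟩ := exists_eigen_linear Θ χ key (eq_zero_of_forall_pow_dvd hp)
  have hNT : Nontrivial (eigenFun Θ χ) :=
    ⟨⟨⟨f₀, hf₀'⟩, 0, fun h => hf₀ (congrArg Subtype.val h)⟩⟩
  have hfin : Module.Finite 𝒪 (eigenFun Θ χ) := inferInstance
  have htf0 : Module.IsTorsionFree 𝒪 (M →ₗ[ℤ_[p]] 𝒪) := inferInstance
  have htf : Module.IsTorsionFree 𝒪 (eigenFun Θ χ) := inferInstance
  have hfree : Module.Free 𝒪 (eigenFun Θ χ) :=
    Module.free_of_finite_type_torsion_free' (R := 𝒪) (M := eigenFun Θ χ)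
  have hNT' : Nontrivial (Module.Dual 𝒪 (eigenFun Θ χ)) := inferInstance
  refine ⟨Module.Dual 𝒪 (eigenFun Θ χ), inferInstance, inferInstance, inferInstance,
    inferInstance, hNT', eigenRho χ hcomm, ?_, ?_, ?_, ?_⟩
  · exact fun g hg => eigenRho_eq_one χ hcomm g hg
  · intro g n hg w
    obtain ⟨D, hD⟩ := eigenRho_congr χ hp0 hcomm g n hg
    have h1 : eigenRho χ hcomm g w - w = ((p : 𝒪) ^ n) • D w := by
      have := LinearMap.congr_fun hD w
      simpa using this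
    rw [h1]
    exact Submodule.smul_mem_smul (Ideal.pow_mem_pow hp n) Submodule.mem_top
  · exact fun g P c h => eigenRho_quadratic χ hcomm g P c h
  · intro g E c hE h
    exact h5r_end_eq_zero_of_smul hE (h5r_eigenRho_quartic χ hcomm g E c h)

end Fermat.Agent.S35
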