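import Fermat.Agent.S35.Skeleton
import Fermat.Agent.S35.H5Lattice
import Fermat.Agent.S34.TatePackageFull
import Fermat.Agent.S30.Tate

/-!
# S35, block ALG, leaf ALG-PKG (helper95): `PackageNewStatement`

From the full Tate package (`Fermat.Agent.S34.tatePackageFull`) and `NewQuarticStatement` to the
eigenlattice with the quartic (`ESLatticeNew`), for a character `χ` which has old-killing
polynomials.  Clone of `Fermat.Agent.S30.packageAdic_of_tatePackage`; the eigenlattice with the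
transfer of the quartic is `h5r_exists_eigenlattice` (helper5, `S35/H5Lattice.lean`).

The quartic on the Tate module `M`: for `e` old-killing with `χ e ≠ 0`, `P = rename e`, and
`v ∈ M`, the element `u = Θ P (quartic (ρ σ) v)` satisfies `π k (t • u) = 0` for all `k`
(`NewQuarticStatement` at `x = π k v`), so `t • u ∈ ⋂ p ^ k M = 0` and `u = 0`.
-/

set_option autoImplicit false

namespace Fermat.Agent.S35

open Fermat.Agent.S29 (HeckeGaloisCommute EichlerShimuraTorsion TorsionFiniteLevel)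
open Fermat.Agent.S30 (TateStatement HeckeKeyInt)
open Fermat.Agent.S30.PackageAdic (GoodPrime evS evS_X key_congruence not_dvd_of_good)

/-- An element of a finite module over `ℤ_[p]` which is divisible by every power of `p` is
zero. -/
theorem h95k_eq_zero_of_forall_dvd {p : ℕ} [Fact p.Prime] {M : Type*} [AddCommGroup M]
    [Module ℤ_[p] M] [Module.Finite ℤ_[p] M] (u : M)
    (h : ∀ k : ℕ, ∃ s : M, u = ((p : ℤ_[p]) ^ k) • s) : u = 0 := by
  have hbot : (⨅ i : ℕ, (IsLocalRing.maximalIdeal ℤ_[p]) ^ i • (⊤ : Submodule ℤ_[p] M)) = ⊥ :=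
    Ideal.iInf_pow_smul_eq_bot_of_isLocalRing _ (IsLocalRing.maximalIdeal.isMaximal ℤ_[p]).ne_top
  have hmem : u ∈ (⨅ i : ℕ, (IsLocalRing.maximalIdeal ℤ_[p]) ^ i • (⊤ : Submodule ℤ_[p] M)) := by
    rw [Submodule.mem_iInf]
    intro k
    obtain ⟨s, hs⟩ := h k
    rw [hs]
    refine Submodule.smul_mem_smul ?_ Submodule.mem_top
    refine Ideal.pow_mem_pow ?_ k
    rw [PadicInt.maximalIdeal_eq_span_p]
    exact Ideal.mem_span_singleton_self _
  rw [hbot] at hmem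
  exact (Submodule.mem_bot _).mp hmem

/-- The two forms of the quartic. -/
theorem h95k_quartic_form {𝒪 : Type*} [CommRing 𝒪] {Λ : Type*} [AddCommGroup Λ] [Module 𝒪 Λ]
    (T : Module.End 𝒪 Λ) (c : 𝒪)
    (h : (T * T - 1) * (T * T - c • (1 : Module.End 𝒪 Λ)) = 0) :
    T ^ 4 + c • (1 : Module.End 𝒪 Λ) = (c + 1) • T ^ 2 := by
  have h1 : (T * T - 1) * (T * T - c • (1 : Module.End 𝒪 Λ))
      = T ^ 4 + c • (1 : Module.End 𝒪 Λ) - (c + 1) • T ^ 2 := by
    rw [add_smul, one_smul, sub_mul, mul_sub, mul_sub, one_mul, one_mul, mul_smul_comm, mul_one]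
    have h4 : T * T * (T * T) = T ^ 4 := by
      simp only [pow_succ, pow_zero, one_mul, mul_assoc]
    have h2 : T * T = T ^ 2 := (pow_two T).symm
    rw [h4, h2]
    abel
  rw [h1] at h
  exact sub_eq_zero.mp h

/-- **ALG-PKG (PackageNew)**, from the Tate statement and the full Tate package. -/
theorem h95k_packageNew_of (N p : ℕ) [NeZero N] (hT : TateStatement)
    (hTP : ∀ [Fact p.Prime], Fermat.Agent.S34.TatePackageFullStatement N p) :
    PackageNewStatement N p := by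
  intro hp hHG hES hTF hKey hNQ S hpS hNS 𝒪 _ _ _ _ _ _ hp𝒪 χ hOld
  have : Fact p.Prime := ⟨hp⟩
  obtain ⟨M, iM1, iM2, iM3, iM4, ρ, Θ, π, hcomm, hcont, hunr, hfrob, hlink, hπtors, hπker,
    hπgal, hπhecke⟩ := hTP hT hHG hES hTF
  let _ : Algebra ℤ_[p] 𝒪 := (Fermat.Agent.S30.CycCharAdic.padicLift p 𝒪 hp𝒪).toAlgebra
  have hp0 : (p : 𝒪) ≠ 0 := Nat.cast_ne_zero.mpr hp.ne_zero
  let Θ' : MvPolynomial (GoodPrime N S) ℤ →+* Module.End ℤ_[p] M :=
    Θ.comp (MvPolynomial.rename Subtype.val : _ →ₐ[ℤ] MvPolynomial Nat.Primes ℤ).toRingHom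
  let χ' : MvPolynomial (GoodPrime N S) ℤ →+* 𝒪 := χ.comp (evS S).toRingHom
  obtain ⟨Λ, iΛ1, iΛ2, iΛ3, iΛ4, iΛ5, ρΛ, h1, h2, h3, h4⟩ :=
    h5r_exists_eigenlattice Θ' ρ (fun P g => hcomm _ g) hp𝒪 hp0 χ'
      (fun P k hP => key_congruence S hKey hpS Θ hlink χ P k hP)
  have hnd : ∀ q : ℕ, q.Prime → ¬ q ∣ N → q ≠ p → ¬ q ∣ N * p := by
    intro q hq hqN hqp h
    rcases (Nat.Prime.dvd_mul hq).mp h with h4 | h4
    · exact hqN h4
    · exact hqp ((Nat.prime_dvd_prime_iff_eq hq hp).mp h4)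
  refine ⟨Λ, iΛ1, iΛ2, iΛ3, iΛ4, iΛ5, ρΛ, ?_, ?_, ?_, ?_⟩
  · intro n
    obtain ⟨L, hL, hLσ⟩ := hcont n
    refine ⟨L, hL, fun σ hσ w => h2 σ n (fun v => ?_) w⟩
    exact Fermat.Agent.S30.PackageAdicAux.exists_eq_smul_of_mem n _ (hLσ σ hσ v)
  · intro q hq hqN hqp A hA σ hσ
    exact h1 σ (hunr q hq (hnd q hq hqN hqp) A hA σ hσ)
  · intro ℓ hℓ hℓN hℓS A hA σ hσ
    have hℓp : ℓ ≠ p := fun h => hℓS (by rw [h]; exact Finset.mem_coe.mpr hpS)
    have h4' := h3 σ (MvPolynomial.X ⟨⟨ℓ, hℓ⟩, hℓN, hℓS⟩) (ℓ : ℤ_[p]) (by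
      have h5 := hfrob ℓ hℓ (hnd ℓ hℓ hℓN hℓp) A hA σ hσ
      have h6 : Θ' (MvPolynomial.X ⟨⟨ℓ, hℓ⟩, hℓN, hℓS⟩) = Θ (MvPolynomial.X ⟨ℓ, hℓ⟩) := by
        show Θ (MvPolynomial.rename Subtype.val (MvPolynomial.X _)) = _
        rw [MvPolynomial.rename_X]
      rw [h6]
      exact h5)
    have h7 : χ' (MvPolynomial.X ⟨⟨ℓ, hℓ⟩, hℓN, hℓS⟩) = χ (CuspForm.heckeAlgebra.T hℓ hℓN hℓS) := by
      show χ (evS S (MvPolynomial.X _)) = _
      rw [evS_X]
      rfl
    rw [h7, map_natCast] at h4'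
    exact h4'
  · -- the quartic at the primes exactly dividing `N`
    intro q hq hqp hqN hq2 A hA σ hσ
    obtain ⟨e, he, hkillOld⟩ := hOld q hq hqp hqN hq2
    have hvars : ∀ ℓ ∈ (MvPolynomial.rename Subtype.val e : MvPolynomial Nat.Primes ℤ).vars,
        ¬ (ℓ : ℕ) ∣ N * p := by
      classical
      intro ℓ hℓ
      have h2' := MvPolynomial.vars_rename _ _ hℓ
      obtain ⟨i, -, rfl⟩ := Finset.mem_image.mp h2'
      have := not_dvd_of_good S hpS i 1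
      rwa [pow_one] at this
    obtain ⟨tt, htt, hkill⟩ := hNQ q hq hqp hqN hq2 A hA σ hσ _ hvars hkillOld
    have hcE : ∀ y : M, Θ' e (ρ σ y) = ρ σ (Θ' e y) := fun y =>
      LinearMap.congr_fun (hcomm (MvPolynomial.rename Subtype.val e) σ).eq y
    have hM : Θ' e * ((ρ σ * ρ σ - 1) *
        (ρ σ * ρ σ - ((q : ℤ_[p]) ^ 2) • (1 : Module.End ℤ_[p] M))) = 0 := by
      refine LinearMap.ext fun v => ?_
      have hval : (Θ' e * ((ρ σ * ρ σ - 1) *
          (ρ σ * ρ σ - ((q : ℤ_[p]) ^ 2) • (1 : Module.End ℤ_[p] M)))) v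
          = ρ σ (ρ σ (ρ σ (ρ σ (Θ' e v)))) - ρ σ (ρ σ (Θ' e v))
            - ((q : ℤ_[p]) ^ 2) • (ρ σ (ρ σ (Θ' e v)) - Θ' e v) := by
        simp only [LinearMap.sub_apply, Module.End.mul_apply, LinearMap.smul_apply,
          Module.End.one_apply, map_sub, map_smul, hcE]
      rw [hval, LinearMap.zero_apply]
      have ht0 : (tt : ℤ_[p]) • (ρ σ (ρ σ (ρ σ (ρ σ (Θ' e v)))) - ρ σ (ρ σ (Θ' e v))
            - ((q : ℤ_[p]) ^ 2) • (ρ σ (ρ σ (Θ' e v)) - Θ' e v)) = 0 := by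
        refine h95k_eq_zero_of_forall_dvd (p := p) _ fun k => ?_
        refine hπker k _ ?_
        have hc : ∀ y : M, π k (((q : ℤ_[p]) ^ 2) • y) = q ^ 2 • π k y := fun y => by
          rw [← Nat.cast_pow, Nat.cast_smul_eq_nsmul, map_nsmul]
        obtain ⟨z, hP, hz⟩ : ∃ z : ModularCurve.JZero N, π k (Θ' e v) = z ∧
            tt • (σ • σ • σ • σ • z + q ^ 2 • z) = tt • ((q ^ 2 + 1) • σ • σ • z) :=
          ⟨_, hπhecke _ k v, hkill k (π k v) (hπtors k v)⟩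
        have e1 : π k (ρ σ (ρ σ (Θ' e v))) = σ • σ • z := by
          rw [hπgal, hπgal, hP]
        have e2 : π k (ρ σ (ρ σ (ρ σ (ρ σ (Θ' e v))))) = σ • σ • σ • σ • z := by
          rw [hπgal, hπgal, hπgal, hπgal, hP]
        rw [Nat.cast_smul_eq_nsmul, map_nsmul, map_sub, map_sub, hc, map_sub, e1, e2, hP]
        have h3' : σ • σ • σ • σ • z - σ • σ • z - q ^ 2 • (σ • σ • z - z)
            = (σ • σ • σ • σ • z + q ^ 2 • z) - (q ^ 2 + 1) • σ • σ • z := by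
          rw [nsmul_sub, add_nsmul, one_nsmul]
          abel
        rw [h3', nsmul_sub, hz, sub_self]
      exact (smul_eq_zero.mp ht0).resolve_left (Nat.cast_ne_zero.mpr htt.ne')
    have h5 := h4 σ e ((q : ℤ_[p]) ^ 2) he hM
    rw [map_pow, map_natCast] at h5
    exact h95k_quartic_form (ρΛ σ) ((q : 𝒪) ^ 2) h5

/-- **ALG-PKG (PackageNew).** -/
theorem h95k_packageNew (N p : ℕ) [NeZero N] : PackageNewStatement N p :=
  h95k_packageNew_of N p Fermat.Agent.S30.tate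
    (fun {_} => Fermat.Agent.S34.tatePackageFull N p)

end Fermat.Agent.S35
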