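import Fermat.Agent.S35.H5Alg
import Fermat.Agent.S30.Assembly
import Fermat.Agent.S30.QuadRepOdd
import Fermat.Prelude.Def_CuspForm_Newforms

/-!
# S35, block ALG (2): the core of S35 from an Eichler–Shimura lattice with the quartic

helper5.  Clone of `Fermat.Agent.S30.coreAdic_of`.  `h5r_ESLatticeNew` is an `ESLattice`
(`S30/Skeleton.lean`) with one extra field: for a prime `q ≠ p` exactly dividing `N` and every
Frobenius lift `σ` at `q`, `(ρ σ² - 1)(ρ σ² - q²) = 0` on the lattice.  Together with the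
quadratic relation `ρ σ² - b ρ σ + q = 0` (adic closure; the constant term is the cyclotomic
character) this forces `b = ± (q + 1)` (`h5r_trace_of_quartic`), and `QuadRepOdd` transports
the characteristic polynomial to the rank two representation.

* `h5r_coreAdicNew_of` : `QuadRepOdd + CycCharAdic + AdicClosure → h5r_CoreAdicNewStatement`.
* `h5r_coreAdicNew`    : the same with the landed `cycCharAdic`, `adicClosure`.
* `h5r_s35_of`         : the frozen statement S35 from `QuadRepOdd` and a lattice for the newform.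
* `h5r_coreAdicNew_holds`, `h5r_s35_of_lattice` : the same with the landed `quadRepOdd`; the only
  remaining input of S35 is the lattice `h5r_ESLatticeNew`.
-/

set_option autoImplicit false

open Polynomial

namespace Fermat.Agent.S35

open Fermat.Agent.S29 (GQ WeakChebotarev)
open Fermat.Agent.S30 (QuadRepOddStatement CycCharAdicStatement AdicClosureStatement)

/-- An Eichler–Shimura lattice with the quartic relation at the Frobenius lifts at the primes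
`q ≠ p` exactly dividing `N`. -/
def h5r_ESLatticeNew (p N : ℕ) [NeZero N] (S : Finset ℕ)
    (𝒪 : Type) [CommRing 𝒪] [IsLocalRing 𝒪]
    (χ : CuspForm.heckeAlgebra N 2 (↑S : Set ℕ) →+* 𝒪) : Prop :=
  ∃ (Λ : Type) (_ : AddCommGroup Λ) (_ : Module 𝒪 Λ) (_ : Module.Free 𝒪 Λ)
    (_ : Module.Finite 𝒪 Λ) (_ : Nontrivial Λ) (ρ : GQ →* Module.End 𝒪 Λ),
    GaloisActionIsAdicContinuous 𝒪 ρ ∧
    (∀ (ℓ : ℕ) (hℓ : ℓ.Prime) (hℓN : ¬ ℓ ∣ N) (hℓS : ℓ ∉ (↑S : Set ℕ)),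
      ∀ A : ValuationSubring (AlgebraicClosure ℚ), A.LiesOverPrime ℓ →
        ∀ σ : GQ, A.IsFrobeniusAt σ ℓ →
          ρ σ * ρ σ - χ (CuspForm.heckeAlgebra.T hℓ hℓN hℓS) • ρ σ
            + (ℓ : 𝒪) • (1 : Module.End 𝒪 Λ) = 0) ∧
    (∀ q : ℕ, q.Prime → q ≠ p → q ∣ N → ¬ q ^ 2 ∣ N →
      ∀ A : ValuationSubring (AlgebraicClosure ℚ), A.LiesOverPrime q →
        ∀ σ : GQ, A.IsFrobeniusAt σ q →
          (ρ σ * ρ σ - 1) * (ρ σ * ρ σ - ((q : 𝒪) ^ 2) • (1 : Module.End 𝒪 Λ)) = 0)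

/-- The conclusion of S35 with `𝒪'' = 𝒪'`. -/
def h5r_Conclusion (p N : ℕ) [NeZero N] (S : Finset ℕ)
    (𝒪 : Type) [CommRing 𝒪] [IsLocalRing 𝒪]
    (χ : CuspForm.heckeAlgebra N 2 (↑S : Set ℕ) →+* 𝒪) : Prop :=
  ∃ ρ : GaloisRepAdic 𝒪,
    (∀ (ℓ : ℕ) (hℓ : ℓ.Prime) (hℓN : ¬ ℓ ∣ N) (hℓS : ℓ ∉ (↑S : Set ℕ)),
      ∀ A : ValuationSubring (AlgebraicClosure ℚ), A.LiesOverPrime ℓ →
        ∀ σ : GQ, A.IsFrobeniusAt σ ℓ →
          LinearMap.charpoly (ρ.ρ σ) =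
            X ^ 2 - C (χ (CuspForm.heckeAlgebra.T hℓ hℓN hℓS)) * X + C ((ℓ : 𝒪))) ∧
    (∀ q : ℕ, q.Prime → q ≠ p → q ∣ N → ¬ q ^ 2 ∣ N →
      ∀ A : ValuationSubring (AlgebraicClosure ℚ), A.LiesOverPrime q →
        ∀ σ : GQ, A.IsFrobeniusAt σ q →
          LinearMap.charpoly (ρ.ρ σ) = X ^ 2 - C ((q : 𝒪) + 1) * X + C ((q : 𝒪)) ∨
          LinearMap.charpoly (ρ.ρ σ) = X ^ 2 + C ((q : 𝒪) + 1) * X + C ((q : 𝒪)))

/-- **CoreAdicNew.**  From a lattice with the quartic and weak Chebotarev to the conclusion of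
S35. -/
def h5r_CoreAdicNewStatement : Prop :=
  WeakChebotarev →
  ∀ (p : ℕ), p.Prime → ∀ (N : ℕ) [NeZero N] (S : Finset ℕ), p ∈ S →
    (∀ q : ℕ, q.Prime → q ∣ N → q ∈ S) →
  ∀ (𝒪 : Type) [CommRing 𝒪] [IsDomain 𝒪] [IsDiscreteValuationRing 𝒪]
    [IsAdicComplete (IsLocalRing.maximalIdeal 𝒪) 𝒪] [CharZero 𝒪],
    (p : 𝒪) ∈ IsLocalRing.maximalIdeal 𝒪 →
    ∀ χ : CuspForm.heckeAlgebra N 2 (↑S : Set ℕ) →+* 𝒪,
      h5r_ESLatticeNew p N S 𝒪 χ → h5r_Conclusion p N S 𝒪 χ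

/-- **CoreAdicNew**, relative to the pure algebra modules A1, A2, A5 of S30. -/
theorem h5r_coreAdicNew_of (hQ : QuadRepOddStatement) (hC : CycCharAdicStatement)
    (hA : AdicClosureStatement) : h5r_CoreAdicNewStatement := by
  intro hCheb p hp N _ S hpS hNS 𝒪 _ _ _ _ _ hp𝒪 χ hES
  obtain ⟨Λ, _, _, _, _, _, ρ, hcont, hfrob, hquart⟩ := hES
  obtain ⟨d, hdcont, hdunr, hdfrob, c, hcc, hdc⟩ := hC p hp 𝒪 hp𝒪
  have hnotN : ∀ ℓ : ℕ, ℓ.Prime → ℓ ∉ S → ¬ ℓ ∣ N := fun ℓ hℓ hℓS h => hℓS (hNS ℓ hℓ h)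
  have hnep : ∀ ℓ : ℕ, ℓ ∉ S → ℓ ≠ p := fun ℓ hℓS h => hℓS (h ▸ hpS)
  have hmem : ∀ ℓ : ℕ, ℓ ∉ S → ℓ ∉ (↑S : Set ℕ) := fun ℓ hℓS h => hℓS (Finset.mem_coe.mp h)
  have hquadFrob : ∀ ℓ : ℕ, ℓ.Prime → ℓ ∉ S →
      ∀ A : ValuationSubring (AlgebraicClosure ℚ), A.LiesOverPrime ℓ →
        ∀ σ : GQ, A.IsFrobeniusAt σ ℓ →
          ∃ b : 𝒪, ρ σ * ρ σ - b • ρ σ + ((d σ : 𝒪ˣ) : 𝒪) • (1 : Module.End 𝒪 Λ) = 0 := by
    intro ℓ hℓ hℓS A hA σ hσ
    refine ⟨χ (CuspForm.heckeAlgebra.T hℓ (hnotN ℓ hℓ hℓS) (hmem ℓ hℓS)), ?_⟩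
    rw [hdfrob ℓ hℓ (hnep ℓ hℓS) A hA σ hσ]
    exact hfrob ℓ hℓ (hnotN ℓ hℓ hℓS) (hmem ℓ hℓS) A hA σ hσ
  have hquad := hA hCheb 𝒪 Λ ρ d S hcont hdcont hquadFrob
  obtain ⟨ρ', hchar, hcont', -⟩ := hQ 𝒪 GQ Λ ρ d c hcc hdc hquad
  refine ⟨{ V := Fin 2 → 𝒪
            finrank_eq := by simp
            ρ := ρ'
            isAdicContinuous := ?_ }, ?_, ?_⟩
  · intro n
    obtain ⟨L₁, hL₁, h₁⟩ := hcont n
    obtain ⟨L₂, hL₂, h₂⟩ := hdcont n
    have := hL₁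
    have := hL₂
    refine ⟨L₁ ⊔ L₂, IntermediateField.finiteDimensional_sup L₁ L₂, fun σ hσ w => ?_⟩
    exact hcont' σ n
      (h₁ σ fun x hx => hσ x ((le_sup_left : L₁ ≤ L₁ ⊔ L₂) hx))
      (h₂ σ fun x hx => hσ x ((le_sup_right : L₂ ≤ L₁ ⊔ L₂) hx)) w
  · intro ℓ hℓ hℓN hℓS A hA σ hσ
    have hℓS' : ℓ ∉ S := fun h => hℓS (Finset.mem_coe.mpr h)
    have hd := hdfrob ℓ hℓ (hnep ℓ hℓS') A hA σ hσ
    have := hchar σ (χ (CuspForm.heckeAlgebra.T hℓ hℓN hℓS))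
      (by rw [hd]; exact hfrob ℓ hℓ hℓN hℓS A hA σ hσ)
    rw [hd] at this
    exact this
  · -- the Frobenius lifts at the primes exactly dividing `N`
    intro q hq hqp hqN hq2 A hA σ hσ
    have hd := hdfrob q hq hqp A hA σ hσ
    obtain ⟨b, hb⟩ := hquad σ
    have hb' : ρ σ * ρ σ - b • ρ σ + (q : 𝒪) • (1 : Module.End 𝒪 Λ) = 0 := by
      rw [← hd]; exact hb
    have hcp := hchar σ b hb
    rw [hd] at hcp
    rcases h5r_trace_of_quartic (ρ σ) b q hq.ne_zero hb' (hquart q hq hqp hqN hq2 A hA σ hσ)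
      with h | h
    · left
      rw [hcp, h]
    · right
      rw [hcp, h, map_neg, neg_mul, sub_neg_eq_add]

/-- **CoreAdicNew** relative to `QuadRepOdd` only. -/
theorem h5r_coreAdicNew (hQ : QuadRepOddStatement) : h5r_CoreAdicNewStatement :=
  h5r_coreAdicNew_of hQ Fermat.Agent.S30.cycCharAdic Fermat.Agent.S30.adicClosure

/-- The statement of S35 (all binders as in the frozen statement) from `QuadRepOdd` and a lattice
with the quartic for the Hecke character of the newform. -/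
theorem h5r_s35_of (hQ : QuadRepOddStatement)
    {M : ℕ} [NeZero M] {g : CuspForm (CongruenceSubgroup.Gamma0 M) 2} (_hg : g.IsNewform)
    (lam : ℕ) [Fact lam.Prime]
    (S : Finset ℕ)
    (O' : Type) [CommRing O'] [IsDomain O'] [IsDiscreteValuationRing O']
    [IsAdicComplete (IsLocalRing.maximalIdeal O') O'] [Finite (IsLocalRing.ResidueField O')]
    [CharZero O'] (hlamO' : (lam : O') ∈ IsLocalRing.maximalIdeal O')
    (chig : CuspForm.heckeAlgebra M 2 (↑S : Set ℕ) →+* ℂ)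
    (iota : chig.range →+* O')
    (hlamS : lam ∈ S) (hMS : ∀ q : ℕ, q.Prime → q ∣ M → q ∈ S)
    (hLat : h5r_ESLatticeNew lam M S O' (iota.comp chig.rangeRestrict)) :
    ∃ (O'' : Type) (_ : CommRing O'') (_ : IsDomain O'') (_ : IsDiscreteValuationRing O'')
      (_ : IsAdicComplete (IsLocalRing.maximalIdeal O'') O'') (_ : Finite (IsLocalRing.ResidueField O''))
      (_ : CharZero O'') (_ : Algebra O' O'') (_ : Module.Finite O' O'') (_ : IsLocalHom (algebraMap O' O'')),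
      Function.Injective (algebraMap O' O'') ∧
      ∃ ρ : GaloisRepAdic O'',
        (∀ (ℓ : ℕ) (hℓ : ℓ.Prime) (hℓM : ¬ ℓ ∣ M) (hℓS : ℓ ∉ (↑S : Set ℕ)),
          ∀ A : ValuationSubring (AlgebraicClosure ℚ), A.LiesOverPrime ℓ →
            ∀ σ : AlgebraicClosure ℚ ≃ₐ[ℚ] AlgebraicClosure ℚ, A.IsFrobeniusAt σ ℓ →
              LinearMap.charpoly (ρ.ρ σ) =
                X ^ 2 - C (algebraMap O' O'' ((iota.comp chig.rangeRestrict) (CuspForm.heckeAlgebra.T hℓ hℓM hℓS))) * X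
                  + C ((ℓ : O''))) ∧
        (∀ q : ℕ, q.Prime → q ≠ lam → q ∣ M → ¬ q ^ 2 ∣ M →
          ∀ A : ValuationSubring (AlgebraicClosure ℚ), A.LiesOverPrime q →
            ∀ σ : AlgebraicClosure ℚ ≃ₐ[ℚ] AlgebraicClosure ℚ, A.IsFrobeniusAt σ q →
              LinearMap.charpoly (ρ.ρ σ) = X ^ 2 - C ((q : O'') + 1) * X + C ((q : O'')) ∨
              LinearMap.charpoly (ρ.ρ σ) = X ^ 2 + C ((q : O'') + 1) * X + C ((q : O''))) := by
  obtain ⟨ρ, hfrob, hbad⟩ :=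
    h5r_coreAdicNew hQ Fermat.Agent.Cheb.weakChebotarev lam (Fact.out) M S hlamS hMS O' hlamO'
      (iota.comp chig.rangeRestrict) hLat
  refine ⟨O', inferInstance, inferInstance, inferInstance, inferInstance, inferInstance,
    inferInstance, Algebra.id O', ?_, ?_, ?_, ρ, ?_, hbad⟩
  · exact Module.Finite.self O'
  · exact ⟨fun a ha => ha⟩
  · exact Function.injective_id
  · intro ℓ hℓ hℓN hℓS A hA σ hσ
    exact hfrob ℓ hℓ hℓN hℓS A hA σ hσ

/-- **CoreAdicNew** holds (all of A1, A2, A5 of S30 are landed). -/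
theorem h5r_coreAdicNew_holds : h5r_CoreAdicNewStatement :=
  h5r_coreAdicNew Fermat.Agent.S30.quadRepOdd

/-- The statement of S35 (all binders as in the frozen statement) from a lattice with the quartic
for the Hecke character of the newform. -/
theorem h5r_s35_of_lattice
    {M : ℕ} [NeZero M] {g : CuspForm (CongruenceSubgroup.Gamma0 M) 2} (hg : g.IsNewform)
    (lam : ℕ) [Fact lam.Prime]
    (S : Finset ℕ)
    (O' : Type) [CommRing O'] [IsDomain O'] [IsDiscreteValuationRing O']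
    [IsAdicComplete (IsLocalRing.maximalIdeal O') O'] [Finite (IsLocalRing.ResidueField O')]
    [CharZero O'] (hlamO' : (lam : O') ∈ IsLocalRing.maximalIdeal O')
    (chig : CuspForm.heckeAlgebra M 2 (↑S : Set ℕ) →+* ℂ)
    (iota : chig.range →+* O')
    (hlamS : lam ∈ S) (hMS : ∀ q : ℕ, q.Prime → q ∣ M → q ∈ S)
    (hLat : h5r_ESLatticeNew lam M S O' (iota.comp chig.rangeRestrict)) :
    ∃ (O'' : Type) (_ : CommRing O'') (_ : IsDomain O'') (_ : IsDiscreteValuationRing O'')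
      (_ : IsAdicComplete (IsLocalRing.maximalIdeal O'') O'') (_ : Finite (IsLocalRing.ResidueField O''))
      (_ : CharZero O'') (_ : Algebra O' O'') (_ : Module.Finite O' O'') (_ : IsLocalHom (algebraMap O' O'')),
      Function.Injective (algebraMap O' O'') ∧
      ∃ ρ : GaloisRepAdic O'',
        (∀ (ℓ : ℕ) (hℓ : ℓ.Prime) (hℓM : ¬ ℓ ∣ M) (hℓS : ℓ ∉ (↑S : Set ℕ)),
          ∀ A : ValuationSubring (AlgebraicClosure ℚ), A.LiesOverPrime ℓ →
            ∀ σ : AlgebraicClosure ℚ ≃ₐ[ℚ] AlgebraicClosure ℚ, A.IsFrobeniusAt σ ℓ →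
              LinearMap.charpoly (ρ.ρ σ) =
                X ^ 2 - C (algebraMap O' O'' ((iota.comp chig.rangeRestrict) (CuspForm.heckeAlgebra.T hℓ hℓM hℓS))) * X
                  + C ((ℓ : O''))) ∧
        (∀ q : ℕ, q.Prime → q ≠ lam → q ∣ M → ¬ q ^ 2 ∣ M →
          ∀ A : ValuationSubring (AlgebraicClosure ℚ), A.LiesOverPrime q →
            ∀ σ : AlgebraicClosure ℚ ≃ₐ[ℚ] AlgebraicClosure ℚ, A.IsFrobeniusAt σ q →
              LinearMap.charpoly (ρ.ρ σ) = X ^ 2 - C ((q : O'') + 1) * X + C ((q : O'')) ∨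
              LinearMap.charpoly (ρ.ρ σ) = X ^ 2 + C ((q : O'') + 1) * X + C ((q : O''))) :=
  h5r_s35_of Fermat.Agent.S30.quadRepOdd hg lam S O' hlamO' chig iota hlamS hMS hLat

end Fermat.Agent.S35
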