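import Fermat.Agent.S35.Skeleton
import Fermat.Agent.S35.H5Core

/-!
# S35, ALG-CORE: `CoreNewStatement`

helper5.  `h5r_coreNew : CoreNewStatement` (frozen in `S35/Skeleton.lean`), from the landed
`h5r_coreAdicNew_holds` (`S35/H5Core.lean`): the quartic of `ESLatticeNew`,
`ρ σ ^ 4 + q² = (q² + 1) ρ σ ^ 2`, is the product form `(ρ σ² - 1)(ρ σ² - q²) = 0`.
-/

set_option autoImplicit false

open Polynomial

namespace Fermat.Agent.S35

/-- the two forms of the quartic -/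
theorem h5r_quartic_iff {𝒪 : Type*} [CommRing 𝒪] {Λ : Type*} [AddCommGroup Λ] [Module 𝒪 Λ]
    (T : Module.End 𝒪 Λ) (c : 𝒪) :
    T ^ 4 + c • (1 : Module.End 𝒪 Λ) = (c + 1) • T ^ 2 ↔
      (T * T - 1) * (T * T - c • (1 : Module.End 𝒪 Λ)) = 0 := by
  have e : (T * T - 1) * (T * T - c • (1 : Module.End 𝒪 Λ))
      = T ^ 4 + c • (1 : Module.End 𝒪 Λ) - (c + 1) • T ^ 2 := by
    rw [sub_mul, mul_sub, mul_sub, one_mul, one_mul, mul_smul_comm, mul_one, add_smul, one_smul]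
    have h4 : T * T * (T * T) = T ^ 4 := by
      rw [← sq T, ← pow_add]
    have h2 : T * T = T ^ 2 := (sq T).symm
    rw [h4, h2]
    abel
  rw [e, sub_eq_zero]

/-- the frozen `ESLatticeNew` gives `h5r_ESLatticeNew` -/
theorem h5r_esLatticeNew_of_frozen (p N : ℕ) [NeZero N] (S : Finset ℕ)
    (𝒪 : Type) [CommRing 𝒪] [IsLocalRing 𝒪]
    (χ : CuspForm.heckeAlgebra N 2 (↑S : Set ℕ) →+* 𝒪) (h : ESLatticeNew p N S 𝒪 χ) :
    h5r_ESLatticeNew p N S 𝒪 χ := by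
  obtain ⟨Λ, i1, i2, i3, i4, i5, ρ, hcont, -, hfrob, hquart⟩ := h
  refine ⟨Λ, i1, i2, i3, i4, i5, ρ, hcont, hfrob, ?_⟩
  intro q hq hqp hqN hq2 A hA σ hσ
  exact (h5r_quartic_iff (ρ σ) ((q : 𝒪) ^ 2)).mp (hquart q hq hqp hqN hq2 A hA σ hσ)

/-- **ALG-CORE.** -/
theorem h5r_coreNew : CoreNewStatement := by
  intro hCheb p hp N _ S hpS hNS 𝒪 _ _ _ _ _ hp𝒪 χ hES
  exact h5r_coreAdicNew_holds hCheb p hp N S hpS hNS 𝒪 hp𝒪 χ
    (h5r_esLatticeNew_of_frozen p N S 𝒪 χ hES)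

end Fermat.Agent.S35
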