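import Fermat.Agent.S35.H5Package
import Fermat.Agent.S30.Inputs
import Fermat.Agent.S30.Tate
import Fermat.Agent.S34.TatePackageFull

/-!
# S35: the statement from NewKill

helper5.  `h5r_s35_of_newKill` : the frozen statement S35 (all binders) from the single input
`h5r_NewKillTorsion lam M S O' (iota.comp chig.rangeRestrict)`; every other input (Tate package,
Hecke/Galois commutation, Eichler--Shimura on torsion, finiteness, key lattice, weak Chebotarev,
cyclotomic character, adic closure, QuadRepOdd) is landed.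
-/

set_option autoImplicit false

open Polynomial

namespace Fermat.Agent.S35

/-- The lattice with the quartic from NewKill, all other inputs being landed. -/
theorem h5r_esLatticeNew_of_newKill (p N : ℕ) [NeZero N] (hp : p.Prime)
    (S : Finset ℕ) (hpS : p ∈ S) (hNS : ∀ q : ℕ, q.Prime → q ∣ N → q ∈ S)
    (𝒪 : Type) [CommRing 𝒪] [IsDomain 𝒪] [IsDiscreteValuationRing 𝒪]
    [IsAdicComplete (IsLocalRing.maximalIdeal 𝒪) 𝒪] [CharZero 𝒪]
    (hp𝒪 : (p : 𝒪) ∈ IsLocalRing.maximalIdeal 𝒪)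
    (χ : CuspForm.heckeAlgebra N 2 (↑S : Set ℕ) →+* 𝒪)
    (hNK : h5r_NewKillTorsion p N S 𝒪 χ) : h5r_ESLatticeNew p N S 𝒪 χ :=
  have h := Fermat.Agent.S30.geometricInputsFull
  h5r_esLatticeNew_of_tatePackageFull N p Fermat.Agent.S30.tate
    (fun {_} => Fermat.Agent.S34.tatePackageFull N p) hp (h.1 N) (h.2.1 N p hp)
    (fun k => h.2.2.1 N (p ^ k) (pow_pos hp.pos k))
    (fun k => Fermat.Agent.S31.heckeKeyInt_of_lattice N (h.2.2.2 N) (p ^ k))
    S hpS hNS 𝒪 hp𝒪 χ hNK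

/-- **S35 from NewKill.** -/
theorem h5r_s35_of_newKill
    {M : ℕ} [NeZero M] {g : CuspForm (CongruenceSubgroup.Gamma0 M) 2} (hg : g.IsNewform)
    (lam : ℕ) [Fact lam.Prime]
    (S : Finset ℕ)
    (O' : Type) [CommRing O'] [IsDomain O'] [IsDiscreteValuationRing O']
    [IsAdicComplete (IsLocalRing.maximalIdeal O') O'] [Finite (IsLocalRing.ResidueField O')]
    [CharZero O'] (hlamO' : (lam : O') ∈ IsLocalRing.maximalIdeal O')
    (chig : CuspForm.heckeAlgebra M 2 (↑S : Set ℕ) →+* ℂ)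
    (iota : chig.range →+* O')
    (hlamS : lam ∈ S) (hMS : ∀ q : ℕ, q.Prime → q ∣ M → q ∈ S)
    (hNK : h5r_NewKillTorsion lam M S O' (iota.comp chig.rangeRestrict)) :
    ∃ (O'' : Type) (_ : CommRing O'') (_ : IsDomain O'') (_ : IsDiscreteValuationRing O'')
      (_ : IsAdicComplete (IsLocalRing.maximalIdeal O'') O'') (_ : Finite (IsLocalRing.ResidueField O''))
      (_ : CharZero O'') (_ : Algebra O' O'') (_ : Module.Finite O' O'') (_ : IsLocalHom (algebraMap O' O'')),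
      Function.Injective (algebraMap O' O'') ∧
      ∃ ρ : GaloisRepAdic O'',
        (∀ (ℓ : ℕ) (hℓ : ℓ.Prime) (hℓM : ¬ ℓ ∣ M) (hℓS : ℓ ∉ (↑S : Set ℕ)),
          ∀ A : ValuationSubring (AlgebraicClosure ℚ), A.LiesOverPrime ℓ →
            ∀ σ : AlgebraicClosure ℚ ≃ₐ[ℚ] AlgebraicClosure ℚ, A.IsFrobeniusAt σ ℓ →
              LinearMap.charpoly (ρ.ρ σ) =
                X ^ 2 - C (algebraMap O' O'' ((iota.comp chig.rangeRestrict) (CuspForm.heckeAlgebra.T hℓ hℓM hℓS))) * X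
                  + C ((ℓ : O''))) ∧
        (∀ q : ℕ, q.Prime → q ≠ lam → q ∣ M → ¬ q ^ 2 ∣ M →
          ∀ A : ValuationSubring (AlgebraicClosure ℚ), A.LiesOverPrime q →
            ∀ σ : AlgebraicClosure ℚ ≃ₐ[ℚ] AlgebraicClosure ℚ, A.IsFrobeniusAt σ q →
              LinearMap.charpoly (ρ.ρ σ) = X ^ 2 - C ((q : O'') + 1) * X + C ((q : O'')) ∨
              LinearMap.charpoly (ρ.ρ σ) = X ^ 2 + C ((q : O'') + 1) * X + C ((q : O''))) :=
  h5r_s35_of_lattice hg lam S O' hlamO' chig iota hlamS hMS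
    (h5r_esLatticeNew_of_newKill lam M Fact.out S hlamS hMS O' hlamO' _ hNK)

end Fermat.Agent.S35
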