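import Fermat.Agent.S35.H5Lattice
import Fermat.Agent.S35.H5Core
import Fermat.Agent.S30.PackageAdicCore
import Fermat.Agent.S34.Skeleton

/-!
# S35, block ALG (4): from the torsion points to the lattice with the quartic

helper5.  Clone of `Fermat.Agent.S30.packageAdic_of_tatePackage` on the full Tate package
(`Fermat.Agent.S34.TatePackageFullStatement`, with the projections `π k` to the torsion points).

* `h5r_NewKillTorsion p N S 𝒪 χ` (**NewKill**, the geometric input of S35, a `Prop`): for every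
  prime `q ≠ p` exactly dividing `N` and every Frobenius lift `σ` at `q` there is a Hecke
  polynomial `E` (in the `T_ℓ`, `ℓ ∉ S`) with `χ E ≠ 0` such that every point `z = E • x`,
  `x ∈ J₀(N)[p ^ k]`, satisfies `σ² (σ² z - z) = q² (σ² z - z)`.
  (Expected source: `E • x` is new at `q`; on the points new at `q`, `σ² - 1` has values in
  the toric classes, on which `σ² = q²`.)
* `h5r_esLatticeNew_of_newKill` : NewKill gives the lattice `h5r_ESLatticeNew`, hence (with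
  `h5r_s35_of_lattice`) the statement S35.
-/

set_option autoImplicit false

namespace Fermat.Agent.S35

open Fermat.Agent.S29 (GQ HeckeGaloisCommute EichlerShimuraTorsion TorsionFiniteLevel)
open Fermat.Agent.S30 (TateStatement HeckeKeyInt)
open Fermat.Agent.S30.PackageAdic (GoodPrime evS evS_X key_congruence)

/-- **NewKill (torsion form), the geometric input of S35.** -/
def h5r_NewKillTorsion (p N : ℕ) [NeZero N] (S : Finset ℕ) (𝒪 : Type) [CommRing 𝒪]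
    (χ : CuspForm.heckeAlgebra N 2 (↑S : Set ℕ) →+* 𝒪) : Prop :=
  ∀ q : ℕ, q.Prime → q ≠ p → q ∣ N → ¬ q ^ 2 ∣ N →
    ∀ A : ValuationSubring (AlgebraicClosure ℚ), A.LiesOverPrime q →
      ∀ σ : GQ, A.IsFrobeniusAt σ q →
        ∃ E : MvPolynomial (GoodPrime N S) ℤ, χ (evS S E) ≠ 0 ∧
          (letI := ModularCurve.heckeModuleBar N
            ∀ (k : ℕ) (x : ModularCurve.JZero N), p ^ k • x = 0 →
              ∀ z : ModularCurve.JZero N,
                z = (MvPolynomial.rename Subtype.val E : MvPolynomial Nat.Primes ℤ) • x →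
                σ • σ • (σ • σ • z - z) = q ^ 2 • (σ • σ • z - z))

/-- An element of a finite module over `ℤ_[p]` which is divisible by every power of `p` is
zero. -/
theorem h5r_eq_zero_of_forall_dvd {p : ℕ} [Fact p.Prime] {M : Type*} [AddCommGroup M]
    [Module ℤ_[p] M] [Module.Finite ℤ_[p] M] (u : M)
    (h : ∀ k : ℕ, ∃ s : M, u = ((p : ℤ_[p]) ^ k) • s) : u = 0 := by
  have hbot : (⨅ i : ℕ, (IsLocalRing.maximalIdeal ℤ_[p]) ^ i • (⊤ : Submodule ℤ_[p] M)) = ⊥ :=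
    Ideal.iInf_pow_smul_eq_bot_of_isLocalRing _ (IsLocalRing.maximalIdeal.isMaximal ℤ_[p]).ne_top
  have hmem : u ∈ (⨅ i : ℕ, (IsLocalRing.maximalIdeal ℤ_[p]) ^ i • (⊤ : Submodule ℤ_[p] M)) := by
    rw [Submodule.mem_iInf]
    intro k
    obtain ⟨s, hs⟩ := h k
    rw [hs]
    refine Submodule.smul_mem_smul ?_ Submodule.mem_top
    refine Ideal.pow_mem_pow ?_ k
    rw [PadicInt.maximalIdeal_eq_span_p]
    exact Ideal.mem_span_singleton_self _
  rw [hbot] at hmem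
  exact (Submodule.mem_bot _).mp hmem

/-- **PackageAdicNew.**  The full Tate package and NewKill give the lattice with the quartic. -/
theorem h5r_esLatticeNew_of_tatePackageFull (N p : ℕ) [NeZero N] (hT : TateStatement)
    (hTP : ∀ [Fact p.Prime], Fermat.Agent.S34.TatePackageFullStatement N p)
    (hp : p.Prime) (hHG : HeckeGaloisCommute N) (hES : EichlerShimuraTorsion N p)
    (hTF : ∀ k : ℕ, TorsionFiniteLevel N (p ^ k)) (hKey : ∀ k : ℕ, HeckeKeyInt N (p ^ k))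
    (S : Finset ℕ) (hpS : p ∈ S) (_hNS : ∀ q : ℕ, q.Prime → q ∣ N → q ∈ S)
    (𝒪 : Type) [CommRing 𝒪] [IsDomain 𝒪] [IsDiscreteValuationRing 𝒪]
    [IsAdicComplete (IsLocalRing.maximalIdeal 𝒪) 𝒪] [CharZero 𝒪]
    (hp𝒪 : (p : 𝒪) ∈ IsLocalRing.maximalIdeal 𝒪)
    (χ : CuspForm.heckeAlgebra N 2 (↑S : Set ℕ) →+* 𝒪)
    (hNK : h5r_NewKillTorsion p N S 𝒪 χ) : h5r_ESLatticeNew p N S 𝒪 χ := by
  have : Fact p.Prime := ⟨hp⟩
  obtain ⟨M, iM1, iM2, iM3, iM4, ρ, Θ, π, hcomm, hcont, hunr, hfrob, hlink, hπtors, hπker,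
    hπgal, hπhecke⟩ := hTP hT hHG hES hTF
  let _ : Algebra ℤ_[p] 𝒪 := (Fermat.Agent.S30.CycCharAdic.padicLift p 𝒪 hp𝒪).toAlgebra
  have hp0 : (p : 𝒪) ≠ 0 := Nat.cast_ne_zero.mpr hp.ne_zero
  let Θ' : MvPolynomial (GoodPrime N S) ℤ →+* Module.End ℤ_[p] M :=
    Θ.comp (MvPolynomial.rename Subtype.val : _ →ₐ[ℤ] MvPolynomial Nat.Primes ℤ).toRingHom
  let χ' : MvPolynomial (GoodPrime N S) ℤ →+* 𝒪 := χ.comp (evS S).toRingHom
  obtain ⟨Λ, iΛ1, iΛ2, iΛ3, iΛ4, iΛ5, ρΛ, -, h2, h3, h4⟩ :=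
    h5r_exists_eigenlattice Θ' ρ (fun P g => hcomm _ g) hp𝒪 hp0 χ'
      (fun P k hP => key_congruence S hKey hpS Θ hlink χ P k hP)
  have hnd : ∀ q : ℕ, q.Prime → ¬ q ∣ N → q ≠ p → ¬ q ∣ N * p := by
    intro q hq hqN hqp h
    rcases (Nat.Prime.dvd_mul hq).mp h with h4 | h4
    · exact hqN h4
    · exact hqp ((Nat.prime_dvd_prime_iff_eq hq hp).mp h4)
  refine ⟨Λ, iΛ1, iΛ2, iΛ3, iΛ4, iΛ5, ρΛ, ?_, ?_, ?_⟩
  · intro n
    obtain ⟨L, hL, hLσ⟩ := hcont n
    refine ⟨L, hL, fun σ hσ w => h2 σ n (fun v => ?_) w⟩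
    exact Fermat.Agent.S30.PackageAdicAux.exists_eq_smul_of_mem n _ (hLσ σ hσ v)
  · intro ℓ hℓ hℓN hℓS A hA σ hσ
    have hℓp : ℓ ≠ p := fun h => hℓS (by rw [h]; exact Finset.mem_coe.mpr hpS)
    have h4' := h3 σ (MvPolynomial.X ⟨⟨ℓ, hℓ⟩, hℓN, hℓS⟩) (ℓ : ℤ_[p]) (by
      have h5 := hfrob ℓ hℓ (hnd ℓ hℓ hℓN hℓp) A hA σ hσ
      have h6 : Θ' (MvPolynomial.X ⟨⟨ℓ, hℓ⟩, hℓN, hℓS⟩) = Θ (MvPolynomial.X ⟨ℓ, hℓ⟩) := by
        show Θ (MvPolynomial.rename Subtype.val (MvPolynomial.X _)) = _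
        rw [MvPolynomial.rename_X]
      rw [h6]
      exact h5)
    have h7 : χ' (MvPolynomial.X ⟨⟨ℓ, hℓ⟩, hℓN, hℓS⟩) = χ (CuspForm.heckeAlgebra.T hℓ hℓN hℓS) := by
      show χ (evS S (MvPolynomial.X _)) = _
      rw [evS_X]
      rfl
    rw [h7, map_natCast] at h4'
    exact h4'
  · -- the quartic at the primes exactly dividing `N`
    intro q hq hqp hqN hq2 A hA σ hσ
    obtain ⟨E, hE, hkill⟩ := hNK q hq hqp hqN hq2 A hA σ hσ
    have hcE : ∀ y : M, Θ' E (ρ σ y) = ρ σ (Θ' E y) := fun y =>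
      LinearMap.congr_fun (hcomm (MvPolynomial.rename Subtype.val E) σ).eq y
    have hM : Θ' E * ((ρ σ * ρ σ - 1) *
        (ρ σ * ρ σ - ((q : ℤ_[p]) ^ 2) • (1 : Module.End ℤ_[p] M))) = 0 := by
      refine LinearMap.ext fun t => ?_
      simp only [LinearMap.sub_apply, Module.End.mul_apply, LinearMap.smul_apply,
        Module.End.one_apply, LinearMap.zero_apply, map_sub, map_smul, hcE]
      refine h5r_eq_zero_of_forall_dvd (p := p) _ fun k => ?_
      refine hπker k _ ?_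
      have hz := hkill k (π k t) (hπtors k t) (π k (Θ' E t)) (hπhecke _ k t)
      have hc : ∀ y : M, π k (((q : ℤ_[p]) ^ 2) • y) = q ^ 2 • π k y := fun y => by
        rw [← Nat.cast_pow, Nat.cast_smul_eq_nsmul, map_nsmul]
      rw [smul_sub, smul_sub] at hz
      rw [map_sub, map_sub, hc, map_sub]
      simp only [hπgal]
      rw [hz, sub_self]
    have h5 := h4 σ E ((q : ℤ_[p]) ^ 2) hE hM
    rw [map_pow, map_natCast] at h5
    exact h5

end Fermat.Agent.S35
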