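import Fermat.Agent.S35.H62Node
import Fermat.Agent.S35.H86TorIface

/-!
# S35, block TOR, leaf TOR-LOCAL (helper60, second seat)

`h60t_ifaceTorLocal : IfaceTorLocal A M ℓ hℓ hM hA` (frozen in `S35/H86TorIface.lean`): every
closed point `𝔫` of the special fibre of the finite chart of level `M ℓ` has

* a refined smooth datum (`TorSmoothAt`): a local parameter `t'` modulo `𝔪_A` which is a unit of
  both Gauss rings (`t'⁻¹ ∈ ssV`): `t' = α u` on `C∞ ∖ C₀`, `t' = β u` on `C₀ ∖ C∞`, `u` a local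
  parameter of level `M` (helper62's `h62x_smooth_inf`, `h62x_smooth_zero`); `α u`, `β u` lie in
  neither `P∞` nor `P₀` because `u ∉ 𝔪_A Λ` (`H62Ker`);
* or a refined node datum (`TorNodeAt`): helper62's `h62x_node` (`x ∈ P₀ ∖ P∞`, `y ∈ P∞ ∖ P₀`,
  `x y = ℓ c'`).
-/

set_option autoImplicit false
set_option linter.unusedSectionVars false
set_option linter.style.haveILetI false

open AlgebraicCurve ModularCurve WithZero IsLocalRing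

noncomputable section

namespace Fermat.Agent.S35

open Fermat.Agent.S37 Fermat.Agent.Red Fermat.Agent.Red.GG Fermat.Agent.Red.GV
  Fermat.Agent.Red.GV.Soft Fermat.Agent.Red.Kron Fermat.Agent.Red.ModelO Fermat.Agent.LGC

section Abs

variable {A : Type*} [CommRing A] [IsLocalRing A] {Λ B : Type*} [CommRing Λ] [CommRing B]
  [Algebra A Λ] [Algebra A B]

/-- a local parameter `u` modulo `𝔪_A Λ` at the point `φ⁻¹ 𝔫` (`𝔫` a closed point of the special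
fibre of `B = φ Λ + P`, `P ⊆ 𝔫`) does not lie in `𝔪_A Λ` if `Λ ⧸ 𝔪_A Λ` is a domain and not a
field; moreover `φ u ∈ 𝔫`. -/
theorem h60t_abs_LP (φ : Λ →ₐ[A] B) (𝔫 P : Ideal B) (h𝔫 : 𝔫.IsMaximal)
    (hm : (maximalIdeal A).map (algebraMap A B) ≤ 𝔫) (hP : P ≤ 𝔫)
    (hsurj : ∀ b : B, ∃ x : Λ, b - φ x ∈ P)
    (hprime : ((maximalIdeal A).map (algebraMap A Λ)).IsPrime)
    (hnf : ¬ IsField (Λ ⧸ (maximalIdeal A).map (algebraMap A Λ))) {u : Λ}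
    (hLP : h62l_LP ((maximalIdeal A).map (algebraMap A Λ)) (𝔫.comap (φ : Λ →+* B)) u) :
    u ∉ (maximalIdeal A).map (algebraMap A Λ) ∧ φ u ∈ 𝔫 := by
  haveI := h𝔫
  refine ⟨fun hu => ?_, Ideal.mem_comap.mp hLP.1⟩
  have h𝔰 : (𝔫.comap (φ : Λ →+* B)).IsMaximal :=
    h62l_comap_isMaximal (φ : Λ →+* B) 𝔫 P hP hsurj
  have hle : (maximalIdeal A).map (algebraMap A Λ) ≤ 𝔫.comap (φ : Λ →+* B) :=
    fun _ hx => Ideal.mem_comap.mpr (hm (h62l_map_mem _ φ hx))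
  have hle' : 𝔫.comap (φ : Λ →+* B) ≤ (maximalIdeal A).map (algebraMap A Λ) := by
    intro y hy
    obtain ⟨s, hs, hsy⟩ := hLP.2 y hy
    have h1 : Ideal.span {u} ⊔ (maximalIdeal A).map (algebraMap A Λ) ≤
        (maximalIdeal A).map (algebraMap A Λ) :=
      sup_le ((Ideal.span_singleton_le_iff_mem _).mpr hu) le_rfl
    exact (hprime.mem_or_mem (h1 hsy)).resolve_left fun h => hs (hle h)
  have h1 : (maximalIdeal A).map (algebraMap A Λ) = 𝔫.comap (φ : Λ →+* B) :=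
    le_antisymm hle hle'
  apply hnf
  have h2 : ((maximalIdeal A).map (algebraMap A Λ)).IsMaximal := h1 ▸ h𝔰
  exact (Ideal.Quotient.maximal_ideal_iff_isField_quotient _).mp h2

end Abs

variable (A : ValuationSubring Kbar) (M : ℕ) {ℓ : ℕ} [NeZero M] [NeZero ℓ]

/-- an element of the finite chart outside `P∞` is a unit of `W∞`. -/
theorem h60t_inv_mem_Winf (hℓ : ℓ.Prime) (hM : ¬ ℓ ∣ M) (hA : A.LiesOverPrime ℓ)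
    (b : chart (M * ℓ) A (jSS M ℓ)) (hb : b ∉ h62i_Pinf A M hℓ hM hA) :
    ((b : FF (M * ℓ)))⁻¹ ∈ h85cWinf A M ℓ hℓ hA :=
  h62i_inv_mem_soft A M hℓ hM hA b hb

/-- an element of the finite chart outside `P₀` is a unit of `W₀`. -/
theorem h60t_inv_mem_W0 (hℓ : ℓ.Prime) (hM : ¬ ℓ ∣ M) (hA : A.LiesOverPrime ℓ)
    (b : chart (M * ℓ) A (jSS M ℓ)) (hb : b ∉ h62i_P0 A M hℓ hM hA) :
    ((b : FF (M * ℓ)))⁻¹ ∈ h85cW0 A M ℓ hℓ hM hA := by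
  have h1 : h62i_w A M hℓ hM hA b ∉ h62i_Pinf A M hℓ hM hA := hb
  have h2 := h62i_inv_mem_soft A M hℓ hM hA _ h1
  show kFricke M ℓ hℓ hM ((b : FF (M * ℓ)))⁻¹ ∈ softV A (M * ℓ)
  rw [map_inv₀]
  exact h2

/-- an element of the finite chart outside `P∞` and `P₀` is a unit of `ssV`. -/
theorem h60t_inv_mem_ssV (hℓ : ℓ.Prime) (hM : ¬ ℓ ∣ M) (hA : A.LiesOverPrime ℓ)
    (b : chart (M * ℓ) A (jSS M ℓ)) (hb : b ∉ h62i_Pinf A M hℓ hM hA)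
    (hb0 : b ∉ h62i_P0 A M hℓ hM hA) :
    ((b : FF (M * ℓ)))⁻¹ ∈ ssV A M ℓ :=
  h63r_mem_ssV_of_soft hℓ hM hA (h60t_inv_mem_Winf A M hℓ hM hA b hb)
    (h60t_inv_mem_W0 A M hℓ hM hA b hb0)

/-- `𝔫 ⊇ P∞`, `𝔫 ⊇ P₀`: `𝔫` lies on both components. -/
theorem h60t_onBoth (hℓ : ℓ.Prime) (hM : ¬ ℓ ∣ M) (hA : A.LiesOverPrime ℓ)
    (𝔫 : Ideal (chart (M * ℓ) A (jSS M ℓ)))
    (hPinf𝔫 : h62i_Pinf A M hℓ hM hA ≤ 𝔫) (hP0𝔫 : h62i_P0 A M hℓ hM hA ≤ 𝔫) :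
    TorOnBoth A M ℓ hℓ hM hA (jSS M ℓ) 𝔫 := by
  constructor
  · intro b hb
    by_contra hb𝔫
    exact hb (h60t_inv_mem_Winf A M hℓ hM hA b fun h => hb𝔫 (hPinf𝔫 h))
  · intro b hb
    by_contra hb𝔫
    exact hb (h60t_inv_mem_W0 A M hℓ hM hA b fun h => hb𝔫 (hP0𝔫 h))

/-- `𝔪_A Λ` is a prime ideal of the finite chart of level `M`. -/
theorem h60t_mΛ_isPrime (hℓ : ℓ.Prime) (hM : ¬ ℓ ∣ M) (haux : auxLevel ℓ ∣ M)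
    (hA : A.LiesOverPrime ℓ) : (h62i_mΛ A M).IsPrime := by
  have hded : IsDedekindDomain (chart M A (jB M) ⧸ h62i_mΛ A M) :=
    h13l_hded_fin M A hℓ hM haux hA
  have hdom : IsDomain (chart M A (jB M) ⧸ h62i_mΛ A M) := hded.toIsDomain
  exact (Ideal.Quotient.isDomain_iff_prime _).mp hdom

theorem h60t_surj0 (hℓ : ℓ.Prime) (hM : ¬ ℓ ∣ M) (haux : auxLevel ℓ ∣ M)
    (hA : A.LiesOverPrime ℓ) (b : chart (M * ℓ) A (jSS M ℓ)) :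
    ∃ x : chart M A (jB M), b - h62i_β A M hℓ hM hA x ∈ h62i_P0 A M hℓ hM hA := by
  obtain ⟨x, hx⟩ := h62d_surj A M hℓ hM haux hA (h62i_w A M hℓ hM hA b)
  refine ⟨x, ?_⟩
  rw [h62i_mem_P0_iff_w, map_sub, h62i_w_β]
  exact hx

/-- `α u ∉ P∞`, `α u ∉ P₀`, `β u ∉ P∞`, `β u ∉ P₀` for `u ∉ 𝔪_A Λ`. -/
theorem h60t_not_mem (hℓ : ℓ.Prime) (hM : ¬ ℓ ∣ M) (hA : A.LiesOverPrime ℓ)
    {u : chart M A (jB M)} (hu : u ∉ h62i_mΛ A M) :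
    (h62i_α A M ℓ u ∉ h62i_Pinf A M hℓ hM hA ∧ h62i_α A M ℓ u ∉ h62i_P0 A M hℓ hM hA) ∧
    (h62i_β A M hℓ hM hA u ∉ h62i_Pinf A M hℓ hM hA ∧
      h62i_β A M hℓ hM hA u ∉ h62i_P0 A M hℓ hM hA) := by
  have hKer := h62d_ker A M hℓ hM hA
  refine ⟨⟨fun h => hu (hKer.1 u h), fun h => ?_⟩, ⟨fun h => hu (hKer.2 u h), fun h => ?_⟩⟩
  · apply hu
    apply hKer.2 u
    have h3 : h62i_w A M hℓ hM hA (h62i_α A M ℓ u) ∈ h62i_Pinf A M hℓ hM hA := h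
    rwa [h62i_w_α] at h3
  · apply hu
    apply hKer.1 u
    have h3 : h62i_w A M hℓ hM hA (h62i_β A M hℓ hM hA u) ∈ h62i_Pinf A M hℓ hM hA := h
    rwa [h62i_w_β] at h3

/-- the refined smooth datum from a local parameter outside both components. -/
theorem h60t_smoothAt (hℓ : ℓ.Prime) (hM : ¬ ℓ ∣ M) (hA : A.LiesOverPrime ℓ)
    (𝔫 : Ideal (chart (M * ℓ) A (jSS M ℓ))) (t' : chart (M * ℓ) A (jSS M ℓ)) (ht' : t' ∈ 𝔫)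
    (h1 : t' ∉ h62i_Pinf A M hℓ hM hA) (h2 : t' ∉ h62i_P0 A M hℓ hM hA)
    (hgen : ∀ z ∈ 𝔫, ∃ s, s ∉ 𝔫 ∧ s * z ∈ Ideal.span {t'} ⊔ mExt A M ℓ (jSS M ℓ)) :
    TorSmoothAt A M ℓ (jSS M ℓ) 𝔫 := by
  refine ⟨t', ht', ?_, h60t_inv_mem_ssV A M hℓ hM hA _ h1 h2, hgen⟩
  intro h0
  apply h1
  have : t' = 0 := Subtype.ext h0
  rw [this]
  exact Ideal.zero_mem _

/-- the nodes. -/
theorem h60t_nodeAt (hℓ : ℓ.Prime) (hM : ¬ ℓ ∣ M) (haux : auxLevel ℓ ∣ M)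
    (hA : A.LiesOverPrime ℓ) (𝔫 : Ideal (chart (M * ℓ) A (jSS M ℓ))) (h𝔫 : 𝔫.IsMaximal)
    (hPinf𝔫 : h62i_Pinf A M hℓ hM hA ≤ 𝔫) (hP0𝔫 : h62i_P0 A M hℓ hM hA ≤ 𝔫) :
    TorNodeAt A M ℓ hℓ hM hA (jSS M ℓ) 𝔫 := by
  obtain ⟨u, x, y, c', -, -, -, -, -, -, -, -, hD⟩ :=
    h62x_node A M hℓ hM haux hA 𝔫 h𝔫 hPinf𝔫 hP0𝔫
  have ha : ((ℓ : ℕ) : A) ≠ 0 := by
    intro h
    have h1 : (((ℓ : ℕ) : A) : Kbar) = 0 := by rw [h]; rfl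
    have h2 : ((ℓ : ℕ) : Kbar) = 0 := by exact_mod_cast h1
    exact hℓ.ne_zero (Nat.cast_eq_zero.mp h2)
  have hxy : x * y = algebraMap A (chart (M * ℓ) A (jSS M ℓ)) ((ℓ : ℕ) : A) * c' := by
    rw [map_natCast]
    exact hD.hxy
  exact ⟨h60t_onBoth A M hℓ hM hA 𝔫 hPinf𝔫 hP0𝔫, x, hP0𝔫 hD.hxP0, y, hPinf𝔫 hD.hyPinf, c',
    hD.hc, ((ℓ : ℕ) : A), ha, hxy, hD.hgen, h60t_inv_mem_Winf A M hℓ hM hA x hD.hxPinf,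
    h60t_inv_mem_W0 A M hℓ hM hA y hD.hyP0⟩

/-- smooth points on `C∞` only. -/
theorem h60t_smooth_inf (hℓ : ℓ.Prime) (hM : ¬ ℓ ∣ M) (haux : auxLevel ℓ ∣ M)
    (hA : A.LiesOverPrime ℓ) (𝔫 : Ideal (chart (M * ℓ) A (jSS M ℓ))) (h𝔫 : 𝔫.IsMaximal)
    (hm : mExt A M ℓ (jSS M ℓ) ≤ 𝔫)
    (hPinf𝔫 : h62i_Pinf A M hℓ hM hA ≤ 𝔫) (hP0𝔫 : ¬ h62i_P0 A M hℓ hM hA ≤ 𝔫) :
    TorSmoothAt A M ℓ (jSS M ℓ) 𝔫 := by
  obtain ⟨u, -, hLP, -, hgen⟩ := h62x_smooth_inf A M hℓ hM haux hA 𝔫 h𝔫 hPinf𝔫 hP0𝔫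
  obtain ⟨hu, hu𝔫⟩ := h60t_abs_LP (h62i_α A M ℓ) 𝔫 (h62i_Pinf A M hℓ hM hA) h𝔫 hm hPinf𝔫
    (h62d_surj A M hℓ hM haux hA) (h60t_mΛ_isPrime A M hℓ hM haux hA)
    (h13l_hnf_fin M A hℓ hM hA) hLP
  have h12 := (h60t_not_mem A M hℓ hM hA hu).1
  exact h60t_smoothAt A M hℓ hM hA 𝔫 (h62i_α A M ℓ u) hu𝔫 h12.1 h12.2 hgen

/-- smooth points on `C₀` only. -/
theorem h60t_smooth_zero (hℓ : ℓ.Prime) (hM : ¬ ℓ ∣ M) (haux : auxLevel ℓ ∣ M)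
    (hA : A.LiesOverPrime ℓ) (𝔫 : Ideal (chart (M * ℓ) A (jSS M ℓ))) (h𝔫 : 𝔫.IsMaximal)
    (hm : mExt A M ℓ (jSS M ℓ) ≤ 𝔫)
    (hP0𝔫 : h62i_P0 A M hℓ hM hA ≤ 𝔫) (hPinf𝔫 : ¬ h62i_Pinf A M hℓ hM hA ≤ 𝔫) :
    TorSmoothAt A M ℓ (jSS M ℓ) 𝔫 := by
  obtain ⟨u, -, hLP, -, hgen⟩ := h62x_smooth_zero A M hℓ hM haux hA 𝔫 h𝔫 hP0𝔫 hPinf𝔫
  obtain ⟨hu, hu𝔫⟩ := h60t_abs_LP (h62i_β A M hℓ hM hA) 𝔫 (h62i_P0 A M hℓ hM hA) h𝔫 hm hP0𝔫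
    (h60t_surj0 A M hℓ hM haux hA) (h60t_mΛ_isPrime A M hℓ hM haux hA)
    (h13l_hnf_fin M A hℓ hM hA) hLP
  have h12 := (h60t_not_mem A M hℓ hM hA hu).2
  exact h60t_smoothAt A M hℓ hM hA 𝔫 (h62i_β A M hℓ hM hA u) hu𝔫 h12.1 h12.2 hgen

/-- **TOR-LOCAL**: every closed point of the special fibre of the finite chart of level `M ℓ`
has a refined smooth datum or a refined node datum. -/
theorem h60t_ifaceTorLocal (hℓ : ℓ.Prime) (hM : ¬ ℓ ∣ M) (haux : auxLevel ℓ ∣ M)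
    (hA : A.LiesOverPrime ℓ) : IfaceTorLocal A M ℓ hℓ hM hA := by
  intro 𝔫 h𝔫 hm
  by_cases hPinf𝔫 : h62i_Pinf A M hℓ hM hA ≤ 𝔫
  · by_cases hP0𝔫 : h62i_P0 A M hℓ hM hA ≤ 𝔫
    · exact Or.inr (h60t_nodeAt A M hℓ hM haux hA 𝔫 h𝔫 hPinf𝔫 hP0𝔫)
    · exact Or.inl (h60t_smooth_inf A M hℓ hM haux hA 𝔫 h𝔫 hm hPinf𝔫 hP0𝔫)
  · exact Or.inl (h60t_smooth_zero A M hℓ hM haux hA 𝔫 h𝔫 hm
      ((h62x_dichotomy A M hℓ hM hA 𝔫 h𝔫 hm).resolve_left hPinf𝔫) hPinf𝔫)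

end Fermat.Agent.S35
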