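import Fermat.Agent.S35.H62Node
import Fermat.Agent.LGC.H62NodeFix
import Fermat.Agent.LGC.Perm63

/-!
# S35 / G-TOR input (N3, helper62): the crossing points of the special fibre of `X₀(M ℓ)` are
`𝔽_{ℓ²}`-rational

`h62x_galChart` : the action of an element of the decomposition group of `A` on a chart with
Galois-invariant coordinate, as a ring automorphism.

`h62x_node_fixed` : for a Frobenius `σ` at `ℓ` and a maximal ideal `𝔫 ⊇ P∞ + P₀` of the finite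
chart of level `M ℓ`: `σ² b ∈ 𝔫 ↔ b ∈ 𝔫`.

`h62x_values` : the values at `α⁻¹ 𝔫` of the rational functions of the finite chart of level `M`
lie in `𝔽_{ℓ²}`: `u ^ (ℓ²) - u ∈ α⁻¹ 𝔫`.
-/

set_option autoImplicit false
set_option linter.unusedSectionVars false
set_option linter.style.haveILetI false

open AlgebraicCurve ModularCurve WithZero IsLocalRing Polynomial

noncomputable section

namespace Fermat.Agent.S35

open Fermat.Agent.S37 Fermat.Agent.Red Fermat.Agent.Red.GG Fermat.Agent.Red.GV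
  Fermat.Agent.Red.GV.Soft Fermat.Agent.Red.Kron Fermat.Agent.Red.KR Fermat.Agent.Red.ModelO
  Fermat.Agent.LGC

section Gal

variable (A : ValuationSubring Kbar) (N : ℕ) (t : FF N)

theorem h62x_decomp_mem {σ : GQ} (hσ : σ ∈ A.decompositionSubgroup ℚ) (a : Kbar) (ha : a ∈ A) :
    σ a ∈ A :=
  (decompA A σ hσ ⟨a, ha⟩).2

theorem h62x_gal_mem (ht : ∀ τ : GQ, gal N τ • t = t) {σ : GQ}
    (hσ : σ ∈ A.decompositionSubgroup ℚ) (b : chart N A t) :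
    gal N σ • (b : FF N) ∈ chart N A t :=
  h63r_gal_mem_chart N t (fun a ha => h62x_decomp_mem A hσ a ha) (ht σ) b.2

theorem h62x_gal_inv_smul (σ : GQ) (x : FF N) : gal N σ⁻¹ • gal N σ • x = x := by
  rw [← mul_smul]
  have h1 : gal N σ⁻¹ * gal N σ = 1 := by
    show arithmeticGalois (modularFunctionFieldFull N) σ⁻¹ *
      arithmeticGalois (modularFunctionFieldFull N) σ = 1
    rw [← map_mul, inv_mul_cancel, map_one]
  rw [h1, one_smul]

theorem h62x_gal_smul_inv (σ : GQ) (x : FF N) : gal N σ • gal N σ⁻¹ • x = x := by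
  have h := h62x_gal_inv_smul N σ⁻¹ x
  rwa [inv_inv] at h

/-- the action of an element of the decomposition group on a chart with Galois-invariant
coordinate. -/
def h62x_galChart (ht : ∀ τ : GQ, gal N τ • t = t) (σ : GQ)
    (hσ : σ ∈ A.decompositionSubgroup ℚ) : chart N A t ≃+* chart N A t where
  toFun b := ⟨gal N σ • (b : FF N), h62x_gal_mem A N t ht hσ b⟩
  invFun b := ⟨gal N σ⁻¹ • (b : FF N), h62x_gal_mem A N t ht (inv_mem hσ) b⟩
  left_inv _ := Subtype.ext (h62x_gal_inv_smul N σ _)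
  right_inv _ := Subtype.ext (h62x_gal_smul_inv N σ _)
  map_mul' _ _ := Subtype.ext (smul_mul' _ _ _)
  map_add' _ _ := Subtype.ext (smul_add _ _ _)

@[simp]
theorem h62x_coe_galChart (ht : ∀ τ : GQ, gal N τ • t = t) (σ : GQ)
    (hσ : σ ∈ A.decompositionSubgroup ℚ) (b : chart N A t) :
    ((h62x_galChart A N t ht σ hσ b : chart N A t) : FF N) = gal N σ • (b : FF N) := rfl

theorem h62x_frobA {ℓ : ℕ} {σ : GQ} (hσ : A.IsFrobeniusAt σ ℓ) (a : A) :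
    decompA A σ hσ.mem_decompositionSubgroup a - a ^ ℓ ∈ maximalIdeal A := by
  rw [← IsLocalRing.residue_eq_zero_iff, map_sub, map_pow, residue_decompA, sub_eq_zero]
  exact hσ.smul_residue_eq _

end Gal

section Concrete

variable (A : ValuationSubring Kbar) (M : ℕ) {ℓ : ℕ} [NeZero M] [NeZero ℓ]

/-- the values of the rational functions at a crossing point lie in `𝔽_{ℓ²}`. -/
theorem h62x_values (hℓ : ℓ.Prime) (hM : ¬ ℓ ∣ M) (hA : A.LiesOverPrime ℓ)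
    (𝔫 : Ideal (chart (M * ℓ) A (jSS M ℓ))) (h𝔫 : 𝔫.IsMaximal)
    (hPinf𝔫 : h62i_Pinf A M hℓ hM hA ≤ 𝔫) (hP0𝔫 : h62i_P0 A M hℓ hM hA ≤ 𝔫)
    (u : chart M A (jB M)) (hu : IsRat (u : FF M)) :
    h62i_α A M ℓ (u ^ (ℓ ^ 2) - u) ∈ 𝔫 := by
  haveI := h𝔫.isPrime
  have hFrob := h62d_frob A M hℓ hM hA
  have hFrob0 : ∀ u ∈ h62i_R A M,
      h62i_α A M ℓ u - (h62i_β A M hℓ hM hA u) ^ ℓ ∈ h62i_P0 A M hℓ hM hA := by
    intro u hu
    rw [h62i_mem_P0_iff_w, map_sub, map_pow, h62i_w_α, h62i_w_β]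
    exact hFrob u hu
  have h := h62b_values (h62i_α A M ℓ) (h62i_β A M hℓ hM hA) 𝔫 (h62i_Pinf A M hℓ hM hA)
    (h62i_P0 A M hℓ hM hA) hPinf𝔫 hP0𝔫 (h62i_R A M) ℓ hFrob hFrob0 u
    ((h62i_mem_R A M u).mpr hu)
  exact Ideal.mem_comap.mp h

/-- **(N3) the crossing points are `𝔽_{ℓ²}`-rational.** -/
theorem h62x_node_fixed (hℓ : ℓ.Prime) (hM : ¬ ℓ ∣ M) (haux : auxLevel ℓ ∣ M)
    (hA : A.LiesOverPrime ℓ) {σ : GQ} (hσ : A.IsFrobeniusAt σ ℓ)
    (𝔫 : Ideal (chart (M * ℓ) A (jSS M ℓ))) (h𝔫 : 𝔫.IsMaximal)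
    (hPinf𝔫 : h62i_Pinf A M hℓ hM hA ≤ 𝔫) (hP0𝔫 : h62i_P0 A M hℓ hM hA ≤ 𝔫)
    (b : chart (M * ℓ) A (jSS M ℓ)) :
    h62x_galChart A (M * ℓ) (jSS M ℓ) (h63p_gal_jSS M ℓ) σ hσ.mem_decompositionSubgroup
      (h62x_galChart A (M * ℓ) (jSS M ℓ) (h63p_gal_jSS M ℓ) σ hσ.mem_decompositionSubgroup b)
        ∈ 𝔫 ↔ b ∈ 𝔫 := by
  have hσd := hσ.mem_decompositionSubgroup
  have hFrob := h62d_frob A M hℓ hM hA
  have hSurj := h62d_surj A M hℓ hM haux hA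
  obtain ⟨u, x, y, c', -, -, -, -, -, -, -, hU, -⟩ :=
    h62x_node A M hℓ hM haux hA 𝔫 h𝔫 hPinf𝔫 hP0𝔫
  have h𝔰max : (𝔫.comap ((h62i_α A M ℓ : chart M A (jB M) →ₐ[A] chart (M * ℓ) A (jSS M ℓ)) :
      chart M A (jB M) →+* chart (M * ℓ) A (jSS M ℓ))).IsMaximal :=
    h62l_comap_isMaximal _ 𝔫 (h62i_Pinf A M hℓ hM hA) hPinf𝔫 hSurj
  exact h62b_node_fixed (h62i_α A M ℓ) (h62i_β A M hℓ hM hA) 𝔫 (h62i_Pinf A M hℓ hM hA)
    (h62i_P0 A M hℓ hM hA) hPinf𝔫 hP0𝔫 (le_trans (h62i_m_le_Pinf A M hℓ hM hA) hPinf𝔫)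
    h𝔰max (h62i_R A M) (h62d_span A M hℓ hM hA) ℓ hℓ (h62i_natCast_mem A hA) hFrob
    (fun u hu => by
      rw [h62i_mem_P0_iff_w, map_sub, map_pow, h62i_w_α, h62i_w_β]
      exact hFrob u hu)
    hU (decompA A σ hσd)
    (h62x_galChart A M (jB M) (fun τ => GalI.gal_smul_jB τ) σ hσd)
    (h62x_galChart A (M * ℓ) (jSS M ℓ) (h63p_gal_jSS M ℓ) σ hσd)
    (fun x => Subtype.ext
      (Fermat.Agent.Red.HKGal.intertwines_heckeAlphaBar M ℓ σ (x : FF M)))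
    (fun a => Subtype.ext (GalI.gal_smul_cst σ (a : Kbar)))
    (fun u hu => Subtype.ext (GalI.gal_smul_of_isRat σ ((h62i_mem_R A M u).mp hu)))
    (h62x_frobA A hσ) b

end Concrete

end Fermat.Agent.S35
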