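import Fermat.Agent.S35.H62NodeFix

/-!
# S35 / G-TOR input (helper62): `σ²` is the `ℓ²`-Frobenius at the crossing points

`h62x_node_residue` : at a crossing point `𝔫` of the finite chart `B` of level `M ℓ` every
`b ∈ B` is congruent modulo `𝔫` to a constant of `A` (the residue field of `𝔫` is `A ⧸ 𝔪_A`).

`h62x_node_frob_sq` : for a Frobenius `σ` at `ℓ`: `σ² b - b ^ (ℓ²) ∈ 𝔫` for all `b ∈ B`.
-/

set_option autoImplicit false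
set_option linter.unusedSectionVars false
set_option linter.style.haveILetI false

open AlgebraicCurve ModularCurve WithZero IsLocalRing Polynomial

noncomputable section

namespace Fermat.Agent.S35

open Fermat.Agent.S37 Fermat.Agent.Red Fermat.Agent.Red.GG Fermat.Agent.Red.GV
  Fermat.Agent.Red.GV.Soft Fermat.Agent.Red.Kron Fermat.Agent.Red.KR Fermat.Agent.Red.ModelO
  Fermat.Agent.LGC

variable (A : ValuationSubring Kbar) (M : ℕ) {ℓ : ℕ} [NeZero M] [NeZero ℓ]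

/-- the residue field of a closed point of `C∞` is `A ⧸ 𝔪_A`. -/
theorem h62x_node_residue (hℓ : ℓ.Prime) (hM : ¬ ℓ ∣ M) (haux : auxLevel ℓ ∣ M)
    (hA : A.LiesOverPrime ℓ)
    (𝔫 : Ideal (chart (M * ℓ) A (jSS M ℓ))) (h𝔫 : 𝔫.IsMaximal)
    (hPinf𝔫 : h62i_Pinf A M hℓ hM hA ≤ 𝔫) (b : chart (M * ℓ) A (jSS M ℓ)) :
    ∃ a : A, b - algebraMap A (chart (M * ℓ) A (jSS M ℓ)) a ∈ 𝔫 := by
  have hSurj := h62d_surj A M hℓ hM haux hA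
  obtain ⟨x, hx⟩ := hSurj b
  have h𝔰max : (𝔫.comap ((h62i_α A M ℓ : chart M A (jB M) →ₐ[A] chart (M * ℓ) A (jSS M ℓ)) :
      chart M A (jB M) →+* chart (M * ℓ) A (jSS M ℓ))).IsMaximal :=
    h62l_comap_isMaximal _ 𝔫 (h62i_Pinf A M hℓ hM hA) hPinf𝔫 hSurj
  have hm𝔫 : mExt A M ℓ (jSS M ℓ) ≤ 𝔫 := le_trans (h62i_m_le_Pinf A M hℓ hM hA) hPinf𝔫
  have hm𝔰 : h62i_mΛ A M ≤ 𝔫.comap ((h62i_α A M ℓ :
      chart M A (jB M) →ₐ[A] chart (M * ℓ) A (jSS M ℓ)) :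
      chart M A (jB M) →+* chart (M * ℓ) A (jSS M ℓ)) := fun y hy =>
    Ideal.mem_comap.mpr (hm𝔫 (h62l_map_mem _ (h62i_α A M ℓ) hy))
  obtain ⟨a, ha⟩ := h62d_res A M _ h𝔰max hm𝔰 x
  refine ⟨a, ?_⟩
  have h1 : h62i_α A M ℓ (x - algebraMap A (chart M A (jB M)) a) ∈ 𝔫 := Ideal.mem_comap.mp ha
  rw [map_sub, AlgHom.commutes] at h1
  have h2 : b - algebraMap A (chart (M * ℓ) A (jSS M ℓ)) a =
      (b - h62i_α A M ℓ x) +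
        (h62i_α A M ℓ x - algebraMap A (chart (M * ℓ) A (jSS M ℓ)) a) := by ring
  rw [h2]
  exact 𝔫.add_mem (hPinf𝔫 hx) h1

/-- **`σ²` induces the `ℓ²`-Frobenius on the residue field of a crossing point.** -/
theorem h62x_node_frob_sq (hℓ : ℓ.Prime) (hM : ¬ ℓ ∣ M) (haux : auxLevel ℓ ∣ M)
    (hA : A.LiesOverPrime ℓ) {σ : GQ} (hσ : A.IsFrobeniusAt σ ℓ)
    (𝔫 : Ideal (chart (M * ℓ) A (jSS M ℓ))) (h𝔫 : 𝔫.IsMaximal)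
    (hPinf𝔫 : h62i_Pinf A M hℓ hM hA ≤ 𝔫) (hP0𝔫 : h62i_P0 A M hℓ hM hA ≤ 𝔫)
    (b : chart (M * ℓ) A (jSS M ℓ)) :
    h62x_galChart A (M * ℓ) (jSS M ℓ) (h63p_gal_jSS M ℓ) σ hσ.mem_decompositionSubgroup
      (h62x_galChart A (M * ℓ) (jSS M ℓ) (h63p_gal_jSS M ℓ) σ hσ.mem_decompositionSubgroup b)
        - b ^ (ℓ ^ 2) ∈ 𝔫 := by
  have hσd := hσ.mem_decompositionSubgroup
  set g := h62x_galChart A (M * ℓ) (jSS M ℓ) (h63p_gal_jSS M ℓ) σ hσd with hg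
  have hm𝔫 : mExt A M ℓ (jSS M ℓ) ≤ 𝔫 := le_trans (h62i_m_le_Pinf A M hℓ hM hA) hPinf𝔫
  obtain ⟨a, ha⟩ := h62x_node_residue A M hℓ hM haux hA 𝔫 h𝔫 hPinf𝔫 b
  set c : chart (M * ℓ) A (jSS M ℓ) := algebraMap A (chart (M * ℓ) A (jSS M ℓ)) a with hc
  -- `σ² (b - c) ∈ 𝔫`
  have h1 : g (g (b - c)) ∈ 𝔫 :=
    (h62x_node_fixed A M hℓ hM haux hA hσ 𝔫 h𝔫 hPinf𝔫 hP0𝔫 (b - c)).mpr ha
  -- `σ c = algebraMap (σ a)`
  have hgc : ∀ a' : A, g (algebraMap A (chart (M * ℓ) A (jSS M ℓ)) a') =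
      algebraMap A (chart (M * ℓ) A (jSS M ℓ)) (decompA A σ hσd a') := fun a' =>
    Subtype.ext (GalI.gal_smul_cst σ (a' : Kbar))
  -- `σ² a ≡ a ^ (ℓ²)`
  have hA2 : decompA A σ hσd (decompA A σ hσd a) - a ^ (ℓ ^ 2) ∈ maximalIdeal A := by
    have e1 := h62x_frobA A hσ (decompA A σ hσd a)
    have e2 : (decompA A σ hσd a) ^ ℓ - (a ^ ℓ) ^ ℓ ∈ maximalIdeal A := by
      obtain ⟨d, hd⟩ := sub_dvd_pow_sub_pow (decompA A σ hσd a) (a ^ ℓ) ℓ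
      rw [hd]
      exact Ideal.mul_mem_right _ _ (h62x_frobA A hσ a)
    have e3 : decompA A σ hσd (decompA A σ hσd a) - a ^ (ℓ ^ 2) =
        (decompA A σ hσd (decompA A σ hσd a) - decompA A σ hσd a ^ ℓ) +
          (decompA A σ hσd a ^ ℓ - (a ^ ℓ) ^ ℓ) := by
      rw [pow_two, pow_mul]; ring
    rw [e3]
    exact Ideal.add_mem _ e1 e2
  have h2 : g (g c) - c ^ (ℓ ^ 2) ∈ 𝔫 := by
    rw [hc, hgc, hgc, ← map_pow, ← map_sub]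
    exact hm𝔫 (Ideal.mem_map_of_mem _ hA2)
  have h3 : b ^ (ℓ ^ 2) - c ^ (ℓ ^ 2) ∈ 𝔫 := by
    obtain ⟨d, hd⟩ := sub_dvd_pow_sub_pow b c (ℓ ^ 2)
    rw [hd]
    exact 𝔫.mul_mem_right _ ha
  have h4 : g (g b) - b ^ (ℓ ^ 2) =
      g (g (b - c)) + (g (g c) - c ^ (ℓ ^ 2)) - (b ^ (ℓ ^ 2) - c ^ (ℓ ^ 2)) := by
    rw [map_sub, map_sub]; ring
  rw [h4]
  exact 𝔫.sub_mem (𝔫.add_mem h1 h2) h3

end Fermat.Agent.S35
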