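import Fermat.Agent.LGC.SS85Comp
import Fermat.Agent.LGC.H20CompInfFinal
import Fermat.Agent.LGC.H55Kron
import Fermat.Agent.Red.ESTF.FrobSeries
import Fermat.Agent.Red.HKGal

/-!
# S35, block TOR, leaf TOR-FIX (helper63): the square of a Frobenius on the double locus

`ℓ ∤ M` a prime, `N = M ℓ`, `A` a valuation subring of `ℚ̄` over `ℓ`, `σ` a Frobenius element at
`ℓ` for `A`, `W_∞ = softV A N`, `W_0 = w⁻¹ (W_∞)` (`w` the Fricke involution).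

* `h63f_kron_inf` : the semilinear Kronecker congruence `(α x) ^ ℓ ≡ β (σ x)` modulo `𝔪 (W_∞)`,
  for every `x` in the Gauss ring of level `M` (no rationality assumption on `x`).
* `h63f_kron_zero` : `(β x) ^ ℓ ≡ α (σ x)` modulo `𝔪 (W_0)`.
* `h63f_sq_fin` : for `b` in the finite chart of level `N`,
  `σ² b - b ^ (ℓ²) = p + q` with `p`, `q` in the chart, `p ∈ 𝔪 (W_∞)`, `q ∈ 𝔪 (W_0)`.
-/

set_option autoImplicit false
set_option maxHeartbeats 400000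
set_option linter.unusedSectionVars false
set_option linter.style.haveILetI false
set_option synthInstance.maxHeartbeats 400000

open AlgebraicCurve ModularCurve IsLocalRing

noncomputable section

namespace Fermat.Agent.S35

open Fermat.Agent.S37 Fermat.Agent.Red Fermat.Agent.Red.GG Fermat.Agent.Red.GV
  Fermat.Agent.Red.GV.Soft Fermat.Agent.Red.Kron Fermat.Agent.LGC

variable (A : ValuationSubring Kbar) (M ℓ : ℕ) [NeZero M] [NeZero ℓ]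

/-- the reduction of a Frobenius element acts on the coefficients as the Frobenius. -/
theorem h63f_coeffMap_decompK (hℓ : ℓ.Prime) (hA : A.LiesOverPrime ℓ) {σ : GQ}
    (hσ : A.IsFrobeniusAt σ ℓ) (v : LaurentSeries (ResidueField A)) :
    haveI : Fact ℓ.Prime := ⟨hℓ⟩
    haveI : CharP (ResidueField A) ℓ :=
      Fermat.Agent.Red.GV.Base.h80_charP A (IsLocalRing.residue A) ℓ
        (Fermat.Agent.Red.GV.isResidueMap_residue A ℓ hA)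
    coeffMap (decompK A σ hσ.mem_decompositionSubgroup) v =
      coeffMap (frobenius (ResidueField A) ℓ) v := by
  ext n
  rw [coeffMap_coeff, coeffMap_coeff]
  exact hσ.smul_residue_eq _

/-- `red (x ^ ℓ) = (φ red x)(q ^ ℓ)`. -/
theorem h63f_pow_eq (hℓ : ℓ.Prime) (hA : A.LiesOverPrime ℓ) {σ : GQ}
    (hσ : A.IsFrobeniusAt σ ℓ) (v : LaurentSeries (ResidueField A)) :
    v ^ ℓ = qExpand (ResidueField A) ℓ
      (coeffMap (decompK A σ hσ.mem_decompositionSubgroup) v) := by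
  haveI : Fact ℓ.Prime := ⟨hℓ⟩
  haveI : CharP (ResidueField A) ℓ :=
    Fermat.Agent.Red.GV.Base.h80_charP A (IsLocalRing.residue A) ℓ
      (Fermat.Agent.Red.GV.isResidueMap_residue A ℓ hA)
  rw [h63f_coeffMap_decompK A ℓ hℓ hA hσ]
  exact Fermat.Agent.Red.ESTF.h76_pow_char_eq_qExpand ℓ v

/-- **semilinear Kronecker congruence at `∞`**: `(α x) ^ ℓ ≡ β (σ x)` modulo `𝔪 (W_∞)`. -/
theorem h63f_kron_inf (hℓ : ℓ.Prime) (hA : A.LiesOverPrime ℓ) {σ : GQ}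
    (hσ : A.IsFrobeniusAt σ ℓ) (x : FF M) (hx : x ∈ softV A M) :
    ∃ h : (heckeAlphaBar Kbar M ℓ x) ^ ℓ - heckeBetaBar Kbar M ℓ (gal M σ • x) ∈
        softV A (M * ℓ), softR A (M * ℓ) ⟨_, h⟩ = 0 := by
  obtain ⟨hσx, hred⟩ := softR_gal A M σ hσ.mem_decompositionSubgroup ⟨x, hx⟩
  have hαx : heckeAlphaBar Kbar M ℓ x ∈ softV A (M * ℓ) := (alpha_mem_softV_iff A ℓ x).mpr hx
  have hβx : heckeBetaBar Kbar M ℓ (gal M σ • x) ∈ softV A (M * ℓ) :=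
    beta_mem_softV A ℓ _ hσx
  refine ⟨sub_mem (pow_mem hαx ℓ) hβx, ?_⟩
  have e : (⟨_, sub_mem (pow_mem hαx ℓ) hβx⟩ : softV A (M * ℓ)) =
      ⟨_, hαx⟩ ^ ℓ - ⟨_, hβx⟩ := rfl
  rw [e, map_sub, map_pow, softR_alpha A ℓ ⟨x, hx⟩ hαx, softR_beta A ℓ ⟨_, hσx⟩ hβx, hred,
    ← h63f_pow_eq A ℓ hℓ hA hσ, sub_self]

/-- **semilinear Kronecker congruence at `0`**: `(β x) ^ ℓ ≡ α (σ x)` modulo `𝔪 (W_0)`. -/
theorem h63f_kron_zero (hℓ : ℓ.Prime) (hM : ¬ ℓ ∣ M) (hA : A.LiesOverPrime ℓ) {σ : GQ}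
    (hσ : A.IsFrobeniusAt σ ℓ) (x : FF M) (hx : x ∈ softV A M) :
    ∃ h : kFricke M ℓ hℓ hM ((heckeBetaBar Kbar M ℓ x) ^ ℓ -
        heckeAlphaBar Kbar M ℓ (gal M σ • x)) ∈ softV A (M * ℓ),
      softR A (M * ℓ) ⟨_, h⟩ = 0 := by
  obtain ⟨h, h0⟩ := h63f_kron_inf A M ℓ hℓ hA hσ x hx
  have e : kFricke M ℓ hℓ hM ((heckeBetaBar Kbar M ℓ x) ^ ℓ -
      heckeAlphaBar Kbar M ℓ (gal M σ • x)) =
      (heckeAlphaBar Kbar M ℓ x) ^ ℓ - heckeBetaBar Kbar M ℓ (gal M σ • x) := by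
    rw [map_sub, map_pow, kFricke_beta, kFricke_alpha]
  have h' : kFricke M ℓ hℓ hM ((heckeBetaBar Kbar M ℓ x) ^ ℓ -
      heckeAlphaBar Kbar M ℓ (gal M σ • x)) ∈ softV A (M * ℓ) := by
    rw [e]
    exact h
  refine ⟨h', ?_⟩
  have e2 : (⟨_, h'⟩ : softV A (M * ℓ)) = ⟨_, h⟩ := Subtype.ext e
  rw [e2, h0]

/-! ### the decomposition group and the charts -/

/-- a Frobenius element preserves `A`. -/
theorem h63f_frob_mem {σ : GQ} (hσ : A.IsFrobeniusAt σ ℓ) : ∀ a ∈ A, σ a ∈ A := by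
  have hD := (Fermat.Agent.Bridge.memDecomp A σ).mp hσ.mem_decompositionSubgroup
  exact fun x hx => (hD x).mpr hx

/-- the reduction of `σ x`. -/
theorem h63f_softR_gal {N : ℕ} {σ : GQ} (hσ : A.IsFrobeniusAt σ ℓ) (x : FF N)
    (hx : x ∈ softV A N) (hσx : gal N σ • x ∈ softV A N) :
    softR A N ⟨gal N σ • x, hσx⟩ =
      coeffMap (decompK A σ hσ.mem_decompositionSubgroup) (softR A N ⟨x, hx⟩) := by
  obtain ⟨h, hred⟩ := softR_gal A N σ hσ.mem_decompositionSubgroup ⟨x, hx⟩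
  exact hred

/-- **the square of a Frobenius on the finite chart**: `σ² b - b ^ (ℓ²) ∈ P_∞ + P_0`. -/
theorem h63f_sq_fin (hℓ : ℓ.Prime) (hM : ¬ ℓ ∣ M) (haux : auxLevel ℓ ∣ M)
    (hA : A.LiesOverPrime ℓ) {σ : GQ} (hσ : A.IsFrobeniusAt σ ℓ)
    (b : FF (M * ℓ)) (hb : b ∈ modelAt (M * ℓ) A (jSS M ℓ)) :
    ∃ p q : FF (M * ℓ), p ∈ modelAt (M * ℓ) A (jSS M ℓ) ∧ q ∈ modelAt (M * ℓ) A (jSS M ℓ) ∧
      p ∈ (softRing A (M * ℓ) hℓ hA).nonunits ∧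
      kFricke M ℓ hℓ hM q ∈ (softRing A (M * ℓ) hℓ hA).nonunits ∧
      gal (M * ℓ) σ • gal (M * ℓ) σ • b - b ^ (ℓ ^ 2) = p + q := by
  classical
  have hσA := h63f_frob_mem A ℓ hσ
  have hdec := hσ.mem_decompositionSubgroup
  have hjeq : jSS M ℓ = jB (M * ℓ) := Fermat.Agent.Red.HKMod.heckeAlphaBar_jBar M ℓ
  have hjfix : gal (M * ℓ) σ • jSS M ℓ = jSS M ℓ := by
    rw [hjeq]
    exact GalI.gal_smul_jB σ
  obtain ⟨u, hu, hαu, hsub, hsub0⟩ := h20ci_hsurj_fin A M ℓ hℓ hM haux hA b hb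
  -- level `M`
  have huV : u ∈ softV A M := gaussV_le_softV A M (modelFin_le_gaussV A M hℓ hM hA hu)
  have hσu : gal M σ • u ∈ modelAt M A (jB M) :=
    h63r_gal_mem_chart (A := A) M (jB M) hσA (GalI.gal_smul_jB σ) hu
  have hσσu : gal M σ • gal M σ • u ∈ modelAt M A (jB M) :=
    h63r_gal_mem_chart (A := A) M (jB M) hσA (GalI.gal_smul_jB σ) hσu
  have hσuV : gal M σ • u ∈ softV A M :=
    gaussV_le_softV A M (modelFin_le_gaussV A M hℓ hM hA hσu)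
  have hσσuV : gal M σ • gal M σ • u ∈ softV A M :=
    gaussV_le_softV A M (modelFin_le_gaussV A M hℓ hM hA hσσu)
  -- level `M ℓ`
  have hαuV : heckeAlphaBar Kbar M ℓ u ∈ softV A (M * ℓ) := (alpha_mem_softV_iff A ℓ u).mpr huV
  have hbV : b ∈ softV A (M * ℓ) := by
    have e : b = (b - heckeAlphaBar Kbar M ℓ u) + heckeAlphaBar Kbar M ℓ u := by ring
    rw [e]
    exact add_mem hsub hαuV
  have hσb : gal (M * ℓ) σ • b ∈ modelAt (M * ℓ) A (jSS M ℓ) :=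
    h63r_gal_mem_chart (A := A) (M * ℓ) (jSS M ℓ) hσA hjfix hb
  have hσσb : gal (M * ℓ) σ • gal (M * ℓ) σ • b ∈ modelAt (M * ℓ) A (jSS M ℓ) :=
    h63r_gal_mem_chart (A := A) (M * ℓ) (jSS M ℓ) hσA hjfix hσb
  obtain ⟨hσbV, hσbr⟩ := softR_gal A (M * ℓ) σ hdec ⟨b, hbV⟩
  obtain ⟨hσσbV, hσσbr⟩ := softR_gal A (M * ℓ) σ hdec ⟨_, hσbV⟩
  have hασσu : heckeAlphaBar Kbar M ℓ (gal M σ • gal M σ • u) ∈
      modelAt (M * ℓ) A (jSS M ℓ) :=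
    Fermat.Agent.Red.KR.map_mem_modelAt (heckeAlphaBar Kbar M ℓ) A hσσu
  have hασσuV : heckeAlphaBar Kbar M ℓ (gal M σ • gal M σ • u) ∈ softV A (M * ℓ) :=
    (alpha_mem_softV_iff A ℓ _).mpr hσσuV
  have hβσu : heckeBetaBar Kbar M ℓ (gal M σ • u) ∈ modelAt (M * ℓ) A (jSS M ℓ) := by
    rw [hjeq]
    exact h55k_beta_mem M ℓ A hℓ hM hA _ hσu
  have hβσuV : heckeBetaBar Kbar M ℓ (gal M σ • u) ∈ softV A (M * ℓ) :=
    beta_mem_softV A ℓ _ hσuV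
  -- the reductions
  set r : LaurentSeries (ResidueField A) := softR A M ⟨u, huV⟩ with hr
  set D : LaurentSeries (ResidueField A) →+* LaurentSeries (ResidueField A) :=
    coeffMap (decompK A σ hdec) with hD
  have hrb : softR A (M * ℓ) ⟨b, hbV⟩ = r := by
    have e : (⟨b, hbV⟩ : softV A (M * ℓ)) = ⟨_, hsub⟩ + ⟨_, hαuV⟩ := by
      apply Subtype.ext
      show b = (b - heckeAlphaBar Kbar M ℓ u) + heckeAlphaBar Kbar M ℓ u
      ring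
    rw [e, map_add, hsub0, zero_add, softR_alpha A ℓ ⟨u, huV⟩ hαuV]
  have hrσu : softR A M ⟨_, hσuV⟩ = D r := h63f_softR_gal A ℓ hσ u huV hσuV
  have hrσσu : softR A M ⟨_, hσσuV⟩ = D (D r) := by
    rw [h63f_softR_gal A ℓ hσ _ hσuV hσσuV, hrσu]
  have hrσσb : softR A (M * ℓ) ⟨_, hσσbV⟩ = D (D r) := by
    rw [hσσbr, hσbr, hrb]
  have hrβ : softR A (M * ℓ) ⟨_, hβσuV⟩ = r ^ ℓ := by
    rw [softR_beta A ℓ ⟨_, hσuV⟩ hβσuV, hrσu, h63f_pow_eq A ℓ hℓ hA hσ r]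
  -- the two parts
  set q : FF (M * ℓ) := heckeAlphaBar Kbar M ℓ (gal M σ • gal M σ • u) -
    (heckeBetaBar Kbar M ℓ (gal M σ • u)) ^ ℓ with hq
  set p : FF (M * ℓ) := gal (M * ℓ) σ • gal (M * ℓ) σ • b - b ^ (ℓ ^ 2) - q with hp
  have hqB : q ∈ modelAt (M * ℓ) A (jSS M ℓ) := sub_mem hασσu (pow_mem hβσu ℓ)
  have hpB : p ∈ modelAt (M * ℓ) A (jSS M ℓ) := sub_mem (sub_mem hσσb (pow_mem hb _)) hqB
  refine ⟨p, q, hpB, hqB, ?_, ?_, by rw [hp]; ring⟩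
  · -- `p ∈ 𝔪 (W_∞)`
    have hpV : p ∈ softV A (M * ℓ) :=
      sub_mem (sub_mem hσσbV (pow_mem hbV _)) (sub_mem hασσuV (pow_mem hβσuV ℓ))
    rw [← softR_eq_zero_iff_mem_nonunits A (M * ℓ) hℓ hA ⟨p, hpV⟩]
    have e : (⟨p, hpV⟩ : softV A (M * ℓ)) =
        ⟨_, hσσbV⟩ - ⟨b, hbV⟩ ^ (ℓ ^ 2) - (⟨_, hασσuV⟩ - ⟨_, hβσuV⟩ ^ ℓ) := rfl
    rw [e, map_sub, map_sub, map_sub, map_pow, map_pow, hrσσb, hrb,
      softR_alpha A ℓ ⟨_, hσσuV⟩ hασσuV, hrσσu, hrβ, ← pow_mul, ← pow_two]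
    ring
  · -- `q ∈ 𝔪 (W_0)`
    obtain ⟨h, h0⟩ := h63f_kron_inf A M ℓ hℓ hA hσ (gal M σ • u) hσuV
    have e : kFricke M ℓ hℓ hM q = -((heckeAlphaBar Kbar M ℓ (gal M σ • u)) ^ ℓ -
        heckeBetaBar Kbar M ℓ (gal M σ • gal M σ • u)) := by
      rw [hq, map_sub, map_pow, kFricke_beta, kFricke_alpha]
      ring
    rw [e]
    have h1 := (softR_eq_zero_iff_mem_nonunits A (M * ℓ) hℓ hA ⟨_, h⟩).mp h0
    rw [ValuationSubring.mem_nonunits_iff] at h1 ⊢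
    rwa [Valuation.map_neg]

end Fermat.Agent.S35
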