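import Fermat.Agent.S35.H86TorIface
import Fermat.Agent.LGC.Cusp21Final
import Fermat.Agent.LGC.H4Cusp

/-!
# S35, block TOR, leaf TOR-CUSP (helper69): the refined smooth datum at the cusps

`h69tc_ifaceTorCusp : IfaceTorCusp A M ℓ` (`S35/H86TorIface.lean`): a cusp `𝔫` of the special
fibre of the chart at infinity of level `M ℓ` has a local parameter which is a unit of the
semistable Gauss ring `ssV = W_∞ ∩ W_0`.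

Proof.  `𝔫` has a local parameter `t'` (helper21's `h21c_cusp_smooth`) and lies on exactly one
of the two components `P_∞`, `P_0` (helper4's certificate `b = β(j) / α(j)^ℓ`).  On its own
component `P` the parameter `t'` does not vanish identically (otherwise `V = 1/j ∈ 𝔫` would
vanish on `P`).  If `t'` vanishes on the other component `Q`, replace it by `t' + e'` with
`e' ∈ P ∖ Q` (`e' = 1 - b` or `e' = b^ℓ - V^(ℓ² - 1)`); this does not change the ideal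
`(t') + 𝔪_A B` locally at `𝔫`, since `e' e_o ∈ P ∩ Q = 𝔪_A B` for `e_o ∈ Q ∖ 𝔫`.
-/

set_option autoImplicit false
set_option linter.style.haveILetI false
set_option linter.unusedSectionVars false
set_option synthInstance.maxHeartbeats 400000

open AlgebraicCurve ModularCurve WithZero IsLocalRing Polynomial

noncomputable section

namespace Fermat.Agent.S35

open Fermat.Agent.S37 Fermat.Agent.Red Fermat.Agent.Red.GG Fermat.Agent.Red.GV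
  Fermat.Agent.Red.GV.Soft Fermat.Agent.Red.Kron Fermat.Agent.Red.ModelO Fermat.Agent.LGC

/-! ### The abstract refinement -/

/-- `𝔫` a prime on the component `P` and not on the component `Q` (`e_o ∈ Q ∖ 𝔫`), the special
fibre `m ⊇ P ∩ Q`, `V ∈ 𝔫 ∖ P`, `e' ∈ P ∖ Q`: a local parameter at `𝔫` can be chosen outside
`P` and `Q`. -/
theorem h69tc_refine {B : Type*} [CommRing B] (𝔫 m P Q : Ideal B) [h𝔫 : 𝔫.IsPrime]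
    [hP : P.IsPrime] (hPQ : P ⊓ Q ≤ m) (hmP : m ≤ P) (hP𝔫 : P ≤ 𝔫)
    (eo : B) (heoQ : eo ∈ Q) (heo𝔫 : eo ∉ 𝔫) (e' : B) (he'P : e' ∈ P) (he'Q : e' ∉ Q)
    (V : B) (hV𝔫 : V ∈ 𝔫) (hVP : V ∉ P)
    (t' : B) (ht' : t' ∈ 𝔫)
    (hgen : ∀ z ∈ 𝔫, ∃ s, s ∉ 𝔫 ∧ s * z ∈ Ideal.span {t'} ⊔ m) :
    ∃ t'' ∈ 𝔫, t'' ∉ P ∧ t'' ∉ Q ∧
      ∀ z ∈ 𝔫, ∃ s, s ∉ 𝔫 ∧ s * z ∈ Ideal.span {t''} ⊔ m := by
  have ht'P : t' ∉ P := by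
    intro h
    obtain ⟨s, hs, hsV⟩ := hgen V hV𝔫
    have h1 : s * V ∈ P :=
      (sup_le ((Ideal.span_singleton_le_iff_mem _).2 h) hmP) hsV
    rcases hP.mem_or_mem h1 with h2 | h2
    · exact hs (hP𝔫 h2)
    · exact hVP h2
  by_cases hQ : t' ∈ Q
  · refine ⟨t' + e', 𝔫.add_mem ht' (hP𝔫 he'P), ?_, ?_, ?_⟩
    · intro h
      exact ht'P ((P.add_mem_iff_left he'P).1 h)
    · intro h
      exact he'Q ((Q.add_mem_iff_right hQ).1 h)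
    · intro z hz
      obtain ⟨s, hs, hsz⟩ := hgen z hz
      obtain ⟨x, hx, y, hy, hxy⟩ := Submodule.mem_sup.1 hsz
      obtain ⟨c, rfl⟩ := Ideal.mem_span_singleton'.1 hx
      refine ⟨eo * s, fun h => (h𝔫.mem_or_mem h).elim heo𝔫 hs, ?_⟩
      have h1 : eo * e' ∈ m := hPQ ⟨P.mul_mem_left _ he'P, Q.mul_mem_right _ heoQ⟩
      have h2 : eo * s * z = (eo * c) * (t' + e') + (eo * y - c * (eo * e')) := by
        rw [mul_assoc, ← hxy]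
        ring
      rw [h2]
      exact Ideal.add_mem _ (Ideal.mem_sup_left (Ideal.mem_span_singleton'.2 ⟨_, rfl⟩))
        (Ideal.mem_sup_right (Ideal.sub_mem _ (Ideal.mul_mem_left _ _ hy)
          (Ideal.mul_mem_left _ _ h1)))
  · exact ⟨t', ht', ht'P, hQ, hgen⟩

/-! ### The reductions of `V = 1/j` and of the certificate on the two components -/

section Level

variable (A : ValuationSubring Kbar) (M ℓ : ℕ) [NeZero M] [NeZero ℓ]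

/-- the reductions of `V = 1/α(j)` and `b = β(j) / α(j)^ℓ` on the two components, in terms of
`r = j mod ℓ`. -/
theorem h69tc_soft (hℓ : ℓ.Prime) (hM : ¬ ℓ ∣ M) (hA : A.LiesOverPrime ℓ) :
    ∃ (r : LaurentSeries (IsLocalRing.ResidueField A))
      (hV : (jSS M ℓ)⁻¹ ∈ softV A (M * ℓ))
      (hwV : kFricke M ℓ hℓ hM (jSS M ℓ)⁻¹ ∈ softV A (M * ℓ))
      (hb : h4c_b M ℓ ∈ softV A (M * ℓ))
      (hwb : kFricke M ℓ hℓ hM (h4c_b M ℓ) ∈ softV A (M * ℓ)),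
      r ≠ 0 ∧ r - r ^ (ℓ * ℓ) ≠ 0 ∧
      softR A (M * ℓ) ⟨_, hV⟩ = r⁻¹ ∧
      softR A (M * ℓ) ⟨_, hwV⟩ = (r ^ ℓ)⁻¹ ∧
      softR A (M * ℓ) ⟨_, hb⟩ = 1 ∧
      softR A (M * ℓ) ⟨_, hwb⟩ = r * ((r ^ ℓ)⁻¹) ^ ℓ := by
  haveI : Fact ℓ.Prime := ⟨hℓ⟩
  haveI : CharP (IsLocalRing.ResidueField A) ℓ :=
    Base.h80_charP A (IsLocalRing.residue A) ℓ (isResidueMap_residue A ℓ hA)
  haveI : ExpChar (IsLocalRing.ResidueField A) ℓ := ExpChar.prime hℓ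
  obtain ⟨r, hr⟩ : ∃ r, r = jqModC (IsLocalRing.ResidueField A) := ⟨_, rfl⟩
  have hr0 : r ≠ 0 := by rw [hr]; exact h4c_jqModC_ne_zero _
  have hrne : r - r ^ (ℓ * ℓ) ≠ 0 := by
    rw [hr]
    refine h44r_jqModC_sub_ne_zero _ (ℓ * ℓ) ?_
    have := hℓ.two_le
    nlinarith
  have hj : jB M ∈ softV A M := gaussV_le_softV A M (jB_mem_gaussV A M)
  have hrj : softR A M ⟨jB M, hj⟩ = r := by rw [hr]; exact h44r_softR_jB A M hj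
  have hpow : r ^ ℓ = qExpand _ ℓ r := by rw [hr]; exact h44r_jqModC_pow _ ℓ
  have haj : heckeAlphaBar Kbar M ℓ (jB M) ∈ softV A (M * ℓ) :=
    (alpha_mem_softV_iff A ℓ _).mpr hj
  have hbj : heckeBetaBar Kbar M ℓ (jB M) ∈ softV A (M * ℓ) := beta_mem_softV A ℓ _ hj
  have hraj : softR A (M * ℓ) ⟨_, haj⟩ = r := (softR_alpha A ℓ ⟨_, hj⟩ haj).trans hrj
  have hrbj : softR A (M * ℓ) ⟨_, hbj⟩ = r ^ ℓ := by
    rw [softR_beta A ℓ ⟨_, hj⟩ hbj, hrj, hpow]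
  obtain ⟨hai, hrai⟩ := h4c_softR_inv A (M * ℓ) ⟨_, haj⟩ (by rw [hraj]; exact hr0)
  obtain ⟨hbi, hrbi⟩ := h4c_softR_inv A (M * ℓ) ⟨_, hbj⟩ (by rw [hrbj]; exact pow_ne_zero _ hr0)
  rw [hraj] at hrai
  rw [hrbj] at hrbi
  have hV_eq : (jSS M ℓ)⁻¹ = (heckeAlphaBar Kbar M ℓ (jB M))⁻¹ := rfl
  have hb_eq : h4c_b M ℓ =
      heckeBetaBar Kbar M ℓ (jB M) * (heckeAlphaBar Kbar M ℓ (jB M))⁻¹ ^ ℓ := rfl
  have hwb_eq : kFricke M ℓ hℓ hM (h4c_b M ℓ) =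
      heckeAlphaBar Kbar M ℓ (jB M) * (heckeBetaBar Kbar M ℓ (jB M))⁻¹ ^ ℓ := by
    rw [hb_eq, map_mul, map_pow, map_inv₀, kFricke_alpha, kFricke_beta]
  have hwV_eq : kFricke M ℓ hℓ hM (jSS M ℓ)⁻¹ = (heckeBetaBar Kbar M ℓ (jB M))⁻¹ := by
    unfold jSS
    rw [map_inv₀, kFricke_alpha]
  have hV : (jSS M ℓ)⁻¹ ∈ softV A (M * ℓ) := hai
  have hb : h4c_b M ℓ ∈ softV A (M * ℓ) := by
    rw [hb_eq]
    exact mul_mem hbj (pow_mem hai ℓ)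
  have hwb : kFricke M ℓ hℓ hM (h4c_b M ℓ) ∈ softV A (M * ℓ) := by
    rw [hwb_eq]
    exact mul_mem haj (pow_mem hbi ℓ)
  have hwV : kFricke M ℓ hℓ hM (jSS M ℓ)⁻¹ ∈ softV A (M * ℓ) := by
    rw [hwV_eq]
    exact hbi
  have e1 : (⟨_, hb⟩ : softV A (M * ℓ)) = ⟨_, hbj⟩ * ⟨_, hai⟩ ^ ℓ := Subtype.ext hb_eq
  have e2 : (⟨_, hwb⟩ : softV A (M * ℓ)) = ⟨_, haj⟩ * ⟨_, hbi⟩ ^ ℓ := Subtype.ext hwb_eq
  have e3 : (⟨_, hwV⟩ : softV A (M * ℓ)) = ⟨_, hbi⟩ := Subtype.ext hwV_eq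
  refine ⟨r, hV, hwV, hb, hwb, hr0, hrne, hrai, ?_, ?_, ?_⟩
  · rw [e3, hrbi]
  · rw [e1, map_mul, map_pow, hrbj, hrai, ← mul_pow, mul_inv_cancel₀ hr0, one_pow]
  · rw [e2, map_mul, map_pow, hraj, hrbi]

/-- the algebra `r ≠ 0`, `r ≠ r^(ℓ²)` gives `1 ≠ r (r^ℓ)^(-ℓ)` and `1 ≠ r^(-(ℓ² - 1))`. -/
theorem h69tc_alg {K : Type*} [Field K] (r : K) (ℓ : ℕ) (hℓ : 0 < ℓ) (hr0 : r ≠ 0)
    (hr : r - r ^ (ℓ * ℓ) ≠ 0) :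
    (1 : K) - r * ((r ^ ℓ)⁻¹) ^ ℓ ≠ 0 ∧ (1 : K) ^ ℓ - (r⁻¹) ^ (ℓ ^ 2 - 1) ≠ 0 := by
  have hk : ℓ ^ 2 - 1 + 1 = ℓ * ℓ := by
    have : 0 < ℓ * ℓ := Nat.mul_pos hℓ hℓ
    rw [sq]
    omega
  have hpow : r ^ (ℓ * ℓ) ≠ 0 := pow_ne_zero _ hr0
  constructor
  · intro h
    apply hr
    have h1 : r * ((r ^ ℓ)⁻¹) ^ ℓ = 1 := (sub_eq_zero.mp h).symm
    rw [inv_pow, ← pow_mul] at h1
    have h2 : r = r ^ (ℓ * ℓ) := by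
      have := congrArg (fun x => x * r ^ (ℓ * ℓ)) h1
      simp only [one_mul] at this
      rw [mul_assoc, inv_mul_cancel₀ hpow, mul_one] at this
      exact this
    rw [← h2, sub_self]
  · intro h
    apply hr
    rw [one_pow] at h
    have h1 : (r⁻¹) ^ (ℓ ^ 2 - 1) = 1 := (sub_eq_zero.mp h).symm
    rw [inv_pow] at h1
    have h3 : r ^ (ℓ ^ 2 - 1) = 1 := by
      have := inv_eq_one.mp h1
      exact this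
    have h2 : r ^ (ℓ * ℓ) = r := by
      rw [← hk, pow_succ, h3, one_mul]
    rw [h2, sub_self]

/-- **TOR-CUSP**: the cusps of the special fibre of the chart at infinity have a local
parameter which is a unit of the semistable Gauss ring. -/
theorem h69tc_ifaceTorCusp (hℓ : ℓ.Prime) (hM : ¬ ℓ ∣ M) (haux : auxLevel ℓ ∣ M)
    (hA : A.LiesOverPrime ℓ) : IfaceTorCusp A M ℓ := by
  intro 𝔫 h𝔫 hm ht
  haveI h𝔫p : 𝔫.IsPrime := h𝔫.isPrime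
  have hC : IfaceSSChart A M ℓ (jSS M ℓ)⁻¹ := h85s_ifaceSSChart_inf A M ℓ hℓ hM hA
  obtain ⟨t', ht', hgen⟩ := h21c_cusp_smooth A M ℓ hℓ hM hA
    (h67_ifaceLocalUnif_inf M A Fermat.Agent.Red.SM.h13_ifaceSmooth hℓ hM haux hA)
    (h21c_surjInf A M ℓ hℓ hM haux hA) (h21c_surjZero A M ℓ hℓ hM haux hA) 𝔫 h𝔫 hm ht
  haveI hPinfp : (h85cPinf A M ℓ hℓ hA (jSS M ℓ)⁻¹).IsPrime :=
    h85c_Pinf_isPrime A M ℓ hℓ hA hC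
  haveI hP0p : (h85cP0 A M ℓ hℓ hM hA (jSS M ℓ)⁻¹).IsPrime :=
    h85c_P0_isPrime A M ℓ hℓ hM hA hC
  have hSF := h85c_hSF A M ℓ hℓ hM hA hC
  have hmPinf := h85c_hmPinf A M ℓ hℓ hA hC
  have hmP0 := h85c_hmP0 A M ℓ hℓ hM hA hC
  -- the reductions
  obtain ⟨r, hV, hwV, hb, hwb, hr0, hrne, hrV, hrwV, hrb, hrwb⟩ := h69tc_soft A M ℓ hℓ hM hA
  obtain ⟨halg1, halg2⟩ := h69tc_alg r ℓ hℓ.pos hr0 hrne
  have hVinf : h4c_V A M ℓ ∉ h85cPinf A M ℓ hℓ hA (jSS M ℓ)⁻¹ := by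
    have hmem : ((h4c_V A M ℓ : chart (M * ℓ) A (jSS M ℓ)⁻¹) : FF (M * ℓ)) ∈
        softV A (M * ℓ) := hV
    intro h
    have h0 := (h85c_mem_Pinf_iff_softR A M ℓ hℓ hA hC (h4c_V A M ℓ) hmem).1 h
    have e : (⟨_, hmem⟩ : softV A (M * ℓ)) = ⟨_, hV⟩ := rfl
    rw [e, hrV] at h0
    exact inv_ne_zero hr0 h0
  have hV0 : h4c_V A M ℓ ∉ h85cP0 A M ℓ hℓ hM hA (jSS M ℓ)⁻¹ := by
    have hmem : kFricke M ℓ hℓ hM
        ((h4c_V A M ℓ : chart (M * ℓ) A (jSS M ℓ)⁻¹) : FF (M * ℓ)) ∈ softV A (M * ℓ) := hwV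
    intro h
    have h0 := (h85c_mem_P0_iff_softR A M ℓ hℓ hM hA hC (h4c_V A M ℓ) hmem).1 h
    have e : (⟨_, hmem⟩ : softV A (M * ℓ)) = ⟨_, hwV⟩ := rfl
    rw [e, hrwV] at h0
    exact inv_ne_zero (pow_ne_zero _ hr0) h0
  -- `1 - b ∈ P_∞ ∖ P_0`
  have h1inf := h4c_one_sub_b_mem_Pinf A M hℓ hM hA
  have h10 : 1 - h4c_bB A M hℓ hM hA ∉ h85cP0 A M ℓ hℓ hM hA (jSS M ℓ)⁻¹ := by
    have hw : kFricke M ℓ hℓ hM
        ((1 - h4c_bB A M hℓ hM hA : chart (M * ℓ) A (jSS M ℓ)⁻¹) : FF (M * ℓ)) =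
        1 - kFricke M ℓ hℓ hM (h4c_b M ℓ) := by
      show kFricke M ℓ hℓ hM (1 - h4c_b M ℓ) = _
      rw [map_sub, map_one]
    have hmem : kFricke M ℓ hℓ hM
        ((1 - h4c_bB A M hℓ hM hA : chart (M * ℓ) A (jSS M ℓ)⁻¹) : FF (M * ℓ)) ∈
          softV A (M * ℓ) := by
      rw [hw]
      exact sub_mem (one_mem _) hwb
    intro h
    have h0 := (h85c_mem_P0_iff_softR A M ℓ hℓ hM hA hC
      (1 - h4c_bB A M hℓ hM hA) hmem).1 h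
    have e : (⟨_, hmem⟩ : softV A (M * ℓ)) = 1 - ⟨_, hwb⟩ := Subtype.ext hw
    rw [e, map_sub, map_one, hrwb] at h0
    exact halg1 h0
  -- the certificate `b^ℓ - V^(ℓ² - 1) ∈ P_0 ∖ P_∞`
  have hc0 := h4c_cert_mem_P0 A M hℓ hM hA
  have hcinf : h4c_bB A M hℓ hM hA ^ ℓ - h4c_V A M ℓ ^ (ℓ ^ 2 - 1) ∉
      h85cPinf A M ℓ hℓ hA (jSS M ℓ)⁻¹ := by
    have hmem : ((h4c_bB A M hℓ hM hA ^ ℓ - h4c_V A M ℓ ^ (ℓ ^ 2 - 1) :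
        chart (M * ℓ) A (jSS M ℓ)⁻¹) : FF (M * ℓ)) ∈ softV A (M * ℓ) :=
      sub_mem (pow_mem hb _) (pow_mem hV _)
    intro h
    have h0 := (h85c_mem_Pinf_iff_softR A M ℓ hℓ hA hC
      (h4c_bB A M hℓ hM hA ^ ℓ - h4c_V A M ℓ ^ (ℓ ^ 2 - 1)) hmem).1 h
    have e : (⟨_, hmem⟩ : softV A (M * ℓ)) = ⟨_, hb⟩ ^ ℓ - ⟨_, hV⟩ ^ (ℓ ^ 2 - 1) := rfl
    rw [e, map_sub, map_pow, map_pow, hrb, hrV] at h0
    exact halg2 h0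
  have hk : ℓ ^ 2 - 1 ≠ 0 := by
    have : 2 ≤ ℓ := hℓ.two_le
    have : 4 ≤ ℓ ^ 2 := by nlinarith
    omega
  have hVk : h4c_V A M ℓ ^ (ℓ ^ 2 - 1) ∈ 𝔫 :=
    Ideal.pow_mem_of_mem 𝔫 ht _ (Nat.pos_of_ne_zero hk)
  have hor : h85cPinf A M ℓ hℓ hA (jSS M ℓ)⁻¹ ≤ 𝔫 ∨ h85cP0 A M ℓ hℓ hM hA (jSS M ℓ)⁻¹ ≤ 𝔫 :=
    (Ideal.IsPrime.inf_le h𝔫p).1 (hSF.trans hm)
  -- the conclusion from a parameter outside both components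
  have hfin : ∀ t'' : chart (M * ℓ) A (jSS M ℓ)⁻¹, t'' ∈ 𝔫 →
      t'' ∉ h85cPinf A M ℓ hℓ hA (jSS M ℓ)⁻¹ → t'' ∉ h85cP0 A M ℓ hℓ hM hA (jSS M ℓ)⁻¹ →
      (∀ z ∈ 𝔫, ∃ s, s ∉ 𝔫 ∧ s * z ∈ Ideal.span {t''} ⊔ mExt A M ℓ (jSS M ℓ)⁻¹) →
      TorSmoothAt A M ℓ (jSS M ℓ)⁻¹ 𝔫 := by
    intro t'' h1 h2 h3 h4
    refine ⟨t'', h1, ?_, ?_, h4⟩
    · intro h0
      apply h2
      have : t'' = 0 := Subtype.ext h0
      rw [this]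
      exact Ideal.zero_mem _
    · exact h85c_hWV A M ℓ hℓ hM hA _ (h85c_hWinf A M ℓ hℓ hA hC t'' h2)
        (h85c_hW0 A M ℓ hℓ hM hA hC t'' h3)
  by_cases hbn : h4c_bB A M hℓ hM hA ∈ 𝔫
  · -- a cusp on the component `0`
    have hP0 : h85cP0 A M ℓ hℓ hM hA (jSS M ℓ)⁻¹ ≤ 𝔫 :=
      hor.resolve_left (h4c_Pinf_not_le A M hℓ hM hA 𝔫 h𝔫.ne_top hbn)
    have heo : 1 - h4c_bB A M hℓ hM hA ∉ 𝔫 := by
      intro h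
      apply h𝔫.ne_top
      rw [Ideal.eq_top_iff_one]
      have := 𝔫.add_mem h hbn
      rwa [sub_add_cancel] at this
    obtain ⟨t'', h1, h2, h3, h4⟩ := h69tc_refine 𝔫 (mExt A M ℓ (jSS M ℓ)⁻¹)
      (h85cP0 A M ℓ hℓ hM hA (jSS M ℓ)⁻¹) (h85cPinf A M ℓ hℓ hA (jSS M ℓ)⁻¹)
      (by rw [inf_comm]; exact hSF) hmP0 hP0 _ h1inf heo _ hc0 hcinf _ ht hV0 t' ht' hgen
    exact hfin t'' h1 h3 h2 h4
  · -- a cusp on the component `∞`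
    have hPinf : h85cPinf A M ℓ hℓ hA (jSS M ℓ)⁻¹ ≤ 𝔫 :=
      hor.resolve_right (h4c_P0_not_le A M hℓ hM hA 𝔫 ht hbn)
    have heo : h4c_bB A M hℓ hM hA ^ ℓ - h4c_V A M ℓ ^ (ℓ ^ 2 - 1) ∉ 𝔫 := by
      intro h
      have hbl : h4c_bB A M hℓ hM hA ^ ℓ ∈ 𝔫 := by
        have := 𝔫.add_mem h hVk
        rwa [sub_add_cancel] at this
      exact hbn (h𝔫p.mem_of_pow_mem _ hbl)
    obtain ⟨t'', h1, h2, h3, h4⟩ := h69tc_refine 𝔫 (mExt A M ℓ (jSS M ℓ)⁻¹)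
      (h85cPinf A M ℓ hℓ hA (jSS M ℓ)⁻¹) (h85cP0 A M ℓ hℓ hM hA (jSS M ℓ)⁻¹)
      hSF hmPinf hPinf _ hc0 heo _ h1inf h10 _ ht hVinf t' ht' hgen
    exact hfin t'' h1 h2 h3 h4

end Level

end Fermat.Agent.S35
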