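import Fermat.Agent.LGC.H62Done
import Fermat.Agent.LGC.Red63
import Fermat.Agent.LGC.Perm63
import Fermat.Agent.Red.GV.SoftGal
import Fermat.Agent.Bridge.Frobenius

/-!
# S35 / G-TOR, leaf NODE-FROB (helper71): the nodes are `𝔽_{ℓ²}`-rational

`ℓ ∤ M` prime, `auxLevel ℓ ∣ M`, `A` a valuation subring of `ℚ̄` over `ℓ`, `σ` a Frobenius at `ℓ`
(`A.IsFrobeniusAt σ ℓ`), `B = chart (M ℓ) A (jSS M ℓ)` the finite chart of level `M ℓ`,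
`P∞ = h62i_Pinf`, `P₀ = h62i_P0` the two components of its special fibre.

* `h71t_galB` : the action of the decomposition group on `B`.
* `h71t_galB_mem_Pinf_iff`, `h71t_galB_mem_P0_iff` : `σ` preserves `P∞` and `P₀`.
* `h71t_node_frob` : at a NODE `𝔫` (a prime with `P∞ ≤ 𝔫` and `P₀ ≤ 𝔫`):
  `σ² b - b ^ (ℓ²) ∈ 𝔫` for all `b ∈ B`.
* `h71t_node_stable` : `σ² b ∈ 𝔫 ↔ b ∈ 𝔫`.

Proof: `B = α(Λ) + P∞` (`h62d_surj`), `Λ` is spanned over `A` by the rational functions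
(`h62d_span`), and for rational `u`: `β u ≡ (α u)^ℓ` mod `P∞`, `α u ≡ (β u)^ℓ` mod `P₀`
(`LGC/H71Frob.lean`), so `α u ≡ (α u)^(ℓ²)` mod `𝔫`.
-/

set_option autoImplicit false
set_option linter.unusedSectionVars false
set_option linter.style.haveILetI false
set_option synthInstance.maxHeartbeats 400000

open AlgebraicCurve ModularCurve IsLocalRing

noncomputable section

namespace Fermat.Agent.S35

open Fermat.Agent.S37 Fermat.Agent.Red Fermat.Agent.Red.GG Fermat.Agent.Red.GV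
  Fermat.Agent.Red.GV.Soft Fermat.Agent.Red.Kron Fermat.Agent.LGC

variable (A : ValuationSubring Kbar) (M : ℕ) {ℓ : ℕ} [NeZero M] [NeZero ℓ]

/-! ### the Galois action on the finite chart -/

theorem h71t_gal_alpha (σ : GQ) (x : FF M) :
    gal (M * ℓ) σ • heckeAlphaBar Kbar M ℓ x = heckeAlphaBar Kbar M ℓ (gal M σ • x) := by
  apply Subtype.ext
  rw [coe_gal_smul, coe_heckeAlphaBar, coe_heckeAlphaBar, coe_gal_smul]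

theorem h71t_gal_beta (σ : GQ) (x : FF M) :
    gal (M * ℓ) σ • heckeBetaBar Kbar M ℓ x = heckeBetaBar Kbar M ℓ (gal M σ • x) := by
  apply Subtype.ext
  rw [coe_gal_smul, coe_heckeBetaBar, coe_heckeBetaBar, coe_gal_smul,
    ModularCurve.coeffMap_qExpand]

theorem h71t_decomp_mem {σ : GQ} (hσ : σ ∈ A.decompositionSubgroup ℚ) :
    ∀ a ∈ A, σ a ∈ A := fun a ha => (decompA A σ hσ ⟨a, ha⟩).2

theorem h71t_gal_mem_chart {σ : GQ} (hσ : σ ∈ A.decompositionSubgroup ℚ)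
    (b : chart (M * ℓ) A (jSS M ℓ)) :
    gal (M * ℓ) σ • (b : FF (M * ℓ)) ∈ chart (M * ℓ) A (jSS M ℓ) :=
  h63r_gal_mem_chart (M * ℓ) (jSS M ℓ) (h71t_decomp_mem A hσ) (h63p_gal_jSS M ℓ σ) b.2

/-- the action of an element of the decomposition group on the finite chart. -/
def h71t_galB {σ : GQ} (hσ : σ ∈ A.decompositionSubgroup ℚ) :
    chart (M * ℓ) A (jSS M ℓ) →+* chart (M * ℓ) A (jSS M ℓ) where
  toFun b := ⟨gal (M * ℓ) σ • (b : FF (M * ℓ)), h71t_gal_mem_chart A M hσ b⟩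
  map_one' := Subtype.ext (smul_one _)
  map_mul' _ _ := Subtype.ext (smul_mul' _ _ _)
  map_zero' := Subtype.ext (smul_zero _)
  map_add' _ _ := Subtype.ext (smul_add _ _ _)

theorem h71t_coe_galB {σ : GQ} (hσ : σ ∈ A.decompositionSubgroup ℚ)
    (b : chart (M * ℓ) A (jSS M ℓ)) :
    ((h71t_galB A M hσ b : chart (M * ℓ) A (jSS M ℓ)) : FF (M * ℓ)) =
      gal (M * ℓ) σ • (b : FF (M * ℓ)) := rfl

/-! ### `σ` preserves the two components -/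

theorem h71t_galB_mem_Pinf (hℓ : ℓ.Prime) (hM : ¬ ℓ ∣ M) (hA : A.LiesOverPrime ℓ) {σ : GQ}
    (hσ : σ ∈ A.decompositionSubgroup ℚ) (b : chart (M * ℓ) A (jSS M ℓ))
    (hb : b ∈ h62i_Pinf A M hℓ hM hA) : h71t_galB A M hσ b ∈ h62i_Pinf A M hℓ hM hA := by
  rw [h62i_mem_Pinf_iff_softR] at hb ⊢
  obtain ⟨h, hr⟩ := softR_gal A (M * ℓ) σ hσ ⟨(b : FF (M * ℓ)), h62i_mem_soft A M hℓ hM hA b⟩
  rw [hb, map_zero] at hr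
  exact hr

theorem h71t_galB_w (hℓ : ℓ.Prime) (hM : ¬ ℓ ∣ M) (hA : A.LiesOverPrime ℓ) {σ : GQ}
    (hσ : σ ∈ A.decompositionSubgroup ℚ) (b : chart (M * ℓ) A (jSS M ℓ)) :
    h62i_w A M hℓ hM hA (h71t_galB A M hσ b) = h71t_galB A M hσ (h62i_w A M hℓ hM hA b) :=
  Subtype.ext (kFricke_gal M ℓ hℓ hM σ (b : FF (M * ℓ)))

theorem h71t_galB_mem_P0 (hℓ : ℓ.Prime) (hM : ¬ ℓ ∣ M) (hA : A.LiesOverPrime ℓ) {σ : GQ}
    (hσ : σ ∈ A.decompositionSubgroup ℚ) (b : chart (M * ℓ) A (jSS M ℓ))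
    (hb : b ∈ h62i_P0 A M hℓ hM hA) : h71t_galB A M hσ b ∈ h62i_P0 A M hℓ hM hA := by
  rw [h62i_mem_P0_iff_w] at hb ⊢
  rw [h71t_galB_w]
  exact h71t_galB_mem_Pinf A M hℓ hM hA hσ _ hb

/-! ### Frobenius on the constants -/

theorem h71t_frob_sq_A {σ : GQ} (hσ : A.IsFrobeniusAt σ ℓ) (a : A) :
    decompA A σ hσ.mem_decompositionSubgroup (decompA A σ hσ.mem_decompositionSubgroup a) -
      a ^ (ℓ ^ 2) ∈ maximalIdeal A := by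
  set s : A := decompA A σ hσ.mem_decompositionSubgroup a with hs
  have h1 : s - a ^ ℓ ∈ maximalIdeal A := by
    rw [← ValuationSubring.coe_mem_nonunits_iff]
    exact Fermat.Agent.Bridge.frob_sub_pow_mem_nonunits hσ a.2
  have h2 : decompA A σ hσ.mem_decompositionSubgroup s - s ^ ℓ ∈ maximalIdeal A := by
    rw [← ValuationSubring.coe_mem_nonunits_iff]
    exact Fermat.Agent.Bridge.frob_sub_pow_mem_nonunits hσ s.2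
  have h3 : s ^ ℓ - (a ^ ℓ) ^ ℓ ∈ maximalIdeal A := by
    obtain ⟨c, hc⟩ := sub_dvd_pow_sub_pow s (a ^ ℓ) ℓ
    rw [hc]
    exact Ideal.mul_mem_right _ _ h1
  have e : decompA A σ hσ.mem_decompositionSubgroup s - a ^ (ℓ ^ 2) =
      (decompA A σ hσ.mem_decompositionSubgroup s - s ^ ℓ) + (s ^ ℓ - (a ^ ℓ) ^ ℓ) := by
    rw [sq, pow_mul]
    ring
  rw [e]
  exact add_mem h2 h3

theorem h71t_galB_algebraMap {σ : GQ} (hσ : σ ∈ A.decompositionSubgroup ℚ) (a : A) :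
    h71t_galB A M hσ (algebraMap A (chart (M * ℓ) A (jSS M ℓ)) a) =
      algebraMap A (chart (M * ℓ) A (jSS M ℓ)) (decompA A σ hσ a) := by
  apply Subtype.ext
  rw [h71t_coe_galB]
  exact GalI.gal_smul_cst σ (a : Kbar)

/-! ### the rational functions at a node -/

/-- for a rational function `u` of the finite chart of level `M`:
`α u ≡ (α u) ^ (ℓ²)` modulo `P∞ + P₀`. -/
theorem h71t_rat_node (hℓ : ℓ.Prime) (hM : ¬ ℓ ∣ M) (hA : A.LiesOverPrime ℓ)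
    (𝔫 : Ideal (chart (M * ℓ) A (jSS M ℓ)))
    (hinf : h62i_Pinf A M hℓ hM hA ≤ 𝔫) (h0 : h62i_P0 A M hℓ hM hA ≤ 𝔫)
    (u : chart M A (jB M)) (hu : u ∈ h62i_R A M) :
    h62i_α A M ℓ u - (h62i_α A M ℓ u) ^ (ℓ ^ 2) ∈ 𝔫 := by
  have hrat : IsRat (u : FF M) := (h62i_mem_R A M u).mp hu
  have h1 : h62i_β A M hℓ hM hA u - (h62i_α A M ℓ u) ^ ℓ ∈ h62i_Pinf A M hℓ hM hA :=
    h62d_frob A M hℓ hM hA u hu
  have h2 : h62i_α A M ℓ u - (h62i_β A M hℓ hM hA u) ^ ℓ ∈ h62i_P0 A M hℓ hM hA := by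
    obtain ⟨h, hr⟩ := h71r_frob_beta_modelFin A M ℓ hℓ hM hA (u : FF M) hrat u.2
    rw [h62i_mem_P0_iff_softR]
    exact hr
  have h3 : (h62i_β A M hℓ hM hA u) ^ ℓ - ((h62i_α A M ℓ u) ^ ℓ) ^ ℓ ∈
      h62i_Pinf A M hℓ hM hA := by
    obtain ⟨c, hc⟩ := sub_dvd_pow_sub_pow (h62i_β A M hℓ hM hA u) ((h62i_α A M ℓ u) ^ ℓ) ℓ
    rw [hc]
    exact Ideal.mul_mem_right _ _ h1
  have e : h62i_α A M ℓ u - (h62i_α A M ℓ u) ^ (ℓ ^ 2) =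
      (h62i_α A M ℓ u - (h62i_β A M hℓ hM hA u) ^ ℓ) +
        ((h62i_β A M hℓ hM hA u) ^ ℓ - ((h62i_α A M ℓ u) ^ ℓ) ^ ℓ) := by
    rw [sq, pow_mul]
    ring
  rw [e]
  exact add_mem (h0 h2) (hinf h3)

theorem h71t_galB_alpha_rat {σ : GQ} (hσ : σ ∈ A.decompositionSubgroup ℚ)
    (u : chart M A (jB M)) (hu : u ∈ h62i_R A M) :
    h71t_galB A M hσ (h62i_α A M ℓ u) = h62i_α A M ℓ u := by
  have hrat : IsRat (u : FF M) := (h62i_mem_R A M u).mp hu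
  apply Subtype.ext
  rw [h71t_coe_galB, h62i_coe_α, h71t_gal_alpha, GalI.gal_smul_of_isRat σ hrat]

/-! ### the two ring homomorphisms `B → B ⧸ 𝔫` -/

/-- `b ↦ σ² b mod 𝔫`. -/
def h71t_f1 {σ : GQ} (hσ : σ ∈ A.decompositionSubgroup ℚ)
    (𝔫 : Ideal (chart (M * ℓ) A (jSS M ℓ))) :
    chart (M * ℓ) A (jSS M ℓ) →+* chart (M * ℓ) A (jSS M ℓ) ⧸ 𝔫 :=
  (Ideal.Quotient.mk 𝔫).comp ((h71t_galB A M hσ).comp (h71t_galB A M hσ))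

/-- `b ↦ b ^ (ℓ²) mod 𝔫`. -/
def h71t_f2 (𝔫 : Ideal (chart (M * ℓ) A (jSS M ℓ)))
    [ExpChar (chart (M * ℓ) A (jSS M ℓ) ⧸ 𝔫) ℓ] :
    chart (M * ℓ) A (jSS M ℓ) →+* chart (M * ℓ) A (jSS M ℓ) ⧸ 𝔫 :=
  (iterateFrobenius (chart (M * ℓ) A (jSS M ℓ) ⧸ 𝔫) ℓ 2).comp (Ideal.Quotient.mk 𝔫)

theorem h71t_f1_apply {σ : GQ} (hσ : σ ∈ A.decompositionSubgroup ℚ)
    (𝔫 : Ideal (chart (M * ℓ) A (jSS M ℓ))) (z : chart (M * ℓ) A (jSS M ℓ)) :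
    h71t_f1 A M hσ 𝔫 z = Ideal.Quotient.mk 𝔫 (h71t_galB A M hσ (h71t_galB A M hσ z)) := rfl

theorem h71t_f2_apply (𝔫 : Ideal (chart (M * ℓ) A (jSS M ℓ)))
    [ExpChar (chart (M * ℓ) A (jSS M ℓ) ⧸ 𝔫) ℓ] (z : chart (M * ℓ) A (jSS M ℓ)) :
    h71t_f2 A M 𝔫 z = Ideal.Quotient.mk 𝔫 (z ^ (ℓ ^ 2)) := by
  rw [h71t_f2, RingHom.comp_apply, iterateFrobenius_def, RingHom.map_pow]

theorem h71t_f_eq_iff {σ : GQ} (hσ : σ ∈ A.decompositionSubgroup ℚ)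
    (𝔫 : Ideal (chart (M * ℓ) A (jSS M ℓ)))
    [ExpChar (chart (M * ℓ) A (jSS M ℓ) ⧸ 𝔫) ℓ] (z : chart (M * ℓ) A (jSS M ℓ)) :
    h71t_f1 A M hσ 𝔫 z = h71t_f2 A M 𝔫 z ↔
      h71t_galB A M hσ (h71t_galB A M hσ z) - z ^ (ℓ ^ 2) ∈ 𝔫 := by
  rw [h71t_f1_apply, h71t_f2_apply]
  exact Ideal.Quotient.eq

theorem h71t_f_eq_Pinf (hℓ : ℓ.Prime) (hM : ¬ ℓ ∣ M) (hA : A.LiesOverPrime ℓ) {σ : GQ}
    (hσ : σ ∈ A.decompositionSubgroup ℚ) (𝔫 : Ideal (chart (M * ℓ) A (jSS M ℓ)))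
    [ExpChar (chart (M * ℓ) A (jSS M ℓ) ⧸ 𝔫) ℓ]
    (hinf : h62i_Pinf A M hℓ hM hA ≤ 𝔫) (p : chart (M * ℓ) A (jSS M ℓ))
    (hp : p ∈ h62i_Pinf A M hℓ hM hA) :
    h71t_f1 A M hσ 𝔫 p = h71t_f2 A M 𝔫 p := by
  rw [h71t_f_eq_iff]
  refine sub_mem (hinf ?_) (Ideal.pow_mem_of_mem 𝔫 (hinf hp) _ (pow_pos hℓ.pos 2))
  exact h71t_galB_mem_Pinf A M hℓ hM hA hσ _ (h71t_galB_mem_Pinf A M hℓ hM hA hσ _ hp)

theorem h71t_f_eq_const {σ : GQ} (hσ : A.IsFrobeniusAt σ ℓ)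
    (𝔫 : Ideal (chart (M * ℓ) A (jSS M ℓ)))
    [ExpChar (chart (M * ℓ) A (jSS M ℓ) ⧸ 𝔫) ℓ]
    (hm𝔫 : mExt A M ℓ (jSS M ℓ) ≤ 𝔫) (a : A) :
    h71t_f1 A M hσ.mem_decompositionSubgroup 𝔫 (algebraMap A (chart (M * ℓ) A (jSS M ℓ)) a) =
      h71t_f2 A M 𝔫 (algebraMap A (chart (M * ℓ) A (jSS M ℓ)) a) := by
  rw [h71t_f_eq_iff, h71t_galB_algebraMap, h71t_galB_algebraMap, ← RingHom.map_pow,
    ← RingHom.map_sub]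
  exact hm𝔫 (Ideal.mem_map_of_mem _ (h71t_frob_sq_A A hσ a))

theorem h71t_f_eq_rat (hℓ : ℓ.Prime) (hM : ¬ ℓ ∣ M) (hA : A.LiesOverPrime ℓ) {σ : GQ}
    (hσ : σ ∈ A.decompositionSubgroup ℚ) (𝔫 : Ideal (chart (M * ℓ) A (jSS M ℓ)))
    [ExpChar (chart (M * ℓ) A (jSS M ℓ) ⧸ 𝔫) ℓ]
    (hinf : h62i_Pinf A M hℓ hM hA ≤ 𝔫) (h0 : h62i_P0 A M hℓ hM hA ≤ 𝔫)
    (u : chart M A (jB M)) (hu : u ∈ h62i_R A M) :
    h71t_f1 A M hσ 𝔫 (h62i_α A M ℓ u) = h71t_f2 A M 𝔫 (h62i_α A M ℓ u) := by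
  rw [h71t_f_eq_iff, h71t_galB_alpha_rat A M hσ u hu, h71t_galB_alpha_rat A M hσ u hu]
  exact h71t_rat_node A M hℓ hM hA 𝔫 hinf h0 u hu

theorem h71t_f_eq_alpha (hℓ : ℓ.Prime) (hM : ¬ ℓ ∣ M) (hA : A.LiesOverPrime ℓ) {σ : GQ}
    (hσ : A.IsFrobeniusAt σ ℓ) (𝔫 : Ideal (chart (M * ℓ) A (jSS M ℓ)))
    [ExpChar (chart (M * ℓ) A (jSS M ℓ) ⧸ 𝔫) ℓ]
    (hinf : h62i_Pinf A M hℓ hM hA ≤ 𝔫) (h0 : h62i_P0 A M hℓ hM hA ≤ 𝔫)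
    (x : chart M A (jB M)) :
    h71t_f1 A M hσ.mem_decompositionSubgroup 𝔫 (h62i_α A M ℓ x) =
      h71t_f2 A M 𝔫 (h62i_α A M ℓ x) := by
  have hm𝔫 : mExt A M ℓ (jSS M ℓ) ≤ 𝔫 := (h62i_m_le_Pinf A M hℓ hM hA).trans hinf
  have hx := h62d_span A M hℓ hM hA x
  induction hx using Submodule.span_induction with
  | mem u hu => exact h71t_f_eq_rat A M hℓ hM hA hσ.mem_decompositionSubgroup 𝔫 hinf h0 u hu
  | zero =>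
    have e0 : h62i_α A M ℓ 0 = 0 := (h62i_α A M ℓ).map_zero
    rw [e0, RingHom.map_zero, RingHom.map_zero]
  | add x y _ _ hx hy =>
    have e1 : h62i_α A M ℓ (x + y) = h62i_α A M ℓ x + h62i_α A M ℓ y :=
      (h62i_α A M ℓ).map_add x y
    rw [e1, RingHom.map_add, RingHom.map_add, hx, hy]
  | smul a x _ hx =>
    have e2 : h62i_α A M ℓ (a • x) =
        algebraMap A (chart (M * ℓ) A (jSS M ℓ)) a * h62i_α A M ℓ x := by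
      rw [map_smul (h62i_α A M ℓ) a x, Algebra.smul_def]
    rw [e2, RingHom.map_mul, RingHom.map_mul, hx, h71t_f_eq_const A M hσ 𝔫 hm𝔫 a]

/-! ### the main theorem -/

/-- **NODE-FROB.**  At a node `𝔫` of the finite chart of level `M ℓ` (a prime ideal containing
both components `P∞` and `P₀`), the square of a Frobenius element acts on the residue ring as the
`ℓ²`-power map: `σ² b ≡ b ^ (ℓ²)` modulo `𝔫`. -/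
theorem h71t_node_frob (hℓ : ℓ.Prime) (hM : ¬ ℓ ∣ M) (haux : auxLevel ℓ ∣ M)
    (hA : A.LiesOverPrime ℓ) {σ : GQ} (hσ : A.IsFrobeniusAt σ ℓ)
    (𝔫 : Ideal (chart (M * ℓ) A (jSS M ℓ))) [h𝔫 : 𝔫.IsPrime]
    (hinf : h62i_Pinf A M hℓ hM hA ≤ 𝔫) (h0 : h62i_P0 A M hℓ hM hA ≤ 𝔫)
    (b : chart (M * ℓ) A (jSS M ℓ)) :
    h71t_galB A M hσ.mem_decompositionSubgroup (h71t_galB A M hσ.mem_decompositionSubgroup b) -
      b ^ (ℓ ^ 2) ∈ 𝔫 := by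
  have hm𝔫 : mExt A M ℓ (jSS M ℓ) ≤ 𝔫 := (h62i_m_le_Pinf A M hℓ hM hA).trans hinf
  -- the residue ring has characteristic `ℓ`
  haveI : Nontrivial (chart (M * ℓ) A (jSS M ℓ) ⧸ 𝔫) :=
    Ideal.Quotient.nontrivial_iff.mpr h𝔫.ne_top
  have hℓ0 : ((ℓ : ℕ) : chart (M * ℓ) A (jSS M ℓ) ⧸ 𝔫) = 0 := by
    have h1 : algebraMap A (chart (M * ℓ) A (jSS M ℓ)) ((ℓ : ℕ) : A) ∈ 𝔫 :=
      hm𝔫 (Ideal.mem_map_of_mem _ (h62i_natCast_mem A hA))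
    rw [map_natCast] at h1
    rw [← map_natCast (Ideal.Quotient.mk 𝔫)]
    exact Ideal.Quotient.eq_zero_iff_mem.mpr h1
  haveI : CharP (chart (M * ℓ) A (jSS M ℓ) ⧸ 𝔫) ℓ := (CharP.charP_iff_prime_eq_zero hℓ).mpr hℓ0
  haveI : ExpChar (chart (M * ℓ) A (jSS M ℓ) ⧸ 𝔫) ℓ := ExpChar.prime hℓ
  rw [← h71t_f_eq_iff]
  obtain ⟨x, hx⟩ := h62d_surj A M hℓ hM haux hA b
  have e : b = h62i_α A M ℓ x + (b - h62i_α A M ℓ x) := by ring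
  rw [e, RingHom.map_add, RingHom.map_add, h71t_f_eq_alpha A M hℓ hM hA hσ 𝔫 hinf h0 x,
    h71t_f_eq_Pinf A M hℓ hM hA hσ.mem_decompositionSubgroup 𝔫 hinf _ hx]

/-- **the nodes are fixed by `σ²`**: `σ² b ∈ 𝔫 ↔ b ∈ 𝔫`. -/
theorem h71t_node_stable (hℓ : ℓ.Prime) (hM : ¬ ℓ ∣ M) (haux : auxLevel ℓ ∣ M)
    (hA : A.LiesOverPrime ℓ) {σ : GQ} (hσ : A.IsFrobeniusAt σ ℓ)
    (𝔫 : Ideal (chart (M * ℓ) A (jSS M ℓ))) [h𝔫 : 𝔫.IsPrime]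
    (hinf : h62i_Pinf A M hℓ hM hA ≤ 𝔫) (h0 : h62i_P0 A M hℓ hM hA ≤ 𝔫)
    (b : chart (M * ℓ) A (jSS M ℓ)) :
    h71t_galB A M hσ.mem_decompositionSubgroup
      (h71t_galB A M hσ.mem_decompositionSubgroup b) ∈ 𝔫 ↔ b ∈ 𝔫 := by
  have h := h71t_node_frob A M hℓ hM haux hA hσ 𝔫 hinf h0 b
  constructor
  · intro hb
    have h1 : b ^ (ℓ ^ 2) ∈ 𝔫 := by
      have := sub_mem hb h
      rwa [sub_sub_cancel] at this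
    exact h𝔫.mem_of_pow_mem _ h1
  · intro hb
    have h1 : b ^ (ℓ ^ 2) ∈ 𝔫 := Ideal.pow_mem_of_mem 𝔫 hb _ (pow_pos hℓ.pos 2)
    have := add_mem h h1
    rwa [sub_add_cancel] at this

/-- `σ²` maps the units of the local ring `B_𝔫` of a node to units: if `s f, s f⁻¹ ∈ B` with
`s ∉ 𝔫`, then `s' σ²(f), s' σ²(f)⁻¹ ∈ B` with `s' = σ² s ∉ 𝔫`. -/
theorem h71t_node_unit_stable (hℓ : ℓ.Prime) (hM : ¬ ℓ ∣ M) (haux : auxLevel ℓ ∣ M)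
    (hA : A.LiesOverPrime ℓ) {σ : GQ} (hσ : A.IsFrobeniusAt σ ℓ)
    (𝔫 : Ideal (chart (M * ℓ) A (jSS M ℓ))) [h𝔫 : 𝔫.IsPrime]
    (hinf : h62i_Pinf A M hℓ hM hA ≤ 𝔫) (h0 : h62i_P0 A M hℓ hM hA ≤ 𝔫)
    (f : FF (M * ℓ)) (s : chart (M * ℓ) A (jSS M ℓ)) (hs : s ∉ 𝔫)
    (h1 : (s : FF (M * ℓ)) * f ∈ chart (M * ℓ) A (jSS M ℓ))
    (h2 : (s : FF (M * ℓ)) * f⁻¹ ∈ chart (M * ℓ) A (jSS M ℓ)) :
    ∃ s' : chart (M * ℓ) A (jSS M ℓ), s' ∉ 𝔫 ∧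
      (s' : FF (M * ℓ)) * (gal (M * ℓ) σ • gal (M * ℓ) σ • f) ∈ chart (M * ℓ) A (jSS M ℓ) ∧
      (s' : FF (M * ℓ)) * (gal (M * ℓ) σ • gal (M * ℓ) σ • f)⁻¹ ∈
        chart (M * ℓ) A (jSS M ℓ) := by
  set hD := hσ.mem_decompositionSubgroup with hD_def
  refine ⟨h71t_galB A M hD (h71t_galB A M hD s), ?_, ?_, ?_⟩
  · rw [h71t_node_stable A M hℓ hM haux hA hσ 𝔫 hinf h0]
    exact hs
  · have e : ((h71t_galB A M hD (h71t_galB A M hD s) : chart (M * ℓ) A (jSS M ℓ)) :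
        FF (M * ℓ)) * (gal (M * ℓ) σ • gal (M * ℓ) σ • f) =
        ((h71t_galB A M hD (h71t_galB A M hD ⟨_, h1⟩) : chart (M * ℓ) A (jSS M ℓ)) :
          FF (M * ℓ)) := by
      rw [h71t_coe_galB, h71t_coe_galB, h71t_coe_galB, h71t_coe_galB, ← smul_mul', ← smul_mul']
    rw [e]
    exact (h71t_galB A M hD (h71t_galB A M hD ⟨_, h1⟩)).2
  · have e : ((h71t_galB A M hD (h71t_galB A M hD s) : chart (M * ℓ) A (jSS M ℓ)) :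
        FF (M * ℓ)) * (gal (M * ℓ) σ • gal (M * ℓ) σ • f)⁻¹ =
        ((h71t_galB A M hD (h71t_galB A M hD ⟨_, h2⟩) : chart (M * ℓ) A (jSS M ℓ)) :
          FF (M * ℓ)) := by
      rw [h71t_coe_galB, h71t_coe_galB, h71t_coe_galB, h71t_coe_galB, ← smul_inv'', ← smul_inv'',
        ← smul_mul', ← smul_mul']
    rw [e]
    exact (h71t_galB A M hD (h71t_galB A M hD ⟨_, h2⟩)).2

/-- **`Θ(f) = σ²(f) / f ^ (ℓ²)` is `≡ 1` at a node for the units of its local ring**: if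
`s f, s f⁻¹ ∈ B` with `s ∉ 𝔫`, there are `t ∉ 𝔫` and `n ∈ 𝔫` with `t (Θ(f) - 1) = n`. -/
theorem h71t_theta_unit (hℓ : ℓ.Prime) (hM : ¬ ℓ ∣ M) (haux : auxLevel ℓ ∣ M)
    (hA : A.LiesOverPrime ℓ) {σ : GQ} (hσ : A.IsFrobeniusAt σ ℓ)
    (𝔫 : Ideal (chart (M * ℓ) A (jSS M ℓ))) [h𝔫 : 𝔫.IsPrime]
    (hinf : h62i_Pinf A M hℓ hM hA ≤ 𝔫) (h0 : h62i_P0 A M hℓ hM hA ≤ 𝔫)
    (f : FF (M * ℓ)) (hf : f ≠ 0) (s : chart (M * ℓ) A (jSS M ℓ)) (hs : s ∉ 𝔫)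
    (h1 : (s : FF (M * ℓ)) * f ∈ chart (M * ℓ) A (jSS M ℓ))
    (h2 : (s : FF (M * ℓ)) * f⁻¹ ∈ chart (M * ℓ) A (jSS M ℓ)) :
    ∃ t : chart (M * ℓ) A (jSS M ℓ), t ∉ 𝔫 ∧ ∃ n ∈ 𝔫,
      (t : FF (M * ℓ)) * ((gal (M * ℓ) σ • gal (M * ℓ) σ • f) / f ^ (ℓ ^ 2) - 1) =
        (n : FF (M * ℓ)) := by
  set hD := hσ.mem_decompositionSubgroup with hD_def
  set a : chart (M * ℓ) A (jSS M ℓ) := ⟨_, h1⟩ with ha
  set a' : chart (M * ℓ) A (jSS M ℓ) := ⟨_, h2⟩ with ha'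
  have hs0 : (s : FF (M * ℓ)) ≠ 0 := by
    intro h
    apply hs
    have : s = 0 := Subtype.ext h
    rw [this]
    exact 𝔫.zero_mem
  have haa' : a * a' = s * s := by
    apply Subtype.ext
    show (s : FF (M * ℓ)) * f * ((s : FF (M * ℓ)) * f⁻¹) = (s : FF (M * ℓ)) * (s : FF (M * ℓ))
    field_simp
  have han : a ∉ 𝔫 := by
    intro h
    have h3 : s * s ∈ 𝔫 := by
      rw [← haa']
      exact 𝔫.mul_mem_right _ h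
    exact (h𝔫.mem_or_mem h3).elim hs hs
  have ha0 : (a : FF (M * ℓ)) ≠ 0 := mul_ne_zero hs0 hf
  obtain ⟨σ2, hσ2⟩ : ∃ g : chart (M * ℓ) A (jSS M ℓ) → chart (M * ℓ) A (jSS M ℓ),
      ∀ z, g z = h71t_galB A M hD (h71t_galB A M hD z) := ⟨_, fun _ => rfl⟩
  have hσ2c : ∀ z : chart (M * ℓ) A (jSS M ℓ),
      ((σ2 z : chart (M * ℓ) A (jSS M ℓ)) : FF (M * ℓ)) =
        gal (M * ℓ) σ • gal (M * ℓ) σ • (z : FF (M * ℓ)) := by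
    intro z
    rw [hσ2]
    rfl
  have hσs : σ2 s ∉ 𝔫 := by
    rw [hσ2, h71t_node_stable A M hℓ hM haux hA hσ 𝔫 hinf h0]
    exact hs
  have hσs0 : ((σ2 s : chart (M * ℓ) A (jSS M ℓ)) : FF (M * ℓ)) ≠ 0 := by
    intro h
    apply hσs
    have : σ2 s = 0 := Subtype.ext h
    rw [this]
    exact 𝔫.zero_mem
  refine ⟨σ2 s * a ^ (ℓ ^ 2), ?_, σ2 a * s ^ (ℓ ^ 2) - σ2 s * a ^ (ℓ ^ 2), ?_, ?_⟩
  · intro h
    rcases h𝔫.mem_or_mem h with h | h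
    · exact hσs h
    · exact han (h𝔫.mem_of_pow_mem _ h)
  · have e : σ2 a * s ^ (ℓ ^ 2) - σ2 s * a ^ (ℓ ^ 2) =
        (σ2 a - a ^ (ℓ ^ 2)) * s ^ (ℓ ^ 2) - (σ2 s - s ^ (ℓ ^ 2)) * a ^ (ℓ ^ 2) := by ring
    rw [e]
    rw [hσ2, hσ2]
    exact sub_mem
      (𝔫.mul_mem_right _ (h71t_node_frob A M hℓ hM haux hA hσ 𝔫 hinf h0 a))
      (𝔫.mul_mem_right _ (h71t_node_frob A M hℓ hM haux hA hσ 𝔫 hinf h0 s))
  · have hf' : f = (a : FF (M * ℓ)) / (s : FF (M * ℓ)) := by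
      show f = (s : FF (M * ℓ)) * f / (s : FF (M * ℓ))
      field_simp
    have hσf : gal (M * ℓ) σ • gal (M * ℓ) σ • f =
        ((σ2 a : chart (M * ℓ) A (jSS M ℓ)) : FF (M * ℓ)) /
          ((σ2 s : chart (M * ℓ) A (jSS M ℓ)) : FF (M * ℓ)) := by
      rw [hσ2c, hσ2c, div_eq_mul_inv, ← smul_inv'', ← smul_inv'', ← smul_mul', ← smul_mul',
        ← div_eq_mul_inv, ← hf']
    rw [hσf]
    have hfp : f ^ (ℓ ^ 2) = (a : FF (M * ℓ)) ^ (ℓ ^ 2) / (s : FF (M * ℓ)) ^ (ℓ ^ 2) := by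
      rw [← div_pow, ← hf']
    rw [hfp]
    have hap : (a : FF (M * ℓ)) ^ (ℓ ^ 2) ≠ 0 := pow_ne_zero _ ha0
    have hsp : (s : FF (M * ℓ)) ^ (ℓ ^ 2) ≠ 0 := pow_ne_zero _ hs0
    push_cast
    field_simp

end Fermat.Agent.S35
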