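import Mathlib
import Fermat.Prelude.Def_GaloisRep_Residual
import Fermat.Prelude.Def_CuspForm_Newforms
import Fermat.Agent.Cheb.CompareFinal
import Fermat.Agent.S54.Frobenius

/-!
# S35, flag F1 (helper73): strong multiplicity one for the good Hecke eigenvalues

`h73s_smo_of` : two normalised weight-2 eigenforms `g`, `g'` (levels `N`, `N'`) whose prime
coefficients agree outside a finite set of primes have the same coefficient at EVERY prime
`ℓ ∤ N N'`.  The only input is the statement of S29 (mod-`p` Galois representations attached to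
normalised eigenforms, `h73s_S29Statement`, landed as `Fermat.Agent.S29.result`) together with
the landed weak Chebotarev comparison principle (`Cheb/CompareFinal.lean`) and the existence of
Frobenius elements (`S54/Frobenius.lean`).

Proof: `d = a_ℓ₀(g) - a_ℓ₀(g')` is an algebraic integer (integrality is part of S29).  For every
prime `p ≠ ℓ₀` choose a maximal ideal `𝔪 ∋ p` of `ℤ̄`; the two residual representations modulo `𝔪`
have the same characteristic polynomials at almost all Frobenius elements, hence everywhere, hence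
at a Frobenius at `ℓ₀`: `d ∈ 𝔪`.  A nonzero algebraic integer lies over finitely many primes.
-/

set_option autoImplicit false

open Polynomial ModularFormClass

noncomputable section

namespace Fermat.Agent.S35

local notation "Qbar" => AlgebraicClosure ℚ
local notation "Γℚ" => (AlgebraicClosure ℚ ≃ₐ[ℚ] AlgebraicClosure ℚ)
local notation "Zbar" => integralClosure ℤ ℂ

/-- The statement of S29 (a theorem on main: `Fermat.Agent.S29.result`). -/
def h73s_S29Statement : Prop :=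
  ∀ {N : ℕ} {g : CuspForm (CongruenceSubgroup.Gamma0 N) 2}, g.IsNormalizedEigenform →
    ∀ {p : ℕ}, p.Prime → ∀ {k : Type} [Field k] [CharP k p] (φ : integralClosure ℤ ℂ →+* k),
    ∃ ρ : ResidualGaloisRep k, ρ.IsAttachedTo g φ ∧
      ∀ ℓ : ℕ, ℓ.Prime → ¬ ℓ ∣ N * p → ρ.IsUnramifiedAt ℓ

/-! ## An algebraic integer lying over infinitely many primes is zero -/

/-- A nonzero algebraic integer divides a nonzero rational integer. -/
theorem h73s_exists_int_mem (d : Zbar) (hd : d ≠ 0) :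
    ∃ c : ℤ, c ≠ 0 ∧ ∀ I : Ideal Zbar, d ∈ I → (c : Zbar) ∈ I := by
  have hint : IsIntegral ℤ d := Algebra.IsIntegral.isIntegral d
  obtain ⟨c, hc0, t, ht⟩ :=
    (IsIntegral.isAlgebraic hint).exists_nonzero_dvd (mem_nonZeroDivisors_of_ne_zero hd)
  refine ⟨c, hc0, fun I hI => ?_⟩
  have h3 : ((c : ℤ) : Zbar) = (algebraMap ℤ Zbar) c := (eq_intCast (algebraMap ℤ Zbar) _).symm
  rw [h3, ht]
  exact I.mul_mem_right _ hI

/-- An algebraic integer which lies in a proper ideal over `p` for every prime `p` outside a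
finite set is zero. -/
theorem h73s_eq_zero_of_forall_mem (d : Zbar) (T : Finset ℕ)
    (h : ∀ p : ℕ, p.Prime → p ∉ T →
      ∃ I : Ideal Zbar, I ≠ ⊤ ∧ ((p : ℕ) : Zbar) ∈ I ∧ d ∈ I) : d = 0 := by
  by_contra hd
  obtain ⟨c, hc0, hc⟩ := h73s_exists_int_mem d hd
  obtain ⟨p, hpge, hp⟩ := Nat.exists_infinite_primes (max (T.sup id + 1) (c.natAbs + 1))
  have hpT : p ∉ T := by
    intro hmem
    have h1 : p ≤ T.sup id := Finset.le_sup (f := id) hmem
    have h2 : T.sup id + 1 ≤ p := le_trans (le_max_left _ _) hpge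
    omega
  have hpc : c.natAbs < p := by
    have h2 : c.natAbs + 1 ≤ p := le_trans (le_max_right _ _) hpge
    omega
  obtain ⟨I, hI, hpI, hdI⟩ := h p hp hpT
  have hcI : (c : Zbar) ∈ I := hc I hdI
  have hcop : IsCoprime (p : ℤ) c := by
    rw [Int.isCoprime_iff_gcd_eq_one]
    have hndvd : ¬ (p : ℤ) ∣ c := by
      intro hdvd
      have h1 : p ∣ c.natAbs := Int.natCast_dvd.mp hdvd
      have h2 : 0 < c.natAbs := Int.natAbs_pos.mpr hc0
      exact absurd (Nat.le_of_dvd h2 h1) (by omega)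
    have := (Int.isCoprime_iff_gcd_eq_one).mp
      ((Prime.coprime_iff_not_dvd (Nat.prime_iff_prime_int.mp hp)).mpr hndvd)
    exact this
  obtain ⟨u, v, huv⟩ := hcop
  apply hI
  rw [Ideal.eq_top_iff_one]
  have h1 : ((u : Zbar) * ((p : ℕ) : Zbar) + (v : Zbar) * (c : Zbar)) = 1 := by
    have := congrArg (fun z : ℤ => (z : Zbar)) huv
    simpa using this
  rw [← h1]
  exact I.add_mem (I.mul_mem_left _ hpI) (I.mul_mem_left _ hcI)

/-! ## Maximal ideals of `ℤ̄` over a prime -/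

theorem h73s_exists_maximal (p : ℕ) (hp : p.Prime) :
    ∃ I : Ideal Zbar, I.IsMaximal ∧ ((p : ℕ) : Zbar) ∈ I := by
  have : (Ideal.span {(p : ℤ)}).IsMaximal :=
    PrincipalIdealRing.isMaximal_of_irreducible (Nat.prime_iff_prime_int.mp hp).irreducible
  have hker : RingHom.ker (algebraMap ℤ Zbar) ≤ Ideal.span {(p : ℤ)} := by
    have hinj : Function.Injective (algebraMap ℤ Zbar) := by
      intro a b hab
      have := congrArg (fun z : Zbar => (z : ℂ)) hab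
      simpa using this
    rw [(RingHom.injective_iff_ker_eq_bot _).mp hinj]
    exact bot_le
  obtain ⟨Q, hQ, hQp⟩ := Ideal.exists_ideal_over_maximal_of_isIntegral
    (S := Zbar) (Ideal.span {(p : ℤ)}) hker
  refine ⟨Q, hQ, ?_⟩
  have h1 : (p : ℤ) ∈ Q.comap (algebraMap ℤ Zbar) := by
    rw [hQp]
    exact Ideal.mem_span_singleton_self _
  have h2 : (algebraMap ℤ Zbar) (p : ℤ) ∈ Q := h1
  simpa using h2

/-! ## The comparison step -/

/-- Two residual representations whose Frobenius characteristic polynomials agree outside a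
finite set of primes have the same characteristic polynomials everywhere. -/
theorem h73s_charpoly_eq {k : Type} [Field k] (ρ ρ' : ResidualGaloisRep k) (S : Finset ℕ)
    (hfrob : ∀ (ℓ : ℕ) (A : ValuationSubring Qbar) (σ : Γℚ),
      ℓ.Prime → ℓ ∉ S → A.LiesOverPrime ℓ → A.IsFrobeniusAt σ ℓ →
      LinearMap.charpoly (ρ.ρ σ) = LinearMap.charpoly (ρ'.ρ σ)) (τ : Γℚ) :
    LinearMap.charpoly (ρ.ρ τ) = LinearMap.charpoly (ρ'.ρ τ) := by
  obtain ⟨L₁, hL₁fin, hL₁⟩ := ρ.factorsThroughFiniteLevel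
  obtain ⟨L₂, hL₂fin, hL₂⟩ := ρ'.factorsThroughFiniteLevel
  have := hL₁fin
  have := hL₂fin
  have : Algebra.IsAlgebraic ℚ Qbar := AlgebraicClosure.isAlgebraic ℚ
  have : IsAlgClosure ℚ Qbar := ⟨inferInstance, inferInstance⟩
  have : Normal ℚ Qbar := IsAlgClosure.normal ℚ Qbar
  let L₀ : IntermediateField ℚ Qbar := L₁ ⊔ L₂
  have hL₀fin : FiniteDimensional ℚ L₀ := IntermediateField.finiteDimensional_sup L₁ L₂
  let F : IntermediateField ℚ Qbar := IntermediateField.normalClosure ℚ L₀ Qbar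
  have hFfin : FiniteDimensional ℚ F := normalClosure.is_finiteDimensional ℚ L₀ Qbar
  have hFnormal : Normal ℚ F := normalClosure.normal ℚ L₀ Qbar
  have hFgal : IsGalois ℚ F := ⟨⟩
  have hLF : L₀ ≤ F := IntermediateField.le_normalClosure L₀
  let b := Module.finBasisOfFinrankEq k ρ.V ρ.finrank_eq
  let b' := Module.finBasisOfFinrankEq k ρ'.V ρ'.finrank_eq
  let r₁ : Γℚ →* Matrix (Fin 2) (Fin 2) k :=
    ((LinearMap.toMatrixAlgEquiv b : Module.End k ρ.V ≃ₐ[k] Matrix (Fin 2) (Fin 2) k) :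
      Module.End k ρ.V →* Matrix (Fin 2) (Fin 2) k).comp ρ.ρ
  let r₂ : Γℚ →* Matrix (Fin 2) (Fin 2) k :=
    ((LinearMap.toMatrixAlgEquiv b' : Module.End k ρ'.V ≃ₐ[k] Matrix (Fin 2) (Fin 2) k) :
      Module.End k ρ'.V →* Matrix (Fin 2) (Fin 2) k).comp ρ'.ρ
  have hr₁ : ∀ σ : Γℚ, (r₁ σ).charpoly = LinearMap.charpoly (ρ.ρ σ) := fun σ =>
    LinearMap.charpoly_toMatrix (ρ.ρ σ) b
  have hr₂ : ∀ σ : Γℚ, (r₂ σ).charpoly = LinearMap.charpoly (ρ'.ρ σ) := fun σ =>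
    LinearMap.charpoly_toMatrix (ρ'.ρ σ) b'
  have h₁ : ∀ g : Γℚ, (∀ x ∈ F, g x = x) → r₁ g = 1 := by
    intro g hg
    have : ρ.ρ g = 1 := hL₁ g (fun x hx => hg x (hLF (le_sup_left (a := L₁) (b := L₂) hx)))
    show (LinearMap.toMatrixAlgEquiv b) (ρ.ρ g) = 1
    rw [this, map_one]
  have h₂ : ∀ g : Γℚ, (∀ x ∈ F, g x = x) → r₂ g = 1 := by
    intro g hg
    have : ρ'.ρ g = 1 := hL₂ g (fun x hx => hg x (hLF (le_sup_right (a := L₁) (b := L₂) hx)))
    show (LinearMap.toMatrixAlgEquiv b') (ρ'.ρ g) = 1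
    rw [this, map_one]
  have key := Fermat.Agent.Cheb.charpoly_eq_of_forall_isFrobeniusAt F r₁ r₂ h₁ h₂ S
    (fun ℓ A σ hℓ hℓS hA hσ => by rw [hr₁, hr₂]; exact hfrob ℓ A σ hℓ hℓS hA hσ) τ
  rw [hr₁, hr₂] at key
  exact key

/-! ## Strong multiplicity one -/

/-- **Strong multiplicity one** (good eigenvalues), conditional on the statement of S29. -/
theorem h73s_smo_of (h29 : h73s_S29Statement) {N N' : ℕ}
    {g : CuspForm (CongruenceSubgroup.Gamma0 N) 2}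
    {g' : CuspForm (CongruenceSubgroup.Gamma0 N') 2}
    (hg : g.IsNormalizedEigenform) (hg' : g'.IsNormalizedEigenform) (T : Finset ℕ)
    (h : ∀ ℓ : ℕ, ℓ.Prime → ℓ ∉ T → ¬ ℓ ∣ N → ¬ ℓ ∣ N' → qCoeff g ℓ = qCoeff g' ℓ) :
    ∀ ℓ : ℕ, ℓ.Prime → ¬ ℓ ∣ N → ¬ ℓ ∣ N' → qCoeff g ℓ = qCoeff g' ℓ := by
  intro ℓ₀ hℓ₀ hℓ₀N hℓ₀N'
  have hN0 : N ≠ 0 := fun h0 => hℓ₀N (h0 ▸ dvd_zero ℓ₀)
  have hN'0 : N' ≠ 0 := fun h0 => hℓ₀N' (h0 ▸ dvd_zero ℓ₀)
  -- a Frobenius element at `ℓ₀`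
  obtain ⟨A₀, σ₀, hA₀, hσ₀⟩ := Fermat.Agent.S54.exists_isFrobeniusAt ℓ₀ hℓ₀
  -- the general step: for every prime `p ≠ ℓ₀` and maximal ideal over `p`
  have step : ∀ p : ℕ, p.Prime → p ≠ ℓ₀ → ∀ I : Ideal Zbar, I.IsMaximal → ((p : ℕ) : Zbar) ∈ I →
      ∃ a a' : Zbar, (a : ℂ) = qCoeff g ℓ₀ ∧ (a' : ℂ) = qCoeff g' ℓ₀ ∧ a - a' ∈ I := by
    intro p hp hpℓ₀ I hI hpI
    let _ : Field (Zbar ⧸ I) := Ideal.Quotient.field I
    have : CharP (Zbar ⧸ I) p := by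
      rw [CharP.charP_iff_prime_eq_zero hp]
      have : (Ideal.Quotient.mk I) ((p : ℕ) : Zbar) = 0 := Ideal.Quotient.eq_zero_iff_mem.mpr hpI
      simpa using this
    let φ : Zbar →+* Zbar ⧸ I := Ideal.Quotient.mk I
    obtain ⟨ρ, hρ, -⟩ := h29 hg hp φ
    obtain ⟨ρ', hρ', -⟩ := h29 hg' hp φ
    have hcast : ∀ ℓ : ℕ, ℓ.Prime → ℓ ≠ p → ((ℓ : ℕ) : Zbar ⧸ I) ≠ 0 := by
      intro ℓ hℓ hℓp h0
      have hdvd : p ∣ ℓ := (CharP.cast_eq_zero_iff (Zbar ⧸ I) p ℓ).mp h0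
      exact hℓp ((Nat.prime_dvd_prime_iff_eq hp hℓ).mp hdvd).symm
    -- the finite set of exceptional primes
    let S : Finset ℕ := T ∪ {p} ∪ N.primeFactors ∪ N'.primeFactors
    have hS : ∀ ℓ : ℕ, ℓ.Prime → ℓ ∉ S → ℓ ∉ T ∧ ℓ ≠ p ∧ ¬ ℓ ∣ N ∧ ¬ ℓ ∣ N' := by
      intro ℓ hℓ hℓS
      simp only [S, Finset.mem_union, Finset.mem_singleton, Nat.mem_primeFactors, not_or,
        not_and] at hℓS
      refine ⟨hℓS.1.1.1, hℓS.1.1.2, fun hd => ?_, fun hd => ?_⟩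
      · exact hℓS.1.2 hℓ hd hN0
      · exact hℓS.2 hℓ hd hN'0
    have hcmp := h73s_charpoly_eq ρ ρ' S (by
      intro ℓ A σ hℓ hℓS hA hσ
      obtain ⟨hℓT, hℓp, hℓN, hℓN'⟩ := hS ℓ hℓ hℓS
      obtain ⟨a, ha, hchar⟩ := hρ ℓ hℓ hℓN (hcast ℓ hℓ hℓp) A hA σ hσ
      obtain ⟨a', ha', hchar'⟩ := hρ' ℓ hℓ hℓN' (hcast ℓ hℓ hℓp) A hA σ hσ
      have haa' : a = a' := Subtype.ext (by rw [ha, ha', h ℓ hℓ hℓT hℓN hℓN'])
      rw [hchar, hchar', haa']) σ₀
    obtain ⟨a, ha, hchar⟩ := hρ ℓ₀ hℓ₀ hℓ₀N (hcast ℓ₀ hℓ₀ (Ne.symm hpℓ₀)) A₀ hA₀ σ₀ hσ₀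
    obtain ⟨a', ha', hchar'⟩ := hρ' ℓ₀ hℓ₀ hℓ₀N' (hcast ℓ₀ hℓ₀ (Ne.symm hpℓ₀)) A₀ hA₀ σ₀ hσ₀
    refine ⟨a, a', ha, ha', ?_⟩
    rw [hchar, hchar'] at hcmp
    have hcoeff := congrArg (fun P : Polynomial (Zbar ⧸ I) => P.coeff 1) hcmp
    simp only [Polynomial.coeff_add, Polynomial.coeff_sub, Polynomial.coeff_X_pow,
      Polynomial.coeff_C_mul, Polynomial.coeff_X_one, Polynomial.coeff_C] at hcoeff
    norm_num at hcoeff
    have hφ : φ (a - a') = 0 := by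
      rw [map_sub, hcoeff, sub_self]
    exact Ideal.Quotient.eq_zero_iff_mem.mp hφ
  -- fix the two algebraic integers once
  obtain ⟨p₀, hp₀ge, hp₀⟩ := Nat.exists_infinite_primes (ℓ₀ + 1)
  have hp₀ℓ₀ : p₀ ≠ ℓ₀ := by omega
  obtain ⟨I₀, hI₀, hpI₀⟩ := h73s_exists_maximal p₀ hp₀
  obtain ⟨a, a', ha, ha', -⟩ := step p₀ hp₀ hp₀ℓ₀ I₀ hI₀ hpI₀
  have hzero : a - a' = 0 := by
    refine h73s_eq_zero_of_forall_mem (a - a') {ℓ₀} (fun p hp hpT => ?_)
    have hpℓ₀ : p ≠ ℓ₀ := by simpa using hpT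
    obtain ⟨I, hI, hpI⟩ := h73s_exists_maximal p hp
    obtain ⟨b, b', hb, hb', hbb'⟩ := step p hp hpℓ₀ I hI hpI
    have e1 : b = a := Subtype.ext (by rw [hb, ha])
    have e2 : b' = a' := Subtype.ext (by rw [hb', ha'])
    rw [e1, e2] at hbb'
    exact ⟨I, hI.ne_top, hpI, hbb'⟩
  rw [← ha, ← ha', sub_eq_zero.mp hzero]

/-- Consequence for newforms (Prelude sense): the good eigensystem of a newform of level `M`
does not occur, even only outside a finite set of primes, at a proper divisor level. -/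
theorem h73s_newform_of (h29 : h73s_S29Statement) {M M' : ℕ}
    {g : CuspForm (CongruenceSubgroup.Gamma0 M) 2}
    {g' : CuspForm (CongruenceSubgroup.Gamma0 M') 2}
    (hg : g.IsNewform) (hg' : g'.IsNormalizedEigenform) (hdvd : M' ∣ M) (hne : M' ≠ M)
    (T : Finset ℕ)
    (h : ∀ ℓ : ℕ, ℓ.Prime → ℓ ∉ T → ¬ ℓ ∣ M → qCoeff g' ℓ = qCoeff g ℓ) : False := by
  refine hg.2 M' hdvd hne ⟨g', hg', fun ℓ hℓ hℓM => ?_⟩
  have hℓM' : ¬ ℓ ∣ M' := fun hd => hℓM (hd.trans hdvd)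
  exact h73s_smo_of h29 hg' hg.1 T (fun ℓ' hℓ' hT _ hM => h ℓ' hℓ' hT hM) ℓ hℓ hℓM' hℓM

end Fermat.Agent.S35
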