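import Mathlib
import Fermat.Agent.S35.H73SMO
import Fermat.Agent.S29

/-!
# S35, flag F1 (helper73): strong multiplicity one, unconditional form

`h73s_smo`, `h73s_newform` : the statements of `S35/H73SMO.lean` with the landed theorem
`Fermat.Agent.S29.result` plugged in.
-/

set_option autoImplicit false

open ModularFormClass

namespace Fermat.Agent.S35

/-- The statement of S29 holds (`Fermat.Agent.S29.result`). -/
theorem h73s_S29 : h73s_S29Statement :=
  fun hg => fun hp => fun φ => Fermat.Agent.S29.result hg hp φ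

/-- **Strong multiplicity one** for the good Hecke eigenvalues of normalised weight-2
eigenforms: agreement of the prime coefficients outside a finite set of primes implies agreement
at every prime not dividing the two levels. -/
theorem h73s_smo {N N' : ℕ}
    {g : CuspForm (CongruenceSubgroup.Gamma0 N) 2}
    {g' : CuspForm (CongruenceSubgroup.Gamma0 N') 2}
    (hg : g.IsNormalizedEigenform) (hg' : g'.IsNormalizedEigenform) (T : Finset ℕ)
    (h : ∀ ℓ : ℕ, ℓ.Prime → ℓ ∉ T → ¬ ℓ ∣ N → ¬ ℓ ∣ N' → qCoeff g ℓ = qCoeff g' ℓ) :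
    ∀ ℓ : ℕ, ℓ.Prime → ¬ ℓ ∣ N → ¬ ℓ ∣ N' → qCoeff g ℓ = qCoeff g' ℓ :=
  h73s_smo_of h73s_S29 hg hg' T h

/-- The good eigensystem of a newform of level `M` does not occur, even only outside a finite
set of primes, at a proper divisor level `M'`. -/
theorem h73s_newform {M M' : ℕ}
    {g : CuspForm (CongruenceSubgroup.Gamma0 M) 2}
    {g' : CuspForm (CongruenceSubgroup.Gamma0 M') 2}
    (hg : g.IsNewform) (hg' : g'.IsNormalizedEigenform) (hdvd : M' ∣ M) (hne : M' ≠ M)
    (T : Finset ℕ)
    (h : ∀ ℓ : ℕ, ℓ.Prime → ℓ ∉ T → ¬ ℓ ∣ M → qCoeff g' ℓ = qCoeff g ℓ) : False :=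
  h73s_newform_of h73s_S29 hg hg' hdvd hne T h

end Fermat.Agent.S35
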