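import Mathlib
import Fermat.Agent.S35.HeckeSkeleton
import Fermat.Agent.S35.H73SMOFinal

/-!
# S35, leaf HK-F1 (helper73): `SIndep` (S-independence of the good eigenvalues)

`h73s_sIndep : SIndep`, from the strong multiplicity one theorem `h73s_smo`
(`S35/H73SMOFinal.lean`: S29 residual representations for infinitely many `p` + weak Chebotarev
comparison).
-/

set_option autoImplicit false

namespace Fermat.Agent.S35

/-- **HK-F1**: two normalised eigenforms of levels `N' ∣ N` whose eigenvalues agree at the
primes outside a finite set have the same eigenvalue at every prime not dividing `N`. -/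
theorem h73s_sIndep : SIndep := by
  intro N N' _ _ hdvd g g' hg hg' S h ℓ hℓ hℓN
  have hℓN' : ¬ ℓ ∣ N' := fun hd => hℓN (hd.trans hdvd)
  exact h73s_smo hg' hg S (fun r hr hrS _ _ => h r hr hrS) ℓ hℓ hℓN' hℓN

end Fermat.Agent.S35
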