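import Mathlib
import Fermat.Agent.Red.LocalAll
import Fermat.Agent.LGC.NodeLP

/-!
# S35, block TOR, flag F4 (helper75): units on the annulus of a node

Abstract setting (the vocabulary of `Red/LocalFact.lean` and `LGC/H62TwoComp.lean`):
`A` a valuation ring, `B ⊆ F` a chart, `V ⊆ F` the semistable Gauss ring, `v i` the places of the
generic fibre, `winf`, `w0` the two Gauss valuations of `F` (so `V = {winf ≤ 1} ∩ {w0 ≤ 1}`),
`𝔫` a node of the special fibre with local equation `x * y = a * c`.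

* `h75t_LU B 𝔫 f` : `f` is a unit of the local ring `B_𝔫` (as a subring of `F`).
* `H75Node` : the node datum.
* `h75t_annulus` (**L1, units on the annulus**) : a function without zeros and poles at the
  places centered at the node is `constant * x ^ k * (unit of B_𝔫)`.
-/

set_option autoImplicit false
set_option linter.unusedSectionVars false

open WithZero IsLocalRing

namespace Fermat.Agent.S35

open Fermat.Agent.Red Fermat.Agent.LGC

section LU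

variable {A : Type*} [CommRing A] {F : Type*} [Field F] [Algebra A F]
  (B : Subalgebra A F)

/-- `f` is a unit of the local ring `B_𝔫`, as a subring of `F`. -/
def h75t_LU (𝔫 : Ideal B) (f : F) : Prop :=
  f ≠ 0 ∧ ∃ s : B, s ∉ 𝔫 ∧ (s : F) * f ∈ B ∧ (s : F) * f⁻¹ ∈ B

variable {B}

theorem h75t_LU_inv {𝔫 : Ideal B} {f : F} (h : h75t_LU B 𝔫 f) : h75t_LU B 𝔫 f⁻¹ := by
  obtain ⟨h0, s, hs, h1, h2⟩ := h
  exact ⟨inv_ne_zero h0, s, hs, h2, by rwa [inv_inv]⟩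

theorem h75t_LU_mul {𝔫 : Ideal B} [h𝔫 : 𝔫.IsPrime] {f g : F} (hf : h75t_LU B 𝔫 f)
    (hg : h75t_LU B 𝔫 g) : h75t_LU B 𝔫 (f * g) := by
  obtain ⟨hf0, s, hs, h1, h2⟩ := hf
  obtain ⟨hg0, t, ht, h3, h4⟩ := hg
  refine ⟨mul_ne_zero hf0 hg0, s * t, fun h => (h𝔫.mem_or_mem h).elim hs ht, ?_, ?_⟩
  · have : ((s * t : B) : F) * (f * g) = ((s : F) * f) * ((t : F) * g) := by
      push_cast; ring
    rw [this]
    exact mul_mem h1 h3
  · have : ((s * t : B) : F) * (f * g)⁻¹ = ((s : F) * f⁻¹) * ((t : F) * g⁻¹) := by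
      rw [mul_inv]; push_cast; ring
    rw [this]
    exact mul_mem h2 h4

theorem h75t_LU_one {𝔫 : Ideal B} [h𝔫 : 𝔫.IsPrime] : h75t_LU B 𝔫 1 :=
  ⟨one_ne_zero, 1, (Ideal.ne_top_iff_one 𝔫).mp h𝔫.ne_top, by simp [one_mem], by simp [one_mem]⟩

theorem h75t_LU_pow {𝔫 : Ideal B} [h𝔫 : 𝔫.IsPrime] {f : F} (hf : h75t_LU B 𝔫 f) (n : ℕ) :
    h75t_LU B 𝔫 (f ^ n) := by
  induction n with
  | zero => simpa using h75t_LU_one
  | succ n ih => rw [pow_succ]; exact h75t_LU_mul ih hf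

theorem h75t_LU_zpow {𝔫 : Ideal B} [h𝔫 : 𝔫.IsPrime] {f : F} (hf : h75t_LU B 𝔫 f) (n : ℤ) :
    h75t_LU B 𝔫 (f ^ n) := by
  obtain ⟨k, rfl | rfl⟩ := n.eq_nat_or_neg
  · rw [zpow_natCast]; exact h75t_LU_pow hf k
  · rw [zpow_neg, zpow_natCast]; exact h75t_LU_inv (h75t_LU_pow hf k)

theorem h75t_LU_div {𝔫 : Ideal B} [h𝔫 : 𝔫.IsPrime] {f g : F} (hf : h75t_LU B 𝔫 f)
    (hg : h75t_LU B 𝔫 g) : h75t_LU B 𝔫 (f / g) := by
  rw [div_eq_mul_inv]
  exact h75t_LU_mul hf (h75t_LU_inv hg)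

theorem h75t_LU_of_notMem {𝔫 : Ideal B} (b : B) (hb : b ∉ 𝔫) : h75t_LU B 𝔫 (b : F) := by
  have hb0 : (b : F) ≠ 0 := by
    intro h
    apply hb
    have : b = 0 := Subtype.ext h
    rw [this]
    exact 𝔫.zero_mem
  exact ⟨hb0, b, hb, mul_mem b.2 b.2, by rw [mul_inv_cancel₀ hb0]; exact one_mem _⟩

/-- a unit of `B_𝔫` is a quotient of two elements of `B` outside `𝔫`. -/
theorem h75t_LU_frac {𝔫 : Ideal B} [h𝔫 : 𝔫.IsPrime] {f : F} (hf : h75t_LU B 𝔫 f) :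
    ∃ b s : B, b ∉ 𝔫 ∧ s ∉ 𝔫 ∧ (s : F) * f = b := by
  obtain ⟨hf0, s, hs, h1, h2⟩ := hf
  refine ⟨⟨(s : F) * f, h1⟩, s, ?_, hs, rfl⟩
  intro hmem
  have h3 : (⟨(s : F) * f, h1⟩ : B) * ⟨(s : F) * f⁻¹, h2⟩ = s * s := by
    apply Subtype.ext
    push_cast
    field_simp
  have h4 : s * s ∈ 𝔫 := by
    rw [← h3]
    exact 𝔫.mul_mem_right _ hmem
  exact (h𝔫.mem_or_mem h4).elim hs hs

end LU

section Node

variable {A : Type*} [CommRing A] [IsDomain A] [ValuationRing A]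
  {F : Type*} [Field F] [Algebra A F]
  {Γ₁ Γ₂ : Type*} [LinearOrderedCommGroupWithZero Γ₁] [LinearOrderedCommGroupWithZero Γ₂]

/-- **The datum of a node** `𝔫` of the special fibre of the chart `B`: the two Gauss valuations
`winf`, `w0`, the local equation `x * y = a * c` (with `x` a local parameter of the branch `C_∞`
and `y` of the branch `C_0`), and the two discrete valuation rings `B_𝔫 / P_∞`, `B_𝔫 / P_0`
(in elementwise form). -/
structure H75Node (B : Subalgebra A F) (V : Subring F) {ι : Type*} (v : ι → Valuation F ℤᵐ⁰)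
    (winf : Valuation F Γ₁) (w0 : Valuation F Γ₂) (𝔫 : Ideal B) (x y c : B) (a : A) : Prop where
  /-- `V = W_∞ ∩ W_0` -/
  hV : ∀ z : F, z ∈ V ↔ winf z ≤ 1 ∧ w0 z ≤ 1
  hx : x ∈ 𝔫
  hy : y ∈ 𝔫
  hc : c ∉ 𝔫
  ha : algebraMap A F a ≠ 0
  hxy : x * y = algebraMap A B a * c
  /-- constants are units at the places -/
  hconst : ∀ k, h26Centered B v 𝔫 k → v k (algebraMap A F a) = 1
  /-- elements of the chart outside `𝔫` are units of `W_∞` -/
  hout_inf : ∀ b : B, b ∉ 𝔫 → winf (b : F) = 1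
  /-- elements of the chart outside `𝔫` are units of `W_0` -/
  hout_0 : ∀ b : B, b ∉ 𝔫 → w0 (b : F) = 1
  hx_inf : winf (x : F) = 1
  hy_0 : w0 (y : F) = 1
  /-- `B_𝔫 / P_∞` is a discrete valuation ring with uniformiser `x` -/
  hdvr_inf : ∀ b : B, winf (b : F) = 1 → ∃ (n : ℕ) (ε s : B), ε ∉ 𝔫 ∧ s ∉ 𝔫 ∧
    winf ((s * b - x ^ n * ε : B) : F) < 1
  /-- `B_𝔫 / P_0` is a discrete valuation ring with uniformiser `y` -/
  hdvr_0 : ∀ b : B, w0 (b : F) = 1 → ∃ (n : ℕ) (ε s : B), ε ∉ 𝔫 ∧ s ∉ 𝔫 ∧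
    w0 ((s * b - y ^ n * ε : B) : F) < 1

variable {B : Subalgebra A F} {V : Subring F} {ι : Type*} {v : ι → Valuation F ℤᵐ⁰}
  {winf : Valuation F Γ₁} {w0 : Valuation F Γ₂} {𝔫 : Ideal B} {x y c : B} {a : A}

namespace H75Node

theorem x_ne_zero (hN : H75Node B V v winf w0 𝔫 x y c a) : (x : F) ≠ 0 := by
  intro h
  have := hN.hx_inf
  rw [h, map_zero] at this
  exact zero_ne_one this

theorem y_ne_zero (hN : H75Node B V v winf w0 𝔫 x y c a) : (y : F) ≠ 0 := by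
  intro h
  have := hN.hy_0
  rw [h, map_zero] at this
  exact zero_ne_one this

theorem hxyF (hN : H75Node B V v winf w0 𝔫 x y c a) :
    (x : F) * (y : F) = algebraMap A F a * (c : F) := by
  have := congrArg (fun b : B => (b : F)) hN.hxy
  simpa using this

/-- `|x|_0 = |a|`. -/
theorem w0_x (hN : H75Node B V v winf w0 𝔫 x y c a) :
    w0 (x : F) = w0 (algebraMap A F a) := by
  have h := congrArg w0 hN.hxyF
  rw [map_mul, map_mul, hN.hy_0, hN.hout_0 c hN.hc, mul_one, mul_one] at h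
  exact h

/-- `|y|_∞ = |a|`. -/
theorem winf_y (hN : H75Node B V v winf w0 𝔫 x y c a) :
    winf (y : F) = winf (algebraMap A F a) := by
  have h := congrArg winf hN.hxyF
  rw [map_mul, map_mul, hN.hx_inf, hN.hout_inf c hN.hc, mul_one, one_mul] at h
  exact h

/-- an element of the chart outside `𝔫` is a unit at the places centered at `𝔫`. -/
theorem v_out (hC : H26Chart B V v) (b : B) (hb : b ∉ 𝔫) (k : ι)
    (hk : h26Centered B v 𝔫 k) : v k (b : F) = 1 := by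
  refine le_antisymm (hC.hB _ b.2 k) (not_lt.mp fun h => hb (hk b h))

/-- `x` has no zero at the places centered at `𝔫`. -/
theorem v_x (hN : H75Node B V v winf w0 𝔫 x y c a) (hC : H26Chart B V v) (k : ι)
    (hk : h26Centered B v 𝔫 k) : v k (x : F) = 1 := by
  have h := congrArg (v k) hN.hxyF
  rw [map_mul, map_mul, hN.hconst k hk, v_out hC c hN.hc k hk, mul_one] at h
  have hx1 : v k (x : F) ≤ 1 := hC.hB _ x.2 k
  have hy1 : v k (y : F) ≤ 1 := hC.hB _ y.2 k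
  refine le_antisymm hx1 (not_lt.mp fun hlt => ?_)
  have : v k (x : F) * v k (y : F) < 1 := mul_lt_of_lt_of_le_one hlt hy1
  rw [h] at this
  exact lt_irrefl _ this

/-- `y` has no zero at the places centered at `𝔫`. -/
theorem v_y (hN : H75Node B V v winf w0 𝔫 x y c a) (hC : H26Chart B V v) (k : ι)
    (hk : h26Centered B v 𝔫 k) : v k (y : F) = 1 := by
  have h := congrArg (v k) hN.hxyF
  rw [map_mul, map_mul, hN.hconst k hk, v_out hC c hN.hc k hk, mul_one] at h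
  have hx1 : v k (x : F) ≤ 1 := hC.hB _ x.2 k
  have hy1 : v k (y : F) ≤ 1 := hC.hB _ y.2 k
  refine le_antisymm hy1 (not_lt.mp fun hlt => ?_)
  have : v k (x : F) * v k (y : F) < 1 := mul_lt_of_le_one_of_lt hx1 hlt
  rw [h] at this
  exact lt_irrefl _ this

end H75Node

/-- a Gauss-integral function which is regular at the places centered at `𝔫` lies in `B_𝔫`. -/
theorem h75t_mem_loc (hC : H26Chart B V v) (𝔫 : Ideal B) [h𝔫 : 𝔫.IsPrime] (z : F) (hzV : z ∈ V)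
    (hz : ∀ k, h26Centered B v 𝔫 k → v k z ≤ 1) : ∃ s : B, s ∉ 𝔫 ∧ (s : F) * z ∈ B := by
  obtain ⟨a₁, ha₁, s₁, hs₁, h1⟩ := h26_stepC hC.hfin hC.hint hC.hB 𝔫 z hz
  exact ⟨s₁, hs₁, hC.hQEP a₁ ha₁ _ (mul_mem (hC.hBV _ s₁.2) hzV) h1⟩

/-- a unit of `V` without zeros and poles at the places centered at `𝔫` is a unit of `B_𝔫`. -/
theorem h75t_LU_of_unit (hC : H26Chart B V v) (𝔫 : Ideal B) [h𝔫 : 𝔫.IsPrime] (w : F)
    (hw0 : w ≠ 0) (hwV : w ∈ V) (hwV' : w⁻¹ ∈ V)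
    (hw1 : ∀ k, h26Centered B v 𝔫 k → v k w = 1) : h75t_LU B 𝔫 w := by
  obtain ⟨s, hs, h1, h2⟩ := h26_local_unit hC 𝔫 w hwV hwV' hw1
  exact ⟨hw0, s, hs, h1, h2⟩

theorem h75t_pow_eq_one {Γ : Type*} [LinearOrderedCommGroupWithZero Γ] {g : Γ} {q : ℕ}
    (hq : 0 < q) (h : g ^ q = 1) : g = 1 := by
  rcases lt_trichotomy g 1 with h1 | h1 | h1
  · exact absurd h (pow_lt_one' h1 hq.ne').ne
  · exact h1
  · exact absurd h (one_lt_pow' h1 hq.ne').ne'

namespace H75Node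

/-- the values of the constants of `A` are `≤ 1`. -/
theorem winf_const_le (hN : H75Node B V v winf w0 𝔫 x y c a) (hC : H26Chart B V v) (t : A) :
    winf (algebraMap A F t) ≤ 1 :=
  ((hN.hV _).mp (hC.hBV _ (B.algebraMap_mem t))).1

theorem w0_const_le (hN : H75Node B V v winf w0 𝔫 x y c a) (hC : H26Chart B V v) (t : A) :
    w0 (algebraMap A F t) ≤ 1 :=
  ((hN.hV _).mp (hC.hBV _ (B.algebraMap_mem t))).2

theorem winf_le (hN : H75Node B V v winf w0 𝔫 x y c a) (hC : H26Chart B V v) (b : B) :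
    winf (b : F) ≤ 1 :=
  ((hN.hV _).mp (hC.hBV _ b.2)).1

theorem w0_le (hN : H75Node B V v winf w0 𝔫 x y c a) (hC : H26Chart B V v) (b : B) :
    w0 (b : F) ≤ 1 :=
  ((hN.hV _).mp (hC.hBV _ b.2)).2

/-- **the order at the branch `C_∞` is determined**: if `x ^ m * U₁ ≡ x ^ p * U₂` modulo
`P_∞` with `U₁, U₂ ∉ 𝔫`, then `m = p`. -/
theorem ord_inf_unique (hN : H75Node B V v winf w0 𝔫 x y c a)
    (m p : ℕ) (U₁ U₂ : B) (hU₁ : U₁ ∉ 𝔫) (hU₂ : U₂ ∉ 𝔫)
    (h : winf ((x ^ m * U₁ - x ^ p * U₂ : B) : F) < 1) : m = p := by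
  have key : ∀ (m p : ℕ) (U₁ U₂ : B), U₁ ∉ 𝔫 → U₂ ∉ 𝔫 →
      winf ((x ^ m * U₁ - x ^ p * U₂ : B) : F) < 1 → ¬ m < p := by
    intro m p U₁ U₂ hU₁ _ h hlt
    obtain ⟨d, rfl⟩ := Nat.exists_eq_add_of_lt hlt
    have e1 : (x ^ m * U₁ - x ^ (m + d + 1) * U₂ : B) = x ^ m * (U₁ - x ^ (d + 1) * U₂) := by
      ring
    rw [e1] at h
    have hT : U₁ - x ^ (d + 1) * U₂ ∉ 𝔫 := by
      intro hmem
      apply hU₁
      have h2 : x ^ (d + 1) * U₂ ∈ 𝔫 :=
        𝔫.mul_mem_right _ (𝔫.pow_mem_of_mem hN.hx _ (Nat.succ_pos d))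
      have := 𝔫.add_mem hmem h2
      simpa using this
    have h3 : winf ((x ^ m * (U₁ - x ^ (d + 1) * U₂) : B) : F) = 1 := by
      push_cast
      rw [map_mul, map_pow, hN.hx_inf, one_pow, one_mul]
      have := hN.hout_inf _ hT
      push_cast at this
      exact this
    rw [h3] at h
    exact lt_irrefl _ h
  rcases lt_trichotomy m p with h1 | h1 | h1
  · exact absurd h1 (key m p U₁ U₂ hU₁ hU₂ h)
  · exact h1
  · refine absurd h1 (key p m U₂ U₁ hU₂ hU₁ ?_)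
    have e : (x ^ p * U₂ - x ^ m * U₁ : B) = -(x ^ m * U₁ - x ^ p * U₂) := by ring
    rw [e]
    push_cast
    rw [Valuation.map_neg]
    push_cast at h
    exact h

/-- **L1, core case**: `|z|_∞ = 1`, `|z|_0 = |t| ≤ 1`, `|t| ^ q = |a| ^ p`, and `z` has no
zeros and poles at the places centered at `𝔫`. Then `q ∣ p` and `z / x ^ (p / q)` is a unit of
`B_𝔫`. -/
theorem annulus_core (hN : H75Node B V v winf w0 𝔫 x y c a) (hC : H26Chart B V v)
    [h𝔫 : 𝔫.IsPrime]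
    (z : F) (hzinf : winf z = 1) (t : A)
    (hz0 : w0 z = w0 (algebraMap A F t))
    (p q : ℕ) (hq : 0 < q) (hpq : w0 (algebraMap A F t) ^ q = w0 (algebraMap A F a) ^ p)
    (hz : ∀ k, h26Centered B v 𝔫 k → v k z = 1) :
    ∃ n : ℕ, n * q = p ∧ h75t_LU B 𝔫 (z / (x : F) ^ n) := by
  have hzne : z ≠ 0 := by
    rintro rfl
    rw [map_zero] at hzinf
    exact zero_ne_one hzinf
  have hxne : (x : F) ≠ 0 := hN.x_ne_zero
  have hw0a : w0 (algebraMap A F a) ≠ 0 := (Valuation.ne_zero_iff _).mpr hN.ha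
  -- the unit `w = z ^ q / x ^ p`
  set w : F := z ^ q / (x : F) ^ p with hw
  have hwne : w ≠ 0 := div_ne_zero (pow_ne_zero _ hzne) (pow_ne_zero _ hxne)
  have hwinf : winf w = 1 := by
    rw [hw, map_div₀, map_pow, map_pow, hzinf, hN.hx_inf, one_pow, one_pow, div_one]
  have hw00 : w0 w = 1 := by
    rw [hw, map_div₀, map_pow, map_pow, hz0, hN.w0_x, hpq]
    exact div_self (pow_ne_zero _ hw0a)
  have hwv : ∀ k, h26Centered B v 𝔫 k → v k w = 1 := by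
    intro k hk
    rw [hw, map_div₀, map_pow, map_pow, hz k hk, hN.v_x hC k hk, one_pow, one_pow, div_one]
  have hwV : w ∈ V := (hN.hV w).mpr ⟨hwinf.le, hw00.le⟩
  have hwV' : w⁻¹ ∈ V := by
    refine (hN.hV _).mpr ⟨?_, ?_⟩
    · rw [map_inv₀, hwinf, inv_one]
    · rw [map_inv₀, hw00, inv_one]
  have hwLU : h75t_LU B 𝔫 w := h75t_LU_of_unit hC 𝔫 w hwne hwV hwV' hwv
  obtain ⟨b₁, s₁, hb₁, hs₁, hsw⟩ := h75t_LU_frac hwLU
  -- `z ∈ B_𝔫`
  have hzV : z ∈ V := (hN.hV z).mpr ⟨hzinf.le, by rw [hz0]; exact hN.w0_const_le hC t⟩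
  obtain ⟨s₂, hs₂, hs₂z⟩ := h75t_mem_loc hC 𝔫 z hzV (fun k hk => (hz k hk).le)
  set b : B := ⟨(s₂ : F) * z, hs₂z⟩ with hb
  have hbinf : winf (b : F) = 1 := by
    show winf ((s₂ : F) * z) = 1
    rw [map_mul, hN.hout_inf s₂ hs₂, hzinf, one_mul]
  obtain ⟨n, ε, s', hε, hs', hlt⟩ := hN.hdvr_inf b hbinf
  -- the congruence
  obtain ⟨R, hR⟩ : (s' * b - x ^ n * ε) ∣ (s' * b) ^ q - (x ^ n * ε) ^ q :=
    sub_dvd_pow_sub_pow _ _ q
  have hid : ((s' * b) ^ q * s₁ : B) = (s' * s₂) ^ q * b₁ * x ^ p := by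
    apply Subtype.ext
    push_cast
    have e1 : (b : F) = (s₂ : F) * z := rfl
    have e2 : z ^ q = w * (x : F) ^ p := by
      rw [hw]; field_simp
    rw [e1, ← hsw]
    calc ((s' : F) * ((s₂ : F) * z)) ^ q * (s₁ : F)
        = ((s' : F) * (s₂ : F)) ^ q * (s₁ : F) * z ^ q := by ring
      _ = ((s' : F) * (s₂ : F)) ^ q * (s₁ : F) * (w * (x : F) ^ p) := by rw [e2]
      _ = ((s' : F) * (s₂ : F)) ^ q * ((s₁ : F) * w) * (x : F) ^ p := by ring
  have hE : (x ^ (n * q) * (ε ^ q * s₁) - x ^ p * ((s' * s₂) ^ q * b₁) : B) =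
      -((s' * b - x ^ n * ε) * R * s₁) := by
    have h1 : (x ^ n * ε) ^ q = (s' * b) ^ q - (s' * b - x ^ n * ε) * R := by
      rw [← hR]; ring
    calc (x ^ (n * q) * (ε ^ q * s₁) - x ^ p * ((s' * s₂) ^ q * b₁) : B)
        = (x ^ n * ε) ^ q * s₁ - (s' * s₂) ^ q * b₁ * x ^ p := by ring
      _ = (x ^ n * ε) ^ q * s₁ - (s' * b) ^ q * s₁ := by rw [hid]
      _ = -((s' * b - x ^ n * ε) * R * s₁) := by rw [h1]; ring
  have hElt : winf ((x ^ (n * q) * (ε ^ q * s₁) - x ^ p * ((s' * s₂) ^ q * b₁) : B) : F) < 1 := by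
    rw [hE]
    push_cast
    rw [Valuation.map_neg, map_mul, map_mul]
    have h1 : winf ((s' : F) * (b : F) - (x : F) ^ n * (ε : F)) < 1 := by
      push_cast at hlt
      exact hlt
    have h2 : winf (R : F) ≤ 1 := hN.winf_le hC R
    have h3 : winf (s₁ : F) ≤ 1 := hN.winf_le hC s₁
    exact mul_lt_of_lt_of_le_one (mul_lt_of_lt_of_le_one h1 h2) h3
  have hU₁ : ε ^ q * s₁ ∉ 𝔫 := fun h =>
    (h𝔫.mem_or_mem h).elim (fun h' => hε (h𝔫.mem_of_pow_mem _ h')) hs₁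
  have hU₂ : (s' * s₂) ^ q * b₁ ∉ 𝔫 := fun h =>
    (h𝔫.mem_or_mem h).elim
      (fun h' => (h𝔫.mem_or_mem (h𝔫.mem_of_pow_mem _ h')).elim hs' hs₂) hb₁
  have hnq : n * q = p := hN.ord_inf_unique (n * q) p _ _ hU₁ hU₂ hElt
  refine ⟨n, hnq, ?_⟩
  -- `z / x ^ n` is a unit of `V`
  have hne : z / (x : F) ^ n ≠ 0 := div_ne_zero hzne (pow_ne_zero _ hxne)
  have hi : winf (z / (x : F) ^ n) = 1 := by
    rw [map_div₀, map_pow, hzinf, hN.hx_inf, one_pow, div_one]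
  have h0 : w0 (z / (x : F) ^ n) = 1 := by
    apply h75t_pow_eq_one hq
    rw [map_div₀, map_pow, div_pow, hz0, hN.w0_x, hpq, ← pow_mul, hnq]
    exact div_self (pow_ne_zero _ hw0a)
  have hv : ∀ k, h26Centered B v 𝔫 k → v k (z / (x : F) ^ n) = 1 := by
    intro k hk
    rw [map_div₀, map_pow, hz k hk, hN.v_x hC k hk, one_pow, div_one]
  refine h75t_LU_of_unit hC 𝔫 _ hne ((hN.hV _).mpr ⟨hi.le, h0.le⟩) ?_ hv
  refine (hN.hV _).mpr ⟨?_, ?_⟩
  · rw [map_inv₀, hi, inv_one]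
  · rw [map_inv₀, h0, inv_one]

/-- the node datum is symmetric in the two branches. -/
theorem symm (hN : H75Node B V v winf w0 𝔫 x y c a) : H75Node B V v w0 winf 𝔫 y x c a where
  hV z := by rw [hN.hV z, and_comm]
  hx := hN.hy
  hy := hN.hx
  hc := hN.hc
  ha := hN.ha
  hxy := by rw [mul_comm]; exact hN.hxy
  hconst := hN.hconst
  hout_inf := hN.hout_0
  hout_0 := hN.hout_inf
  hx_inf := hN.hy_0
  hy_0 := hN.hx_inf
  hdvr_inf := hN.hdvr_0
  hdvr_0 := hN.hdvr_inf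

/-- **L1, units on the annulus of a node.**  A function `z ≠ 0` without zeros and poles at the
places centered at the node `𝔫` is `constant * x ^ k * (unit of B_𝔫)`.

Hypotheses: the two Gauss valuations have the value group of `A` (`hsc_inf`, `hsc_0`), the value
group of `A` has rational rank one (`hcomm`), and the places are trivial on the constants
(`hcst`). -/
theorem annulus (hN : H75Node B V v winf w0 𝔫 x y c a) (hC : H26Chart B V v)
    [h𝔫 : 𝔫.IsPrime]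
    (hsc_inf : ∀ z : F, z ≠ 0 → ∃ d e : A, algebraMap A F d ≠ 0 ∧ algebraMap A F e ≠ 0 ∧
      winf z * winf (algebraMap A F d) = winf (algebraMap A F e))
    (hsc_0 : ∀ z : F, z ≠ 0 → ∃ d e : A, algebraMap A F d ≠ 0 ∧ algebraMap A F e ≠ 0 ∧
      w0 z * w0 (algebraMap A F d) = w0 (algebraMap A F e))
    (hcomm : ∀ t : A, algebraMap A F t ≠ 0 → ∃ p q : ℕ, 0 < q ∧
      w0 (algebraMap A F t) ^ q = w0 (algebraMap A F a) ^ p)
    (hcst : ∀ k, h26Centered B v 𝔫 k → ∀ d : A, algebraMap A F d ≠ 0 →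
      v k (algebraMap A F d) = 1)
    (z : F) (hz0 : z ≠ 0) (hz : ∀ k, h26Centered B v 𝔫 k → v k z = 1) :
    ∃ (k : ℤ) (d e : A), algebraMap A F d ≠ 0 ∧ algebraMap A F e ≠ 0 ∧
      h75t_LU B 𝔫 (z * algebraMap A F d / algebraMap A F e * (x : F) ^ k) := by
  obtain ⟨d, e, hd, he, hde⟩ := hsc_inf z hz0
  set z₁ : F := z * algebraMap A F d / algebraMap A F e with hz₁
  have hz₁0 : z₁ ≠ 0 := div_ne_zero (mul_ne_zero hz0 hd) he
  have hwe : winf (algebraMap A F e) ≠ 0 := (Valuation.ne_zero_iff _).mpr he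
  have hz₁inf : winf z₁ = 1 := by
    rw [hz₁, map_div₀, map_mul, hde]
    exact div_self hwe
  have hz₁v : ∀ k, h26Centered B v 𝔫 k → v k z₁ = 1 := by
    intro k hk
    rw [hz₁, map_div₀, map_mul, hz k hk, hcst k hk d hd, hcst k hk e he, one_mul, div_one]
  obtain ⟨d', e', hd', he', hde'⟩ := hsc_0 z₁ hz₁0
  have hd'0 : d' ≠ 0 := fun h => hd' (by rw [h, map_zero])
  have he'0 : e' ≠ 0 := fun h => he' (by rw [h, map_zero])
  have hwd' : w0 (algebraMap A F d') ≠ 0 := (Valuation.ne_zero_iff _).mpr hd'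
  have hwe' : w0 (algebraMap A F e') ≠ 0 := (Valuation.ne_zero_iff _).mpr he'
  rcases ValuationRing.dvd_total d' e' with ⟨t, ht⟩ | ⟨t, ht⟩
  · -- `|z₁|_0 = |t| ≤ 1`
    have htF : algebraMap A F t ≠ 0 := by
      intro h
      apply he'
      rw [ht, map_mul, h, mul_zero]
    have hz₁0' : w0 z₁ = w0 (algebraMap A F t) := by
      rw [ht, map_mul, map_mul] at hde'
      rw [mul_comm] at hde'
      exact mul_left_cancel₀ hwd' hde'
    obtain ⟨p, q, hq, hpq⟩ := hcomm t htF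
    obtain ⟨n, -, hLU⟩ := hN.annulus_core hC z₁ hz₁inf t hz₁0' p q hq hpq hz₁v
    refine ⟨-(n : ℤ), d, e, hd, he, ?_⟩
    rw [zpow_neg, zpow_natCast, ← div_eq_mul_inv]
    exact hLU
  · -- `|z₁⁻¹|_0 = |t| ≤ 1`
    have htF : algebraMap A F t ≠ 0 := by
      intro h
      apply hd'
      rw [ht, map_mul, h, mul_zero]
    have hwt : w0 (algebraMap A F t) ≠ 0 := (Valuation.ne_zero_iff _).mpr htF
    have hz₁0' : w0 z₁⁻¹ = w0 (algebraMap A F t) := by
      rw [ht, map_mul, map_mul] at hde'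
      have h1 : w0 z₁ * w0 (algebraMap A F t) = 1 := by
        have h2 : w0 (algebraMap A F e') * (w0 z₁ * w0 (algebraMap A F t)) =
            w0 (algebraMap A F e') * 1 := by
          rw [mul_one, mul_left_comm]
          exact hde'
        exact mul_left_cancel₀ hwe' h2
      rw [map_inv₀]
      exact inv_eq_of_mul_eq_one_right h1
    have hz₁inf' : winf z₁⁻¹ = 1 := by rw [map_inv₀, hz₁inf, inv_one]
    have hz₁v' : ∀ k, h26Centered B v 𝔫 k → v k z₁⁻¹ = 1 := by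
      intro k hk
      rw [map_inv₀, hz₁v k hk, inv_one]
    obtain ⟨p, q, hq, hpq⟩ := hcomm t htF
    obtain ⟨n, -, hLU⟩ := hN.annulus_core hC z₁⁻¹ hz₁inf' t hz₁0' p q hq hpq hz₁v'
    refine ⟨(n : ℤ), d, e, hd, he, ?_⟩
    have := h75t_LU_inv hLU
    rw [zpow_natCast]
    have e1 : (z₁⁻¹ / (x : F) ^ n)⁻¹ = z₁ * (x : F) ^ n := by
      rw [inv_div, div_inv_eq_mul, mul_comm]
    rw [e1] at this
    exact this

end H75Node

end Node

end Fermat.Agent.S35
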