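import Fermat.Agent.Red.GV.SoftGal
import Fermat.Agent.Red.Kron.FrickeGal

/-!
# S35, block RT + GAL (helper28): scaled reductions of functions at the Gauss valuation

`K = ℚ̄`, `A` a valuation subring of `ℚ̄` over a prime `ℓ`, `k` its residue field, `N` any level,
`F = FF N ⊆ K((q))`, `W_∞ = softV A N` with reduction `softR : W_∞ → k((q))`.

* `h28rt_RedInf A N u v` : `v ≠ 0` is the reduction of `c u` for some constant `c ≠ 0`
  (the class of `v` in `k((q))^× / k^×` is `r_∞(u)`).
* existence (`h28rt_redInf_exists`), uniqueness up to `k^×` (`h28rt_redInf_unique`,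
  `h28rt_redInf_scale`), multiplicativity (`_mul`, `_inv`, `_pow`, `_div`), constants
  (`_cst`, `_one`).
* Galois (`h28rt_redInf_gal`, `h28rt_redInf_frob`): for `σ` in the decomposition group of `A`,
  `r_∞(σ u) = σ̄ (r_∞ u)` coefficientwise; for a Frobenius element the coefficients are raised
  to the power `ℓ`.
* functoriality for `α` (`q ↦ q`) and `β` (`q ↦ q^d`).

Everything is Mathlib + the soft Gauss valuation library `Red/GV/Soft*.lean`.
-/

set_option autoImplicit false
set_option linter.unusedSectionVars false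

open ModularCurve AlgebraicCurve

noncomputable section

namespace Fermat.Agent.S35

open Fermat.Agent.S05 Fermat.Agent.S28 Fermat.Agent.S37 Fermat.Agent.Red.GV
  Fermat.Agent.Red.GV.Soft

variable (A : ValuationSubring Kbar) (N : ℕ)

/-- `v` is a scaled reduction of `u` at the Gauss valuation `W_∞` of level `N`: `v ≠ 0` and
`v = red (c u)` for some constant `c ≠ 0`. -/
def h28rt_RedInf (u : FF N) (v : LaurentSeries (IsLocalRing.ResidueField A)) : Prop :=
  ∃ (c : Kbar) (h : cst N c * u ∈ softV A N), c ≠ 0 ∧ v ≠ 0 ∧ softR A N ⟨_, h⟩ = v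

variable {A N}

theorem h28rt_cst_mul (a b : Kbar) : cst N (a * b) = cst N a * cst N b :=
  map_mul (algebraMap Kbar (FF N)) a b

theorem h28rt_cst_one : cst N 1 = 1 := map_one (algebraMap Kbar (FF N))

theorem h28rt_cst_inv (a : Kbar) : cst N a⁻¹ = (cst N a)⁻¹ :=
  map_inv₀ (algebraMap Kbar (FF N)) a

theorem h28rt_cst_ne_zero {c : Kbar} (hc : c ≠ 0) : cst N c ≠ 0 := by
  rw [Ne, map_eq_zero_iff _ (algebraMap Kbar (FF N)).injective]
  exact hc

theorem h28rt_redInf_ne_zero {u : FF N} {v : LaurentSeries (IsLocalRing.ResidueField A)}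
    (h : h28rt_RedInf A N u v) : u ≠ 0 := by
  obtain ⟨c, hmem, -, hv, hred⟩ := h
  rintro rfl
  apply hv
  rw [← hred]
  have e : (⟨cst N c * 0, hmem⟩ : softV A N) = 0 := Subtype.ext (mul_zero _)
  rw [e, map_zero]

theorem h28rt_redInf_ne_zero' {u : FF N} {v : LaurentSeries (IsLocalRing.ResidueField A)}
    (h : h28rt_RedInf A N u v) : v ≠ 0 := by
  obtain ⟨c, hmem, -, hv, -⟩ := h
  exact hv

/-- **existence**: every nonzero function has a scaled reduction. -/
theorem h28rt_redInf_exists {ℓ : ℕ} (hℓ : ℓ.Prime) (hA : A.LiesOverPrime ℓ) {u : FF N}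
    (hu : u ≠ 0) : ∃ v, h28rt_RedInf A N u v := by
  obtain ⟨c, hc, hmem, hinv⟩ := exists_cst_mul_unit_soft A N hℓ hA u hu
  refine ⟨softR A N ⟨_, hmem⟩, c, hmem, hc, ?_, rfl⟩
  rw [softR_ne_zero_iff]
  exact ⟨mul_ne_zero (h28rt_cst_ne_zero hc) hu, hinv⟩

theorem h28rt_redInf_mul {u u' : FF N} {v v' : LaurentSeries (IsLocalRing.ResidueField A)}
    (h : h28rt_RedInf A N u v) (h' : h28rt_RedInf A N u' v') :
    h28rt_RedInf A N (u * u') (v * v') := by
  obtain ⟨c, hmem, hc, hv, hred⟩ := h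
  obtain ⟨c', hmem', hc', hv', hred'⟩ := h'
  have e : cst N (c * c') * (u * u') = (cst N c * u) * (cst N c' * u') := by
    rw [h28rt_cst_mul]
    ring
  have hm : cst N (c * c') * (u * u') ∈ softV A N := by
    rw [e]
    exact mul_mem hmem hmem'
  refine ⟨c * c', hm, mul_ne_zero hc hc', mul_ne_zero hv hv', ?_⟩
  have e2 : (⟨_, hm⟩ : softV A N) = ⟨_, hmem⟩ * ⟨_, hmem'⟩ := Subtype.ext e
  rw [e2, map_mul, hred, hred']

theorem h28rt_redInf_cst {c : Kbar} (hc : c ≠ 0) : h28rt_RedInf A N (cst N c) 1 := by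
  have e : cst N c⁻¹ * cst N c = 1 := by
    rw [← h28rt_cst_mul, inv_mul_cancel₀ hc, h28rt_cst_one]
  have hm : cst N c⁻¹ * cst N c ∈ softV A N := by
    rw [e]
    exact one_mem _
  refine ⟨c⁻¹, hm, inv_ne_zero hc, one_ne_zero, ?_⟩
  have e2 : (⟨_, hm⟩ : softV A N) = 1 := Subtype.ext e
  rw [e2, map_one]

theorem h28rt_redInf_one : h28rt_RedInf A N (1 : FF N) 1 := by
  have h := h28rt_redInf_cst (A := A) (N := N) (c := 1) one_ne_zero
  rwa [h28rt_cst_one] at h

theorem h28rt_redInf_inv {u : FF N} {v : LaurentSeries (IsLocalRing.ResidueField A)}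
    (h : h28rt_RedInf A N u v) : h28rt_RedInf A N u⁻¹ v⁻¹ := by
  have hu := h28rt_redInf_ne_zero h
  obtain ⟨c, hmem, hc, hv, hred⟩ := h
  have hne : softR A N ⟨_, hmem⟩ ≠ 0 := by rw [hred]; exact hv
  have hinv : (cst N c * u)⁻¹ ∈ softV A N := ((softR_ne_zero_iff A N _).mp hne).2
  have e : cst N c⁻¹ * u⁻¹ = (cst N c * u)⁻¹ := by
    rw [h28rt_cst_inv, mul_inv]
  have hm : cst N c⁻¹ * u⁻¹ ∈ softV A N := by
    rw [e]
    exact hinv
  refine ⟨c⁻¹, hm, inv_ne_zero hc, inv_ne_zero hv, ?_⟩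
  have h1 : (⟨_, hm⟩ : softV A N) * ⟨_, hmem⟩ = 1 := by
    apply Subtype.ext
    show cst N c⁻¹ * u⁻¹ * (cst N c * u) = 1
    rw [e, inv_mul_cancel₀ (mul_ne_zero (h28rt_cst_ne_zero hc) hu)]
  have h2 := congrArg (softR A N) h1
  rw [map_mul, map_one, hred] at h2
  exact eq_inv_of_mul_eq_one_left h2

theorem h28rt_redInf_div {u u' : FF N} {v v' : LaurentSeries (IsLocalRing.ResidueField A)}
    (h : h28rt_RedInf A N u v) (h' : h28rt_RedInf A N u' v') :
    h28rt_RedInf A N (u / u') (v / v') := by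
  rw [div_eq_mul_inv, div_eq_mul_inv]
  exact h28rt_redInf_mul h (h28rt_redInf_inv h')

theorem h28rt_redInf_pow {u : FF N} {v : LaurentSeries (IsLocalRing.ResidueField A)}
    (h : h28rt_RedInf A N u v) (n : ℕ) : h28rt_RedInf A N (u ^ n) (v ^ n) := by
  induction n with
  | zero =>
    rw [pow_zero, pow_zero]
    exact h28rt_redInf_one
  | succ n ih =>
    rw [pow_succ, pow_succ]
    exact h28rt_redInf_mul ih h

theorem h28rt_redInf_prod {ι : Type*} (s : Finset ι) (u : ι → FF N)
    (v : ι → LaurentSeries (IsLocalRing.ResidueField A))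
    (h : ∀ i ∈ s, h28rt_RedInf A N (u i) (v i)) :
    h28rt_RedInf A N (∏ i ∈ s, u i) (∏ i ∈ s, v i) := by
  classical
  induction s using Finset.induction_on with
  | empty =>
    rw [Finset.prod_empty, Finset.prod_empty]
    exact h28rt_redInf_one
  | insert a s ha ih =>
    rw [Finset.prod_insert ha, Finset.prod_insert ha]
    exact h28rt_redInf_mul (h a (Finset.mem_insert_self a s))
      (ih (fun i hi => h i (Finset.mem_insert_of_mem hi)))

/-- multiplying the function by a nonzero constant does not change the scaled reductions. -/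
theorem h28rt_redInf_cst_mul {c : Kbar} (hc : c ≠ 0) {u : FF N}
    {v : LaurentSeries (IsLocalRing.ResidueField A)} (h : h28rt_RedInf A N u v) :
    h28rt_RedInf A N (cst N c * u) v := by
  have h1 := h28rt_redInf_mul (h28rt_redInf_cst (A := A) (N := N) hc) h
  rwa [one_mul] at h1

/-- the scaled reduction may be multiplied by a nonzero constant of the residue field. -/
theorem h28rt_redInf_scale {u : FF N} {v : LaurentSeries (IsLocalRing.ResidueField A)}
    (h : h28rt_RedInf A N u v) {a : IsLocalRing.ResidueField A} (ha : a ≠ 0) :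
    h28rt_RedInf A N u (HahnSeries.C a * v) := by
  obtain ⟨c, hmem, hc, hv, hred⟩ := h
  obtain ⟨a', rfl⟩ := IsLocalRing.residue_surjective a
  have ha'0 : (a' : Kbar) ≠ 0 := by
    intro h0
    apply ha
    have : a' = 0 := Subtype.ext h0
    rw [this, map_zero]
  have hcst : cst N (a' : Kbar) ∈ softV A N := (cst_mem_softV_iff A N _).mpr a'.2
  have e : cst N ((a' : Kbar) * c) * u = cst N (a' : Kbar) * (cst N c * u) := by
    rw [h28rt_cst_mul]
    ring
  have hm : cst N ((a' : Kbar) * c) * u ∈ softV A N := by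
    rw [e]
    exact mul_mem hcst hmem
  have hC : (HahnSeries.C (IsLocalRing.residue A a') :
      LaurentSeries (IsLocalRing.ResidueField A)) ≠ 0 := by
    intro h0
    apply ha
    have h1 := congrArg (fun s : LaurentSeries (IsLocalRing.ResidueField A) => s.coeff 0) h0
    simpa using h1
  refine ⟨(a' : Kbar) * c, hm, mul_ne_zero ha'0 hc, mul_ne_zero hC hv, ?_⟩
  have e2 : (⟨_, hm⟩ : softV A N) = ⟨_, hcst⟩ * ⟨_, hmem⟩ := Subtype.ext e
  rw [e2, map_mul, hred, softR_cst]

/-- **uniqueness up to constants**: two scaled reductions of the same function differ by a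
nonzero constant of the residue field. -/
theorem h28rt_redInf_unique {u : FF N} {v v' : LaurentSeries (IsLocalRing.ResidueField A)}
    (h : h28rt_RedInf A N u v) (h' : h28rt_RedInf A N u v') :
    ∃ a : IsLocalRing.ResidueField A, a ≠ 0 ∧ v' = HahnSeries.C a * v := by
  have hu := h28rt_redInf_ne_zero h
  have hq := h28rt_redInf_div h' h
  rw [div_self hu] at hq
  obtain ⟨c, hmem, hc, hv, hred⟩ := hq
  have hcA : c ∈ A := by
    rw [← cst_mem_softV_iff A N c]
    rwa [mul_one] at hmem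
  have e : (⟨_, hmem⟩ : softV A N) = ⟨cst N ((⟨c, hcA⟩ : A) : Kbar),
      (cst_mem_softV_iff A N _).mpr hcA⟩ := Subtype.ext (mul_one _)
  rw [e, softR_cst] at hred
  have hv0 := h28rt_redInf_ne_zero' h
  refine ⟨IsLocalRing.residue A ⟨c, hcA⟩, ?_, ?_⟩
  · intro h0
    apply hv
    rw [← hred, h0, map_zero]
  · rw [hred]
    field_simp

/-! ### Galois -/

/-- **GAL (decomposition group)**: `r_∞(σ u) = σ̄ (r_∞ u)`. -/
theorem h28rt_redInf_gal (σ : GQ) (hσ : σ ∈ A.decompositionSubgroup ℚ) {u : FF N}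
    {v : LaurentSeries (IsLocalRing.ResidueField A)} (h : h28rt_RedInf A N u v) :
    h28rt_RedInf A N (gal N σ • u) (coeffMap (decompK A σ hσ) v) := by
  obtain ⟨c, hmem, hc, hv, hred⟩ := h
  obtain ⟨hm, hr⟩ := softR_gal A N σ hσ ⟨_, hmem⟩
  have e : gal N σ • (cst N c * u) = cst N (σ c) * gal N σ • u := by
    apply Subtype.ext
    rw [coe_gal_smul]
    show coeffMap (σ : Kbar →+* Kbar) (((cst N c : FF N) : LaurentSeries Kbar) *
      (u : LaurentSeries Kbar)) = ((cst N (σ c) : FF N) : LaurentSeries Kbar) *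
        ((gal N σ • u : FF N) : LaurentSeries Kbar)
    rw [map_mul, coe_gal_smul, soft_coe_cst, soft_coe_cst]
    congr 1
    rw [HahnSeries.C_apply, coeffMap_single, HahnSeries.C_apply]
    rfl
  have hm' : cst N (σ c) * gal N σ • u ∈ softV A N := by
    rw [← e]
    exact hm
  have hσc : σ c ≠ 0 := by
    rw [Ne, map_eq_zero_iff σ σ.injective]
    exact hc
  refine ⟨σ c, hm', hσc, ?_, ?_⟩
  · exact (map_ne_zero _).mpr hv
  · have e2 : (⟨_, hm'⟩ : softV A N) = ⟨_, hm⟩ := Subtype.ext e.symm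
    rw [e2, hr, hred]

/-- **GAL (Frobenius)**: for a Frobenius element `σ` at `ℓ`, a scaled reduction of `σ u` is
obtained from a scaled reduction of `u` by raising the coefficients to the power `ℓ`. -/
theorem h28rt_redInf_frob {ℓ : ℕ} {σ : GQ} (hσ : A.IsFrobeniusAt σ ℓ) {u : FF N}
    {v : LaurentSeries (IsLocalRing.ResidueField A)} (h : h28rt_RedInf A N u v) :
    ∃ v' : LaurentSeries (IsLocalRing.ResidueField A),
      h28rt_RedInf A N (gal N σ • u) v' ∧ ∀ n : ℤ, v'.coeff n = (v.coeff n) ^ ℓ := by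
  refine ⟨_, h28rt_redInf_gal σ hσ.mem_decompositionSubgroup h, fun n => ?_⟩
  rw [coeffMap_coeff]
  exact hσ.smul_residue_eq _

/-- **GAL (inertia)**: the scaled reductions of `σ u` and `u` coincide for `σ` in the inertia
group. -/
theorem h28rt_redInf_inertia {σ : GQ} (hσ : σ ∈ A.inertiaSubgroupIn ℚ) {u : FF N}
    {v : LaurentSeries (IsLocalRing.ResidueField A)} (h : h28rt_RedInf A N u v) :
    h28rt_RedInf A N (gal N σ • u) v := by
  have h1 := h28rt_redInf_gal σ (mem_decomp_of_mem_inertia A hσ) h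
  rwa [decompK_of_inertia A hσ, coeffMap_id] at h1

/-! ### Functoriality: `α` (`q ↦ q`) and `β` (`q ↦ q ^ d`) -/

theorem h28rt_cst_alpha [NeZero N] (d : ℕ) [NeZero d] (c : Kbar) :
    heckeAlphaBar Kbar N d (cst N c) = cst (N * d) c :=
  (heckeAlphaBar Kbar N d).commutes c

theorem h28rt_cst_beta [NeZero N] (d : ℕ) [NeZero d] (c : Kbar) :
    heckeBetaBar Kbar N d (cst N c) = cst (N * d) c :=
  (heckeBetaBar Kbar N d).commutes c

theorem h28rt_redInf_alpha [NeZero N] (d : ℕ) [NeZero d] {u : FF N}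
    {v : LaurentSeries (IsLocalRing.ResidueField A)} (h : h28rt_RedInf A N u v) :
    h28rt_RedInf A (N * d) (heckeAlphaBar Kbar N d u) v := by
  obtain ⟨c, hmem, hc, hv, hred⟩ := h
  have e : cst (N * d) c * heckeAlphaBar Kbar N d u = heckeAlphaBar Kbar N d (cst N c * u) := by
    rw [map_mul, h28rt_cst_alpha]
  have hm0 : heckeAlphaBar Kbar N d (cst N c * u) ∈ softV A (N * d) :=
    (alpha_mem_softV_iff A d _).mpr hmem
  have hm : cst (N * d) c * heckeAlphaBar Kbar N d u ∈ softV A (N * d) := by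
    rw [e]
    exact hm0
  refine ⟨c, hm, hc, hv, ?_⟩
  have e2 : (⟨_, hm⟩ : softV A (N * d)) = ⟨_, hm0⟩ := Subtype.ext e
  rw [e2, ← hred]
  exact softR_alpha A d ⟨_, hmem⟩ hm0

theorem h28rt_redInf_beta [NeZero N] (d : ℕ) [NeZero d] {u : FF N}
    {v : LaurentSeries (IsLocalRing.ResidueField A)} (h : h28rt_RedInf A N u v) :
    h28rt_RedInf A (N * d) (heckeBetaBar Kbar N d u)
      (qExpand (IsLocalRing.ResidueField A) d v) := by
  obtain ⟨c, hmem, hc, hv, hred⟩ := h
  have e : cst (N * d) c * heckeBetaBar Kbar N d u = heckeBetaBar Kbar N d (cst N c * u) := by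
    rw [map_mul, h28rt_cst_beta]
  have hm0 : heckeBetaBar Kbar N d (cst N c * u) ∈ softV A (N * d) :=
    beta_mem_softV A d _ hmem
  have hm : cst (N * d) c * heckeBetaBar Kbar N d u ∈ softV A (N * d) := by
    rw [e]
    exact hm0
  refine ⟨c, hm, hc, (map_ne_zero _).mpr hv, ?_⟩
  have e2 : (⟨_, hm⟩ : softV A (N * d)) = ⟨_, hm0⟩ := Subtype.ext e
  rw [e2, ← hred]
  exact softR_beta A d ⟨_, hmem⟩ hm0

end Fermat.Agent.S35
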