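import Fermat.Agent.S35.GeomSkeleton
import Fermat.Agent.S35.RT28
import Fermat.Agent.S35.H71Norm

/-!
# S35, block G-NEW (helper76): the frozen interface `NewGate`

`h76g_newGate : NewGate` (`S35/GeomSkeleton.lean`): for a prime `q ∤ M`, a Frobenius `σ` at `q`
and `u ∈ F_{Mq}ˣ` whose norms along `α` and `β` are `m`-th powers, `σ² u / u` is in the toric
part.

Proof.  `a = r_∞(u)`, `b = r_∞(w u) = r_0(u)` (scaled reductions, helper28 `RT28.lean`), `F` the
Frobenius on the coefficients.  NORM (helper71 `H71Norm.lean`):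
`r(Nm_α u) = a · F(b)`, `r(Nm_β u) = F(a) · b`; GAL: `r_∞(σ x) = F(r_∞ x)`.  With
`Nm_α u = h ^ m`, `Nm_β u = h' ^ m`, `e = r(h)`, `e' = r(h')`:
`F²(a) / a = F(F(a) b) / (a F(b)) = κ · (F(e') / e) ^ m = κ · r_∞(α(σ h' / h)) ^ m`.
The second component is the same statement for `w u` (`Nm_α (w u) = Nm_β u`).
Neither `m ∣ div u`, nor `q ∤ m`, nor the good level hypothesis is used.
-/

set_option autoImplicit false
set_option linter.style.haveILetI false
set_option linter.unusedSectionVars false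
set_option linter.unusedVariables false

open AlgebraicCurve ModularCurve

noncomputable section

namespace Fermat.Agent.S35

open Fermat.Agent.S37 (Kbar GQ FF cst gal CongOne auxLevel)
open Fermat.Agent.Red.KR (normAlong normAlong_mul normAlong_map)
open Fermat.Agent.Red.Kron (kFricke kFricke_cst kFricke_gal kFricke_kFricke)
open Fermat.Agent.Red.GV Fermat.Agent.Red.GV.Soft

variable {A : ValuationSubring Kbar}

/-! ## Generalities on scaled reductions -/

theorem h76g_softR_congr (N : ℕ) {x y : FF N} (hxy : x = y) (hx : x ∈ softV A N)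
    (hy : y ∈ softV A N) : softR A N ⟨x, hx⟩ = softR A N ⟨y, hy⟩ := by
  subst hxy
  rfl

theorem h76g_redInf_congr {N : ℕ} {u u' : FF N}
    {v v' : LaurentSeries (IsLocalRing.ResidueField A)} (h : h28rt_RedInf A N u v)
    (hu : u = u') (hv : v = v') : h28rt_RedInf A N u' v' := by
  subst hu
  subst hv
  exact h

theorem h76g_coeffMap_C {R S : Type*} [CommRing R] [CommRing S] (φ : R →+* S) (a : R) :
    coeffMap φ (HahnSeries.C a : LaurentSeries R) = HahnSeries.C (φ a) := by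
  have : (HahnSeries.C a : LaurentSeries R) = HahnSeries.single 0 a := rfl
  rw [this, coeffMap_single]
  rfl

theorem h76g_coeffMap_ne_zero {R : Type*} [Field R] (φ : R →+* R)
    {v : LaurentSeries R} (hv : v ≠ 0) : coeffMap φ v ≠ 0 := by
  intro h
  apply hv
  exact Fermat.Agent.Red.ESTF.h76_coeffMap_injective φ φ.injective (by rw [h, map_zero])

/-- a function whose scaled reduction is a constant is, up to a constant, `≡ 1`. -/
theorem h76g_congOne_of_redInf_C {N : ℕ} {x : FF N} {κ : IsLocalRing.ResidueField A}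
    (h : h28rt_RedInf A N x (HahnSeries.C κ)) : ∃ c : Kbar, c ≠ 0 ∧ CongOne A (cst N c * x) := by
  have hκ : κ ≠ 0 := by
    rintro rfl
    exact h28rt_redInf_ne_zero' h (map_zero _)
  have h1 := h28rt_redInf_scale h (inv_ne_zero hκ)
  have e : (HahnSeries.C κ⁻¹ : LaurentSeries (IsLocalRing.ResidueField A)) * HahnSeries.C κ = 1 := by
    rw [← map_mul, inv_mul_cancel₀ hκ, map_one]
  rw [e] at h1
  obtain ⟨c, hmem, hc, -, hred⟩ := h1
  exact ⟨c, hc, (congOne_iff_softR A N _).mpr ⟨hmem, hred⟩⟩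

/-- GAL for a Frobenius element, in the language of scaled reductions. -/
theorem h76g_redInf_frob {ℓ : ℕ} [ExpChar (IsLocalRing.ResidueField A) ℓ] {N : ℕ} {σ : GQ}
    (hσ : A.IsFrobeniusAt σ ℓ) {u : FF N} {v : LaurentSeries (IsLocalRing.ResidueField A)}
    (h : h28rt_RedInf A N u v) :
    h28rt_RedInf A N (gal N σ • u) (coeffMap (frobenius (IsLocalRing.ResidueField A) ℓ) v) := by
  have h1 := h28rt_redInf_gal σ hσ.mem_decompositionSubgroup h
  have e : decompK A σ hσ.mem_decompositionSubgroup = frobenius (IsLocalRing.ResidueField A) ℓ := by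
    ext x
    rw [frobenius_def]
    exact hσ.smul_residue_eq x
  rwa [e] at h1

/-! ## NORM in the language of scaled reductions -/

section Norm

variable (M ℓ : ℕ) [NeZero M] [NeZero ℓ]

/-- **NORM (α)**: `r(Nm_α u) = r_∞(u) · F(r_0(u))`. -/
theorem h76g_redInf_norm_alpha (hℓ : ℓ.Prime) (hM : ¬ ℓ ∣ M) (hA : A.LiesOverPrime ℓ)
    [ExpChar (IsLocalRing.ResidueField A) ℓ] {u : FF (M * ℓ)}
    {a b : LaurentSeries (IsLocalRing.ResidueField A)}
    (ha : h28rt_RedInf A (M * ℓ) u a)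
    (hb : h28rt_RedInf A (M * ℓ) (kFricke M ℓ hℓ hM u) b) :
    h28rt_RedInf A M (normAlong (heckeAlphaBar Kbar M ℓ) u)
      (a * coeffMap (frobenius (IsLocalRing.ResidueField A) ℓ) b) := by
  obtain ⟨c₁, hm₁, hc₁, ha0, hra⟩ := ha
  obtain ⟨c₂, hm₂, hc₂, hb0, hrb⟩ := hb
  set x : FF (M * ℓ) := cst (M * ℓ) c₁ * u with hx
  have hwx : cst (M * ℓ) (c₂ * c₁⁻¹) * kFricke M ℓ hℓ hM x
      = cst (M * ℓ) c₂ * kFricke M ℓ hℓ hM u := by
    rw [hx, map_mul, kFricke_cst, ← mul_assoc, ← h28rt_cst_mul, inv_mul_cancel_right₀ hc₁]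
  have hy : cst (M * ℓ) (c₂ * c₁⁻¹) * kFricke M ℓ hℓ hM x ∈ softV A (M * ℓ) := by
    rw [hwx]; exact hm₂
  obtain ⟨hn, e⟩ := h71n_norm_alpha_red A M ℓ hℓ hM hA x (c₂ * c₁⁻¹) hm₁ hy
  rw [hra, h76g_softR_congr (M * ℓ) hwx hy hm₂, hrb] at e
  have hFb : coeffMap (frobenius (IsLocalRing.ResidueField A) ℓ) b ≠ 0 :=
    h76g_coeffMap_ne_zero _ hb0
  have hc : c₂ * c₁⁻¹ ≠ 0 := mul_ne_zero hc₂ (inv_ne_zero hc₁)
  have h1 : h28rt_RedInf A M (normAlong (heckeAlphaBar Kbar M ℓ) x)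
      (a * coeffMap (frobenius (IsLocalRing.ResidueField A) ℓ) b) :=
    ⟨(c₂ * c₁⁻¹) ^ ℓ, hn, pow_ne_zero _ hc, mul_ne_zero ha0 hFb, e⟩
  have h2 : normAlong (heckeAlphaBar Kbar M ℓ) x
      = cst M c₁ ^ finrankAlong Kbar (heckeAlphaBar Kbar M ℓ)
        * normAlong (heckeAlphaBar Kbar M ℓ) u := by
    rw [hx, normAlong_mul, ← h28rt_cst_alpha, normAlong_map]
  have h3 : h28rt_RedInf A M (cst M c₁ ^ finrankAlong Kbar (heckeAlphaBar Kbar M ℓ))
      (1 ^ finrankAlong Kbar (heckeAlphaBar Kbar M ℓ)) :=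
    h28rt_redInf_pow (h28rt_redInf_cst hc₁) _
  have h4 := h28rt_redInf_div h1 h3
  refine h76g_redInf_congr h4 ?_ ?_
  · rw [h2, mul_div_assoc, mul_comm, div_mul_cancel₀]
    exact pow_ne_zero _ (h28rt_cst_ne_zero hc₁)
  · rw [one_pow, div_one]

/-- **NORM (β)**: `r(Nm_β u) = F(r_∞(u)) · r_0(u)`. -/
theorem h76g_redInf_norm_beta (hℓ : ℓ.Prime) (hM : ¬ ℓ ∣ M) (hA : A.LiesOverPrime ℓ)
    [ExpChar (IsLocalRing.ResidueField A) ℓ] {u : FF (M * ℓ)}
    {a b : LaurentSeries (IsLocalRing.ResidueField A)}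
    (ha : h28rt_RedInf A (M * ℓ) u a)
    (hb : h28rt_RedInf A (M * ℓ) (kFricke M ℓ hℓ hM u) b) :
    h28rt_RedInf A M (normAlong (heckeBetaBar Kbar M ℓ) u)
      (coeffMap (frobenius (IsLocalRing.ResidueField A) ℓ) a * b) := by
  have hww : kFricke M ℓ hℓ hM (kFricke M ℓ hℓ hM u) = u := kFricke_kFricke M ℓ hℓ hM u
  have ha' : h28rt_RedInf A (M * ℓ) (kFricke M ℓ hℓ hM (kFricke M ℓ hℓ hM u)) a := by
    rw [hww]; exact ha
  have h1 := h76g_redInf_norm_alpha M ℓ hℓ hM hA hb ha'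
  have e : normAlong (heckeBetaBar Kbar M ℓ) u
      = normAlong (heckeAlphaBar Kbar M ℓ) (kFricke M ℓ hℓ hM u) :=
    h71n_norm_beta_eq M ℓ hℓ hM u
  exact h76g_redInf_congr h1 e.symm (mul_comm _ _)

end Norm

/-! ## The gate -/

section Gate

variable (M ℓ : ℕ) [NeZero M] [NeZero ℓ]

/-- an `m`-th power which is nonzero is the `m`-th power of a nonzero element. -/
theorem h76g_exists_root_ne_zero {F : Type*} [Field F] {x : F} (hx : x ≠ 0) {m : ℕ}
    (h : ∃ y : F, x = y ^ m) : ∃ y : F, y ≠ 0 ∧ x = y ^ m := by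
  obtain ⟨y, hy⟩ := h
  by_cases hy0 : y = 0
  · rcases Nat.eq_zero_or_pos m with hm | hm
    · refine ⟨1, one_ne_zero, ?_⟩
      rw [hy, hm, pow_zero, pow_zero]
    · exfalso
      apply hx
      rw [hy, hy0, zero_pow hm.ne']
  · exact ⟨y, hy0, hy⟩

/-- the identity in `k((q))` behind the gate. -/
theorem h76g_key_identity {R : Type*} [Field R] (F : R →+* R) {a b e e' c c' : R} {m : ℕ}
    (ha : a ≠ 0) (hb : b ≠ 0) (he : e ≠ 0) (hc : c ≠ 0)
    (h1 : a * F b = c * e ^ m) (h2 : F a * b = c' * e' ^ m) :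
    F (F a) / a / (F e' / e) ^ m = F c' / c := by
  have hFb : F b ≠ 0 := (map_ne_zero F).mpr hb
  have hem : e ^ m ≠ 0 := pow_ne_zero _ he
  have h3 : F (F a) * F b = F c' * F e' ^ m := by
    rw [← map_mul, h2, map_mul, map_pow]
  have h4 : F (F a) / a = (F (F a) * F b) / (a * F b) := by
    field_simp
  rw [h4, h3, h1, div_pow]
  by_cases hFe : F e' ^ m = 0
  · exfalso
    have hFa : F (F a) ≠ 0 := (map_ne_zero F).mpr ((map_ne_zero F).mpr ha)
    exact mul_ne_zero hFa hFb (by rw [h3, hFe, mul_zero])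
  · field_simp

/-- **the first component of the gate**: `σ² u / u` is `TorInf`. -/
theorem h76g_torInf (hℓ : ℓ.Prime) (hM : ¬ ℓ ∣ M) {A : ValuationSubring Kbar}
    (hA : A.LiesOverPrime ℓ) {σ : GQ} (hσ : A.IsFrobeniusAt σ ℓ) (m : ℕ) (u : FF (M * ℓ))
    (hu : u ≠ 0)
    (hα : ∃ h : FF M, normAlong (heckeAlphaBar Kbar M ℓ) u = h ^ m)
    (hβ : ∃ h : FF M, normAlong (heckeBetaBar Kbar M ℓ) u = h ^ m) :
    TorInf A (M * ℓ) m ((gal (M * ℓ) σ • gal (M * ℓ) σ • u) / u) := by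
  have : Fact ℓ.Prime := ⟨hℓ⟩
  have hπ := isResidueMap_residue A ℓ hA
  have : CharP (IsLocalRing.ResidueField A) ℓ := Base.h80_charP A _ ℓ hπ
  have : ExpChar (IsLocalRing.ResidueField A) ℓ := ExpChar.prime hℓ
  have hwu : kFricke M ℓ hℓ hM u ≠ 0 :=
    (map_ne_zero_iff _ (kFricke M ℓ hℓ hM).injective).mpr hu
  obtain ⟨a, ha⟩ := h28rt_redInf_exists (A := A) hℓ hA hu
  obtain ⟨b, hb⟩ := h28rt_redInf_exists (A := A) hℓ hA hwu
  have hNα := h76g_redInf_norm_alpha M ℓ hℓ hM hA ha hb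
  have hNβ := h76g_redInf_norm_beta M ℓ hℓ hM hA ha hb
  obtain ⟨h, hh0, hh⟩ := h76g_exists_root_ne_zero (h28rt_redInf_ne_zero hNα) hα
  obtain ⟨h', hh'0, hh'⟩ := h76g_exists_root_ne_zero (h28rt_redInf_ne_zero hNβ) hβ
  obtain ⟨e, he⟩ := h28rt_redInf_exists (A := A) hℓ hA hh0
  obtain ⟨e', he'⟩ := h28rt_redInf_exists (A := A) hℓ hA hh'0
  rw [hh] at hNα
  rw [hh'] at hNβ
  obtain ⟨κ, hκ, hκe⟩ := h28rt_redInf_unique (h28rt_redInf_pow he m) hNα
  obtain ⟨κ', hκ', hκe'⟩ := h28rt_redInf_unique (h28rt_redInf_pow he' m) hNβ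
  -- the reduction of `z = σ² u / u`
  have hz := h28rt_redInf_div (h76g_redInf_frob hσ (h76g_redInf_frob hσ ha)) ha
  -- the reduction of `H = α (σ h' / h)`
  have hH := h28rt_redInf_alpha ℓ (h28rt_redInf_div (h76g_redInf_frob hσ he') he)
  have hq := h28rt_redInf_div hz (h28rt_redInf_pow hH m)
  have hCκ : (HahnSeries.C κ : LaurentSeries (IsLocalRing.ResidueField A)) ≠ 0 := by
    intro h0
    apply hκ
    have := congrArg (fun s : LaurentSeries (IsLocalRing.ResidueField A) => s.coeff 0) h0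
    simpa using this
  have key := h76g_key_identity (coeffMap (frobenius (IsLocalRing.ResidueField A) ℓ))
    (h28rt_redInf_ne_zero' ha) (h28rt_redInf_ne_zero' hb) (h28rt_redInf_ne_zero' he) hCκ
    hκe hκe'
  rw [key, h76g_coeffMap_C, ← map_div₀] at hq
  obtain ⟨c, hc, hcong⟩ := h76g_congOne_of_redInf_C hq
  refine ⟨c, _, hc, h28rt_redInf_ne_zero hH, ?_⟩
  have e1 : cst (M * ℓ) c * ((gal (M * ℓ) σ • gal (M * ℓ) σ • u) / u) *
      ((heckeAlphaBar Kbar M ℓ ((gal M σ • h') / h)) ^ m)⁻¹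
      = cst (M * ℓ) c * ((gal (M * ℓ) σ • gal (M * ℓ) σ • u) / u /
          (heckeAlphaBar Kbar M ℓ ((gal M σ • h') / h)) ^ m) := by
    rw [mul_assoc, ← div_eq_mul_inv]
  rw [e1]
  exact hcong

/-- **G-NEW.**  The frozen interface `NewGate` of `S35/GeomSkeleton.lean`. -/
theorem h76g_newGate : NewGate := by
  intro q hq M _ hqM _
  haveI : NeZero q := ⟨hq.ne_zero⟩
  intro A hA σ hσ m _ u hu _ hα hβ
  refine ⟨h76g_torInf M q hq hqM hA hσ m u hu hα hβ, ?_⟩
  have hwu : kFricke M q hq hqM u ≠ 0 :=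
    (map_ne_zero_iff _ (kFricke M q hq hqM).injective).mpr hu
  have e : kFricke M q hq hqM ((gal (M * q) σ • gal (M * q) σ • u) / u)
      = (gal (M * q) σ • gal (M * q) σ • kFricke M q hq hqM u) / kFricke M q hq hqM u := by
    rw [map_div₀, kFricke_gal, kFricke_gal]
  rw [e]
  apply h76g_torInf M q hq hqM hA hσ m (kFricke M q hq hqM u) hwu
  · obtain ⟨h, hh⟩ := hβ
    refine ⟨h, ?_⟩
    rw [← hh]
    exact (h71n_norm_beta_eq M q hq hqM u).symm
  · obtain ⟨h, hh⟩ := hα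
    refine ⟨h, ?_⟩
    rw [← hh]
    have h1 := h71n_norm_beta_eq M q hq hqM (kFricke M q hq hqM u)
    rw [kFricke_kFricke] at h1
    exact h1

end Gate

end Fermat.Agent.S35
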