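import Fermat.Agent.S35.H85TorGal
import Fermat.Agent.LGC.Local63
import Fermat.Agent.LGC.SS85CompAdapt

/-!
# S35, block G-TOR, modular inputs (G2): the nodes are `𝔽_{ℓ²}`-rational (helper85)

`σ` a Frobenius element at `ℓ`, `B = chart (M * ℓ) A (jSS M ℓ)` the finite chart of level
`M * ℓ`, `𝔫` a maximal ideal of `B` containing both components `P_∞`, `P_0` (a node of the
special fibre).  Then `σ² 𝔫 = 𝔫`.

* `h85t_fix_abs`, `h85t_fix_iff` : (Mathlib only) the abstract argument: `B = A · S + P` with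
  `S` fixed by `τ`, values of `S` at `𝔫` in `𝔽_{q^k}`, `τ ≡ Frob^k` on `A`.
* `h85t_frob_sub_pow_mem` : `σ a - a ^ ℓ ∈ 𝔪_A` for a Frobenius element `σ`.
* `h85t_alpha_pow_sq_sub_mem` : for rational `u`, `(α u) ^ (ℓ²) - α u ∈ P_∞ + P_0`.
* `h85t_frob_sq_node` : **`σ² b ∈ 𝔫 ↔ b ∈ 𝔫`** at a node `𝔫` (helper62's `h62i_Pinf`, `h62i_P0`);
  `h85t_frob_sq_node'` : the same with `h85cPinf`, `h85cP0`.
-/

set_option autoImplicit false
set_option linter.unusedSectionVars false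
set_option linter.style.haveILetI false

open AlgebraicCurve ModularCurve WithZero IsLocalRing

noncomputable section

namespace Fermat.Agent.S35

open Fermat.Agent.S37 Fermat.Agent.Red Fermat.Agent.Red.GG Fermat.Agent.Red.GV
  Fermat.Agent.Red.GV.Soft Fermat.Agent.Red.Kron Fermat.Agent.LGC

/-! ### Mathlib-only part -/

section Abstract

variable {A B : Type*} [CommRing A] [CommRing B] [Algebra A B]

/-- **(G2), abstract form.**  `𝔫` a maximal ideal of `B` of residue characteristic `q`,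
`τ` a ring endomorphism of `B`, semilinear over `τA : A → A` with `τA a ≡ a ^ (q ^ k)` modulo
`I` (`I B ⊆ 𝔫`), `P ⊆ 𝔫` an ideal stable under `τ`, and `B = A · S + P` with `S` a set of
`τ`-fixed elements whose values at `𝔫` are in `𝔽_{q^k}`.  Then `τ 𝔫 ⊆ 𝔫`. -/
theorem h85t_fix_abs (𝔫 : Ideal B) [h𝔫 : 𝔫.IsMaximal] (I : Ideal A)
    (hI : I.map (algebraMap A B) ≤ 𝔫) (q : ℕ) (hq : q.Prime) (hqn : (q : B) ∈ 𝔫) (k : ℕ)
    (τ : B →+* B) (τA : A →+* A)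
    (hτ : ∀ a : A, τ (algebraMap A B a) = algebraMap A B (τA a))
    (hQ : ∀ a : A, τA a - a ^ (q ^ k) ∈ I)
    (P : Ideal B) (hP : P ≤ 𝔫) (hτP : ∀ b ∈ P, τ b ∈ P)
    (S : Set B) (hS : ∀ s ∈ S, τ s = s) (hSQ : ∀ s ∈ S, s ^ (q ^ k) - s ∈ 𝔫)
    (hgen : ∀ b : B, ∃ x ∈ Submodule.span A S, b - x ∈ P) :
    ∀ b ∈ 𝔫, τ b ∈ 𝔫 := by
  have : Fact q.Prime := ⟨hq⟩
  have : Nontrivial (B ⧸ 𝔫) := Ideal.Quotient.nontrivial_iff.mpr h𝔫.ne_top
  have : CharP (B ⧸ 𝔫) q := by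
    rw [CharP.charP_iff_prime_eq_zero hq]
    have := Ideal.Quotient.eq_zero_iff_mem.mpr hqn
    simpa using this
  set π := Ideal.Quotient.mk 𝔫 with hπ
  have hA : ∀ a : A, π (algebraMap A B (τA a)) = π (algebraMap A B a) ^ (q ^ k) := by
    intro a
    have h1 : algebraMap A B (τA a - a ^ (q ^ k)) ∈ 𝔫 := hI (Ideal.mem_map_of_mem _ (hQ a))
    have h2 := Ideal.Quotient.eq_zero_iff_mem.mpr h1
    rw [map_sub, map_sub, sub_eq_zero, map_pow, map_pow] at h2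
    exact h2
  have key : ∀ x : B, x ∈ Submodule.span A S → π (τ x) = π x ^ (q ^ k) := by
    intro x hx
    induction hx using Submodule.span_induction with
    | mem s hs =>
      rw [hS s hs]
      have h2 := Ideal.Quotient.eq_zero_iff_mem.mpr (hSQ s hs)
      rw [map_sub, sub_eq_zero, map_pow] at h2
      exact h2.symm
    | zero =>
      rw [map_zero, map_zero, zero_pow (pow_ne_zero k hq.ne_zero)]
    | add x y _ _ ihx ihy =>
      rw [map_add, map_add, ihx, ihy, map_add, add_pow_char_pow]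
    | smul a x _ ih =>
      rw [Algebra.smul_def, map_mul, hτ, map_mul, hA, ih, map_mul, mul_pow]
  intro b hb
  obtain ⟨x, hx, hbx⟩ := hgen b
  have hx𝔫 : x ∈ 𝔫 := by
    have h1 : x = b - (b - x) := by ring
    rw [h1]
    exact 𝔫.sub_mem hb (hP hbx)
  have h1 : π (τ x) = 0 := by
    rw [key x hx, Ideal.Quotient.eq_zero_iff_mem.mpr hx𝔫,
      zero_pow (pow_ne_zero k hq.ne_zero)]
  have h2 : τ x ∈ 𝔫 := Ideal.Quotient.eq_zero_iff_mem.mp h1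
  have h3 : τ b = τ x + τ (b - x) := by rw [← map_add]; congr 1; ring
  rw [h3]
  exact 𝔫.add_mem h2 (hP (hτP _ hbx))

/-- a ring automorphism which maps a maximal ideal into itself fixes it. -/
theorem h85t_fix_iff (𝔫 : Ideal B) [h𝔫 : 𝔫.IsMaximal] (τ : B ≃+* B)
    (h : ∀ b ∈ 𝔫, τ b ∈ 𝔫) (b : B) : τ b ∈ 𝔫 ↔ b ∈ 𝔫 := by
  constructor
  · intro hb
    have hle : 𝔫 ≤ 𝔫.comap (τ : B →+* B) := fun x hx => Ideal.mem_comap.mpr (h x hx)
    have hne : 𝔫.comap (τ : B →+* B) ≠ ⊤ := by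
      intro htop
      have h1 : (1 : B) ∈ 𝔫.comap (τ : B →+* B) := by rw [htop]; trivial
      rw [Ideal.mem_comap, map_one] at h1
      exact h𝔫.ne_top ((Ideal.eq_top_iff_one _).mpr h1)
    have heq : 𝔫 = 𝔫.comap (τ : B →+* B) := h𝔫.eq_of_le hne hle
    rw [heq]
    exact Ideal.mem_comap.mpr hb
  · exact h b

end Abstract

/-! ### The finite chart of level `M * ℓ` -/

section Frob

variable (A : ValuationSubring Kbar) {ℓ : ℕ}

/-- a Frobenius element is the `ℓ`-th power map modulo `𝔪_A`. -/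
theorem h85t_frob_sub_pow_mem {σ : GQ} (hσ : A.IsFrobeniusAt σ ℓ) (a : A) :
    decompA A σ hσ.mem_decompositionSubgroup a - a ^ ℓ ∈ maximalIdeal A := by
  rw [← IsLocalRing.residue_eq_zero_iff, map_sub, map_pow, residue_decompA, sub_eq_zero]
  exact hσ.smul_residue_eq _

/-- the square of a Frobenius element is the `ℓ²`-th power map modulo `𝔪_A`. -/
theorem h85t_frob_sq_sub_pow_mem {σ : GQ} (hσ : A.IsFrobeniusAt σ ℓ) (a : A) :
    decompA A σ hσ.mem_decompositionSubgroup (decompA A σ hσ.mem_decompositionSubgroup a) -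
      a ^ (ℓ ^ 2) ∈ maximalIdeal A := by
  rw [← IsLocalRing.residue_eq_zero_iff, map_sub, map_pow, residue_decompA, residue_decompA,
    sub_eq_zero]
  have h1 : decompK A σ hσ.mem_decompositionSubgroup (IsLocalRing.residue A a) =
      (IsLocalRing.residue A a) ^ ℓ := hσ.smul_residue_eq _
  have h2 : decompK A σ hσ.mem_decompositionSubgroup ((IsLocalRing.residue A a) ^ ℓ) =
      ((IsLocalRing.residue A a) ^ ℓ) ^ ℓ := hσ.smul_residue_eq _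
  rw [h1, h2, ← pow_mul, pow_two]

end Frob

section Node

variable (A : ValuationSubring Kbar) (M : ℕ) {ℓ : ℕ} [NeZero M] [NeZero ℓ]
  (hℓ : ℓ.Prime) (hM : ¬ ℓ ∣ M) (hA : A.LiesOverPrime ℓ)

/-- the Galois group fixes `α u` for rational `u`. -/
theorem h85t_gal_alpha_rat (σ : GQ) (u : chart M A (jB M)) (hu : u ∈ h62i_R A M) :
    gal (M * ℓ) σ • ((h62i_α A M ℓ u : chart (M * ℓ) A (jSS M ℓ)) : FF (M * ℓ)) =
      ((h62i_α A M ℓ u : chart (M * ℓ) A (jSS M ℓ)) : FF (M * ℓ)) := by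
  have hrat : IsRat (u : FF M) := (h62i_mem_R A M u).mp hu
  have h1 := Fermat.Agent.Red.HKGal.intertwines_heckeAlphaBar M ℓ σ (u : FF M)
  rw [h62i_coe_α]
  have h2 : gal M σ • (u : FF M) = (u : FF M) := GalI.gal_smul_of_isRat σ hrat
  have h3 : gal (M * ℓ) σ • heckeAlphaBar Kbar M ℓ (u : FF M) =
      heckeAlphaBar Kbar M ℓ (gal M σ • (u : FF M)) := h1
  rw [h3, h2]

/-- for rational `u`: `(α u) ^ (ℓ²) ≡ α u` modulo every ideal containing `P_∞` and `P_0`. -/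
theorem h85t_alpha_pow_sq_sub_mem (𝔫 : Ideal (chart (M * ℓ) A (jSS M ℓ)))
    (hinf : h62i_Pinf A M hℓ hM hA ≤ 𝔫) (h0 : h62i_P0 A M hℓ hM hA ≤ 𝔫)
    (u : chart M A (jB M)) (hu : u ∈ h62i_R A M) :
    (h62i_α A M ℓ u) ^ (ℓ ^ 2) - h62i_α A M ℓ u ∈ 𝔫 := by
  have hF := h63l_frob A M hℓ hM hA u hu
  have hF0 : h62i_α A M ℓ u - (h62i_β A M hℓ hM hA u) ^ ℓ ∈ h62i_P0 A M hℓ hM hA := by
    rw [h62i_mem_P0_iff_w, map_sub, map_pow, h62i_w_α, h62i_w_β]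
    exact hF
  set π := Ideal.Quotient.mk 𝔫 with hπ
  have e1 : π (h62i_β A M hℓ hM hA u) = π (h62i_α A M ℓ u) ^ ℓ := by
    have := Ideal.Quotient.eq_zero_iff_mem.mpr (hinf hF)
    rw [map_sub, sub_eq_zero, map_pow] at this
    exact this
  have e2 : π (h62i_α A M ℓ u) = π (h62i_β A M hℓ hM hA u) ^ ℓ := by
    have := Ideal.Quotient.eq_zero_iff_mem.mpr (h0 hF0)
    rw [map_sub, sub_eq_zero, map_pow] at this
    exact this
  rw [← Ideal.Quotient.eq_zero_iff_mem, map_sub, map_pow, sub_eq_zero]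
  conv_rhs => rw [e2, e1]
  rw [← pow_mul, pow_two]

variable (haux : auxLevel ℓ ∣ M)

set_option synthInstance.maxHeartbeats 400000 in
include haux in
/-- **(G2) the nodes are `𝔽_{ℓ²}`-rational**: the square of a Frobenius element maps every
maximal ideal of the finite chart containing `P_∞` and `P_0` into itself. -/
theorem h85t_frob_sq_node_le {σ : GQ} (hσ : A.IsFrobeniusAt σ ℓ)
    (𝔫 : Ideal (chart (M * ℓ) A (jSS M ℓ))) [h𝔫 : 𝔫.IsMaximal]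
    (hinf : h62i_Pinf A M hℓ hM hA ≤ 𝔫) (h0 : h62i_P0 A M hℓ hM hA ≤ 𝔫) :
    ∀ b ∈ 𝔫, h85tGal A (M * ℓ) hσ.mem_decompositionSubgroup (jSS M ℓ) (h63p_gal_jSS M ℓ σ)
      (h85tGal A (M * ℓ) hσ.mem_decompositionSubgroup (jSS M ℓ) (h63p_gal_jSS M ℓ σ) b) ∈ 𝔫 := by
  have hσd := hσ.mem_decompositionSubgroup
  set g := h85tGal A (M * ℓ) hσd (jSS M ℓ) (h63p_gal_jSS M ℓ σ) with hg
  have hC : IfaceSSChart A M ℓ (jSS M ℓ) := h85s_ifaceSSChart_fin A M ℓ hℓ hM hA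
  have hm : (maximalIdeal A).map (algebraMap A (chart (M * ℓ) A (jSS M ℓ))) ≤ 𝔫 :=
    le_trans (h62i_m_le_Pinf A M hℓ hM hA) hinf
  have hℓ𝔫 : ((ℓ : ℕ) : chart (M * ℓ) A (jSS M ℓ)) ∈ 𝔫 := by
    have h1 : ((ℓ : ℕ) : chart (M * ℓ) A (jSS M ℓ)) =
        algebraMap A (chart (M * ℓ) A (jSS M ℓ)) ((ℓ : ℕ) : A) := (map_natCast _ ℓ).symm
    rw [h1]
    exact hm (Ideal.mem_map_of_mem _ (h85c_hℓA A ℓ hA))
  have key := h85t_fix_abs (A := A) (B := chart (M * ℓ) A (jSS M ℓ)) 𝔫 (maximalIdeal A) hm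
    ℓ hℓ hℓ𝔫 2 (g.toRingHom.comp g.toRingHom)
    ((decompA A σ hσd).comp (decompA A σ hσd))
    (fun a => by
      show g (g (algebraMap A _ a)) = algebraMap A _ (decompA A σ hσd (decompA A σ hσd a))
      rw [hg, h85t_gal_algebraMap, h85t_gal_algebraMap])
    (fun a => h85t_frob_sq_sub_pow_mem A hσ a)
    (h62i_Pinf A M hℓ hM hA) hinf
    (fun b hb => by
      show g (g b) ∈ h62i_Pinf A M hℓ hM hA
      rw [h85c_Pinf_eq] at hb ⊢
      rw [hg, h85t_gal_mem_Pinf_iff A M ℓ hℓ hA hC hσd, h85t_gal_mem_Pinf_iff A M ℓ hℓ hA hC hσd]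
      exact hb)
    ((h62i_α A M ℓ : chart M A (jB M) → chart (M * ℓ) A (jSS M ℓ)) '' (h62i_R A M : Set _))
    (by
      rintro _ ⟨u, hu, rfl⟩
      show g (g (h62i_α A M ℓ u)) = h62i_α A M ℓ u
      have e : g (h62i_α A M ℓ u) = h62i_α A M ℓ u :=
        Subtype.ext (h85t_gal_alpha_rat A M σ u hu)
      rw [e, e])
    (by
      rintro _ ⟨u, hu, rfl⟩
      exact h85t_alpha_pow_sq_sub_mem A M hℓ hM hA 𝔫 hinf h0 u hu)
    (by
      intro b
      obtain ⟨x, hx⟩ := h63l_surj A M hℓ hM haux hA b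
      refine ⟨h62i_α A M ℓ x, ?_, hx⟩
      have hxs := h63l_span A M hℓ hM hA x
      have h1 : h62i_α A M ℓ x ∈ (Submodule.span A (h62i_R A M : Set _)).map
          (h62i_α A M ℓ).toLinearMap := Submodule.mem_map_of_mem hxs
      rw [Submodule.map_span] at h1
      exact h1)
  intro b hb
  exact key b hb

set_option synthInstance.maxHeartbeats 400000 in
include haux in
/-- **(G2)** `σ² b ∈ 𝔫 ↔ b ∈ 𝔫` at a node `𝔫` of the finite chart. -/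
theorem h85t_frob_sq_node {σ : GQ} (hσ : A.IsFrobeniusAt σ ℓ)
    (𝔫 : Ideal (chart (M * ℓ) A (jSS M ℓ))) [h𝔫 : 𝔫.IsMaximal]
    (hinf : h62i_Pinf A M hℓ hM hA ≤ 𝔫) (h0 : h62i_P0 A M hℓ hM hA ≤ 𝔫)
    (b : chart (M * ℓ) A (jSS M ℓ)) :
    h85tGal A (M * ℓ) hσ.mem_decompositionSubgroup (jSS M ℓ) (h63p_gal_jSS M ℓ σ)
      (h85tGal A (M * ℓ) hσ.mem_decompositionSubgroup (jSS M ℓ) (h63p_gal_jSS M ℓ σ) b) ∈ 𝔫 ↔
      b ∈ 𝔫 := by
  set g := h85tGal A (M * ℓ) hσ.mem_decompositionSubgroup (jSS M ℓ) (h63p_gal_jSS M ℓ σ)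
    with hg
  exact h85t_fix_iff 𝔫 (g.trans g)
    (fun b hb => h85t_frob_sq_node_le A M hℓ hM hA haux hσ 𝔫 hinf h0 b hb) b

set_option synthInstance.maxHeartbeats 400000 in
include haux in
/-- **(G2)** with the components `h85cPinf`, `h85cP0` of `LGC/SS85Comp.lean`. -/
theorem h85t_frob_sq_node' {σ : GQ} (hσ : A.IsFrobeniusAt σ ℓ)
    (𝔫 : Ideal (chart (M * ℓ) A (jSS M ℓ))) [h𝔫 : 𝔫.IsMaximal]
    (hinf : h85cPinf A M ℓ hℓ hA (jSS M ℓ) ≤ 𝔫) (h0 : h85cP0 A M ℓ hℓ hM hA (jSS M ℓ) ≤ 𝔫)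
    (b : chart (M * ℓ) A (jSS M ℓ)) :
    h85tGal A (M * ℓ) hσ.mem_decompositionSubgroup (jSS M ℓ) (h63p_gal_jSS M ℓ σ)
      (h85tGal A (M * ℓ) hσ.mem_decompositionSubgroup (jSS M ℓ) (h63p_gal_jSS M ℓ σ) b) ∈ 𝔫 ↔
      b ∈ 𝔫 := by
  rw [← h85c_Pinf_eq A M hℓ hM hA] at hinf
  rw [← h85c_P0_eq A M hℓ hM hA] at h0
  exact h85t_frob_sq_node A M hℓ hM hA haux hσ 𝔫 hinf h0 b

/-- elementwise form on `FF (M * ℓ)`. -/
theorem h85t_coe_frob_sq {σ : GQ} (hσ : A.IsFrobeniusAt σ ℓ)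
    (b : chart (M * ℓ) A (jSS M ℓ)) :
    ((h85tGal A (M * ℓ) hσ.mem_decompositionSubgroup (jSS M ℓ) (h63p_gal_jSS M ℓ σ)
      (h85tGal A (M * ℓ) hσ.mem_decompositionSubgroup (jSS M ℓ) (h63p_gal_jSS M ℓ σ) b) :
        chart (M * ℓ) A (jSS M ℓ)) : FF (M * ℓ)) =
      gal (M * ℓ) σ • gal (M * ℓ) σ • (b : FF (M * ℓ)) := rfl

end Node

end Fermat.Agent.S35
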