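import Fermat.Agent.S35.Skeleton

/-!
# S35, row ASM-A (helper87): `NewQuarticAssembly`

From GEOM (`FrobNewTorsion`), HECKE-a (`PushHeckeComm`), HECKE-c (`ConvKey`) and the commutativity
of the Hecke operators on `J₀`: for `q ∥ N`, `q ≠ p`, a Frobenius `σ` at `q` and a Hecke
polynomial `P` killing the old forms, the quartic of `σ` kills `P • x` for every `p`-power torsion
point `x` of `J₀(N)`, up to a bounded exponent.

* `h87q_push_eval`        : an additive map commuting with the `T_r`, `r ∤ M q`, commutes with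
                            every Hecke polynomial in these variables.
* `h87q_newQuarticAssembly : NewQuarticAssembly`.
-/

set_option autoImplicit false

open AlgebraicCurve ModularCurve

namespace Fermat.Agent.S35

open Fermat.Agent.S37 (Kbar GQ FF)

/-- An additive map `J₀(N') → J₀(M)` commuting with the Hecke operators `T_r`, `r ∈ s`, commutes
with every Hecke polynomial in the variables of `s`. -/
theorem h87q_push_eval {N' M : ℕ} [NeZero N'] [NeZero M]
    (hcN : HeckeOperatorsCommuteBar N') (hcM : HeckeOperatorsCommuteBar M)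
    (f : JZero N' →+ JZero M) (s : Set Nat.Primes)
    (hf : ∀ r ∈ s, ∀ x : JZero N', f (heckeOperatorBar N' r x) = heckeOperatorBar M r (f x))
    (P : MvPolynomial Nat.Primes ℤ) (hP : (↑P.vars : Set Nat.Primes) ⊆ s) (x : JZero N') :
    f (heckeEvalBar hcN P x) = heckeEvalBar hcM P (f x) := by
  have hmem : P ∈ MvPolynomial.supported ℤ s := MvPolynomial.mem_supported.2 hP
  revert x
  refine Algebra.adjoin_induction (R := ℤ) (s := MvPolynomial.X '' s)
    (p := fun Q _ => ∀ x : JZero N', f (heckeEvalBar hcN Q x) = heckeEvalBar hcM Q (f x))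
    ?_ ?_ ?_ ?_ hmem
  · rintro _ ⟨r, hr, rfl⟩ x
    have h1 := heckeEvalBar_heckeGen hcN r
    have h2 := heckeEvalBar_heckeGen hcM r
    rw [heckeGen] at h1 h2
    rw [h1, h2]
    exact hf r hr x
  · intro a x
    rw [MvPolynomial.algebraMap_eq, heckeEvalBar_C, heckeEvalBar_C, Module.End.intCast_apply,
      Module.End.intCast_apply, map_zsmul]
  · intro Q Q' _ _ hQ hQ' x
    rw [map_add, map_add, LinearMap.add_apply, LinearMap.add_apply, map_add, hQ x, hQ' x]
  · intro Q Q' _ _ hQ hQ' x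
    rw [map_mul, map_mul, Module.End.mul_apply, Module.End.mul_apply, hQ, hQ']

/-- **ASM-A.**  Assembly of `NewQuarticStatement`. -/
theorem h87q_newQuarticAssembly : NewQuarticAssembly := by
  intro hGeom hPush hConv hComm N p _ hp q hq hqp hqN hq2 A hA σ hσ P hPvars hKill
  obtain ⟨M, hM⟩ := hqN
  have hN : N = M * q := by rw [hM, Nat.mul_comm]
  subst hN
  have : NeZero q := ⟨hq.ne_zero⟩
  have : NeZero M := ⟨fun h0 => by
    have := NeZero.ne (M * q)
    rw [h0, Nat.zero_mul] at this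
    exact this rfl⟩
  have hqM : ¬ q ∣ M := fun h => hq2 (by
    rw [pow_two]
    exact Nat.mul_dvd_mul h (dvd_refl q))
  have hcN : HeckeOperatorsCommuteBar (M * q) := hComm (M * q)
  have hcM : HeckeOperatorsCommuteBar M := hComm M
  obtain ⟨tc, htc, hconv⟩ := hConv M
  obtain ⟨tg, htg, hgeom⟩ := hGeom M q p hq hqM hp (Ne.symm hqp) A hA σ hσ
  refine ⟨tg * tc, Nat.mul_pos htg htc, ?_⟩
  intro k x hx
  -- the good primes
  have hvarsMq : (↑P.vars : Set Nat.Primes) ⊆ {r : Nat.Primes | ¬ (r : ℕ) ∣ M * q} := by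
    intro ℓ hℓ hdvd
    exact hPvars ℓ (Finset.mem_coe.1 hℓ) (Dvd.dvd.mul_right hdvd p)
  have hvarsMp : ∀ ℓ ∈ P.vars, ¬ (ℓ : ℕ) ∣ M * p ^ k := by
    intro ℓ hℓ hdvd
    rcases (Nat.Prime.dvd_mul ℓ.2).1 hdvd with h | h
    · exact hPvars ℓ hℓ (Dvd.dvd.mul_right (Dvd.dvd.mul_right h q) p)
    · exact hPvars ℓ hℓ (Dvd.dvd.mul_left (ℓ.2.dvd_of_dvd_pow h) (M * q))
  have hkill : ((MvPolynomial.aeval (R := ℤ) (Fermat.Agent.S30.heckeTAll M) P :
      CuspForm.heckeAlgebra M 2 (∅ : Set ℕ)) :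
      Module.End ℂ (CuspForm (CongruenceSubgroup.Gamma0 M) 2)) = 0 := hKill M rfl
  have hconv' := hconv (p ^ k) P (pow_pos hp.pos k) hvarsMp hkill
  -- the point `z = P • x` and `y = tc • z`
  rw [heckeModuleBar_smul_def hcN P x]
  set z : JZero (M * q) := heckeEvalBar hcN P x with hz
  have hpz : p ^ k • z = 0 := by
    rw [hz, ← map_nsmul, hx, map_zero]
  -- the two push-forwards kill `tc • z`
  have hpush : ∀ f : JZero (M * q) →+ JZero M,
      (∀ r : Nat.Primes, ¬ (r : ℕ) ∣ M * q → ∀ x : JZero (M * q),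
        f (heckeOperatorBar (M * q) r x) = heckeOperatorBar M r (f x)) →
      f (tc • z) = 0 := by
    intro f hf
    have h1 : f z = heckeEvalBar hcM P (f x) :=
      h87q_push_eval hcN hcM f _ (fun r hr => hf r hr) P hvarsMq x
    have h2 : p ^ k • f x = 0 := by rw [← map_nsmul, hx, map_zero]
    have h3 := hconv' (f x) h2
    rw [heckeModuleBar_smul_def hcM, map_mul, heckeEvalBar_C, Module.End.mul_apply,
      Module.End.intCast_apply, ← h1] at h3
    rw [map_nsmul, ← natCast_zsmul]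
    exact h3
  have hα : pushAlpha M q (tc • z) = 0 :=
    hpush (pushAlpha M q) (fun r hr x => (hPush M q hq hqM r hr x).1)
  have hβ : pushBeta M q (tc • z) = 0 :=
    hpush (pushBeta M q) (fun r hr x => (hPush M q hq hqM r hr x).2)
  have hσn : ∀ (n : ℕ) (w : JZero (M * q)), σ • (n • w) = n • (σ • w) := fun n w =>
    map_nsmul (DistribSMul.toAddMonoidHom (JZero (M * q)) σ) n w
  have hpy : p ^ k • (tc • z) = 0 := by
    rw [← mul_nsmul', Nat.mul_comm (p ^ k) tc, mul_nsmul', hpz, nsmul_zero]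
  have hfin := hgeom k (tc • z) hpy hα hβ
  have e1 : σ • σ • σ • σ • (tc • z) = tc • (σ • σ • σ • σ • z) := by
    rw [hσn, hσn, hσn, hσn]
  have e2 : σ • σ • (tc • z) = tc • (σ • σ • z) := by
    rw [hσn, hσn]
  have e3 : q ^ 2 • (tc • z) = tc • (q ^ 2 • z) := by
    rw [← mul_nsmul', Nat.mul_comm (q ^ 2) tc, mul_nsmul']
  have e4 : (q ^ 2 + 1) • (tc • (σ • σ • z)) = tc • ((q ^ 2 + 1) • (σ • σ • z)) := by
    rw [← mul_nsmul', Nat.mul_comm (q ^ 2 + 1) tc, mul_nsmul']
  rw [e1, e2, e3, e4, ← nsmul_add, ← mul_nsmul', ← mul_nsmul'] at hfin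
  exact hfin

end Fermat.Agent.S35
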