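import Mathlib
import Fermat.Agent.Red.LocalFact

/-!
# S35, block TOR (F4): the moving lemma at the nodes, abstract form, part A (helper91)

Language of `Red/LocalFact.lean`: `A` a local ring, `F` a field, `B ⊆ F` an `A`-subalgebra
(a chart), `V ⊆ F` a subring (the semistable Gauss ring), `v i` the places of the generic
fibre.  `Winf`, `W0` are the two Gauss valuation rings (`Winf ∩ W0 ⊆ V`).

* `h91t_LocUnit 𝔫 f` : `f` is a unit of the local ring `B_𝔫`.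
* `h91t_mem_loc` (FACT 0) : `B_𝔫 ⊇ {f ∈ V | f regular at the places centered at 𝔫}`.
* `h91t_node_unit` (L1) : a function without zeros and poles at the places centered at a
  point `𝔫` of the branch `Winf`, which is a unit of `Winf`, is `x ^ k` times a unit of `B_𝔫`
  (`x` a local parameter of the branch at `𝔫`, `k : ℤ`).
-/

set_option autoImplicit false

open WithZero IsLocalRing

namespace Fermat.Agent.S35

open Fermat.Agent.Red

section LocUnit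

variable {A : Type*} [CommRing A] {F : Type*} [Field F] [Algebra A F]
variable {B : Subalgebra A F}

/-- `f` is a unit of the local ring `B_𝔫`: `f = b / s` with `b, s ∈ B ∖ 𝔫`. -/
def h91t_LocUnit (𝔫 : Ideal B) (f : F) : Prop :=
  ∃ s b : B, s ∉ 𝔫 ∧ b ∉ 𝔫 ∧ (s : F) * f = b

theorem h91t_coe_ne_zero (𝔫 : Ideal B) {s : B} (hs : s ∉ 𝔫) : (s : F) ≠ 0 := by
  intro h
  apply hs
  have : s = 0 := Subtype.ext h
  rw [this]
  exact 𝔫.zero_mem

theorem h91t_LocUnit.ne_zero {𝔫 : Ideal B} {f : F} (h : h91t_LocUnit 𝔫 f) : f ≠ 0 := by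
  obtain ⟨s, b, hs, hb, hsb⟩ := h
  rintro rfl
  rw [mul_zero] at hsb
  exact h91t_coe_ne_zero 𝔫 hb hsb.symm

theorem h91t_LocUnit.of_notMem {𝔫 : Ideal B} [h𝔫 : 𝔫.IsPrime] {b : B} (hb : b ∉ 𝔫) :
    h91t_LocUnit 𝔫 (b : F) :=
  ⟨1, b, (Ideal.ne_top_iff_one 𝔫).mp h𝔫.ne_top, hb, by simp⟩

theorem h91t_LocUnit.one {𝔫 : Ideal B} [h𝔫 : 𝔫.IsPrime] : h91t_LocUnit 𝔫 (1 : F) :=
  ⟨1, 1, (Ideal.ne_top_iff_one 𝔫).mp h𝔫.ne_top, (Ideal.ne_top_iff_one 𝔫).mp h𝔫.ne_top,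
    by simp⟩

theorem h91t_LocUnit.mul {𝔫 : Ideal B} [h𝔫 : 𝔫.IsPrime] {f g : F}
    (hf : h91t_LocUnit 𝔫 f) (hg : h91t_LocUnit 𝔫 g) : h91t_LocUnit 𝔫 (f * g) := by
  obtain ⟨s, b, hs, hb, hsb⟩ := hf
  obtain ⟨s', b', hs', hb', hsb'⟩ := hg
  refine ⟨s * s', b * b', fun h => (h𝔫.mem_or_mem h).elim hs hs',
    fun h => (h𝔫.mem_or_mem h).elim hb hb', ?_⟩
  push_cast
  rw [← hsb, ← hsb']
  ring

theorem h91t_LocUnit.inv {𝔫 : Ideal B} {f : F} (hf : h91t_LocUnit 𝔫 f) :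
    h91t_LocUnit 𝔫 f⁻¹ := by
  obtain ⟨s, b, hs, hb, hsb⟩ := hf
  have hs0 : (s : F) ≠ 0 := h91t_coe_ne_zero 𝔫 hs
  have hb0 : (b : F) ≠ 0 := h91t_coe_ne_zero 𝔫 hb
  have hf0 : f ≠ 0 := by
    rintro rfl
    rw [mul_zero] at hsb
    exact hb0 hsb.symm
  refine ⟨b, s, hb, hs, ?_⟩
  rw [← hsb]
  field_simp

theorem h91t_LocUnit.div {𝔫 : Ideal B} [𝔫.IsPrime] {f g : F}
    (hf : h91t_LocUnit 𝔫 f) (hg : h91t_LocUnit 𝔫 g) : h91t_LocUnit 𝔫 (f / g) := by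
  rw [div_eq_mul_inv]
  exact hf.mul hg.inv

theorem h91t_LocUnit.pow {𝔫 : Ideal B} [𝔫.IsPrime] {f : F}
    (hf : h91t_LocUnit 𝔫 f) (n : ℕ) : h91t_LocUnit 𝔫 (f ^ n) := by
  induction n with
  | zero => simpa using h91t_LocUnit.one
  | succ n ih => rw [pow_succ]; exact ih.mul hf

theorem h91t_LocUnit.zpow {𝔫 : Ideal B} [𝔫.IsPrime] {f : F}
    (hf : h91t_LocUnit 𝔫 f) (n : ℤ) : h91t_LocUnit 𝔫 (f ^ n) := by
  obtain ⟨k, rfl | rfl⟩ := n.eq_nat_or_neg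
  · rw [zpow_natCast]; exact hf.pow k
  · rw [zpow_neg, zpow_natCast]; exact (hf.pow k).inv

/-- the gate form of a local unit. -/
theorem h91t_LocUnit.gate {𝔫 : Ideal B} [h𝔫 : 𝔫.IsPrime] {f : F} (hf : h91t_LocUnit 𝔫 f) :
    ∃ s : B, s ∉ 𝔫 ∧ (s : F) * f ∈ B ∧ (s : F) * f⁻¹ ∈ B := by
  obtain ⟨s, b, hs, hb, hsb⟩ := hf
  have hs0 : (s : F) ≠ 0 := h91t_coe_ne_zero 𝔫 hs
  have hb0 : (b : F) ≠ 0 := h91t_coe_ne_zero 𝔫 hb
  have hf0 : f ≠ 0 := by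
    rintro rfl
    rw [mul_zero] at hsb
    exact hb0 hsb.symm
  refine ⟨s * b, fun h => (h𝔫.mem_or_mem h).elim hs hb, ?_, ?_⟩
  · have : ((s * b : B) : F) * f = ((b * b : B) : F) := by
      push_cast
      rw [← hsb]
      ring
    rw [this]
    exact (b * b).2
  · have : ((s * b : B) : F) * f⁻¹ = ((s * s : B) : F) := by
      push_cast
      rw [← hsb]
      field_simp
    rw [this]
    exact (s * s).2

theorem h91t_LocUnit.of_gate {𝔫 : Ideal B} [h𝔫 : 𝔫.IsPrime] {f : F} (hf0 : f ≠ 0)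
    (s : B) (hs : s ∉ 𝔫) (h1 : (s : F) * f ∈ B) (h2 : (s : F) * f⁻¹ ∈ B) :
    h91t_LocUnit 𝔫 f := by
  refine ⟨s, ⟨_, h1⟩, hs, ?_, rfl⟩
  intro hmem
  have h3 : (⟨_, h1⟩ : B) * ⟨_, h2⟩ = s * s := by
    apply Subtype.ext
    push_cast
    field_simp
  have h4 : s * s ∈ 𝔫 := by
    rw [← h3]
    exact 𝔫.mul_mem_right _ hmem
  exact (h𝔫.mem_or_mem h4).elim hs hs

/-- a unit of `B_𝔫` is a unit at every valuation ring containing `B` with centre in `𝔫`. -/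
theorem h91t_LocUnit.valuation_eq_one {𝔫 : Ideal B} {f : F} (hf : h91t_LocUnit 𝔫 f)
    {Γ : Type*} [LinearOrderedCommGroupWithZero Γ] (w : Valuation F Γ)
    (hB : ∀ b : B, w (b : F) ≤ 1) (hcen : ∀ b : B, w (b : F) < 1 → b ∈ 𝔫) : w f = 1 := by
  obtain ⟨s, b, hs, hb, hsb⟩ := hf
  have h1 : ∀ c : B, c ∉ 𝔫 → w (c : F) = 1 := fun c hc =>
    le_antisymm (hB c) (not_lt.mp fun h => hc (hcen c h))
  have h2 := congrArg w hsb
  rw [map_mul, h1 s hs, h1 b hb, one_mul] at h2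
  exact h2

end LocUnit

section Fact0

variable {A : Type*} [CommRing A] [IsLocalRing A] {F : Type*} [Field F] [Algebra A F]
variable {B : Subalgebra A F} {V : Subring F} {ι : Type*} {v : ι → Valuation F ℤᵐ⁰}

/-- **FACT 0**: a Gauss-integral function which is regular at all places centered at `𝔫`
lies in `B_𝔫`. -/
theorem h91t_mem_loc (hC : H26Chart B V v) (𝔫 : Ideal B) [h𝔫 : 𝔫.IsPrime] (f : F)
    (hfV : f ∈ V) (hf : ∀ i, h26Centered B v 𝔫 i → v i f ≤ 1) :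
    ∃ s : B, s ∉ 𝔫 ∧ (s : F) * f ∈ B := by
  obtain ⟨a, ha, s, hs, h1⟩ := h26_stepC hC.hfin hC.hint hC.hB 𝔫 f hf
  exact ⟨s, hs, hC.hQEP a ha _ (mul_mem (hC.hBV _ s.2) hfV) h1⟩

/-- a unit at centered places: elements of `B ∖ 𝔫`. -/
theorem h91t_val_eq_one_of_notMem (hC : H26Chart B V v) (𝔫 : Ideal B) {s : B} (hs : s ∉ 𝔫)
    (k : ι) (hk : h26Centered B v 𝔫 k) : v k (s : F) = 1 :=
  le_antisymm (hC.hB _ s.2 k) (not_lt.mp fun hlt => hs (hk s hlt))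

theorem h91t_LocUnit.val_eq_one (hC : H26Chart B V v) {𝔫 : Ideal B} {f : F}
    (hf : h91t_LocUnit 𝔫 f) (k : ι) (hk : h26Centered B v 𝔫 k) : v k f = 1 :=
  hf.valuation_eq_one (v k) (fun b => hC.hB _ b.2 k) (fun b hb => hk b hb)

end Fact0

section NodeUnit

variable {A : Type*} [CommRing A] [IsLocalRing A] {F : Type*} [Field F] [Algebra A F]
variable {B : Subalgebra A F} {V : Subring F} {ι : Type*} {v : ι → Valuation F ℤᵐ⁰}

omit [IsLocalRing A] in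
/-- an element of `B ∖ 𝔫` is a unit of a valuation ring containing `B` with centre in `𝔫`. -/
theorem h91t_valuation_eq_one_of_notMem (W : ValuationSubring F) (𝔫 : Ideal B)
    (hBW : ∀ b : B, (b : F) ∈ W) (hcen : ∀ b : B, W.valuation (b : F) < 1 → b ∈ 𝔫)
    {s : B} (hs : s ∉ 𝔫) : W.valuation (s : F) = 1 :=
  le_antisymm ((W.valuation_le_one_iff _).mpr (hBW s)) (not_lt.mp fun h => hs (hcen s h))

/-- **L1, integral case.**  `f` a unit of `Winf`, `f ∈ W0`, without zeros and poles at the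
places centered at `𝔫`: then `f / x ^ k` is a unit of `B_𝔫` for some `k : ℕ`. -/
theorem h91t_node_unit_aux (hC : H26Chart B V v) (Winf W0 : ValuationSubring F)
    (hWV : ∀ x : F, x ∈ Winf → x ∈ W0 → x ∈ V)
    (hBinf : ∀ b : B, (b : F) ∈ Winf)
    (𝔫 : Ideal B) [h𝔫 : 𝔫.IsPrime]
    (hcinf : ∀ b : B, Winf.valuation (b : F) < 1 → b ∈ 𝔫)
    (x : B) (hxinf : Winf.valuation (x : F) = 1)
    (hxv : ∀ i, h26Centered B v 𝔫 i → v i (x : F) = 1)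
    (hdvr : ∀ b : B, Winf.valuation (b : F) = 1 → ∃ (k : ℕ) (s b' : B), s ∉ 𝔫 ∧ b' ∉ 𝔫 ∧
      Winf.valuation ((s : F) * b - b' * (x : F) ^ k) < 1)
    (f : F) (hfinf : Winf.valuation f = 1) (hf0 : f ∈ W0)
    (hf : ∀ i, h26Centered B v 𝔫 i → v i f = 1) :
    ∃ k : ℕ, h91t_LocUnit 𝔫 (f / (x : F) ^ k) := by
  have hx0 : (x : F) ≠ 0 := by
    intro h
    rw [h, map_zero] at hxinf
    exact zero_ne_one hxinf
  have hfinfmem : f ∈ Winf := (Winf.valuation_le_one_iff _).mp hfinf.le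
  -- `f = b / s`
  obtain ⟨s, hs, hsf⟩ := h91t_mem_loc hC 𝔫 f (hWV f hfinfmem hf0) (fun i hi => (hf i hi).le)
  set b : B := ⟨_, hsf⟩ with hb
  have hbF : (b : F) = (s : F) * f := rfl
  have hsinf : Winf.valuation (s : F) = 1 :=
    h91t_valuation_eq_one_of_notMem Winf 𝔫 hBinf hcinf hs
  have hbinf : Winf.valuation (b : F) = 1 := by
    rw [hbF, map_mul, hsinf, hfinf, one_mul]
  obtain ⟨k, s₁, b', hs₁, hb', hcong⟩ := hdvr b hbinf
  refine ⟨k, ?_⟩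
  set f₁ : F := f / (x : F) ^ k with hf₁
  have hf₁inf : Winf.valuation f₁ = 1 := by
    rw [hf₁, map_div₀, map_pow, hxinf, hfinf, one_pow, div_one]
  have hf₁val : ∀ i, h26Centered B v 𝔫 i → v i f₁ = 1 := by
    intro i hi
    rw [hf₁, map_div₀, map_pow, hxv i hi, hf i hi, one_pow, div_one]
  have hf₁ne : f₁ ≠ 0 := by
    intro h
    rw [h, map_zero] at hf₁inf
    exact zero_ne_one hf₁inf
  -- the congruence `s₁ s f₁ ≡ b'` modulo the maximal ideal of `Winf`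
  have hcong' : Winf.valuation ((s₁ : F) * (s : F) * f₁ - b') < 1 := by
    have h1 : (s₁ : F) * (s : F) * f₁ - b' =
        ((s₁ : F) * b - b' * (x : F) ^ k) / (x : F) ^ k := by
      rw [hf₁, hbF]
      field_simp
    rw [h1, map_div₀, map_pow, hxinf, one_pow, div_one]
    exact hcong
  rcases W0.mem_or_inv_mem f₁ with h0 | h0
  · -- `f₁ ∈ V`
    have hf₁infmem : f₁ ∈ Winf := (Winf.valuation_le_one_iff _).mp hf₁inf.le
    obtain ⟨s₂, hs₂, hs₂f⟩ := h91t_mem_loc hC 𝔫 f₁ (hWV f₁ hf₁infmem h0)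
      (fun i hi => (hf₁val i hi).le)
    set b₂ : B := ⟨_, hs₂f⟩ with hb₂
    have hb₂F : (b₂ : F) = (s₂ : F) * f₁ := rfl
    refine ⟨s₂, b₂, hs₂, ?_, rfl⟩
    intro hb₂𝔫
    -- `z = s₁ s b₂ - b' s₂ ∈ 𝔫`
    have hz : s₁ * s * b₂ - b' * s₂ ∈ 𝔫 := by
      apply hcinf
      have h1 : ((s₁ * s * b₂ - b' * s₂ : B) : F) =
          (s₂ : F) * ((s₁ : F) * (s : F) * f₁ - b') := by
        push_cast
        rw [hb₂F]
        ring
      rw [h1, map_mul]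
      have h2 : Winf.valuation (s₂ : F) ≤ 1 := (Winf.valuation_le_one_iff _).mpr (hBinf s₂)
      calc Winf.valuation (s₂ : F) * Winf.valuation ((s₁ : F) * (s : F) * f₁ - b')
          ≤ 1 * Winf.valuation ((s₁ : F) * (s : F) * f₁ - b') :=
            mul_le_mul_left h2 _
        _ < 1 := by rw [one_mul]; exact hcong'
    have h3 : b' * s₂ ∈ 𝔫 := by
      have h4 : s₁ * s * b₂ ∈ 𝔫 := 𝔫.mul_mem_left _ hb₂𝔫
      have := 𝔫.sub_mem h4 hz
      simpa using this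
    exact (h𝔫.mem_or_mem h3).elim hb' hs₂
  · -- `f₁⁻¹ ∈ V`
    have hf₁inv : Winf.valuation f₁⁻¹ = 1 := by rw [map_inv₀, hf₁inf, inv_one]
    have hf₁invmem : f₁⁻¹ ∈ Winf := (Winf.valuation_le_one_iff _).mp hf₁inv.le
    obtain ⟨s₃, hs₃, hs₃f⟩ := h91t_mem_loc hC 𝔫 f₁⁻¹ (hWV _ hf₁invmem h0)
      (fun i hi => by rw [map_inv₀, hf₁val i hi, inv_one])
    set b₃ : B := ⟨_, hs₃f⟩ with hb₃
    have hb₃F : (b₃ : F) = (s₃ : F) * f₁⁻¹ := rfl
    have hb₃𝔫 : b₃ ∉ 𝔫 := by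
      intro hb₃𝔫
      have hz : s₁ * s * s₃ - b' * b₃ ∈ 𝔫 := by
        apply hcinf
        have h1 : ((s₁ * s * s₃ - b' * b₃ : B) : F) =
            (b₃ : F) * ((s₁ : F) * (s : F) * f₁ - b') := by
          push_cast
          rw [hb₃F]
          field_simp
        rw [h1, map_mul]
        have h2 : Winf.valuation (b₃ : F) ≤ 1 := (Winf.valuation_le_one_iff _).mpr (hBinf b₃)
        calc Winf.valuation (b₃ : F) * Winf.valuation ((s₁ : F) * (s : F) * f₁ - b')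
            ≤ 1 * Winf.valuation ((s₁ : F) * (s : F) * f₁ - b') :=
              mul_le_mul_left h2 _
          _ < 1 := by rw [one_mul]; exact hcong'
      have h3 : s₁ * s * s₃ ∈ 𝔫 := by
        have h4 : b' * b₃ ∈ 𝔫 := 𝔫.mul_mem_left _ hb₃𝔫
        have := 𝔫.add_mem hz h4
        simpa using this
      rcases h𝔫.mem_or_mem h3 with h5 | h5
      · exact (h𝔫.mem_or_mem h5).elim hs₁ hs
      · exact hs₃ h5
    refine ⟨b₃, s₃, hb₃𝔫, hs₃, ?_⟩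
    rw [hb₃F]
    field_simp

/-- **L1** (node-unit lemma).  `f` a unit of `Winf` without zeros and poles at the places
centered at `𝔫`: then `f / x ^ k` is a unit of `B_𝔫` for some `k : ℤ`. -/
theorem h91t_node_unit (hC : H26Chart B V v) (Winf W0 : ValuationSubring F)
    (hWV : ∀ x : F, x ∈ Winf → x ∈ W0 → x ∈ V)
    (hBinf : ∀ b : B, (b : F) ∈ Winf)
    (𝔫 : Ideal B) [h𝔫 : 𝔫.IsPrime]
    (hcinf : ∀ b : B, Winf.valuation (b : F) < 1 → b ∈ 𝔫)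
    (x : B) (hxinf : Winf.valuation (x : F) = 1)
    (hxv : ∀ i, h26Centered B v 𝔫 i → v i (x : F) = 1)
    (hdvr : ∀ b : B, Winf.valuation (b : F) = 1 → ∃ (k : ℕ) (s b' : B), s ∉ 𝔫 ∧ b' ∉ 𝔫 ∧
      Winf.valuation ((s : F) * b - b' * (x : F) ^ k) < 1)
    (f : F) (hfinf : Winf.valuation f = 1)
    (hf : ∀ i, h26Centered B v 𝔫 i → v i f = 1) :
    ∃ k : ℤ, h91t_LocUnit 𝔫 (f / (x : F) ^ k) := by
  rcases W0.mem_or_inv_mem f with h0 | h0
  · obtain ⟨k, hk⟩ := h91t_node_unit_aux hC Winf W0 hWV hBinf 𝔫 hcinf x hxinf hxv hdvr f hfinf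
      h0 hf
    exact ⟨k, by rw [zpow_natCast]; exact hk⟩
  · obtain ⟨k, hk⟩ := h91t_node_unit_aux hC Winf W0 hWV hBinf 𝔫 hcinf x hxinf hxv hdvr f⁻¹
      (by rw [map_inv₀, hfinf, inv_one]) h0 (fun i hi => by rw [map_inv₀, hf i hi, inv_one])
    refine ⟨-(k : ℤ), ?_⟩
    have h1 : f / (x : F) ^ (-(k : ℤ)) = (f⁻¹ / (x : F) ^ k)⁻¹ := by
      rw [zpow_neg, zpow_natCast, inv_div, div_inv_eq_mul, div_eq_mul_inv, inv_inv, mul_comm]
    rw [h1]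
    exact hk.inv

end NodeUnit

end Fermat.Agent.S35
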