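import Fermat.Agent.S35.GeomAsm
import Fermat.Agent.S35.H87NewQuartic
import Fermat.Agent.S35.HK.OldKill
import Fermat.Agent.S35.H5Package
import Fermat.Agent.S34.TatePackageFull
import Fermat.Agent.S30.Inputs
import Fermat.Agent.S22

/-!
# S35: the top assembly, conditional on the eight open leaves

`h37t_s35_of_leaves` : the statement of S35 from

* GEOM: `NewGate`, `TorGate`, `FrobGateDescent`, `FrobTorsionOfGate`;
* HECKE: `PushHecke`, `ConvKey`, `EigenOfChar`, `SIndep`.

Everything else is landed (`h37g_frobNewTorsion_of`, `h87q_newQuarticAssembly`, `oldKill_of`,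
`h5r_esLatticeNew_of_tatePackageFull`, `h5r_s35_of_lattice`, the Tate package, the geometric
inputs of P-GALREP, S22).

Author: helper37.
-/

set_option autoImplicit false

open AlgebraicCurve ModularCurve Polynomial

noncomputable section

namespace Fermat.Agent.S35

open Fermat.Agent.S37 (Kbar GQ FF)
open Fermat.Agent.S30.PackageAdic (GoodPrime evS not_dvd_of_good)

/-- `C t * P` acts as `t • (P • x)`. -/
theorem h37t_C_mul_smul (N : ℕ) [NeZero N] (t : ℕ) (P : MvPolynomial Nat.Primes ℤ)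
    (x : JZero N) :
    (letI := heckeModuleBar N; (MvPolynomial.C (t : ℤ) * P) • x) =
      t • (letI := heckeModuleBar N; P • x) := by
  letI := heckeModuleBar N
  rw [mul_smul, heckeModuleBar_C_smul, natCast_zsmul]

/-- **adapter**: `NewQuarticStatement` and old-killing polynomials give `h5r_NewKillTorsion`. -/
theorem h37t_newKill_of (N p : ℕ) [NeZero N] (hp : p.Prime) (hNQ : NewQuarticStatement N p)
    (S : Finset ℕ) (hpS : p ∈ S)
    (𝒪 : Type) [CommRing 𝒪] [IsDomain 𝒪] [CharZero 𝒪]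
    (χ : CuspForm.heckeAlgebra N 2 (↑S : Set ℕ) →+* 𝒪)
    (hOld : ∀ q : ℕ, q.Prime → q ≠ p → q ∣ N → ¬ q ^ 2 ∣ N →
      ∃ e : MvPolynomial (GoodPrime N S) ℤ,
        χ (evS S e) ≠ 0 ∧ KillsOld N q (MvPolynomial.rename Subtype.val e)) :
    h5r_NewKillTorsion p N S 𝒪 χ := by
  haveI : Fact p.Prime := ⟨hp⟩
  intro q hq hqp hqN hq2 A hA σ hσ
  obtain ⟨e, he, hkill⟩ := hOld q hq hqp hqN hq2
  have hvars : ∀ ℓ ∈ (MvPolynomial.rename Subtype.val e : MvPolynomial Nat.Primes ℤ).vars,
      ¬ (ℓ : ℕ) ∣ N * p := by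
    intro ℓ hℓ
    have h2 := MvPolynomial.vars_rename _ _ hℓ
    obtain ⟨i, -, rfl⟩ := Finset.mem_image.mp h2
    have h3 := not_dvd_of_good S hpS i 1
    rwa [pow_one] at h3
  obtain ⟨t, ht, hquart⟩ := hNQ q hq hqp hqN hq2 A hA σ hσ _ hvars hkill
  refine ⟨MvPolynomial.C (t : ℤ) * e, ?_, ?_⟩
  · rw [map_mul, map_mul]
    refine mul_ne_zero ?_ he
    have h1 : evS S (MvPolynomial.C (t : ℤ)) = ((t : ℤ) : CuspForm.heckeAlgebra N 2 (↑S : Set ℕ)) := by
      rw [← MvPolynomial.algebraMap_eq, AlgHom.commutes, eq_intCast]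
    rw [h1, map_intCast, Int.cast_natCast]
    exact Nat.cast_ne_zero.mpr ht.ne'
  · intro k x hx z hz
    have h1 := hquart k x hx
    have hz' : z = t • (letI := heckeModuleBar N;
        (MvPolynomial.rename Subtype.val e : MvPolynomial Nat.Primes ℤ) • x) := by
      rw [hz, map_mul, MvPolynomial.rename_C]
      exact h37t_C_mul_smul N t _ x
    set y : JZero N := (letI := heckeModuleBar N;
        (MvPolynomial.rename Subtype.val e : MvPolynomial Nat.Primes ℤ) • x) with hy
    have hσn : ∀ (n : ℕ) (w : JZero N), σ • (n • w) = n • (σ • w) := fun n w =>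
      map_nsmul (DistribSMul.toAddMonoidHom (JZero N) σ) n w
    have hσs : ∀ (a b : JZero N), σ • (a - b) = σ • a - σ • b := fun a b => smul_sub σ a b
    rw [hz', hσn, hσn, hσs, hσs, hσn, hσn, hσn, hσn]
    -- `t (σ⁴ y - σ² y) = q² t (σ² y - y)`
    have h2 : t • (σ • σ • σ • σ • y) + t • (q ^ 2 • y) = t • ((q ^ 2 + 1) • σ • σ • y) := by
      rw [← nsmul_add]
      exact h1
    have h3 : t • ((q ^ 2 + 1) • σ • σ • y) = q ^ 2 • (t • (σ • σ • y)) + t • (σ • σ • y) := by
      rw [add_nsmul, one_nsmul, nsmul_add, ← mul_nsmul', ← mul_nsmul', Nat.mul_comm]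
    have h4 : t • (q ^ 2 • y) = q ^ 2 • (t • y) := by
      rw [← mul_nsmul', ← mul_nsmul', Nat.mul_comm]
    rw [h3, h4] at h2
    rw [nsmul_sub, sub_eq_sub_iff_add_eq_add, h2]

/-- every element of the range of a character of the Hecke algebra is integral over `ℤ`. -/
theorem h37t_isIntegral_range {N : ℕ} [NeZero N] (S : Finset ℕ)
    (chig : CuspForm.heckeAlgebra N 2 (↑S : Set ℕ) →+* ℂ) :
    Algebra.IsIntegral ℤ chig.range := by
  haveI := Fermat.Agent.S22.result N 2 (↑S : Set ℕ)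
  refine ⟨fun x => ?_⟩
  obtain ⟨y, hy⟩ := RingHom.mem_range.mp x.2
  have hyint : IsIntegral ℤ y := Algebra.IsIntegral.isIntegral y
  have h1 : IsIntegral ℤ (chig.rangeRestrict y) := hyint.map (chig.rangeRestrict.toIntAlgHom)
  have h2 : chig.rangeRestrict y = x := Subtype.ext hy
  rwa [h2] at h1

/-- a ring homomorphism from the range of a character of the Hecke algebra to a domain of
characteristic zero is injective. -/
theorem h37t_iota_injective {N : ℕ} [NeZero N] (S : Finset ℕ)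
    (chig : CuspForm.heckeAlgebra N 2 (↑S : Set ℕ) →+* ℂ)
    (O' : Type) [CommRing O'] [IsDomain O'] [CharZero O'] (iota : chig.range →+* O') :
    Function.Injective iota := by
  haveI := h37t_isIntegral_range S chig
  rw [injective_iff_map_eq_zero]
  have hbot : RingHom.ker iota = ⊥ := by
    refine Ideal.eq_bot_of_comap_eq_bot (R := ℤ) ?_
    rw [eq_bot_iff]
    intro n hn
    rw [Ideal.mem_comap, RingHom.mem_ker, eq_intCast, map_intCast] at hn
    rw [Ideal.mem_bot]
    exact_mod_cast hn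
  intro x hx
  have : x ∈ RingHom.ker iota := hx
  rwa [hbot, Ideal.mem_bot] at this

/-- **S35 from the eight open leaves.** -/
theorem h37t_s35_of_leaves (hNew : NewGate) (hTor : TorGate) (hDesc : FrobGateDescent)
    (hTors : FrobTorsionOfGate) (hPush : PushHecke) (hConv : ∀ (M : ℕ) [NeZero M], ConvKey M)
    (hEig : ∀ (N : ℕ) [NeZero N], EigenOfChar N) (hInd : SIndep)
    {M : ℕ} [NeZero M] {g : CuspForm (CongruenceSubgroup.Gamma0 M) 2} (hg : g.IsNewform)
    (lam : ℕ) [Fact lam.Prime]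
    (S : Finset ℕ)
    (O' : Type) [CommRing O'] [IsDomain O'] [IsDiscreteValuationRing O']
    [IsAdicComplete (IsLocalRing.maximalIdeal O') O'] [Finite (IsLocalRing.ResidueField O')]
    [CharZero O'] (hlamO' : (lam : O') ∈ IsLocalRing.maximalIdeal O')
    (chig : CuspForm.heckeAlgebra M 2 (↑S : Set ℕ) →+* ℂ)
    (hchig : ∀ (ℓ : ℕ) (hℓ : ℓ.Prime) (hℓM : ¬ ℓ ∣ M) (hℓS : ℓ ∉ (↑S : Set ℕ)),
      chig (CuspForm.heckeAlgebra.T hℓ hℓM hℓS) = ModularFormClass.qCoeff g ℓ)
    (iota : chig.range →+* O')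
    (hlamS : lam ∈ S) (hMS : ∀ q : ℕ, q.Prime → q ∣ M → q ∈ S) :
    ∃ (O'' : Type) (_ : CommRing O'') (_ : IsDomain O'') (_ : IsDiscreteValuationRing O'')
      (_ : IsAdicComplete (IsLocalRing.maximalIdeal O'') O'') (_ : Finite (IsLocalRing.ResidueField O''))
      (_ : CharZero O'') (_ : Algebra O' O'') (_ : Module.Finite O' O'') (_ : IsLocalHom (algebraMap O' O'')),
      Function.Injective (algebraMap O' O'') ∧
      ∃ ρ : GaloisRepAdic O'',
        (∀ (ℓ : ℕ) (hℓ : ℓ.Prime) (hℓM : ¬ ℓ ∣ M) (hℓS : ℓ ∉ (↑S : Set ℕ)),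
          ∀ A : ValuationSubring (AlgebraicClosure ℚ), A.LiesOverPrime ℓ →
            ∀ σ : AlgebraicClosure ℚ ≃ₐ[ℚ] AlgebraicClosure ℚ, A.IsFrobeniusAt σ ℓ →
              LinearMap.charpoly (ρ.ρ σ) =
                X ^ 2 - C (algebraMap O' O'' ((iota.comp chig.rangeRestrict) (CuspForm.heckeAlgebra.T hℓ hℓM hℓS))) * X
                  + C ((ℓ : O''))) ∧
        (∀ q : ℕ, q.Prime → q ≠ lam → q ∣ M → ¬ q ^ 2 ∣ M →
          ∀ A : ValuationSubring (AlgebraicClosure ℚ), A.LiesOverPrime q →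
            ∀ σ : AlgebraicClosure ℚ ≃ₐ[ℚ] AlgebraicClosure ℚ, A.IsFrobeniusAt σ q →
              LinearMap.charpoly (ρ.ρ σ) = X ^ 2 - C ((q : O'') + 1) * X + C ((q : O'')) ∨
              LinearMap.charpoly (ρ.ρ σ) = X ^ 2 + C ((q : O'') + 1) * X + C ((q : O''))) := by
  have hlam : lam.Prime := Fact.out
  have hGI := Fermat.Agent.S30.geometricInputsFull
  -- the quartic on the torsion points
  have hNQ : NewQuarticStatement M lam :=
    h87q_newQuarticAssembly
      (fun M' q p _ _ => h37g_frobNewTorsion_of hNew hTor hDesc hTors M' q p)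
      (fun M' q _ _ hq hqM => pushHeckeComm_of hPush M' q hq hqM)
      hConv (fun N _ => (hGI.1 N).1) M lam hlam
  -- the old-killing polynomials
  have hOK : OldKillStatement := oldKill_of hEig hInd
  have hinj := h37t_iota_injective S chig O' iota
  have hOld : ∀ q : ℕ, q.Prime → q ≠ lam → q ∣ M → ¬ q ^ 2 ∣ M →
      ∃ e : MvPolynomial (GoodPrime M S) ℤ,
        (iota.comp chig.rangeRestrict) (evS S e) ≠ 0 ∧
          KillsOld M q (MvPolynomial.rename Subtype.val e) := by
    intro q hq _ hqM hq2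
    obtain ⟨e, he, hk⟩ := hOK M g hg S chig hchig hMS q hq hqM hq2
    refine ⟨e, fun h0 => he ?_, hk⟩
    have h1 : chig.rangeRestrict (evS S e) = 0 :=
      hinj (by rw [map_zero]; exact h0)
    exact congrArg Subtype.val h1
  have hNK : h5r_NewKillTorsion lam M S O' (iota.comp chig.rangeRestrict) :=
    h37t_newKill_of M lam hlam hNQ S hlamS O' _ hOld
  have hLat : h5r_ESLatticeNew lam M S O' (iota.comp chig.rangeRestrict) :=
    h5r_esLatticeNew_of_tatePackageFull M lam Fermat.Agent.S30.tate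
      (Fermat.Agent.S34.tatePackageFull M lam) hlam (hGI.1 M) (hGI.2.1 M lam hlam)
      (fun k => hGI.2.2.1 M (lam ^ k) (pow_pos hlam.pos k))
      (fun k => Fermat.Agent.S31.heckeKeyInt_of_lattice M (hGI.2.2.2 M) (lam ^ k))
      S hlamS hMS O' hlamO' _ hNK
  exact h5r_s35_of_lattice hg lam S O' hlamO' chig iota hlamS hMS hLat

end Fermat.Agent.S35
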